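import Mathlib
import Fermat.Prelude.Def_ModularCurve_LaurentCoeff

/-!
# S18 — content valuation over a valuation subring: generic layer (helper49)

`K` any field, `A : ValuationSubring K`, `k := IsLocalRing.ResidueField A`.
* `iota A = coeffMap A.subtype : A((q)) →+* K((q))`,
  `rho A = coeffMap (IsLocalRing.residue A) : A((q)) →+* k((q))`;
* `Ocal A : Subring K((q))` — quotients `ι u / ι w` with `ρ w ≠ 0`;
* `red A : Ocal A →+* k((q))`, `red (ι u / ι w) = ρ u / ρ w`.

No discreteness or rank-one hypothesis is used anywhere in this file.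
-/

set_option autoImplicit false
set_option linter.unusedSectionVars false

namespace Fermat.Agent.S18.Content

open ModularCurve

variable {K : Type*} [Field K] (A : ValuationSubring K)

/-- `A((q)) → K((q))`. -/
noncomputable abbrev iota : LaurentSeries A →+* LaurentSeries K :=
  coeffMap A.subtype

/-- Coefficientwise reduction `A((q)) → k((q))`. -/
noncomputable abbrev rho : LaurentSeries A →+* LaurentSeries (IsLocalRing.ResidueField A) :=
  coeffMap (IsLocalRing.residue A)

lemma iota_coeff (u : LaurentSeries A) (n : ℤ) : (iota A u).coeff n = (u.coeff n : K) := rfl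

lemma rho_coeff (u : LaurentSeries A) (n : ℤ) :
    (rho A u).coeff n = IsLocalRing.residue A (u.coeff n) := rfl

lemma iota_injective : Function.Injective (iota A) := by
  intro u v h
  ext n
  have := congrArg (fun f => f.coeff n) h
  simpa using this

lemma iota_eq_zero_iff (u : LaurentSeries A) : iota A u = 0 ↔ u = 0 := by
  rw [← map_zero (iota A)]; exact (iota_injective A).eq_iff

/-- A Laurent series with coefficients in `A` comes from `A((q))`. -/
lemma exists_iota_eq (f : LaurentSeries K) (hf : ∀ n, f.coeff n ∈ A) :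
    ∃ u : LaurentSeries A, iota A u = f := by
  refine ⟨⟨fun n => ⟨f.coeff n, hf n⟩, f.isPWO_support.mono ?_⟩, ?_⟩
  · intro n hn
    simp only [Function.mem_support, ne_eq] at hn ⊢
    intro h0
    exact hn (Subtype.ext h0)
  · ext n; rfl

lemma rho_ne_zero_imp (v : LaurentSeries A) (hv : rho A v ≠ 0) : iota A v ≠ 0 := by
  intro h
  rw [iota_eq_zero_iff] at h
  exact hv (by rw [h, map_zero])

/-- A series with nonzero reduction has a unit coefficient. -/
lemma exists_isUnit_coeff (v : LaurentSeries A) (hv : rho A v ≠ 0) :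
    ∃ n, IsUnit (v.coeff n) := by
  by_contra hcon
  push Not at hcon
  apply hv
  ext n
  rw [rho_coeff, HahnSeries.coeff_zero, IsLocalRing.residue_eq_zero_iff]
  exact hcon n

lemma iota_C (a : A) : iota A (HahnSeries.C a) = HahnSeries.C (a : K) := by
  ext n
  rw [iota_coeff, HahnSeries.C_apply, HahnSeries.C_apply, HahnSeries.coeff_single,
    HahnSeries.coeff_single]
  split_ifs <;> rfl

lemma rho_C (a : A) : rho A (HahnSeries.C a) = HahnSeries.C (IsLocalRing.residue A a) := by
  ext n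
  rw [rho_coeff, HahnSeries.C_apply, HahnSeries.C_apply, HahnSeries.coeff_single,
    HahnSeries.coeff_single]
  split_ifs
  · rfl
  · exact map_zero _

lemma coeff_C_mul {R : Type*} [CommRing R] (c : R) (y : LaurentSeries R) (n : ℤ) :
    (HahnSeries.C c * y).coeff n = c * y.coeff n := by
  rw [HahnSeries.C_mul_eq_smul, HahnSeries.coeff_smul, smul_eq_mul]

/-! ### The ring `Ocal` and its reduction map -/

/-- Quotients `ι u / ι w` of `A`-integral Laurent series with `ρ w ≠ 0`. -/
def Ocal : Subring (LaurentSeries K) where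
  carrier := {y | ∃ u v : LaurentSeries A, rho A v ≠ 0 ∧ y * iota A v = iota A u}
  mul_mem' := by
    rintro y y' ⟨u, v, hv, h⟩ ⟨u', v', hv', h'⟩
    refine ⟨u * u', v * v', ?_, ?_⟩
    · rw [map_mul]; exact mul_ne_zero hv hv'
    · rw [map_mul, map_mul, ← h, ← h']; ring
  one_mem' := ⟨1, 1, by rw [map_one]; exact one_ne_zero, by simp⟩
  add_mem' := by
    rintro y y' ⟨u, v, hv, h⟩ ⟨u', v', hv', h'⟩
    refine ⟨u * v' + u' * v, v * v', ?_, ?_⟩
    · rw [map_mul]; exact mul_ne_zero hv hv'
    · rw [map_add, map_mul, map_mul, map_mul, ← h, ← h']; ring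
  zero_mem' := ⟨0, 1, by rw [map_one]; exact one_ne_zero, by simp⟩
  neg_mem' := by
    rintro y ⟨u, v, hv, h⟩
    exact ⟨-u, v, hv, by rw [map_neg, ← h]; ring⟩

lemma mem_Ocal_iff (y : LaurentSeries K) :
    y ∈ Ocal A ↔ ∃ u v : LaurentSeries A, rho A v ≠ 0 ∧ y * iota A v = iota A u := Iff.rfl

/-- Underlying function of `red`. -/
noncomputable def redFun (y : Ocal A) : LaurentSeries (IsLocalRing.ResidueField A) :=
  rho A (Classical.choose y.2) / rho A (Classical.choose (Classical.choose_spec y.2))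

lemma redFun_eq (y : Ocal A) (u v : LaurentSeries A) (hv : rho A v ≠ 0)
    (h : (y : LaurentSeries K) * iota A v = iota A u) : redFun A y = rho A u / rho A v := by
  obtain ⟨hv₀, h₀⟩ := Classical.choose_spec (Classical.choose_spec y.2)
  set u₀ := Classical.choose y.2
  set v₀ := Classical.choose (Classical.choose_spec y.2)
  have h1 : u₀ * v = u * v₀ := by
    apply iota_injective A
    rw [map_mul, map_mul, ← h₀, ← h]; ring
  show rho A u₀ / rho A v₀ = rho A u / rho A v
  rw [div_eq_div_iff hv₀ hv, ← map_mul, ← map_mul, h1]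

/-- The reduction map of `Ocal`. -/
noncomputable def red : Ocal A →+* LaurentSeries (IsLocalRing.ResidueField A) where
  toFun := redFun A
  map_one' := by
    rw [redFun_eq A 1 1 1 (by rw [map_one]; exact one_ne_zero) (by simp)]; simp
  map_mul' := by
    intro y y'
    obtain ⟨u, v, hv, h⟩ := y.2
    obtain ⟨u', v', hv', h'⟩ := y'.2
    rw [redFun_eq A y u v hv h, redFun_eq A y' u' v' hv' h',
      redFun_eq A (y * y') (u * u') (v * v') (by rw [map_mul]; exact mul_ne_zero hv hv')
        (by rw [Subring.coe_mul, map_mul, map_mul, ← h, ← h']; ring)]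
    rw [map_mul, map_mul, div_mul_div_comm]
  map_zero' := by
    rw [redFun_eq A 0 0 1 (by rw [map_one]; exact one_ne_zero) (by simp)]; simp
  map_add' := by
    intro y y'
    obtain ⟨u, v, hv, h⟩ := y.2
    obtain ⟨u', v', hv', h'⟩ := y'.2
    rw [redFun_eq A y u v hv h, redFun_eq A y' u' v' hv' h',
      redFun_eq A (y + y') (u * v' + u' * v) (v * v') (by rw [map_mul]; exact mul_ne_zero hv hv')
        (by rw [Subring.coe_add, map_add, map_mul, map_mul, map_mul, ← h, ← h']; ring)]
    rw [map_add, map_mul, map_mul, map_mul, div_add_div _ _ hv hv']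
    ring

lemma red_eq (y : Ocal A) (u v : LaurentSeries A) (hv : rho A v ≠ 0)
    (h : (y : LaurentSeries K) * iota A v = iota A u) : red A y = rho A u / rho A v :=
  redFun_eq A y u v hv h

/-- Variant of `red_eq` for a bare series with a membership proof. -/
lemma red_mk_eq (y : LaurentSeries K) (hy : y ∈ Ocal A) (u v : LaurentSeries A)
    (hv : rho A v ≠ 0) (h : y * iota A v = iota A u) :
    red A ⟨y, hy⟩ = rho A u / rho A v :=
  red_eq A ⟨y, hy⟩ u v hv h

lemma iota_mem_Ocal (u : LaurentSeries A) : iota A u ∈ Ocal A :=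
  ⟨u, 1, by rw [map_one]; exact one_ne_zero, by simp⟩

lemma red_iota (u : LaurentSeries A) : red A ⟨iota A u, iota_mem_Ocal A u⟩ = rho A u := by
  rw [red_eq A _ u 1 (by rw [map_one]; exact one_ne_zero) (by simp)]; simp

/-- `red` does not depend on the membership proof. -/
lemma red_congr {y y' : LaurentSeries K} (h : y = y') (hy : y ∈ Ocal A) (hy' : y' ∈ Ocal A) :
    red A ⟨y, hy⟩ = red A ⟨y', hy'⟩ := by
  subst h; rfl

/-- A quotient `ι u / ι w` with `ρ w ≠ 0` lies in `Ocal`. -/
lemma div_mem_Ocal (u w : LaurentSeries A) (hw : rho A w ≠ 0) :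
    iota A u / iota A w ∈ Ocal A :=
  ⟨u, w, hw, by rw [div_mul_cancel₀ _ (rho_ne_zero_imp A w hw)]⟩

lemma red_div (u w : LaurentSeries A) (hw : rho A w ≠ 0) :
    red A ⟨iota A u / iota A w, div_mem_Ocal A u w hw⟩ = rho A u / rho A w :=
  red_eq A _ u w hw (by rw [div_mul_cancel₀ _ (rho_ne_zero_imp A w hw)])

/-- Elements of `Ocal` with nonzero reduction are units. -/
lemma inv_mem_Ocal (y : Ocal A) (h : red A y ≠ 0) : (y : LaurentSeries K)⁻¹ ∈ Ocal A := by
  obtain ⟨u, v, hv, hy⟩ := y.2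
  rw [red_eq A y u v hv hy] at h
  have hu : rho A u ≠ 0 := fun h0 => h (by rw [h0, zero_div])
  have hu0 := rho_ne_zero_imp A u hu
  have hy0 : (y : LaurentSeries K) ≠ 0 := by
    intro h0
    rw [h0, zero_mul] at hy
    exact hu0 hy.symm
  refine ⟨v, u, hu, ?_⟩
  rw [← hy, ← mul_assoc, inv_mul_cancel₀ hy0, one_mul]

lemma ne_zero_of_red_ne_zero (y : Ocal A) (h : red A y ≠ 0) : (y : LaurentSeries K) ≠ 0 := by
  intro h0
  apply h
  have : y = 0 := Subtype.ext h0
  rw [this, map_zero]

lemma red_inv (y : Ocal A) (h : red A y ≠ 0) :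
    red A ⟨(y : LaurentSeries K)⁻¹, inv_mem_Ocal A y h⟩ = (red A y)⁻¹ := by
  have hy0 := ne_zero_of_red_ne_zero A y h
  have h1 : y * ⟨(y : LaurentSeries K)⁻¹, inv_mem_Ocal A y h⟩ = 1 :=
    Subtype.ext (by simp [hy0])
  have h2 := congrArg (red A) h1
  rw [map_mul, map_one] at h2
  exact eq_inv_of_mul_eq_one_right h2

/-! ### Constants -/

/-- Constants of `A` as elements of `Ocal`. -/
noncomputable def constO : A →+* Ocal A :=
  RingHom.codRestrict ((iota A).comp HahnSeries.C) (Ocal A) (fun _ => iota_mem_Ocal A _)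

lemma coe_constO (r : A) : ((constO A r : Ocal A) : LaurentSeries K) = HahnSeries.C (r : K) :=
  iota_C A r

lemma red_constO (r : A) : red A (constO A r) = HahnSeries.C (IsLocalRing.residue A r) := by
  have : constO A r = ⟨iota A (HahnSeries.C r), iota_mem_Ocal A _⟩ := rfl
  rw [this, red_iota, rho_C]

lemma C_mem_Ocal {c : K} (hc : c ∈ A) : HahnSeries.C c ∈ Ocal A := by
  rw [← iota_C A ⟨c, hc⟩]; exact iota_mem_Ocal A _

lemma red_C {c : K} (hc : c ∈ A) :
    red A ⟨HahnSeries.C c, C_mem_Ocal A hc⟩ = HahnSeries.C (IsLocalRing.residue A ⟨c, hc⟩) := by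
  rw [← red_constO A ⟨c, hc⟩]
  exact red_congr A (coe_constO A ⟨c, hc⟩).symm _ _

/-- `Ocal ∩ K = A`. -/
lemma C_mem_Ocal_iff (c : K) : HahnSeries.C c ∈ Ocal A ↔ c ∈ A := by
  refine ⟨?_, C_mem_Ocal A⟩
  rintro ⟨u, v, hv, h⟩
  obtain ⟨n, hn⟩ := exists_isUnit_coeff A v hv
  have h1 := congrArg (fun f => f.coeff n) h
  simp only [coeff_C_mul, iota_coeff] at h1
  obtain ⟨w, hw⟩ := hn
  have hw1 : ((v.coeff n : A) : K) * ((w⁻¹ : Aˣ) : A) = 1 := by
    rw [← hw]
    have := congrArg (Subtype.val) (Units.mul_inv w)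
    rw [Subring.coe_mul] at this
    exact this
  have h2 : c = (u.coeff n : K) * (((w⁻¹ : Aˣ) : A) : K) := by
    rw [← h1, mul_assoc, hw1, mul_one]
  rw [h2]
  exact A.mul_mem _ _ (u.coeff n).2 (((w⁻¹ : Aˣ) : A)).2

/-- For a unit `e` of `Ocal` (nonzero reduction): `c • e ∈ Ocal ↔ c ∈ A`. -/
lemma C_mul_mem_Ocal_iff (c : K) (e : Ocal A) (he : red A e ≠ 0) :
    HahnSeries.C c * (e : LaurentSeries K) ∈ Ocal A ↔ c ∈ A := by
  constructor
  · intro h
    rw [← C_mem_Ocal_iff A]
    have h1 := (Ocal A).mul_mem h (inv_mem_Ocal A e he)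
    have he0 := ne_zero_of_red_ne_zero A e he
    rwa [mul_assoc, mul_inv_cancel₀ he0, mul_one] at h1
  · intro h
    exact (Ocal A).mul_mem (C_mem_Ocal A h) e.2

lemma red_C_mul {c : K} (hc : c ∈ A) (e : Ocal A)
    (h : HahnSeries.C c * (e : LaurentSeries K) ∈ Ocal A) :
    red A ⟨_, h⟩ = HahnSeries.C (IsLocalRing.residue A ⟨c, hc⟩) * red A e := by
  have : (⟨_, h⟩ : Ocal A) = ⟨HahnSeries.C c, C_mem_Ocal A hc⟩ * e := Subtype.ext rfl
  rw [this, map_mul, red_C]

/-- For a unit `e` and `c ∈ A`: `red (c • e) = 0 ↔ c ∈ 𝔪_A`. -/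
lemma red_C_mul_eq_zero_iff {c : K} (hc : c ∈ A) (e : Ocal A) (he : red A e ≠ 0)
    (h : HahnSeries.C c * (e : LaurentSeries K) ∈ Ocal A) :
    red A ⟨_, h⟩ = 0 ↔ (⟨c, hc⟩ : A) ∈ IsLocalRing.maximalIdeal A := by
  rw [red_C_mul A hc e h, mul_eq_zero, or_iff_left he, ← IsLocalRing.residue_eq_zero_iff]
  constructor
  · intro h0
    exact HahnSeries.C_injective (by rw [h0, map_zero])
  · intro h0
    rw [h0, map_zero]

/-! ### Contents of finite families -/

/-- In a finite family of elements of `K`, not all zero, some nonzero member divides all the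
others in `A`. -/
lemma exists_content {ι : Type*} [Finite ι] (a : ι → K) (h : ∃ i, a i ≠ 0) :
    ∃ i₀, a i₀ ≠ 0 ∧ ∀ i, a i / a i₀ ∈ A := by
  classical
  cases nonempty_fintype ι
  obtain ⟨i₁, hi₁⟩ := h
  obtain ⟨i₀, -, hmax⟩ := Finset.exists_max_image Finset.univ (fun i => A.valuation (a i))
    ⟨i₁, Finset.mem_univ _⟩
  have h0 : A.valuation (a i₀) ≠ 0 := by
    intro h0
    have := hmax i₁ (Finset.mem_univ _)
    rw [h0, le_zero_iff, Valuation.zero_iff] at this
    exact hi₁ this
  have hne : a i₀ ≠ 0 := fun h1 => h0 (by rw [h1, map_zero])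
  refine ⟨i₀, hne, fun i => ?_⟩
  rw [← A.valuation_le_one_iff, map_div₀]
  exact div_le_one_of_le₀ (hmax i (Finset.mem_univ _)) zero_le

/-! ### Evaluating `A`-polynomials in `Ocal` -/

open Polynomial

/-- Evaluation of `A`-polynomials at a point of `Ocal`. -/
noncomputable def evalO (s : Ocal A) : A[X] →+* Ocal A :=
  Polynomial.eval₂RingHom (constO A) s

lemma algebraMap_LS_eq_C (F : Type*) [Field F] (c : F) :
    algebraMap F (LaurentSeries F) c = HahnSeries.C c := by
  rw [ModularCurve.algebraMap_laurentSeries_eq_single, HahnSeries.C_apply]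

lemma red_evalO (s : Ocal A) (Q : A[X]) :
    red A (evalO A s Q) = Polynomial.aeval (red A s) (Q.map (IsLocalRing.residue A)) := by
  have h := Polynomial.hom_eval₂ Q (constO A) (red A) s
  rw [Polynomial.aeval_def, Polynomial.eval₂_map]
  show red A (Polynomial.eval₂ (constO A) s Q) = _
  rw [h]
  congr 1
  ext r : 1
  simp only [RingHom.comp_apply, red_constO, algebraMap_LS_eq_C]

lemma coe_evalO (s : Ocal A) (Q : A[X]) :
    ((evalO A s Q : Ocal A) : LaurentSeries K) =
      Polynomial.aeval (s : LaurentSeries K) (Q.map A.subtype) := by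
  have h := Polynomial.hom_eval₂ Q (constO A) (Ocal A).subtype s
  rw [Polynomial.aeval_def, Polynomial.eval₂_map]
  show (Ocal A).subtype (Polynomial.eval₂ (constO A) s Q) = _
  rw [h]
  congr 1
  ext r : 1
  simp only [RingHom.comp_apply, Subring.coe_subtype, coe_constO, algebraMap_LS_eq_C]
  rfl

/-- Evaluation of an `A`-polynomial at an integral series, inside `A((q))`. -/
noncomputable def evalA (x : LaurentSeries A) : A[X] →+* LaurentSeries A :=
  Polynomial.eval₂RingHom HahnSeries.C x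

lemma iota_evalA (x : LaurentSeries A) (Q : A[X]) :
    iota A (evalA A x Q) = Polynomial.aeval (iota A x) (Q.map A.subtype) := by
  have h := Polynomial.hom_eval₂ Q HahnSeries.C (iota A) x
  rw [Polynomial.aeval_def, Polynomial.eval₂_map]
  show iota A (Polynomial.eval₂ HahnSeries.C x Q) = _
  rw [h]
  congr 1
  ext r : 1
  simp only [RingHom.comp_apply, iota_C, algebraMap_LS_eq_C]
  rfl

lemma rho_evalA (x : LaurentSeries A) (Q : A[X]) :
    rho A (evalA A x Q) = Polynomial.aeval (rho A x) (Q.map (IsLocalRing.residue A)) := by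
  have h := Polynomial.hom_eval₂ Q HahnSeries.C (rho A) x
  rw [Polynomial.aeval_def, Polynomial.eval₂_map]
  show rho A (Polynomial.eval₂ HahnSeries.C x Q) = _
  rw [h]
  congr 1
  ext r : 1
  simp only [RingHom.comp_apply, rho_C, algebraMap_LS_eq_C]

/-- Primitive part of a nonzero polynomial over `K`. -/
lemma exists_primitive (P : K[X]) (hP : P ≠ 0) :
    ∃ (c : K) (Q : A[X]), c ≠ 0 ∧ Q.map (IsLocalRing.residue A) ≠ 0 ∧
      P = C c * Q.map A.subtype := by
  classical
  have hex : ∃ i : Fin (P.natDegree + 1), P.coeff i ≠ 0 :=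
    ⟨⟨P.natDegree, Nat.lt_succ_self _⟩, by
      simpa using hP⟩
  obtain ⟨i₀, hi₀, hdiv⟩ := exists_content A (fun i : Fin (P.natDegree + 1) => P.coeff i) hex
  set c := P.coeff i₀ with hc
  have hmem : C c⁻¹ * P ∈ Polynomial.lifts A.subtype := by
    rw [Polynomial.lifts_iff_coeff_lifts]
    intro n
    rw [Polynomial.coeff_C_mul]
    by_cases hn : n < P.natDegree + 1
    · have := hdiv ⟨n, hn⟩
      refine ⟨⟨_, this⟩, ?_⟩
      show P.coeff n / c = c⁻¹ * P.coeff n
      rw [div_eq_inv_mul]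
    · rw [Polynomial.coeff_eq_zero_of_natDegree_lt (by omega), mul_zero]
      exact ⟨0, rfl⟩
  obtain ⟨Q, hQ⟩ := (Polynomial.mem_lifts _).mp hmem
  refine ⟨c, Q, hi₀, ?_, ?_⟩
  · intro h0
    have h1 := congrArg (fun p => p.coeff i₀) h0
    simp only [Polynomial.coeff_map, Polynomial.coeff_zero] at h1
    have h2 : ((Q.coeff i₀ : A) : K) = 1 := by
      have := congrArg (fun p => p.coeff (i₀ : ℕ)) hQ
      simp only [Polynomial.coeff_map, Polynomial.coeff_C_mul] at this
      rw [show A.subtype (Q.coeff i₀) = ((Q.coeff i₀ : A) : K) from rfl] at this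
      rw [this, ← hc, inv_mul_cancel₀ hi₀]
    have h3 : Q.coeff i₀ = 1 := Subtype.ext h2
    rw [h3, map_one] at h1
    exact one_ne_zero h1
  · rw [hQ, ← mul_assoc, ← map_mul, mul_inv_cancel₀ hi₀, map_one, one_mul]

/-- Common primitive part of a finite family of polynomials over `K`, not all zero. -/
lemma exists_primitive_family {ι : Type*} [Fintype ι] (P : ι → K[X]) (hP : ∃ i, P i ≠ 0) :
    ∃ (c : K) (Q : ι → A[X]), c ≠ 0 ∧ (∃ i, (Q i).map (IsLocalRing.residue A) ≠ 0) ∧
      ∀ i, P i = C c * (Q i).map A.subtype := by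
  classical
  set D := Finset.univ.sup (fun i => (P i).natDegree) with hD
  have hle : ∀ i, (P i).natDegree ≤ D := fun i => Finset.le_sup (f := fun i => (P i).natDegree)
    (Finset.mem_univ i)
  obtain ⟨i₁, hi₁⟩ := hP
  have hex : ∃ im : ι × Fin (D + 1), (P im.1).coeff im.2 ≠ 0 :=
    ⟨(i₁, ⟨(P i₁).natDegree, Nat.lt_succ_of_le (hle i₁)⟩), by simpa using hi₁⟩
  obtain ⟨im₀, hi₀, hdiv⟩ := exists_content A
    (fun im : ι × Fin (D + 1) => (P im.1).coeff im.2) hex
  set c := (P im₀.1).coeff im₀.2 with hc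
  have hmem : ∀ i, C c⁻¹ * P i ∈ Polynomial.lifts A.subtype := by
    intro i
    rw [Polynomial.lifts_iff_coeff_lifts]
    intro n
    rw [Polynomial.coeff_C_mul]
    by_cases hn : n < D + 1
    · have := hdiv (i, ⟨n, hn⟩)
      refine ⟨⟨_, this⟩, ?_⟩
      show (P i).coeff n / c = c⁻¹ * (P i).coeff n
      rw [div_eq_inv_mul]
    · rw [Polynomial.coeff_eq_zero_of_natDegree_lt (by have := hle i; omega), mul_zero]
      exact ⟨0, rfl⟩
  choose Q hQ using fun i => (Polynomial.mem_lifts _).mp (hmem i)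
  refine ⟨c, Q, hi₀, ⟨im₀.1, ?_⟩, fun i => ?_⟩
  · intro h0
    have h1 := congrArg (fun p => p.coeff im₀.2) h0
    simp only [Polynomial.coeff_map, Polynomial.coeff_zero] at h1
    have h2 : (((Q im₀.1).coeff im₀.2 : A) : K) = 1 := by
      have := congrArg (fun p => p.coeff (im₀.2 : ℕ)) (hQ im₀.1)
      simp only [Polynomial.coeff_map, Polynomial.coeff_C_mul] at this
      rw [show A.subtype ((Q im₀.1).coeff im₀.2) = (((Q im₀.1).coeff im₀.2 : A) : K) from rfl]
        at this
      rw [this, ← hc, inv_mul_cancel₀ hi₀]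
    have h3 : (Q im₀.1).coeff im₀.2 = 1 := Subtype.ext h2
    rw [h3, map_one] at h1
    exact one_ne_zero h1
  · rw [hQ i, ← mul_assoc, ← map_mul, mul_inv_cancel₀ hi₀, map_one, one_mul]

end Fermat.Agent.S18.Content
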