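import Mathlib
import Fermat.Agent.S24.Assembly
import Fermat.Agent.S24.Datum

/-!
# S18 — package [FC0]: characteristic-zero fibre counts of `F_N / Q̄(j)` (helper15)

For every level `N`, from the landed S24 modular datum (`exists_modular_datum`):

* `[F_N : Q̄(j)] = ψ(N)`;
* twice the number of places over `j = 1728` is `ψ(N) + ν₂(N)`;
* three times the number of places over `j = 0` is `ψ(N) + 2 ν₃(N)`;
* the number of places over `j = ∞` is `cuspCount N`;
* over `a ≠ 0, 1728` every place is unramified and there are `ψ(N)` of them;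
* at every place over `1728` (resp. `0`, `∞`) the ramification index is `≤ 2`
  (resp. `≤ 3`, `≤ N`).

Plus the torsion-free numerics: `ν₂(N) = 0` when `4 ∣ N` or `3 ∣ N`, `ν₃(N) = 0` when `2 ∣ N`
or `9 ∣ N`, and the values of `ψ` and `cuspCount` at `4` and `9`.
-/

set_option autoImplicit false

namespace Fermat.Agent.S18.FibreCount

open AlgebraicCurve IntermediateField ModularCurve CongruenceSubgroup MatrixGroups ModularGroup
open Fermat.Agent.S24 Fermat.Agent

section datum

variable (N : ℕ) [NeZero N] {M : Type} [Field M] [Algebra Kbar M] [Algebra (FN N) M]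
  [IsScalarTower Kbar (FN N) M] (ρ : SL(2, ℤ) →* (M ≃ₐ[Kbar] M)) (h : IsModularDatum N M ρ)

include h

theorem transcendental_jBar_of_datum : Transcendental Kbar (jBar N) := by
  obtain ⟨Wc, hcneg, -, -⟩ := h.exists_cusp
  exact Assembly.transcendental_of_ord_ne_zero Wc (jBar N) hcneg.ne

theorem isFF1_of_datum : IsFF1 Kbar (FN N) := by
  have : Finite ρ.range := h.finite_range
  exact (isFF1_of_fixed ρ.range (jBar N) (transcendental_jBar_of_datum N ρ h)
    (Assembly.fixed_iff N ρ h (jBar N) rfl)).1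

theorem finrank_of_datum :
    Module.finrank Kbar⟮jBar N⟯ (FN N) = dedekindPsi N := by
  have : Finite ρ.range := h.finite_range
  rw [finrank_eq_card_quotient ρ.range (jBar N) (transcendental_jBar_of_datum N ρ h)
    (Assembly.fixed_iff N ρ h (jBar N) rfl), ← Lib.Gamma0Count.card_quotient N]
  exact OrbitTransport.card_quot ρ _ _ (Assembly.mem_fixerOf_iff N ρ h)

omit h in
theorem map_sub_of_datum (a : Kbar) :
    algebraMap (FN N) M (jBar N - algebraMap Kbar (FN N) a)
      = algebraMap (FN N) M (jBar N) - algebraMap Kbar M a := by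
  rw [map_sub, ← IsScalarTower.algebraMap_apply]

omit h in
theorem adjoin_sub_of_datum (a : Kbar) :
    Kbar⟮algebraMap (FN N) M (jBar N - algebraMap Kbar (FN N) a)⟯
      = Kbar⟮algebraMap (FN N) M (jBar N)⟯ := by
  rw [map_sub_of_datum N]
  exact Assembly.adjoin_sub_eq _ a

/-- the places over `j = 1728` are the orbits of `S`. -/
theorem card_zeros_1728_orbits_of_datum :
    Nat.card (zerosOf Kbar (jBar N - algebraMap Kbar (FN N) 1728)) =
      Nat.card (MulAction.orbitRel.Quotient (Subgroup.zpowers S) (SL(2, ℤ) ⧸ Gamma0 N)) := by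
  obtain ⟨W₂, h2pos, h2le, h2fix⟩ := h.exists_two
  have hk := Assembly.mem_Gamma0_of_eq_one N ρ h
  apply Assembly.card_zerosOf_eq N ρ h _ (adjoin_sub_of_datum N 1728) W₂
    (by rw [map_sub_of_datum N]; exact h2pos) S h2fix
  by_cases hN1 : N = 1
  · right; exact hN1
  · left
    rw [map_sub_of_datum N, OrbitTransport.orderOf_S ρ N h.neg_one hk hN1]
    exact_mod_cast h2le

/-- the places over `j = 0` are the orbits of `S * T`. -/
theorem card_zeros_zero_orbits_of_datum :
    Nat.card (zerosOf Kbar (jBar N)) =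
      Nat.card (MulAction.orbitRel.Quotient (Subgroup.zpowers (S * T))
        (SL(2, ℤ) ⧸ Gamma0 N)) := by
  obtain ⟨W₃, h3pos, h3le, h3fix⟩ := h.exists_three
  have hk := Assembly.mem_Gamma0_of_eq_one N ρ h
  apply Assembly.card_zerosOf_eq N ρ h _ rfl W₃ h3pos (S * T) h3fix
  by_cases hN1 : N = 1
  · right; exact hN1
  · left
    rw [OrbitTransport.orderOf_ST ρ N h.neg_one hk hN1]
    exact_mod_cast h3le

/-- the places over `j = ∞` are the orbits of `T`. -/
theorem card_poles_orbits_of_datum :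
    Nat.card (polesOf Kbar (jBar N)) =
      Nat.card (MulAction.orbitRel.Quotient (Subgroup.zpowers T) (SL(2, ℤ) ⧸ Gamma0 N)) := by
  have : Finite ρ.range := h.finite_range
  obtain ⟨Wc, hcneg, hcle, hcfix⟩ := h.exists_cusp
  have hk := Assembly.mem_Gamma0_of_eq_one N ρ h
  have hinv : algebraMap (FN N) M (jBar N)⁻¹ = (algebraMap (FN N) M (jBar N))⁻¹ :=
    map_inv₀ _ _
  have hord : Wc.ord (algebraMap (FN N) M (jBar N)⁻¹)
      = - Wc.ord (algebraMap (FN N) M (jBar N)) := by
    rw [hinv, Place.ord_inv]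
  rw [Assembly.polesOf_eq_zerosOf_inv]
  apply Assembly.card_zerosOf_eq N ρ h _ (by rw [hinv]; exact Assembly.adjoin_inv_eq _) Wc
    (by rw [hord]; omega) T hcfix
  left
  rw [hord]
  have hT := OrbitTransport.le_orderOf_T ρ N hk
  have hT' : (N : ℤ) ≤ (orderOf (ρ T) : ℤ) := by exact_mod_cast hT
  omega

/-- away from `0, 1728` the extension `F_N / Q̄(j)` is unramified. -/
theorem ord_eq_one_of_datum (a : Kbar) (h0 : a ≠ 0) (h1 : a ≠ 1728) (w : Place Kbar (FN N))
    (hw : 0 < w.ord (jBar N - algebraMap Kbar (FN N) a)) :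
    w.ord (jBar N - algebraMap Kbar (FN N) a) = 1 := by
  have : Finite ρ.range := h.finite_range
  obtain ⟨W, hW⟩ := h.exists_generic a h0 h1
  have hW' : W.ord (algebraMap (FN N) M (jBar N - algebraMap Kbar (FN N) a)) = 1 := by
    rw [map_sub_of_datum N]; exact hW
  have hyt : Transcendental Kbar (jBar N - algebraMap Kbar (FN N) a) :=
    Assembly.transcendental_of_ord_ne_zero W _ (by rw [hW']; exact one_ne_zero)
  exact Assembly.ord_eq_one_of_exists' ρ.range _ hyt
    (Assembly.fixed_iff N ρ h _ (adjoin_sub_of_datum N a)) W hW' w hw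

end datum

/-! ### Unconditional statements -/

section main

variable (N : ℕ) [NeZero N]

theorem transcendental_jBar : Transcendental Kbar (jBar N) := by
  obtain ⟨M, _, _, _, _, ρ, h⟩ := exists_modular_datum N
  exact transcendental_jBar_of_datum N ρ h

instance isFF1 : IsFF1 Kbar (FN N) := by
  obtain ⟨M, _, _, _, _, ρ, h⟩ := exists_modular_datum N
  exact isFF1_of_datum N ρ h

/-- `[F_N : Q̄(j)] = ψ(N)`. -/
theorem finrank_eq : Module.finrank Kbar⟮jBar N⟯ (FN N) = dedekindPsi N := by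
  obtain ⟨M, _, _, _, _, ρ, h⟩ := exists_modular_datum N
  exact finrank_of_datum N ρ h

theorem finiteDimensional : FiniteDimensional Kbar⟮jBar N⟯ (FN N) :=
  Assembly.finiteDimensional_of_isFF1 (transcendental_jBar N)

omit [NeZero N] in
theorem neg_one_mem_Gamma0 : (-1 : SL(2, ℤ)) ∈ Gamma0 N := by
  rw [Gamma0_mem]
  simp

theorem finite_quotient : Finite (SL(2, ℤ) ⧸ Gamma0 N) := inferInstance

/-- twice the number of places over `j = 1728` is `ψ(N) + ν₂(N)`. -/
theorem two_mul_card_zeros_1728 :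
    2 * Nat.card (zerosOf Kbar (jBar N - algebraMap Kbar (FN N) 1728))
      = dedekindPsi N + nuTwo N := by
  obtain ⟨M, _, _, _, _, ρ, h⟩ := exists_modular_datum N
  rw [card_zeros_1728_orbits_of_datum N ρ h, ← Lib.Gamma0Count.card_quotient N,
    ← Lib.Gamma0Count.card_fixedBy_S N]
  have : Finite (SL(2, ℤ) ⧸ Gamma0 N) := finite_quotient N
  apply Lib.PermGenus.two_mul_card_orbits_of_action
  intro x
  rw [← mul_smul, Lib.PermGenus.S_mul_S]
  exact Lib.PermGenus.neg_one_smul_coset _ (neg_one_mem_Gamma0 N) x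

/-- three times the number of places over `j = 0` is `ψ(N) + 2 ν₃(N)`. -/
theorem three_mul_card_zeros_zero :
    3 * Nat.card (zerosOf Kbar (jBar N)) = dedekindPsi N + 2 * nuThree N := by
  obtain ⟨M, _, _, _, _, ρ, h⟩ := exists_modular_datum N
  rw [card_zeros_zero_orbits_of_datum N ρ h, ← Lib.Gamma0Count.card_quotient N,
    ← Lib.Gamma0Count.card_fixedBy_ST N]
  have : Finite (SL(2, ℤ) ⧸ Gamma0 N) := finite_quotient N
  apply Lib.PermGenus.three_mul_card_orbits_of_action
  intro x
  rw [← mul_smul, ← mul_smul, Lib.PermGenus.S_mul_T_cube]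
  exact Lib.PermGenus.neg_one_smul_coset _ (neg_one_mem_Gamma0 N) x

/-- the number of places over `j = ∞` is the number of cusps. -/
theorem card_poles : Nat.card (polesOf Kbar (jBar N)) = cuspCount N := by
  obtain ⟨M, _, _, _, _, ρ, h⟩ := exists_modular_datum N
  rw [card_poles_orbits_of_datum N ρ h, Lib.Gamma0Count.card_orbits_T N]

/-- away from `0, 1728` the extension `F_N / Q̄(j)` is unramified. -/
theorem ord_eq_one (a : Kbar) (h0 : a ≠ 0) (h1 : a ≠ 1728) (w : Place Kbar (FN N))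
    (hw : 0 < w.ord (jBar N - algebraMap Kbar (FN N) a)) :
    w.ord (jBar N - algebraMap Kbar (FN N) a) = 1 := by
  obtain ⟨M, _, _, _, _, ρ, h⟩ := exists_modular_datum N
  exact ord_eq_one_of_datum N ρ h a h0 h1 w hw

/-- `ψ(N) ≠ 0`. -/
theorem dedekindPsi_pos : 0 < dedekindPsi N := by
  rw [← Lib.Gamma0Count.card_quotient N]
  have := finite_quotient N
  exact Nat.card_pos

/-- the number of places over `a ≠ 0, 1728` is `ψ(N)`. -/
theorem card_zeros_generic (a : Kbar) (h0 : a ≠ 0) (h1 : a ≠ 1728) :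
    Nat.card (zerosOf Kbar (jBar N - algebraMap Kbar (FN N) a)) = dedekindPsi N := by
  have hyt : Transcendental Kbar (jBar N - algebraMap Kbar (FN N) a) := by
    have ht := transcendental_jBar N
    intro halg
    apply ht
    have h2 : IsAlgebraic Kbar (jBar N - algebraMap Kbar (FN N) a + algebraMap Kbar (FN N) a) :=
      halg.add (isAlgebraic_algebraMap a)
    rwa [sub_add_cancel] at h2
  have hfin := Assembly.zerosOf_finite' hyt
  have hsum := Assembly.sum_ord_zerosOf' hyt
  have hadj : Kbar⟮jBar N - algebraMap Kbar (FN N) a⟯ = Kbar⟮jBar N⟯ :=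
    Assembly.adjoin_sub_eq (M := FN N) (jBar N) a
  have hrank : Module.finrank Kbar⟮jBar N - algebraMap Kbar (FN N) a⟯ (FN N) = dedekindPsi N := by
    rw [← finrank_eq N]
    rw [hadj]
  rw [hrank] at hsum
  have h1' : ∑ᶠ w ∈ zerosOf Kbar (jBar N - algebraMap Kbar (FN N) a),
      w.ord (jBar N - algebraMap Kbar (FN N) a)
      = ∑ᶠ w ∈ zerosOf Kbar (jBar N - algebraMap Kbar (FN N) a), (1 : ℤ) := by
    apply finsum_mem_congr rfl
    intro w hw
    exact ord_eq_one N a h0 h1 w hw
  rw [h1', finsum_mem_eq_finite_toFinset_sum _ hfin, Finset.sum_const, nsmul_eq_mul, mul_one] at hsum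
  have : Nat.card (zerosOf Kbar (jBar N - algebraMap Kbar (FN N) a)) = hfin.toFinset.card := by
    rw [Nat.card_eq_card_finite_toFinset hfin]
  rw [this]
  exact_mod_cast hsum

end main

/-! ### Torsion-free numerics -/

section numerics

theorem nuTwo_eq_zero_of_dvd {d N : ℕ} (hd : d ∣ N) (h : ∀ y : ZMod d, y ^ 2 + 1 ≠ 0) :
    nuTwo N = 0 := by
  rw [nuTwo]
  have : IsEmpty {x : ZMod N // x ^ 2 + 1 = 0} := by
    refine ⟨fun x => h (ZMod.castHom hd (ZMod d) x.1) ?_⟩
    rw [← map_pow, ← map_one (ZMod.castHom hd (ZMod d)), ← map_add, x.2, map_zero]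
  exact Nat.card_of_isEmpty

theorem nuThree_eq_zero_of_dvd {d N : ℕ} (hd : d ∣ N) (h : ∀ y : ZMod d, y ^ 2 + y + 1 ≠ 0) :
    nuThree N = 0 := by
  rw [nuThree]
  have : IsEmpty {x : ZMod N // x ^ 2 + x + 1 = 0} := by
    refine ⟨fun x => h (ZMod.castHom hd (ZMod d) x.1) ?_⟩
    rw [← map_pow, ← map_one (ZMod.castHom hd (ZMod d)), ← map_add, ← map_add, x.2, map_zero]
  exact Nat.card_of_isEmpty

theorem nuTwo_eq_zero_of_four_dvd {N : ℕ} (h : 4 ∣ N) : nuTwo N = 0 :=
  nuTwo_eq_zero_of_dvd h (by decide)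

theorem nuTwo_eq_zero_of_three_dvd {N : ℕ} (h : 3 ∣ N) : nuTwo N = 0 :=
  nuTwo_eq_zero_of_dvd h (by decide)

theorem nuThree_eq_zero_of_two_dvd {N : ℕ} (h : 2 ∣ N) : nuThree N = 0 :=
  nuThree_eq_zero_of_dvd h (by decide)

theorem nuThree_eq_zero_of_nine_dvd {N : ℕ} (h : 9 ∣ N) : nuThree N = 0 :=
  nuThree_eq_zero_of_dvd h (by decide)

theorem dedekindPsi_prime {p : ℕ} (hp : p.Prime) : dedekindPsi p = p + 1 := by
  have h := Lib.Gamma0Count.dedekindPsi_mul_of_not_dvd (M := 1) hp one_ne_zero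
    (by rw [Nat.dvd_one]; exact hp.ne_one)
  rwa [mul_one, dedekindPsi_one, mul_one] at h

theorem dedekindPsi_prime_sq {p : ℕ} (hp : p.Prime) : dedekindPsi (p * p) = p * (p + 1) := by
  rw [Lib.Gamma0Count.dedekindPsi_mul_of_dvd hp hp.ne_zero dvd_rfl, dedekindPsi_prime hp]

theorem dedekindPsi_four : dedekindPsi 4 = 6 :=
  dedekindPsi_prime_sq Nat.prime_two

theorem dedekindPsi_nine : dedekindPsi 9 = 12 :=
  dedekindPsi_prime_sq Nat.prime_three

theorem cuspCount_four : cuspCount 4 = 3 := by decide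

theorem cuspCount_nine : cuspCount 9 = 4 := by decide

end numerics

/-! ### The torsion-free case `4 ∣ N` or `9 ∣ N` -/

section torsionFree

variable (N : ℕ) [NeZero N]

/-- for `4 ∣ N` or `9 ∣ N` there are exactly `ψ(N) / 2` places over `j = 1728`. -/
theorem two_mul_card_zeros_1728_of_torsionFree (hN : 4 ∣ N ∨ 9 ∣ N) :
    2 * Nat.card (zerosOf Kbar (jBar N - algebraMap Kbar (FN N) 1728)) = dedekindPsi N := by
  rw [two_mul_card_zeros_1728]
  rcases hN with h | h
  · rw [nuTwo_eq_zero_of_four_dvd h, add_zero]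
  · rw [nuTwo_eq_zero_of_three_dvd (Dvd.dvd.trans (by norm_num) h), add_zero]

/-- for `4 ∣ N` or `9 ∣ N` there are exactly `ψ(N) / 3` places over `j = 0`. -/
theorem three_mul_card_zeros_zero_of_torsionFree (hN : 4 ∣ N ∨ 9 ∣ N) :
    3 * Nat.card (zerosOf Kbar (jBar N)) = dedekindPsi N := by
  rw [three_mul_card_zeros_zero]
  rcases hN with h | h
  · rw [nuThree_eq_zero_of_two_dvd (Dvd.dvd.trans (by norm_num) h), mul_zero, add_zero]
  · rw [nuThree_eq_zero_of_nine_dvd h, mul_zero, add_zero]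

/-- the total ramification of `F_N / Q̄(j)` in the torsion-free case, in the shape consumed by
the Dedekind–Weber genus formula `2g - 2 = -2n + ∑_p (n - #fibre_p)`:
`6 * ∑_{p ∈ {0, 1728, ∞}} (n - #fibre_p) = 13 n - 6 c`, i.e. `12 (g - 1) = n - 6 c`. -/
theorem six_mul_ramification_of_torsionFree (hN : 4 ∣ N ∨ 9 ∣ N) :
    6 * (((dedekindPsi N : ℤ) - Nat.card (zerosOf Kbar (jBar N)))
        + ((dedekindPsi N : ℤ) - Nat.card (zerosOf Kbar (jBar N - algebraMap Kbar (FN N) 1728)))
        + ((dedekindPsi N : ℤ) - Nat.card (polesOf Kbar (jBar N))))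
      = 13 * (dedekindPsi N : ℤ) - 6 * (cuspCount N : ℤ) := by
  have h2 := two_mul_card_zeros_1728_of_torsionFree N hN
  have h3 := three_mul_card_zeros_zero_of_torsionFree N hN
  have hc := card_poles N
  omega

/-- the genus-zero numerics at the auxiliary levels: `12 + ψ(M) = 6 c(M)` for `M = 4, 9`. -/
theorem aux_level_numerics :
    12 + dedekindPsi 4 = 6 * cuspCount 4 ∧ 12 + dedekindPsi 9 = 6 * cuspCount 9 := by
  rw [dedekindPsi_four, dedekindPsi_nine, cuspCount_four, cuspCount_nine]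
  exact ⟨rfl, rfl⟩

end torsionFree

end Fermat.Agent.S18.FibreCount
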