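import Mathlib
import Fermat.Prelude.Def_ModularCurve_ReductionModL
import Fermat.Prelude.Def_AlgebraicCurve_Repartitions
import Fermat.Prelude.Def_ModularCurve_GenusNumerics
import Fermat.Agent.S24.Defs
import Fermat.Agent.S18.ContentBase

/-!
# S18 — Plan: definitions and contracts (owner: helper18, S18 lead)

Route (4b'), uniform in `ℓ`: auxiliary level `M = 4` (`ℓ` odd) or `M = 9` (`ℓ = 2`), `N' = M * N`.
Everything lives in the ambient fields `Q̄((q))` and `k((q))`, `k` the residue field of `A`.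

* `redSp A W`            : reductions of `W ∩ Ocal A` (a `k`-subspace of `k((q))`);
* `WJ κ L c`             : `{y ∈ L | y integral over κ[j], j⁻ᶜ y integral over O_∞}`  (`= L(c (j)_∞)` of `L`);
* `pullRR N N' B`        : pull-back Riemann–Roch space of a divisor `B` of `F_N` inside `F_{N'}`,
                           defined by integrality over the valuation rings of the places of `F_N`.

Contracts are `def … : Prop`; providers prove `theorem … : Plan.X …`, consumers prove implications.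
-/

set_option autoImplicit false

noncomputable section

namespace Fermat.Agent.S18.Plan

open ModularCurve AlgebraicCurve Fermat.Agent.S24 Fermat.Agent.S18.Content

/-! ## Ambient notation -/

/-- `Q̄((q))`. -/
abbrev Om : Type := LaurentSeries Kbar

variable (A : ValuationSubring Kbar)

/-- The residue field `k` of `A`. -/
abbrev kk : Type := IsLocalRing.ResidueField A

/-- `k((q))`. -/
abbrev Omk : Type := LaurentSeries (kk A)

/-- The function field of `X₀(n)` over `k`, inside `k((q))`. -/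
abbrev Fk (n : ℕ) : IntermediateField (kk A) (Omk A) := modularFunctionFieldFullC (kk A) n

/-- `j` as an element of `Q̄((q))`. -/
abbrev jK : Om := jqModC Kbar

/-- `j̄` as an element of `k((q))`. -/
abbrev jk : Omk A := jqModC (kk A)

/-! ## Reduction of subspaces -/

/-- `redSp A W`: the reductions of the elements of `W ∩ Ocal A`. -/
def redSp (W : Submodule Kbar Om) : Submodule (kk A) (Omk A) where
  carrier := {x | ∃ y : Ocal A, (y : Om) ∈ W ∧ red A y = x}
  add_mem' := by
    rintro x x' ⟨y, hy, rfl⟩ ⟨y', hy', rfl⟩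
    exact ⟨y + y', W.add_mem hy hy', map_add _ _ _⟩
  zero_mem' := ⟨0, W.zero_mem, map_zero _⟩
  smul_mem' := by
    rintro c x ⟨y, hy, rfl⟩
    obtain ⟨a, rfl⟩ := IsLocalRing.residue_surjective (R := A) c
    refine ⟨constO A a * y, ?_, ?_⟩
    · rw [Subring.coe_mul, coe_constO, HahnSeries.C_mul_eq_smul]
      exact W.smul_mem _ hy
    · rw [map_mul, red_constO, HahnSeries.C_mul_eq_smul]

theorem mem_redSp {W : Submodule Kbar Om} {x : Omk A} :
    x ∈ redSp A W ↔ ∃ y : Ocal A, (y : Om) ∈ W ∧ red A y = x := Iff.rfl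

/-! ## The spaces `W c = L(c (j)_∞)` by integrality -/

/-- `κ[j] ⊂ κ((q))`. -/
def polyJ (κ : Type) [Field κ] : Subalgebra κ (LaurentSeries κ) := Algebra.adjoin κ {jqModC κ}

/-- The valuation ring at infinity of `κ(j)`, inside `κ((q))`: the elements of `κ(j)` which are
power series in `q` (recall `j = q⁻¹ + …`). -/
def OinfJ (κ : Type) [Field κ] : Subring (LaurentSeries κ) :=
  (IntermediateField.adjoin κ {jqModC κ}).toSubring ⊓ (HahnSeries.ofPowerSeries ℤ κ).range

/-- `WJ κ L c = {y ∈ L | y integral over κ[j] and j⁻ᶜ y integral over O_∞}`. -/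
def WJ (κ : Type) [Field κ] (L : IntermediateField κ (LaurentSeries κ)) (c : ℕ) :
    Submodule κ (LaurentSeries κ) where
  carrier := {y | y ∈ L ∧ IsIntegral (polyJ κ) y ∧ IsIntegral (OinfJ κ) ((jqModC κ)⁻¹ ^ c * y)}
  add_mem' := by
    rintro y y' ⟨h1, h2, h3⟩ ⟨h1', h2', h3'⟩
    exact ⟨L.add_mem h1 h1', h2.add h2', by rw [mul_add]; exact h3.add h3'⟩
  zero_mem' := ⟨L.zero_mem, isIntegral_zero, by rw [mul_zero]; exact isIntegral_zero⟩
  smul_mem' := by
    rintro a y ⟨h1, h2, h3⟩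
    have e : a • y = algebraMap κ (LaurentSeries κ) a * y := by
      rw [algebraMap_LS_eq_C, HahnSeries.C_mul_eq_smul]
    refine ⟨?_, ?_, ?_⟩
    · show a • y ∈ L
      rw [e]; exact L.mul_mem (L.algebraMap_mem a) h1
    · show IsIntegral (polyJ κ) (a • y)
      rw [e]
      have ha : algebraMap κ (LaurentSeries κ) a ∈ polyJ κ := (polyJ κ).algebraMap_mem a
      exact (isIntegral_algebraMap (R := polyJ κ) (x := ⟨_, ha⟩)).mul h2
    · show IsIntegral (OinfJ κ) ((jqModC κ)⁻¹ ^ c * a • y)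
      rw [e, mul_left_comm]
      have ha : algebraMap κ (LaurentSeries κ) a ∈ OinfJ κ := by
        refine ⟨(IntermediateField.adjoin κ {jqModC κ}).algebraMap_mem a, ?_⟩
        refine ⟨PowerSeries.C a, ?_⟩
        rw [algebraMap_LS_eq_C]
        simp
      exact (isIntegral_algebraMap (R := OinfJ κ) (x := ⟨_, ha⟩)).mul h3

theorem mem_WJ {κ : Type} [Field κ] {L : IntermediateField κ (LaurentSeries κ)} {c : ℕ}
    {y : LaurentSeries κ} :
    y ∈ WJ κ L c ↔
      y ∈ L ∧ IsIntegral (polyJ κ) y ∧ IsIntegral (OinfJ κ) ((jqModC κ)⁻¹ ^ c * y) := Iff.rfl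

/-! ## Pull-back Riemann–Roch spaces -/

/-- The valuation ring of a place of `F_N`, as a subring of `Q̄((q))`. -/
def placeRing {N : ℕ} (P : Place Kbar (FN N)) : Subring Om :=
  P.toValuationSubring.toSubring.map (algebraMap (FN N) Om)

/-- `pullRR N N' B`: the elements `g` of `F_{N'}` such that for every place `P` of `F_N` and every
`t ∈ F_N^×` with `ord_P t ≥ B P`, `t * g` is integral over the valuation ring of `P`.
(For `N ∣ N'` this is `L_{F_{N'}}(π^* B)`.) -/
def pullRR (N N' : ℕ) (B : Divisor Kbar (FN N)) : Submodule Kbar Om where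
  carrier := {g | g ∈ modularFunctionFieldBar N' ∧
    ∀ (P : Place Kbar (FN N)) (t : FN N), t ≠ 0 → B P ≤ P.ord t →
      IsIntegral (placeRing P) ((t : Om) * g)}
  add_mem' := by
    rintro g g' ⟨h1, h2⟩ ⟨h1', h2'⟩
    refine ⟨add_mem h1 h1', fun P t ht hB => ?_⟩
    rw [mul_add]
    exact (h2 P t ht hB).add (h2' P t ht hB)
  zero_mem' := ⟨zero_mem _, fun P t _ _ => by rw [mul_zero]; exact isIntegral_zero⟩
  smul_mem' := by
    rintro a g ⟨h1, h2⟩
    have e : a • g = algebraMap Kbar Om a * g := by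
      rw [algebraMap_LS_eq_C, HahnSeries.C_mul_eq_smul]
    refine ⟨?_, fun P t ht hB => ?_⟩
    · show a • g ∈ modularFunctionFieldBar N'
      rw [e]
      exact mul_mem ((modularFunctionFieldBar N').algebraMap_mem a) h1
    · show IsIntegral (placeRing P) ((t : Om) * a • g)
      rw [e, mul_left_comm]
      have ha : algebraMap Kbar Om a ∈ placeRing P :=
        ⟨algebraMap Kbar (FN N) a, P.algebraMap_mem' a, rfl⟩
      exact (isIntegral_algebraMap (R := placeRing P) (x := ⟨_, ha⟩)).mul (h2 P t ht hB)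

theorem mem_pullRR {N N' : ℕ} {B : Divisor Kbar (FN N)} {g : Om} :
    g ∈ pullRR N N' B ↔ g ∈ modularFunctionFieldBar N' ∧
      ∀ (P : Place Kbar (FN N)) (t : FN N), t ≠ 0 → B P ≤ P.ord t →
        IsIntegral (placeRing P) ((t : Om) * g) := Iff.rfl

/-! ## Contracts

Standing data for the consumers: `N` the level, `ℓ ∤ N`, `A` over `ℓ`, `M := if ℓ = 2 then 9 else 4`,
`N' := M * N`.  Contracts are stated for general `N ∣ N'`/levels `n`; providers add the hypotheses
they need (`ℓ ∤ n`, `A.LiesOverPrime ℓ`, `N ∣ N'`, …) in their theorem statements. -/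

section Contracts

variable (N N' n : ℕ) (ℓ : ℕ)

/-- **[TOP]** the divisor-level core; the frozen S18 follows from `DivCore A N ℓ` by unfolding
(`S18/TopBridge.lean`). -/
def DivCore : Prop :=
  ∀ (r : Place Kbar (FN N) → Place (kk A) (Fk A N)),
    IsPlaceReductionAlong A (IsLocalRing.residue A) N r →
    PrincipalGeneratedByIntegral A (IsLocalRing.residue A) N →
    ∀ m : ℕ, ¬ ℓ ∣ m → ∀ D : Divisor Kbar (FN N), Divisor.degree D = 0 →
      m • D ∈ Divisor.principal (K := Kbar) (F := FN N) →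
      Finsupp.mapDomain r D ∈ Divisor.principal (K := kk A) (F := Fk A N) →
      D ∈ Divisor.principal (K := Kbar) (F := FN N)

/-- **[RED]** the content valuation at level `n` (`O_n = F_n ∩ Ocal A`, residue map `red A`):
(a) every nonzero element of `F_n` is a constant times a `v`-unit;
(b) reductions of `F_n ∩ Ocal` lie in `F_{n,k}`;  (c) and exhaust it;
(d) **(Dim)**: every finite-dimensional `Q̄`-subspace of `F_n` has a basis in `Ocal` with
    `k`-linearly independent reductions;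
(e) `v`-units are ratios of `A`-integral series of `F_n` with reductions in `F_{n,k} ∖ 0`. -/
def RedStmt : Prop :=
  (∀ y : Om, y ∈ modularFunctionFieldBar n → y ≠ 0 →
      ∃ c : Kbar, c ≠ 0 ∧ ∃ h : HahnSeries.C c * y ∈ Ocal A, red A ⟨_, h⟩ ≠ 0) ∧
  (∀ y : Ocal A, (y : Om) ∈ modularFunctionFieldBar n → red A y ∈ Fk A n) ∧
  (∀ x : Omk A, x ∈ Fk A n →
      ∃ y : Ocal A, (y : Om) ∈ modularFunctionFieldBar n ∧ red A y = x) ∧
  (∀ W : Submodule Kbar Om, (∀ w ∈ W, w ∈ modularFunctionFieldBar n) → Module.Finite Kbar W →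
      ∃ (r : ℕ) (b : Fin r → Ocal A),
        Submodule.span Kbar (Set.range fun i => (b i : Om)) = W ∧
        LinearIndependent (kk A) (fun i => red A (b i))) ∧
  (∀ y : Ocal A, (y : Om) ∈ modularFunctionFieldBar n → red A y ≠ 0 →
      ∃ y₁ y₂ : LaurentSeries A,
        iota A y₁ ∈ modularFunctionFieldBar n ∧ iota A y₂ ∈ modularFunctionFieldBar n ∧
        rho A y₁ ∈ Fk A n ∧ rho A y₂ ∈ Fk A n ∧ rho A y₁ ≠ 0 ∧ rho A y₂ ≠ 0 ∧
        (y : Om) * iota A y₂ = iota A y₁)

/-- **[RED] (B5)** `r_* div(y) = div(ȳ)` for every `v`-unit `y` of `F_N` and every place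
reduction `r`. -/
def UnitDiv : Prop :=
  ∀ (r : Place Kbar (FN N) → Place (kk A) (Fk A N)),
    IsPlaceReductionAlong A (IsLocalRing.residue A) N r →
    ∀ (y : FN N) (hy : (y : Om) ∈ Ocal A) (hyk : red A ⟨_, hy⟩ ∈ Fk A N),
      red A ⟨_, hy⟩ ≠ 0 →
      ∀ D : Divisor Kbar (FN N), (∀ P, D P = P.ord y) →
        ∀ Q : Place (kk A) (Fk A N),
          Finsupp.mapDomain r D Q = Q.ord (⟨red A ⟨_, hy⟩, hyk⟩ : Fk A N)

/-- **[CHAR0]** the characteristic-zero toolbox facts on `F_N` used by the assembly: places have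
degree one, principal divisors exist and have degree zero, and the pole divisor of `j` has
degree `ψ(N)`. -/
def Char0Stmt [NeZero N] : Prop :=
  (∀ P : Place Kbar (FN N), P.deg = 1) ∧
  (∀ y : FN N, y ≠ 0 →
      ∃ D : Divisor Kbar (FN N), (∀ P, D P = P.ord y) ∧ Divisor.degree D = 0) ∧
  (∃ Cp : Divisor Kbar (FN N),
      (∀ P, Cp P = max 0 (-(P.ord (jBar N)))) ∧ Divisor.degree Cp = (dedekindPsi N : ℤ))

/-- **[CHAR]** the characteristic polynomial over `F_N` of `g ∈ pullRR B ∩ Ocal`: monic of degree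
`d' = ψ(N')/ψ(N)`, kills `g`, its `i`-th coefficient from the top lies in `L_{F_N}(i • B)` and in
`Ocal`; and if `red g = 1` then it reduces to `(X - 1)^d'`. -/
def CharStmt : Prop :=
  ∀ (B : Divisor Kbar (FN N)) (g : Ocal A), (g : Om) ∈ pullRR N N' B →
    ∃ χ : Polynomial (FN N), χ.Monic ∧ χ.natDegree * dedekindPsi N = dedekindPsi N' ∧
      Polynomial.aeval (g : Om) χ = 0 ∧
      (∀ i : ℕ, i ≤ χ.natDegree → χ.coeff (χ.natDegree - i) ∈ riemannRochSpace (i • B)) ∧
      ∃ hO : ∀ i : ℕ, ((χ.coeff i : FN N) : Om) ∈ Ocal A,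
        (red A g = 1 → ∀ i : ℕ, red A ⟨_, hO i⟩ =
          HahnSeries.C (((Polynomial.X - Polynomial.C (1 : kk A)) ^ χ.natDegree).coeff i))

/-- **[RR0]** Riemann's inequality for pull-back divisors in characteristic zero, with the genus
of `F_{N'}` bounded by the Hurwitz formula: `12 (1 - g') ≥ 6 c' - ψ(N')`. -/
def RR0 : Prop :=
  ∀ B : Divisor Kbar (FN N), Module.Finite Kbar (pullRR N N' B) ∧
    12 * (dedekindPsi N' : ℤ) * Divisor.degree B
        + (dedekindPsi N : ℤ) * (6 * (cuspCount N' : ℤ) - (dedekindPsi N' : ℤ))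
      ≤ 12 * (dedekindPsi N : ℤ) * (Module.finrank Kbar (pullRR N N' B) : ℤ)

/-- **[RRl]** the genus bound in characteristic `ℓ` at level `n` (`= N'`):
`dim_k L(c (j̄)_∞) ≤ c ψ(n) + 1 - g_k` with `12 (1 - g_k) ≤ 6 c' - ψ(n)`, for `c` large. -/
def RRl : Prop :=
  ∃ c₀ : ℕ, ∀ c : ℕ, c₀ ≤ c → Module.Finite (kk A) (WJ (kk A) (Fk A n) c) ∧
    12 * (Module.finrank (kk A) (WJ (kk A) (Fk A n) c) : ℤ)
      ≤ 12 * (c : ℤ) * (dedekindPsi n : ℤ) - (dedekindPsi n : ℤ) + 6 * (cuspCount n : ℤ)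

/-- **[CHARL] (Incl on `F_N`)** for `E` with `r_* E = 0`: the reduction of
`L_{F_N}(E + c (j)_∞) ∩ Ocal` lies in `L_{F_{N,k}}(c (j̄)_∞) = WJ k F_{N,k} c`. -/
def InclF [NeZero N] : Prop :=
  ∀ (r : Place Kbar (FN N) → Place (kk A) (Fk A N)),
    IsPlaceReductionAlong A (IsLocalRing.residue A) N r →
    ∀ (E Cp : Divisor Kbar (FN N)) (c : ℕ), (∀ P, Cp P = max 0 (-(P.ord (jBar N)))) →
      Finsupp.mapDomain r E = 0 →
      ∀ a : FN N, a ∈ riemannRochSpace (E + c • Cp) → ∀ ha : (a : Om) ∈ Ocal A,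
        red A ⟨(a : Om), ha⟩ ∈ WJ (kk A) (Fk A N) c

/-- **[CHARL] (constants)** an element of `F_{N,k}` without zeros and poles is constant. -/
def ConstF : Prop :=
  ∀ y : Fk A N, y ≠ 0 → (∀ Q : Place (kk A) (Fk A N), Q.ord y = 0) →
    ∃ κ : kk A, (y : Omk A) = HahnSeries.C κ

/-- **[CONST]** `W 0 = k` at level `n`. -/
def ConstW : Prop :=
  ∀ y : Omk A, y ∈ WJ (kk A) (Fk A n) 0 → ∃ κ : kk A, y = HahnSeries.C κ

end Contracts

end Fermat.Agent.S18.Plan

end
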