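/-
`Fermat.Agent.S18.Char0` (helper36; S18 contract `Plan.Char0Stmt`, roster item 3).

The characteristic-zero toolbox facts on `F_N = Q̄(X₀(N))` used by the S18 assembly:
places have degree one, principal divisors exist and have degree zero, and the pole divisor of
`j` has degree `ψ(N)`.  Everything is read off the landed function-field toolbox
(`Lib/FFSep`, `Lib/FFPoles`) at the chart `x = j`, with `[F_N : Q̄(j)] = ψ(N)` from
`S18/FibreCount`.
-/
import Mathlib
import Fermat.Agent.S18.Plan
import Fermat.Agent.S18.FibreCount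
import Fermat.Agent.Lib.FFSep.Divisor
import Fermat.Agent.Lib.FFPoles

set_option autoImplicit false

namespace Fermat.Agent.S18.Char0

open AlgebraicCurve IntermediateField ModularCurve Fermat.Agent.S24 Fermat.Agent

/-- `F_N / Q̄(j)` is separable (characteristic zero). -/
theorem isSeparable_jBar (N : ℕ) [NeZero N] : Algebra.IsSeparable Kbar⟮jBar N⟯ (FN N) := by
  have := FibreCount.finiteDimensional N
  have : CharZero Kbar⟮jBar N⟯ :=
    charZero_of_injective_algebraMap (algebraMap Kbar Kbar⟮jBar N⟯).injective
  have : Algebra.IsAlgebraic Kbar⟮jBar N⟯ (FN N) := Algebra.IsAlgebraic.of_finite _ _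
  exact Algebra.IsAlgebraic.isSeparable_of_perfectField

/-- Every place of `F_N` has degree one. -/
theorem deg_eq_one (N : ℕ) [NeZero N] (P : Place Kbar (FN N)) : P.deg = 1 := by
  have := FibreCount.finiteDimensional N
  have := isSeparable_jBar N
  exact Lib.FFSep.deg_eq_one (jBar N) P

/-- Every nonzero function of `F_N` has a divisor, of degree zero. -/
theorem exists_divisor (N : ℕ) [NeZero N] (y : FN N) (hy : y ≠ 0) :
    ∃ D : Divisor Kbar (FN N), (∀ P, D P = P.ord y) ∧ Divisor.degree D = 0 := by
  have := FibreCount.finiteDimensional N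
  have := isSeparable_jBar N
  have hxt := FibreCount.transcendental_jBar N
  exact ⟨Lib.FFSep.divOf hxt y, fun P => rfl, Lib.FFSep.degree_divOf hxt hy⟩

/-- The pole divisor of `j` exists and has degree `ψ(N)`. -/
theorem exists_poleDivisor_jBar (N : ℕ) [NeZero N] :
    ∃ Cp : Divisor Kbar (FN N),
      (∀ P, Cp P = max 0 (-(P.ord (jBar N)))) ∧ Divisor.degree Cp = (dedekindPsi N : ℤ) := by
  have := FibreCount.finiteDimensional N
  have := isSeparable_jBar N
  have hxt := FibreCount.transcendental_jBar N
  obtain ⟨C, hC⟩ := Lib.FFPoles.exists_poleDivisor hxt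
  exact ⟨C, hC, by rw [Lib.FFPoles.degree_poleDivisor hxt C hC, FibreCount.finrank_eq]⟩

/-- **[CHAR0]** the contract `Plan.Char0Stmt N`. -/
theorem char0Stmt (N : ℕ) [NeZero N] : Plan.Char0Stmt N :=
  ⟨deg_eq_one N, exists_divisor N, exists_poleDivisor_jBar N⟩

end Fermat.Agent.S18.Char0
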