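import Mathlib
import Fermat.Agent.S18.ContentBase
import Fermat.Agent.S28.IndepOverField

/-!
# S18 — content valuation: the Gauss lattice (helper49)

Abstract layer. `A : ValuationSubring L`, `k` its residue field, `s : A((q))` with `ρ s`
transcendental over `k`, and `X : Fin n → A((q))` whose reductions are linearly independent over
`k(ρ s)`.  Then
* `ι s` is transcendental over `L` and the `ι X i` are linearly independent over `L(ι s)`;
* every nonzero `y` of the `L(ι s)`-span `V` of the `ι X i` has a **Gauss form**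
  `y * ι (D(s)) = c • ι (∑ Q i (s) * X i)` with `c ∈ Lˣ`, `D`, `Q` over `A` and primitive;
* hence `y ∈ Ocal ↔ c ∈ A`, `red y = c̄ • (ρ u / ρ w)`, every nonzero `y ∈ V` is a scalar times a
  unit of `Ocal`, `V ∩ Ocal` is a valuation ring of `V`, etc.
-/

set_option autoImplicit false
set_option linter.unusedSectionVars false

namespace Fermat.Agent.S18.Content

open ModularCurve Polynomial

/-! ### Two generic lemmas -/

/-- Common denominator for finitely many elements of a simple extension `K(x)`. -/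
lemma exists_common_denominator {K E : Type*} [Field K] [Field E] [Algebra K E] (x : E) {n : ℕ}
    (g : Fin n → IntermediateField.adjoin K {x}) :
    ∃ (P : Fin n → K[X]) (D : K[X]), aeval x D ≠ 0 ∧
      ∀ i, ((g i : IntermediateField.adjoin K {x}) : E) * aeval x D = aeval x (P i) := by
  classical
  have hfrac : ∀ i, ∃ r s : K[X], aeval x s ≠ 0 ∧
      ((g i : IntermediateField.adjoin K {x}) : E) * aeval x s = aeval x r := by
    intro i
    obtain ⟨r, s, hrs⟩ := (IntermediateField.mem_adjoin_simple_iff K _).mp (g i).2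
    by_cases hs : aeval x s = 0
    · refine ⟨0, 1, by simp, ?_⟩
      rw [hrs, hs, div_zero]
      simp
    · exact ⟨r, s, hs, by rw [hrs, div_mul_cancel₀ _ hs]⟩
  choose r s hs hrs using hfrac
  refine ⟨fun i => r i * ∏ j ∈ Finset.univ.erase i, s j, ∏ j, s j, ?_, fun i => ?_⟩
  · rw [map_prod]
    exact Finset.prod_ne_zero_iff.mpr fun j _ => hs j
  · simp only [map_mul, map_prod]
    rw [← hrs i, ← Finset.mul_prod_erase Finset.univ (fun j => aeval x (s j)) (Finset.mem_univ i)]
    ring

lemma C_mul_C_inv {F : Type*} [Field F] {d : F} (hd : d ≠ 0) :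
    (HahnSeries.C d⁻¹ : LaurentSeries F) * HahnSeries.C d = 1 := by
  rw [← map_mul, inv_mul_cancel₀ hd, map_one]

lemma C_ne_zero' {F : Type*} [Field F] {d : F} (hd : d ≠ 0) :
    (HahnSeries.C d : LaurentSeries F) ≠ 0 := by
  intro h
  exact hd (HahnSeries.C_injective (by rw [h, map_zero]))

variable {L : Type*} [Field L] (A : ValuationSubring L)

/-! ### Generic consequences of a Gauss form `y * ι w = c • ι u` -/

section Form

variable {A}
variable {y : LaurentSeries L} {c : L} {u w : LaurentSeries A}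

/-- `y = c • (ι u / ι w)`. -/
lemma eq_C_mul_div_of_form (hw : rho A w ≠ 0) (h : y * iota A w = HahnSeries.C c * iota A u) :
    y = HahnSeries.C c * (iota A u / iota A w) := by
  rw [← mul_div_assoc, ← h, mul_div_cancel_right₀ _ (rho_ne_zero_imp A w hw)]

/-- Membership criterion: `y ∈ Ocal ↔ c ∈ A`. -/
lemma mem_Ocal_iff_of_form (hu : rho A u ≠ 0) (hw : rho A w ≠ 0)
    (h : y * iota A w = HahnSeries.C c * iota A u) : y ∈ Ocal A ↔ c ∈ A := by
  rw [eq_C_mul_div_of_form hw h]
  refine C_mul_mem_Ocal_iff A c ⟨_, div_mem_Ocal A u w hw⟩ ?_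
  rw [red_div A u w hw]
  exact div_ne_zero hu hw

/-- The reduction of an element in Gauss form. -/
lemma red_of_form (hw : rho A w ≠ 0)
    (h : y * iota A w = HahnSeries.C c * iota A u) (hc : c ∈ A) (hy : y ∈ Ocal A) :
    red A ⟨y, hy⟩ =
      HahnSeries.C (IsLocalRing.residue A ⟨c, hc⟩) * (rho A u / rho A w) := by
  have h1 : HahnSeries.C c * ((⟨_, div_mem_Ocal A u w hw⟩ : Ocal A) : LaurentSeries L) ∈ Ocal A :=
    (Ocal A).mul_mem (C_mem_Ocal A hc) (div_mem_Ocal A u w hw)
  rw [red_congr A (eq_C_mul_div_of_form hw h) hy h1, red_C_mul A hc _ h1, red_div A u w hw]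

/-- `red y = 0 ↔ c ∈ 𝔪_A`. -/
lemma red_eq_zero_iff_of_form (hu : rho A u ≠ 0) (hw : rho A w ≠ 0)
    (h : y * iota A w = HahnSeries.C c * iota A u) (hc : c ∈ A) (hy : y ∈ Ocal A) :
    red A ⟨y, hy⟩ = 0 ↔ (⟨c, hc⟩ : A) ∈ IsLocalRing.maximalIdeal A := by
  rw [red_of_form hw h hc hy, mul_eq_zero, or_iff_left (div_ne_zero hu hw),
    ← IsLocalRing.residue_eq_zero_iff]
  constructor
  · intro h0
    exact HahnSeries.C_injective (by rw [h0, map_zero])
  · intro h0
    rw [h0, map_zero]

/-- Valuation-ring dichotomy for an element in Gauss form. -/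
lemma mem_or_inv_mem_of_form (hc0 : c ≠ 0) (hu : rho A u ≠ 0) (hw : rho A w ≠ 0)
    (h : y * iota A w = HahnSeries.C c * iota A u) :
    y ∈ Ocal A ∨ ∃ hy : y⁻¹ ∈ Ocal A, red A ⟨y⁻¹, hy⟩ = 0 := by
  by_cases hc : c ∈ A
  · exact Or.inl ((mem_Ocal_iff_of_form hu hw h).mpr hc)
  right
  have hci : c⁻¹ ∈ A := (A.mem_or_inv_mem c).resolve_left hc
  have hu0 := rho_ne_zero_imp A u hu
  have hw0 := rho_ne_zero_imp A w hw
  have hC := C_ne_zero' (F := L) hc0
  have hy0 : y ≠ 0 := by
    rintro rfl
    rw [zero_mul] at h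
    exact (mul_ne_zero hC hu0) h.symm
  have h' : y⁻¹ * iota A u = HahnSeries.C c⁻¹ * iota A w := by
    have e1 : y * HahnSeries.C c * (y⁻¹ * iota A u) = HahnSeries.C c * iota A u := by
      rw [mul_comm y, mul_assoc, ← mul_assoc y, mul_inv_cancel₀ hy0, one_mul]
    have e2 : y * HahnSeries.C c * (HahnSeries.C c⁻¹ * iota A w) = y * iota A w := by
      rw [mul_assoc, ← mul_assoc (HahnSeries.C c), mul_comm (HahnSeries.C c), C_mul_C_inv hc0,
        one_mul]
    exact mul_left_cancel₀ (mul_ne_zero hy0 hC) (by rw [e1, e2, h])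
  have hmem : y⁻¹ ∈ Ocal A := (mem_Ocal_iff_of_form hw hu h').mpr hci
  refine ⟨hmem, ?_⟩
  rw [red_eq_zero_iff_of_form hw hu h' hci hmem, IsLocalRing.mem_maximalIdeal, mem_nonunits_iff]
  intro hunit
  apply hc
  obtain ⟨v, hv⟩ := hunit
  have h1 : (((v⁻¹ : Aˣ) : A) : L) = c := by
    have h2 : ((v : A) : L) * (((v⁻¹ : Aˣ) : A) : L) = 1 := by
      have := congrArg Subtype.val (Units.mul_inv v)
      rw [Subring.coe_mul] at this
      exact this
    rw [hv] at h2
    have h3 : c⁻¹ * (((v⁻¹ : Aˣ) : A) : L) = 1 := h2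
    field_simp at h3
    exact h3
  rw [← h1]
  exact ((v⁻¹ : Aˣ) : A).2

end Form

/-! ### The Gauss lattice -/

section Gauss

variable (s : LaurentSeries A) {n : ℕ} (X : Fin n → LaurentSeries A)

/-- The integral series `∑ Q i (s) * X i`. -/
noncomputable def num (Q : Fin n → A[X]) : LaurentSeries A :=
  ∑ i, evalA A s (Q i) * X i

lemma iota_num (Q : Fin n → A[X]) :
    iota A (num A s X Q) =
      ∑ i, aeval (iota A s) ((Q i).map A.subtype) * iota A (X i) := by
  rw [num, map_sum]
  refine Finset.sum_congr rfl fun i _ => ?_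
  rw [map_mul, iota_evalA]

lemma rho_num (Q : Fin n → A[X]) :
    rho A (num A s X Q) =
      ∑ i, aeval (rho A s) ((Q i).map (IsLocalRing.residue A)) * rho A (X i) := by
  rw [num, map_sum]
  refine Finset.sum_congr rfl fun i _ => ?_
  rw [map_mul, rho_evalA]

/-- `ι (Q(s))` and `ι (∑ Q i (s) X i)` lie in every intermediate field containing `ι s`, `ι X i`. -/
lemma iota_evalA_mem (F : IntermediateField L (LaurentSeries L)) (hs : iota A s ∈ F) (D : A[X]) :
    iota A (evalA A s D) ∈ F := by
  rw [iota_evalA, Polynomial.aeval_eq_sum_range]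
  exact sum_mem fun i _ => F.smul_mem (pow_mem hs i)

lemma iota_num_mem (F : IntermediateField L (LaurentSeries L)) (hs : iota A s ∈ F)
    (hX : ∀ i, iota A (X i) ∈ F) (Q : Fin n → A[X]) : iota A (num A s X Q) ∈ F := by
  rw [num, map_sum]
  refine sum_mem fun i _ => ?_
  rw [map_mul]
  exact mul_mem (iota_evalA_mem A s F hs _) (hX i)

lemma rho_evalA_mem
    (F : IntermediateField (IsLocalRing.ResidueField A) (LaurentSeries (IsLocalRing.ResidueField A)))
    (hs : rho A s ∈ F) (D : A[X]) : rho A (evalA A s D) ∈ F := by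
  rw [rho_evalA, Polynomial.aeval_eq_sum_range]
  exact sum_mem fun i _ => F.smul_mem (pow_mem hs i)

lemma rho_num_mem
    (F : IntermediateField (IsLocalRing.ResidueField A) (LaurentSeries (IsLocalRing.ResidueField A)))
    (hs : rho A s ∈ F) (hX : ∀ i, rho A (X i) ∈ F) (Q : Fin n → A[X]) :
    rho A (num A s X Q) ∈ F := by
  rw [num, map_sum]
  refine sum_mem fun i _ => ?_
  rw [map_mul]
  exact mul_mem (rho_evalA_mem A s F hs _) (hX i)

variable (hs : Transcendental (IsLocalRing.ResidueField A) (rho A s))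
  (hX : LinearIndependent
    (IntermediateField.adjoin (IsLocalRing.ResidueField A) {rho A s}) (fun i => rho A (X i)))

include hs in
lemma rho_evalA_ne_zero (D : A[X]) (hD : D.map (IsLocalRing.residue A) ≠ 0) :
    rho A (evalA A s D) ≠ 0 := by
  rw [rho_evalA]
  intro h0
  exact hs ⟨_, hD, h0⟩

include hs hX in
lemma rho_num_ne_zero (Q : Fin n → A[X]) (hQ : ∃ i, (Q i).map (IsLocalRing.residue A) ≠ 0) :
    rho A (num A s X Q) ≠ 0 := by
  obtain ⟨i, hi⟩ := hQ
  rw [rho_num]
  intro h0
  have h1 := Fermat.Agent.S28.IndepOverField.aeval_eq_zero_of_linearIndependent (rho A s)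
    (fun i => rho A (X i)) hX (fun i => (Q i).map (IsLocalRing.residue A)) h0 i
  exact hs ⟨_, hi, h1⟩

include hs in
/-- `ι s` is transcendental over `L`. -/
lemma transcendental_iota : Transcendental L (iota A s) := by
  rintro ⟨P, hP, h0⟩
  obtain ⟨c, Q, hc, hQ, rfl⟩ := exists_primitive A P hP
  rw [map_mul, aeval_C, algebraMap_LS_eq_C, ← iota_evalA] at h0
  have h1 : iota A (evalA A s Q) = 0 := (mul_eq_zero.mp h0).resolve_left (C_ne_zero' hc)
  rw [iota_eq_zero_iff] at h1
  exact rho_evalA_ne_zero A s hs Q hQ (by rw [h1, map_zero])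

include hs hX in
/-- The lifts `ι X i` are linearly independent over `L(ι s)`. -/
lemma linearIndependent_iota :
    LinearIndependent (IntermediateField.adjoin L {iota A s}) (fun i => iota A (X i)) := by
  apply Fermat.Agent.S28.IndepOverField.linearIndependent_adjoin_of_poly
  intro P hP
  by_cases hall : ∀ i, P i = 0
  · intro i; rw [hall i, map_zero]
  exfalso
  push Not at hall
  obtain ⟨c, Q, hc, hQ, hPQ⟩ := exists_primitive_family A P hall
  have h1 : HahnSeries.C c * iota A (num A s X Q) = 0 := by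
    rw [iota_num, Finset.mul_sum, ← hP]
    refine Finset.sum_congr rfl fun i _ => ?_
    rw [hPQ i, map_mul, aeval_C, algebraMap_LS_eq_C, mul_assoc]
  have h2 : iota A (num A s X Q) = 0 := (mul_eq_zero.mp h1).resolve_left (C_ne_zero' hc)
  rw [iota_eq_zero_iff] at h2
  exact rho_num_ne_zero A s X hs hX Q hQ (by rw [h2, map_zero])

include hs hX in
/-- **Gauss form** of a nonzero element of the `L(ι s)`-span of the `ι X i`. -/
theorem exists_gauss_form (y : LaurentSeries L)
    (hy : y ∈ Submodule.span (IntermediateField.adjoin L {iota A s})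
      (Set.range fun i => iota A (X i))) (hy0 : y ≠ 0) :
    ∃ (c : L) (Q : Fin n → A[X]) (D : A[X]), c ≠ 0 ∧
      (∃ i, (Q i).map (IsLocalRing.residue A) ≠ 0) ∧ D.map (IsLocalRing.residue A) ≠ 0 ∧
      y * iota A (evalA A s D) = HahnSeries.C c * iota A (num A s X Q) := by
  obtain ⟨g, hg⟩ := (Submodule.mem_span_range_iff_exists_fun _).mp hy
  obtain ⟨P, D₀, hD₀, hPD⟩ := exists_common_denominator (iota A s) g
  have hyD : y * aeval (iota A s) D₀ = ∑ i, aeval (iota A s) (P i) * iota A (X i) := by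
    rw [← hg, Finset.sum_mul]
    refine Finset.sum_congr rfl fun i _ => ?_
    rw [← hPD i]
    show ((g i : IntermediateField.adjoin L {iota A s}) : LaurentSeries L) * iota A (X i) *
      aeval (iota A s) D₀ = _
    ring
  have hD₀' : D₀ ≠ 0 := by
    rintro rfl
    exact hD₀ (map_zero _)
  have hPne : ∃ i, P i ≠ 0 := by
    by_contra hcon
    push Not at hcon
    have : y * aeval (iota A s) D₀ = 0 := by
      rw [hyD]
      exact Finset.sum_eq_zero fun i _ => by rw [hcon i, map_zero, zero_mul]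
    exact (mul_ne_zero hy0 hD₀) this
  obtain ⟨d, D, hd, hD, rfl⟩ := exists_primitive A D₀ hD₀'
  obtain ⟨c', Q, hc', hQ, hPQ⟩ := exists_primitive_family A P hPne
  refine ⟨c' * d⁻¹, Q, D, mul_ne_zero hc' (inv_ne_zero hd), hQ, hD, ?_⟩
  have h1 : y * (HahnSeries.C d * iota A (evalA A s D)) =
      HahnSeries.C c' * iota A (num A s X Q) := by
    rw [iota_num, Finset.mul_sum, iota_evalA]
    rw [map_mul, aeval_C, algebraMap_LS_eq_C] at hyD
    rw [hyD]
    refine Finset.sum_congr rfl fun i _ => ?_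
    rw [hPQ i, map_mul, aeval_C, algebraMap_LS_eq_C, mul_assoc]
  have h2 : y * iota A (evalA A s D) =
      HahnSeries.C d⁻¹ * (y * (HahnSeries.C d * iota A (evalA A s D))) := by
    have h3 := C_mul_C_inv hd
    calc y * iota A (evalA A s D)
        = (HahnSeries.C d⁻¹ * HahnSeries.C d) * (y * iota A (evalA A s D)) := by
          rw [h3, one_mul]
      _ = _ := by ring
  rw [h2, h1, ← mul_assoc, ← map_mul, mul_comm d⁻¹]

end Gauss

end Fermat.Agent.S18.Content
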