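import Mathlib
import Fermat.Prelude.Def_ModularCurve_ReductionModL
import Fermat.Agent.S18.ContentGauss
import Fermat.Agent.S28.Char0Degree
import Fermat.Agent.S28.ReductionDefs

/-!
# S18 — content valuation on the function field of `X₀(N)` (helper49)

`L` a field of characteristic zero, `A : ValuationSubring L` with residue field `k` of
characteristic `ℓ ∤ N`; `F := laurentBaseChange L (modularFunctionFieldFull N) ⊆ L((q))`,
`F_k := modularFunctionFieldFullC k N ⊆ k((q))`.

This file: given `ψ(N)` lifts `X i ∈ ℤ[j(q^d) : d ∣ N]` whose reductions are independent over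
`k(j̄)`,
* `linearIndependent_iota_XA`, `mem_spanV_of_mem` : the `ι X i` form an `L(j)`-basis of `F`;
* `exists_content_form` : every `y ∈ F`, `y ≠ 0`, satisfies `y * ι w = c • ι u` with `c ∈ Lˣ`,
  `u w : A((q))` lying in `F`, with nonzero reductions lying in `F_k`.
The consumer-facing statements are in `ContentMain.lean`.
-/

set_option autoImplicit false
set_option linter.unusedSectionVars false

namespace Fermat.Agent.S18.Content

open ModularCurve Polynomial AlgebraicCurve

/-! ### Generic: `coeffEmb` and simple extensions -/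

section CoeffEmb

variable (L : Type*) [Field L] [Algebra ℚ L]

lemma coeffEmb_aeval (x : LaurentSeries ℚ) (P : ℚ[X]) :
    coeffEmb L (aeval x P) = aeval (coeffEmb L x) (P.map (algebraMap ℚ L)) := by
  rw [aeval_def, aeval_def, eval₂_map, hom_eval₂]
  congr 1
  exact RingHom.ext_rat _ _

lemma coeffEmb_injective : Function.Injective (coeffEmb L) := (coeffEmb L).injective

lemma coeffEmb_mem_adjoin (x c : LaurentSeries ℚ) (hc : c ∈ IntermediateField.adjoin ℚ {x}) :
    coeffEmb L c ∈ IntermediateField.adjoin L {coeffEmb L x} := by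
  obtain ⟨P, D, rfl⟩ := (IntermediateField.mem_adjoin_simple_iff ℚ _).mp hc
  rw [map_div₀, coeffEmb_aeval, coeffEmb_aeval]
  exact div_mem
    (IntermediateField.algebra_adjoin_le_adjoin L _ (aeval_mem_adjoin_singleton L _))
    (IntermediateField.algebra_adjoin_le_adjoin L _ (aeval_mem_adjoin_singleton L _))

end CoeffEmb

section Field

variable {L : Type*} [Field L] [Algebra ℚ L] (A : ValuationSubring L) (N : ℕ) [NeZero N]

/-- The integral lifts `X i ∈ ℤ((q))` pushed to `A((q))`. -/
noncomputable def XA {n : ℕ} (X : Fin n → LaurentSeries ℤ) (i : Fin n) : LaurentSeries A :=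
  coeffMap (Int.castRingHom A) (X i)

lemma rho_XA {n : ℕ} (X : Fin n → LaurentSeries ℤ) (i : Fin n) :
    rho A (XA A X i) = coeffMap (Int.castRingHom (IsLocalRing.ResidueField A)) (X i) := by
  rw [XA, rho, coeffMap_coeffMap]
  exact coeffMap_congr (RingHom.ext_int _ _) _

lemma iota_XA {n : ℕ} (X : Fin n → LaurentSeries ℤ) (i : Fin n) :
    iota A (XA A X i) = coeffEmb L (coeffMap (Int.castRingHom ℚ) (X i)) := by
  rw [XA, iota, coeffEmb, coeffMap_coeffMap, coeffMap_coeffMap]
  exact coeffMap_congr (RingHom.ext_int _ _) _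

lemma rho_jA : rho A (jqModC A) = jqModC (IsLocalRing.ResidueField A) :=
  coeffMap_jqModC _

lemma iota_jA : iota A (jqModC A) = coeffEmb L jq := by
  rw [iota, coeffMap_jqModC, coeffEmb, ← jqModC_rat, coeffMap_jqModC]

lemma transcendental_rho_jA :
    Transcendental (IsLocalRing.ResidueField A) (rho A (jqModC A)) := by
  rw [rho_jA]
  exact Fermat.Agent.S28.CruxDescent.transcendental_jqModC _

lemma qExpand_mem_base (d : ℕ) [NeZero d] (hd : d ∣ N) :
    iota A (qExpand A d (jqModC A)) ∈ laurentBaseChange L (modularFunctionFieldFull N) := by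
  have h1 : iota A (qExpand A d (jqModC A)) = coeffEmb L (qExpand ℚ d (jqModC ℚ)) := by
    rw [iota, coeffMap_qExpand, coeffMap_jqModC, coeffEmb, coeffMap_qExpand, coeffMap_jqModC]
  rw [h1]
  exact coeffEmb_mem_laurentBaseChange L (jqModCd_mem_full ℚ N hd)

lemma iota_jA_mem :
    iota A (jqModC A) ∈ laurentBaseChange L (modularFunctionFieldFull N) := by
  rw [iota_jA]
  exact coeffEmb_mem_laurentBaseChange L (jqModC_mem_full ℚ N)

lemma rho_jA_mem :
    rho A (jqModC A) ∈ modularFunctionFieldFullC (IsLocalRing.ResidueField A) N := by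
  rw [rho_jA]
  exact jqModC_mem_full _ N

section Basis

variable (X : Fin (dedekindPsi N) → LaurentSeries ℤ) (hmem : ∀ i, X i ∈ Fermat.Agent.S28.Reduction.jRing N)
  (hind : LinearIndependent
    (IntermediateField.adjoin (IsLocalRing.ResidueField A) {jqModC (IsLocalRing.ResidueField A)})
    (fun i => coeffMap (Int.castRingHom (IsLocalRing.ResidueField A)) (X i)))

include hmem in
lemma XQ_mem (i : Fin (dedekindPsi N)) :
    coeffMap (Int.castRingHom ℚ) (X i) ∈ modularFunctionFieldFull N :=
  Fermat.Agent.S28.IndepOverField.coeffMap_mem_fullC N ℚ (hmem i)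

include hmem in
lemma iota_XA_mem (i : Fin (dedekindPsi N)) :
    iota A (XA A X i) ∈ laurentBaseChange L (modularFunctionFieldFull N) := by
  rw [iota_XA]
  exact coeffEmb_mem_laurentBaseChange L (XQ_mem N X hmem i)

include hmem in
lemma rho_XA_mem (i : Fin (dedekindPsi N)) :
    rho A (XA A X i) ∈ modularFunctionFieldFullC (IsLocalRing.ResidueField A) N := by
  rw [rho_XA]
  exact Fermat.Agent.S28.IndepOverField.coeffMap_mem_fullC N _ (hmem i)

include hind in
lemma linearIndependent_rho_XA :
    LinearIndependent
      (IntermediateField.adjoin (IsLocalRing.ResidueField A) {rho A (jqModC A)})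
      (fun i => rho A (XA A X i)) := by
  have h1 : (fun i => rho A (XA A X i)) =
      fun i => coeffMap (Int.castRingHom (IsLocalRing.ResidueField A)) (X i) :=
    funext fun i => rho_XA A X i
  rw [h1, rho_jA]
  exact hind

include hind in
/-- The lifts are independent over `L(j)`. -/
lemma linearIndependent_iota_XA :
    LinearIndependent (IntermediateField.adjoin L {iota A (jqModC A)})
      (fun i => iota A (XA A X i)) :=
  linearIndependent_iota A (jqModC A) (XA A X) (transcendental_rho_jA A)
    (linearIndependent_rho_XA A N X hind)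

include hind in
/-- The lifts are independent over `ℚ(j)`. -/
lemma linearIndependent_XQ :
    LinearIndependent (IntermediateField.adjoin ℚ {jq})
      (fun i => coeffMap (Int.castRingHom ℚ) (X i)) := by
  apply Fermat.Agent.S28.IndepOverField.linearIndependent_adjoin_of_poly
  intro P hP i
  have h1 := congrArg (coeffEmb L) hP
  rw [map_sum, map_zero] at h1
  have h2 : ∑ i, aeval (iota A (jqModC A)) ((P i).map (algebraMap ℚ L)) * iota A (XA A X i)
      = 0 := by
    rw [← h1]
    refine Finset.sum_congr rfl fun i _ => ?_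
    rw [map_mul, coeffEmb_aeval, iota_jA, iota_XA]
  have h3 := Fermat.Agent.S28.IndepOverField.aeval_eq_zero_of_linearIndependent
    (iota A (jqModC A)) (fun i => iota A (XA A X i)) (linearIndependent_iota_XA A N X hind)
    (fun i => (P i).map (algebraMap ℚ L)) h2 i
  rw [iota_jA, ← coeffEmb_aeval] at h3
  exact coeffEmb_injective L (by rw [h3, map_zero])

include hmem hind in
lemma mem_span_XQ (z : LaurentSeries ℚ) (hz : z ∈ modularFunctionFieldFull N) :
    z ∈ Submodule.span (IntermediateField.adjoin ℚ {jq})
      (Set.range fun i => coeffMap (Int.castRingHom ℚ) (X i)) := by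
  by_contra hnot
  have h1 : LinearIndependent (IntermediateField.adjoin ℚ {jq})
      (Fin.cons z (fun i => coeffMap (Int.castRingHom ℚ) (X i)) :
        Fin (dedekindPsi N + 1) → LaurentSeries ℚ) :=
    linearIndependent_finCons.mpr ⟨linearIndependent_XQ A N X hind, hnot⟩
  have h2 := Fermat.Agent.S28.degreeLe N (dedekindPsi N + 1) _ (by
    intro i
    refine Fin.cases ?_ ?_ i
    · simpa using hz
    · intro j; simpa using XQ_mem N X hmem j) h1
  omega

/-- The `L(j)`-span of the lifts. -/
noncomputable abbrev spanV : Submodule (IntermediateField.adjoin L {iota A (jqModC A)})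
    (LaurentSeries L) :=
  Submodule.span (IntermediateField.adjoin L {iota A (jqModC A)})
    (Set.range fun i => iota A (XA A X i))

include hmem hind in
lemma coeffEmb_mem_spanV (z : LaurentSeries ℚ) (hz : z ∈ modularFunctionFieldFull N) :
    coeffEmb L z ∈ spanV A N X := by
  obtain ⟨c, hc⟩ := (Submodule.mem_span_range_iff_exists_fun _).mp (mem_span_XQ A N X hmem hind z hz)
  rw [← hc, map_sum]
  refine Submodule.sum_mem _ fun i _ => ?_
  have h1 : coeffEmb L (c i • coeffMap (Int.castRingHom ℚ) (X i)) =
      (⟨coeffEmb L (c i : LaurentSeries ℚ), by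
        rw [iota_jA]; exact coeffEmb_mem_adjoin L jq _ (c i).2⟩ :
        IntermediateField.adjoin L {iota A (jqModC A)}) • iota A (XA A X i) := by
    rw [iota_XA]
    show coeffEmb L ((c i : LaurentSeries ℚ) * coeffMap (Int.castRingHom ℚ) (X i)) = _
    rw [map_mul]
    rfl
  rw [h1]
  exact Submodule.smul_mem _ _ (Submodule.subset_span ⟨i, rfl⟩)

include hmem hind in
lemma one_mem_spanV : (1 : LaurentSeries L) ∈ spanV A N X := by
  have := coeffEmb_mem_spanV A N X hmem hind 1 (one_mem _)
  rwa [map_one] at this

include hmem hind in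
lemma mul_mem_spanV {a b : LaurentSeries L} (ha : a ∈ spanV A N X) (hb : b ∈ spanV A N X) :
    a * b ∈ spanV A N X := by
  induction ha using Submodule.span_induction with
  | mem v hv =>
    obtain ⟨i, rfl⟩ := hv
    induction hb using Submodule.span_induction with
    | mem w hw =>
      obtain ⟨j, rfl⟩ := hw
      have h1 : iota A (XA A X i) * iota A (XA A X j) =
          coeffEmb L (coeffMap (Int.castRingHom ℚ) (X i) * coeffMap (Int.castRingHom ℚ) (X j)) := by
        rw [map_mul, iota_XA, iota_XA]
      rw [h1]
      exact coeffEmb_mem_spanV A N X hmem hind _ (mul_mem (XQ_mem N X hmem i) (XQ_mem N X hmem j))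
    | zero => rw [mul_zero]; exact zero_mem _
    | add u v _ _ hu hv => rw [mul_add]; exact add_mem hu hv
    | smul r v _ hv => rw [mul_smul_comm]; exact Submodule.smul_mem _ _ hv
  | zero => rw [zero_mul]; exact zero_mem _
  | add u v _ _ hu hv => rw [add_mul]; exact add_mem hu hv
  | smul r v _ hv => rw [smul_mul_assoc]; exact Submodule.smul_mem _ _ hv

include hmem hind in
lemma inv_mem_spanV {a : LaurentSeries L} (ha : a ∈ spanV A N X) : a⁻¹ ∈ spanV A N X := by
  by_cases ha0 : a = 0
  · rw [ha0, inv_zero]; exact zero_mem _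
  have hfin : Module.Finite (IntermediateField.adjoin L {iota A (jqModC A)}) (spanV A N X) :=
    Module.Finite.span_of_finite _ (Set.finite_range _)
  let m : spanV A N X →ₗ[IntermediateField.adjoin L {iota A (jqModC A)}] spanV A N X :=
    { toFun := fun v => ⟨a * v, mul_mem_spanV A N X hmem hind ha v.2⟩
      map_add' := fun u v => Subtype.ext (by simp [mul_add])
      map_smul' := fun r v => Subtype.ext (by simp) }
  have hinj : Function.Injective m := by
    intro u v huv
    have h1 : a * (u : LaurentSeries L) = a * (v : LaurentSeries L) := congrArg Subtype.val huv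
    exact Subtype.ext (mul_left_cancel₀ ha0 h1)
  obtain ⟨v, hv⟩ := (LinearMap.injective_iff_surjective.mp hinj) ⟨1, one_mem_spanV A N X hmem hind⟩
  have h2 : a * (v : LaurentSeries L) = 1 := congrArg Subtype.val hv
  rw [← eq_inv_of_mul_eq_one_right h2]
  exact v.2

include hmem hind in
/-- `F` is contained in the `L(j)`-span of the lifts: the lifts form an `L(j)`-basis of `F`. -/
theorem mem_spanV_of_mem {y : LaurentSeries L}
    (hy : y ∈ laurentBaseChange L (modularFunctionFieldFull N)) : y ∈ spanV A N X := by
  let S : Subfield (LaurentSeries L) :=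
    { carrier := {y | y ∈ spanV A N X}
      mul_mem' := fun ha hb => mul_mem_spanV A N X hmem hind ha hb
      one_mem' := one_mem_spanV A N X hmem hind
      add_mem' := fun ha hb => (spanV A N X).add_mem ha hb
      zero_mem' := (spanV A N X).zero_mem
      neg_mem' := fun ha => (spanV A N X).neg_mem ha
      inv_mem' := fun a ha => inv_mem_spanV A N X hmem hind ha }
  have hle : Subfield.closure (Set.range (algebraMap L (LaurentSeries L)) ∪
      (⇑(coeffEmb L) '' ((modularFunctionFieldFull N : IntermediateField ℚ (LaurentSeries ℚ)) :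
        Set (LaurentSeries ℚ)))) ≤ S := by
    rw [Subfield.closure_le]
    rintro z (⟨c, rfl⟩ | ⟨z, hz, rfl⟩)
    · show algebraMap L (LaurentSeries L) c ∈ spanV A N X
      have h1 : algebraMap L (LaurentSeries L) c =
          (⟨algebraMap L (LaurentSeries L) c, IntermediateField.algebraMap_mem _ c⟩ :
            IntermediateField.adjoin L {iota A (jqModC A)}) • (1 : LaurentSeries L) := by
        show _ = algebraMap L (LaurentSeries L) c * 1
        rw [mul_one]
      rw [h1]
      exact Submodule.smul_mem _ _ (one_mem_spanV A N X hmem hind)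
    · exact coeffEmb_mem_spanV A N X hmem hind z hz
  exact hle (mem_laurentBaseChange_iff.mp hy)

include hmem hind in
/-- **Content decomposition.** Every nonzero `y ∈ F` is `c • (ι u / ι w)` with `c ∈ Lˣ` and
`u, w ∈ A((q))` lying in `F`, with nonzero reductions lying in `F_k`. -/
theorem exists_content_form {y : LaurentSeries L}
    (hy : y ∈ laurentBaseChange L (modularFunctionFieldFull N)) (hy0 : y ≠ 0) :
    ∃ (c : L) (u w : LaurentSeries A), c ≠ 0 ∧
      iota A u ∈ laurentBaseChange L (modularFunctionFieldFull N) ∧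
      iota A w ∈ laurentBaseChange L (modularFunctionFieldFull N) ∧
      rho A u ∈ modularFunctionFieldFullC (IsLocalRing.ResidueField A) N ∧
      rho A w ∈ modularFunctionFieldFullC (IsLocalRing.ResidueField A) N ∧
      rho A u ≠ 0 ∧ rho A w ≠ 0 ∧ y * iota A w = HahnSeries.C c * iota A u := by
  have hs := transcendental_rho_jA A
  have hX := linearIndependent_rho_XA A N X hind
  obtain ⟨c, Q, D, hc, hQ, hD, h⟩ := exists_gauss_form A (jqModC A) (XA A X) hs hX y
    (mem_spanV_of_mem A N X hmem hind hy) hy0
  exact ⟨c, num A (jqModC A) (XA A X) Q, evalA A (jqModC A) D, hc,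
    iota_num_mem A _ _ _ (iota_jA_mem A N) (iota_XA_mem A N X hmem) Q,
    iota_evalA_mem A _ _ (iota_jA_mem A N) D,
    rho_num_mem A _ _ _ (rho_jA_mem A N) (rho_XA_mem A N X hmem) Q,
    rho_evalA_mem A _ _ (rho_jA_mem A N) D,
    rho_num_ne_zero A _ _ hs hX Q hQ, rho_evalA_ne_zero A _ hs D hD, h⟩

end Basis

end Field

end Fermat.Agent.S18.Content
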