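import Mathlib
import Fermat.Prelude.Def_ModularCurve_ReductionModL
import Fermat.Prelude.Def_FLTPrelim_Ramification
import Fermat.Agent.S18.ContentField

/-!
# S18 — content valuation on the function field of `X₀(N)`: main statements (helper49)

`L` a field of characteristic zero, `A : ValuationSubring L` with residue field `k` of
characteristic `ℓ ∤ N`; `F := laurentBaseChange L (modularFunctionFieldFull N) ⊆ L((q))`,
`F_k := modularFunctionFieldFullC k N ⊆ k((q))`.

* `exists_content_form_of_prime` / `exists_content_unit` : every `y ∈ F`, `y ≠ 0`, is `c • e`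
  with `c ∈ Lˣ`, `e ∈ F` a unit of `Ocal A`;
* `mem_Ocal_or_inv`       : `F ∩ Ocal` is a valuation ring of `F`;
* `red_mem_fullC`, `exists_red_eq` : `red (F ∩ Ocal) = F_k`;
* `exists_integral_ratio` : units of `F ∩ Ocal` are ratios `ι y₁ / ι y₂` of integral series as in
  hypothesis (ii) of `IsPlaceReductionAlong`;
* `mapDomain_ord_of_unit` : for `r` with `IsPlaceReductionAlong`, `r_* div(y) = div(red y)` for
  all units `y`.
-/

set_option autoImplicit false
set_option linter.unusedSectionVars false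

namespace Fermat.Agent.S18.Content

open ModularCurve Polynomial AlgebraicCurve

section Field

variable {L : Type*} [Field L] [Algebra ℚ L] (A : ValuationSubring L) (N : ℕ) [NeZero N]

/-! ### Main statements (the lifts come from the S28 field core over `k`) -/

section Main

variable (ℓ : ℕ) [Fact ℓ.Prime] [CharP (IsLocalRing.ResidueField A) ℓ] (hℓN : ¬ ℓ ∣ N)

include hℓN in
/-- **Content form.** Every nonzero `y ∈ F` satisfies `y * ι w = c • ι u` with `c ∈ Lˣ` and
`u, w ∈ A((q))` lying in `F`, with nonzero reductions lying in `F_k`. -/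
theorem exists_content_form_of_prime {y : LaurentSeries L}
    (hy : y ∈ laurentBaseChange L (modularFunctionFieldFull N)) (hy0 : y ≠ 0) :
    ∃ (c : L) (u w : LaurentSeries A), c ≠ 0 ∧
      iota A u ∈ laurentBaseChange L (modularFunctionFieldFull N) ∧
      iota A w ∈ laurentBaseChange L (modularFunctionFieldFull N) ∧
      rho A u ∈ modularFunctionFieldFullC (IsLocalRing.ResidueField A) N ∧
      rho A w ∈ modularFunctionFieldFullC (IsLocalRing.ResidueField A) N ∧
      rho A u ≠ 0 ∧ rho A w ≠ 0 ∧ y * iota A w = HahnSeries.C c * iota A u := by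
  obtain ⟨X, hmem, hind⟩ := Fermat.Agent.S28.IndepOverField.hasIndepLifts_over N ℓ hℓN
    (IsLocalRing.ResidueField A)
  exact exists_content_form A N X hmem hind hy hy0

lemma C_mem_base (c : L) :
    (HahnSeries.C c : LaurentSeries L) ∈ laurentBaseChange L (modularFunctionFieldFull N) := by
  rw [← algebraMap_LS_eq_C]
  exact IntermediateField.algebraMap_mem _ c

lemma C_mem_fullC (c : IsLocalRing.ResidueField A) :
    (HahnSeries.C c : LaurentSeries (IsLocalRing.ResidueField A)) ∈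
      modularFunctionFieldFullC (IsLocalRing.ResidueField A) N := by
  rw [← algebraMap_LS_eq_C]
  exact IntermediateField.algebraMap_mem _ c

include hℓN in
/-- **Content decomposition.** Every nonzero `y ∈ F` is `c • e` with `c ∈ Lˣ` and `e ∈ F` a unit
of `Ocal A` whose reduction lies in `F_k`.  (Then `y ∈ Ocal ↔ c ∈ A` by `C_mul_mem_Ocal_iff` and
`red y = 0 ↔ c ∈ 𝔪_A` by `red_C_mul_eq_zero_iff`.) -/
theorem exists_content_unit {y : LaurentSeries L}
    (hy : y ∈ laurentBaseChange L (modularFunctionFieldFull N)) (hy0 : y ≠ 0) :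
    ∃ (c : L) (e : LaurentSeries L), c ≠ 0 ∧
      e ∈ laurentBaseChange L (modularFunctionFieldFull N) ∧
      (∃ he : e ∈ Ocal A, red A ⟨e, he⟩ ≠ 0 ∧
        red A ⟨e, he⟩ ∈ modularFunctionFieldFullC (IsLocalRing.ResidueField A) N) ∧
      y = HahnSeries.C c * e := by
  obtain ⟨c, u, w, hc, hu, hw, hku, hkw, hu0, hw0, h⟩ :=
    exists_content_form_of_prime A N ℓ hℓN hy hy0
  refine ⟨c, iota A u / iota A w, hc, div_mem hu hw, ⟨div_mem_Ocal A u w hw0, ?_, ?_⟩,
    eq_C_mul_div_of_form hw0 h⟩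
  · rw [red_div A u w hw0]; exact div_ne_zero hu0 hw0
  · rw [red_div A u w hw0]; exact div_mem hku hkw

include hℓN in
/-- `F ∩ Ocal` is a valuation ring of `F`. -/
theorem mem_Ocal_or_inv {y : LaurentSeries L}
    (hy : y ∈ laurentBaseChange L (modularFunctionFieldFull N)) :
    y ∈ Ocal A ∨ ∃ h : y⁻¹ ∈ Ocal A, red A ⟨y⁻¹, h⟩ = 0 := by
  by_cases hy0 : y = 0
  · left; rw [hy0]; exact zero_mem _
  obtain ⟨c, u, w, hc, -, -, -, -, hu0, hw0, h⟩ := exists_content_form_of_prime A N ℓ hℓN hy hy0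
  exact mem_or_inv_mem_of_form hc hu0 hw0 h

include hℓN in
/-- The reduction of an element of `F ∩ Ocal` lies in `F_k`. -/
theorem red_mem_fullC {y : LaurentSeries L}
    (hy : y ∈ laurentBaseChange L (modularFunctionFieldFull N)) (hyO : y ∈ Ocal A) :
    red A ⟨y, hyO⟩ ∈ modularFunctionFieldFullC (IsLocalRing.ResidueField A) N := by
  by_cases hy0 : y = 0
  · have : (⟨y, hyO⟩ : Ocal A) = 0 := Subtype.ext hy0
    rw [this, map_zero]; exact zero_mem _
  obtain ⟨c, u, w, hc, -, -, hku, hkw, hu0, hw0, h⟩ :=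
    exists_content_form_of_prime A N ℓ hℓN hy hy0
  have hcA : c ∈ A := (mem_Ocal_iff_of_form hu0 hw0 h).mp hyO
  rw [red_of_form hw0 h hcA hyO]
  exact mul_mem (C_mem_fullC A N _) (div_mem hku hkw)

include hℓN in
/-- **Units are integral ratios**: a unit `y` of `F ∩ Ocal` is `ι y₁ / ι y₂` with `y₁ y₂ : A((q))`
exactly as in hypothesis (ii) of `IsPlaceReductionAlong`. -/
theorem exists_integral_ratio {y : LaurentSeries L}
    (hy : y ∈ laurentBaseChange L (modularFunctionFieldFull N)) (hyO : y ∈ Ocal A)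
    (hred : red A ⟨y, hyO⟩ ≠ 0) :
    ∃ y₁ y₂ : LaurentSeries A,
      iota A y₁ ∈ laurentBaseChange L (modularFunctionFieldFull N) ∧
      iota A y₂ ∈ laurentBaseChange L (modularFunctionFieldFull N) ∧
      rho A y₁ ∈ modularFunctionFieldFullC (IsLocalRing.ResidueField A) N ∧
      rho A y₂ ∈ modularFunctionFieldFullC (IsLocalRing.ResidueField A) N ∧
      rho A y₁ ≠ 0 ∧ rho A y₂ ≠ 0 ∧ y * iota A y₂ = iota A y₁ ∧
      red A ⟨y, hyO⟩ * rho A y₂ = rho A y₁ := by
  have hy0 : y ≠ 0 := ne_zero_of_red_ne_zero A ⟨y, hyO⟩ hred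
  obtain ⟨c, u, w, hc, hu, hw, hku, hkw, hu0, hw0, h⟩ :=
    exists_content_form_of_prime A N ℓ hℓN hy hy0
  have hcA : c ∈ A := (mem_Ocal_iff_of_form hu0 hw0 h).mp hyO
  have hredeq := red_of_form hw0 h hcA hyO
  have hres : (HahnSeries.C (IsLocalRing.residue A ⟨c, hcA⟩) :
      LaurentSeries (IsLocalRing.ResidueField A)) ≠ 0 := by
    intro h0
    apply hred
    rw [hredeq, h0, zero_mul]
  refine ⟨HahnSeries.C ⟨c, hcA⟩ * u, w, ?_, hw, ?_, hkw, ?_, hw0, ?_, ?_⟩
  · rw [map_mul, iota_C]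
    exact mul_mem (C_mem_base N c) hu
  · rw [map_mul, rho_C]
    exact mul_mem (C_mem_fullC A N _) hku
  · rw [map_mul, rho_C]
    exact mul_ne_zero hres hu0
  · rw [map_mul, iota_C, h]
  · rw [hredeq, map_mul, rho_C, mul_assoc, div_mul_cancel₀ _ hw0]

include hℓN in
/-- Elements of `F ∩ Ocal` with zero reduction are `a • (unit)` with `a ∈ 𝔪_A`. -/
theorem exists_maximalIdeal_mul_unit {y : LaurentSeries L}
    (hy : y ∈ laurentBaseChange L (modularFunctionFieldFull N)) (hyO : y ∈ Ocal A) (hy0 : y ≠ 0)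
    (hred : red A ⟨y, hyO⟩ = 0) :
    ∃ (a : A) (e : LaurentSeries L), a ∈ IsLocalRing.maximalIdeal A ∧ a ≠ 0 ∧
      e ∈ laurentBaseChange L (modularFunctionFieldFull N) ∧
      (∃ he : e ∈ Ocal A, red A ⟨e, he⟩ ≠ 0) ∧ y = HahnSeries.C (a : L) * e := by
  obtain ⟨c, u, w, hc, hu, hw, -, -, hu0, hw0, h⟩ :=
    exists_content_form_of_prime A N ℓ hℓN hy hy0
  have hcA : c ∈ A := (mem_Ocal_iff_of_form hu0 hw0 h).mp hyO
  refine ⟨⟨c, hcA⟩, iota A u / iota A w, (red_eq_zero_iff_of_form hu0 hw0 h hcA hyO).mp hred,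
    fun h0 => hc (congrArg Subtype.val h0), div_mem hu hw, ⟨div_mem_Ocal A u w hw0, ?_⟩,
    eq_C_mul_div_of_form hw0 h⟩
  rw [red_div A u w hw0]; exact div_ne_zero hu0 hw0

/-- The set of reductions of elements of `F ∩ Ocal`, as a subfield of `k((q))`. -/
noncomputable def redField : Subfield (LaurentSeries (IsLocalRing.ResidueField A)) where
  carrier := {z | ∃ y : Ocal A,
    (y : LaurentSeries L) ∈ laurentBaseChange L (modularFunctionFieldFull N) ∧ red A y = z}
  mul_mem' := by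
    rintro _ _ ⟨y, hy, rfl⟩ ⟨y', hy', rfl⟩
    exact ⟨y * y', mul_mem hy hy', map_mul (red A) y y'⟩
  one_mem' := ⟨1, one_mem _, map_one (red A)⟩
  add_mem' := by
    rintro _ _ ⟨y, hy, rfl⟩ ⟨y', hy', rfl⟩
    exact ⟨y + y', add_mem hy hy', map_add (red A) y y'⟩
  zero_mem' := ⟨0, zero_mem _, map_zero (red A)⟩
  neg_mem' := by
    rintro _ ⟨y, hy, rfl⟩
    exact ⟨-y, neg_mem hy, map_neg (red A) y⟩
  inv_mem' := by
    rintro _ ⟨y, hy, rfl⟩
    by_cases h0 : red A y = 0
    · rw [h0, inv_zero]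
      exact ⟨0, zero_mem _, map_zero (red A)⟩
    · exact ⟨⟨(y : LaurentSeries L)⁻¹, inv_mem_Ocal A y h0⟩, inv_mem hy, red_inv A y h0⟩

/-- `red (F ∩ Ocal) = F_k`: surjectivity. -/
theorem exists_red_eq {z : LaurentSeries (IsLocalRing.ResidueField A)}
    (hz : z ∈ modularFunctionFieldFullC (IsLocalRing.ResidueField A) N) :
    ∃ (y : LaurentSeries L) (_ : y ∈ laurentBaseChange L (modularFunctionFieldFull N))
      (hyO : y ∈ Ocal A), red A ⟨y, hyO⟩ = z := by
  have hle : Subfield.closure (Set.range (algebraMap (IsLocalRing.ResidueField A)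
      (LaurentSeries (IsLocalRing.ResidueField A))) ∪
      divisorExpansionsC (IsLocalRing.ResidueField A) N) ≤ redField A N := by
    rw [Subfield.closure_le]
    rintro z (⟨c, rfl⟩ | ⟨d, hd, hdN, rfl⟩)
    · obtain ⟨a, rfl⟩ := IsLocalRing.residue_surjective c
      refine ⟨⟨iota A (HahnSeries.C a), iota_mem_Ocal A _⟩, ?_, ?_⟩
      · show iota A (HahnSeries.C a) ∈ _
        rw [iota_C]; exact C_mem_base N _
      · rw [red_iota, rho_C, algebraMap_LS_eq_C]
    · refine ⟨⟨iota A (qExpand A d (jqModC A)), iota_mem_Ocal A _⟩,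
        qExpand_mem_base A N d hdN, ?_⟩
      rw [red_iota, rho, coeffMap_qExpand, coeffMap_jqModC]
  obtain ⟨y, hy, rfl⟩ := hle hz
  exact ⟨y, hy, y.2, rfl⟩

set_option synthInstance.maxHeartbeats 400000 in
set_option maxHeartbeats 1000000 in
/-- **Compatibility with a place reduction.** For `r` as in `IsPlaceReductionAlong` and a unit
`y` of `F ∩ Ocal`: `r_* div(y) = div(red y)`. -/
theorem mapDomain_ord_of_unit
    (r : Place L (laurentBaseChange L (modularFunctionFieldFull N)) →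
      Place (IsLocalRing.ResidueField A) (modularFunctionFieldFullC (IsLocalRing.ResidueField A) N))
    (hr : IsPlaceReductionAlong A (IsLocalRing.residue A) N r)
    (hdiv : ∀ f : laurentBaseChange L (modularFunctionFieldFull N), f ≠ 0 →
      ∃ D : Divisor L (laurentBaseChange L (modularFunctionFieldFull N)), ∀ P, D P = P.ord f)
    (hℓN : ¬ ℓ ∣ N) {y : LaurentSeries L}
    (hy : y ∈ laurentBaseChange L (modularFunctionFieldFull N)) (hyO : y ∈ Ocal A)
    (hred : red A ⟨y, hyO⟩ ≠ 0)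
    (D : Divisor L (laurentBaseChange L (modularFunctionFieldFull N)))
    (hD : ∀ P, D P = P.ord (⟨y, hy⟩ : laurentBaseChange L (modularFunctionFieldFull N)))
    (Q : Place (IsLocalRing.ResidueField A)
      (modularFunctionFieldFullC (IsLocalRing.ResidueField A) N)) :
    Finsupp.mapDomain r D Q =
      Q.ord (⟨red A ⟨y, hyO⟩, red_mem_fullC A N ℓ hℓN hy hyO⟩ :
        modularFunctionFieldFullC (IsLocalRing.ResidueField A) N) := by
  obtain ⟨y₁, y₂, h₁, h₂, hk₁, hk₂, hne₁, hne₂, hmul, hredmul⟩ :=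
    exists_integral_ratio A N ℓ hℓN hy hyO hred
  have hι₁ : iota A y₁ ≠ 0 := rho_ne_zero_imp A y₁ hne₁
  have hι₂ : iota A y₂ ≠ 0 := rho_ne_zero_imp A y₂ hne₂
  have hy0 : y ≠ 0 := ne_zero_of_red_ne_zero A ⟨y, hyO⟩ hred
  have hf₁ : (⟨iota A y₁, h₁⟩ : laurentBaseChange L (modularFunctionFieldFull N)) ≠ 0 :=
    fun h => hι₁ (congrArg Subtype.val h)
  have hf₂ : (⟨iota A y₂, h₂⟩ : laurentBaseChange L (modularFunctionFieldFull N)) ≠ 0 :=
    fun h => hι₂ (congrArg Subtype.val h)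
  have hf : (⟨y, hy⟩ : laurentBaseChange L (modularFunctionFieldFull N)) ≠ 0 :=
    fun h => hy0 (congrArg Subtype.val h)
  obtain ⟨D₁, hD₁⟩ := hdiv _ hf₁
  obtain ⟨D₂, hD₂⟩ := hdiv _ hf₂
  have hDeq : D = D₁ - D₂ := by
    ext P
    rw [Finsupp.sub_apply, hD P, hD₁ P, hD₂ P]
    have h3 : (⟨iota A y₁, h₁⟩ : laurentBaseChange L (modularFunctionFieldFull N)) =
        ⟨y, hy⟩ * ⟨iota A y₂, h₂⟩ := Subtype.ext hmul.symm
    rw [h3, P.ord_mul hf hf₂]
    ring
  have e₁ := hr.2 y₁ h₁ hk₁ hne₁ D₁ hD₁ Q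
  have e₂ := hr.2 y₂ h₂ hk₂ hne₂ D₂ hD₂ Q
  rw [hDeq, Finsupp.mapDomain_sub, Finsupp.sub_apply, e₁, e₂]
  have hg₂ : (⟨rho A y₂, hk₂⟩ :
      modularFunctionFieldFullC (IsLocalRing.ResidueField A) N) ≠ 0 :=
    fun h => hne₂ (congrArg Subtype.val h)
  have hg : (⟨red A ⟨y, hyO⟩, red_mem_fullC A N ℓ hℓN hy hyO⟩ :
      modularFunctionFieldFullC (IsLocalRing.ResidueField A) N) ≠ 0 :=
    fun h => hred (congrArg Subtype.val h)
  have h4 : (⟨rho A y₁, hk₁⟩ : modularFunctionFieldFullC (IsLocalRing.ResidueField A) N) =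
      ⟨red A ⟨y, hyO⟩, red_mem_fullC A N ℓ hℓN hy hyO⟩ * ⟨rho A y₂, hk₂⟩ :=
    Subtype.ext hredmul.symm
  rw [h4, Q.ord_mul hg hg₂]
  ring

end Main

end Field

/-- The residue field of a valuation subring lying over `ℓ` has characteristic `ℓ`. -/
theorem charP_residueField_of_liesOverPrime {L : Type*} [Field L] (A : ValuationSubring L)
    (ℓ : ℕ) [Fact ℓ.Prime] (hA : A.LiesOverPrime ℓ) : CharP (IsLocalRing.ResidueField A) ℓ := by
  have hp : ℓ.Prime := Fact.out
  obtain ⟨hmem, hmax⟩ := (ValuationSubring.mem_nonunits_iff_exists_mem_maximalIdeal).mp hA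
  have h0 : ((ℓ : ℕ) : IsLocalRing.ResidueField A) = 0 := by
    have h1 : IsLocalRing.residue A ⟨(ℓ : L), hmem⟩ = 0 :=
      (IsLocalRing.residue_eq_zero_iff _).mpr hmax
    have h2 : (⟨(ℓ : L), hmem⟩ : A) = ((ℓ : ℕ) : A) := Subtype.ext (by simp)
    rw [h2, map_natCast] at h1
    exact h1
  obtain ⟨p, hpc⟩ := CharP.exists (IsLocalRing.ResidueField A)
  have hdvd : p ∣ ℓ := (CharP.cast_eq_zero_iff (IsLocalRing.ResidueField A) p ℓ).mp h0
  have hp1 : p ≠ 1 := CharP.char_ne_one (IsLocalRing.ResidueField A) p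
  have : p = ℓ := (Nat.dvd_prime hp).mp hdvd |>.resolve_left hp1
  exact this ▸ hpc

end Fermat.Agent.S18.Content
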