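import Mathlib
import Fermat.Agent.S18.ContentMain
import Fermat.Agent.Lib.EchelonLattice

/-!
# S18 — content valuation: (Dim), bases with independent reductions (helper49)

Every finite-dimensional `L`-subspace `W` of the `L(ι s)`-span of a Gauss lattice (in particular of
`F = laurentBaseChange L (modularFunctionFieldFull N)`) has an `L`-basis `b` with `b i ∈ Ocal A`,
such that `y ∈ W ∩ Ocal` iff its coordinates lie in `A`, and with `k`-linearly independent
reductions `red (b i)`.  (No defect; any valuation subring `A`.)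
-/

set_option autoImplicit false
set_option linter.unusedSectionVars false

namespace Fermat.Agent.S18.Content

open ModularCurve Polynomial

variable {L : Type*} [Field L] (A : ValuationSubring L)

section Dim

variable (s : LaurentSeries A) {n : ℕ} (X : Fin n → LaurentSeries A)

/-- Polynomial form of an element of the span: `y * D(ι s) = ∑ P i (ι s) * ι X i`. -/
lemma exists_poly_form (y : LaurentSeries L)
    (hy : y ∈ Submodule.span (IntermediateField.adjoin L {iota A s})
      (Set.range fun i => iota A (X i))) :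
    ∃ (P : Fin n → L[X]) (D : L[X]), aeval (iota A s) D ≠ 0 ∧
      y * aeval (iota A s) D = ∑ i, aeval (iota A s) (P i) * iota A (X i) := by
  obtain ⟨g, hg⟩ := (Submodule.mem_span_range_iff_exists_fun _).mp hy
  obtain ⟨P, D₀, hD₀, hPD⟩ := exists_common_denominator (iota A s) g
  refine ⟨P, D₀, hD₀, ?_⟩
  rw [← hg, Finset.sum_mul]
  refine Finset.sum_congr rfl fun i _ => ?_
  rw [← hPD i]
  show ((g i : IntermediateField.adjoin L {iota A s}) : LaurentSeries L) * iota A (X i) *
    aeval (iota A s) D₀ = _
  ring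

/-- A finite family in the span has a common primitive integral denominator `D(s)`. -/
lemma exists_uniform_form {r : ℕ} (w : Fin r → LaurentSeries L)
    (hw : ∀ t, w t ∈ Submodule.span (IntermediateField.adjoin L {iota A s})
      (Set.range fun i => iota A (X i))) :
    ∃ (D : A[X]) (P : Fin r → Fin n → L[X]), D.map (IsLocalRing.residue A) ≠ 0 ∧
      ∀ t, w t * iota A (evalA A s D) = ∑ i, aeval (iota A s) (P t i) * iota A (X i) := by
  classical
  choose P₀ D₀ hD₀ hPD using fun t => exists_poly_form A s X (w t) (hw t)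
  have hprod : aeval (iota A s) (∏ t, D₀ t) ≠ 0 := by
    rw [map_prod]; exact Finset.prod_ne_zero_iff.mpr fun t _ => hD₀ t
  have hprod' : (∏ t, D₀ t) ≠ 0 := by
    intro h; rw [h, map_zero] at hprod; exact hprod rfl
  obtain ⟨d, D, hd, hD, hdD⟩ := exists_primitive A _ hprod'
  refine ⟨D, fun t i => C d⁻¹ * (P₀ t i * ∏ t' ∈ Finset.univ.erase t, D₀ t'), hD, fun t => ?_⟩
  have h1 : aeval (iota A s) (∏ t, D₀ t) = HahnSeries.C d * iota A (evalA A s D) := by
    rw [hdD, map_mul, aeval_C, algebraMap_LS_eq_C, iota_evalA]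
  have h2 : iota A (evalA A s D) = HahnSeries.C d⁻¹ * aeval (iota A s) (∏ t, D₀ t) := by
    rw [h1, ← mul_assoc, C_mul_C_inv hd, one_mul]
  rw [h2, map_prod, ← Finset.mul_prod_erase Finset.univ (fun t' => aeval (iota A s) (D₀ t'))
    (Finset.mem_univ t)]
  have h3 : w t * (HahnSeries.C d⁻¹ * (aeval (iota A s) (D₀ t) *
      ∏ t' ∈ Finset.univ.erase t, aeval (iota A s) (D₀ t'))) =
      HahnSeries.C d⁻¹ * ((w t * aeval (iota A s) (D₀ t)) *
        ∏ t' ∈ Finset.univ.erase t, aeval (iota A s) (D₀ t')) := by ring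
  rw [h3, hPD t, Finset.sum_mul, Finset.mul_sum]
  refine Finset.sum_congr rfl fun i _ => ?_
  simp only [map_mul, aeval_C, algebraMap_LS_eq_C, map_prod]
  ring

variable (hs : Transcendental (IsLocalRing.ResidueField A) (rho A s))
  (hX : LinearIndependent
    (IntermediateField.adjoin (IsLocalRing.ResidueField A) {rho A s}) (fun i => rho A (X i)))

include hs hX in
/-- **(Dim), abstract form.** A finite-dimensional `L`-subspace of the span of a Gauss lattice has
a basis in `Ocal` adapted to `W ∩ Ocal`, with `k`-linearly independent reductions. -/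
theorem exists_basis_red_indep_of_span (W : Submodule L (LaurentSeries L)) [FiniteDimensional L W]
    (hW : ∀ y ∈ W, y ∈ Submodule.span (IntermediateField.adjoin L {iota A s})
      (Set.range fun i => iota A (X i))) :
    ∃ (b : Module.Basis (Fin (Module.finrank L W)) L W)
      (hb : ∀ i, (b i : LaurentSeries L) ∈ Ocal A),
      (∀ y : W, (y : LaurentSeries L) ∈ Ocal A → ∀ i, b.repr y i ∈ A) ∧
      LinearIndependent (IsLocalRing.ResidueField A)
        (fun i => red A ⟨(b i : LaurentSeries L), hb i⟩) := by
  classical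
  let w : Module.Basis (Fin (Module.finrank L W)) L W := Module.finBasis L W
  obtain ⟨D, P, hD, hP⟩ := exists_uniform_form A s X (fun t => (w t : LaurentSeries L))
    (fun t => hW _ (w t).2)
  have hρD : rho A (evalA A s D) ≠ 0 := rho_evalA_ne_zero A s hs D hD
  have hιD : iota A (evalA A s D) ≠ 0 := rho_ne_zero_imp A _ hρD
  set B := Finset.univ.sup
    (fun ti : Fin (Module.finrank L W) × Fin n => (P ti.1 ti.2).natDegree) with hB
  have hBle : ∀ t i, (P t i).natDegree ≤ B := fun t i =>
    Finset.le_sup (f := fun ti : Fin (Module.finrank L W) × Fin n => (P ti.1 ti.2).natDegree)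
      (Finset.mem_univ (t, i))
  let Py : W → Fin n → L[X] := fun y i => ∑ t, C (w.repr y t) * P t i
  have hPy_deg : ∀ y i, (Py y i).natDegree ≤ B := by
    intro y i
    refine Polynomial.natDegree_sum_le_of_forall_le _ _ fun t _ => ?_
    exact (Polynomial.natDegree_C_mul_le _ _).trans (hBle t i)
  have hPy : ∀ y : W, (y : LaurentSeries L) * iota A (evalA A s D) =
      ∑ i, aeval (iota A s) (Py y i) * iota A (X i) := by
    intro y
    have h1 : (y : LaurentSeries L) =
        ∑ t, HahnSeries.C (w.repr y t) * (w t : LaurentSeries L) := by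
      conv_lhs => rw [← w.sum_repr y]
      rw [AddSubmonoidClass.coe_finsetSum]
      refine Finset.sum_congr rfl fun t _ => ?_
      rw [Submodule.coe_smul, HahnSeries.C_mul_eq_smul]
    rw [h1, Finset.sum_mul]
    simp only [Py, map_sum, map_mul, aeval_C, algebraMap_LS_eq_C, Finset.sum_mul]
    rw [Finset.sum_comm]
    refine Finset.sum_congr rfl fun t _ => ?_
    rw [mul_assoc, hP t, Finset.mul_sum]
    refine Finset.sum_congr rfl fun i _ => ?_
    ring
  let cf : W →ₗ[L] (Fin n × Fin (B + 1) → L) :=
    { toFun := fun y im => ∑ t, w.repr y t * (P t im.1).coeff im.2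
      map_add' := fun y y' => by
        funext im
        simp [add_mul, Finset.sum_add_distrib]
      map_smul' := fun c y => by
        funext im
        simp [Finset.mul_sum, mul_assoc] }
  have hcf : ∀ (y : W) (i : Fin n) (m : Fin (B + 1)), cf y (i, m) = (Py y i).coeff m := by
    intro y i m
    simp [cf, Py]
  -- integral coefficients give an integral numerator
  have key1 : ∀ y : W, (∀ im, cf y im ∈ A) → ∃ Q : Fin n → A[X],
      (∀ i, (Q i).map A.subtype = Py y i) ∧
      (y : LaurentSeries L) * iota A (evalA A s D) = iota A (num A s X Q) := by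
    intro y hy
    have hlift : ∀ i, Py y i ∈ Polynomial.lifts A.subtype := by
      intro i
      rw [Polynomial.lifts_iff_coeff_lifts]
      intro m
      by_cases hm : m < B + 1
      · have := hy (i, ⟨m, hm⟩)
        rw [hcf] at this
        exact ⟨⟨_, this⟩, rfl⟩
      · rw [Polynomial.coeff_eq_zero_of_natDegree_lt (by have := hPy_deg y i; omega)]
        exact ⟨0, rfl⟩
    choose Q hQ using fun i => (Polynomial.mem_lifts _).mp (hlift i)
    refine ⟨Q, hQ, ?_⟩
    rw [hPy y, iota_num]
    refine Finset.sum_congr rfl fun i _ => ?_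
    rw [hQ i]
  -- conversely
  have key2 : ∀ y : W, (y : LaurentSeries L) ∈ Ocal A → ∀ im, cf y im ∈ A := by
    intro y hyO
    by_cases hall : ∀ i, Py y i = 0
    · rintro ⟨i, m⟩
      rw [hcf, hall i, Polynomial.coeff_zero]
      exact A.zero_mem
    push Not at hall
    obtain ⟨c, Q, hc, hQ, hPQ⟩ := exists_primitive_family A (Py y) hall
    have hform : (y : LaurentSeries L) * iota A (evalA A s D) =
        HahnSeries.C c * iota A (num A s X Q) := by
      rw [hPy y, iota_num, Finset.mul_sum]
      refine Finset.sum_congr rfl fun i _ => ?_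
      rw [hPQ i, map_mul, aeval_C, algebraMap_LS_eq_C, mul_assoc]
    have hcA : c ∈ A :=
      (mem_Ocal_iff_of_form (rho_num_ne_zero A s X hs hX Q hQ) hρD hform).mp hyO
    rintro ⟨i, m⟩
    rw [hcf, hPQ i, Polynomial.coeff_C_mul, Polynomial.coeff_map]
    exact A.mul_mem _ _ hcA ((Q i).coeff m).2
  -- primitivity
  have key3 : ∀ y : W, y ≠ 0 → ∃ c : L, (∀ im, c * cf y im ∈ A) ∧
      ∃ im, A.valuation (c * cf y im) = 1 := by
    intro y hy0
    have hex : ∃ im, cf y im ≠ 0 := by
      by_contra hcon
      push Not at hcon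
      have hall : ∀ i, Py y i = 0 := by
        intro i
        ext m
        rw [Polynomial.coeff_zero]
        by_cases hm : m < B + 1
        · have := hcon (i, ⟨m, hm⟩)
          rwa [hcf] at this
        · exact Polynomial.coeff_eq_zero_of_natDegree_lt (by have := hPy_deg y i; omega)
      have h0 : (y : LaurentSeries L) * iota A (evalA A s D) = 0 := by
        rw [hPy y]
        exact Finset.sum_eq_zero fun i _ => by rw [hall i, map_zero, zero_mul]
      have h1 : (y : LaurentSeries L) = 0 := (mul_eq_zero.mp h0).resolve_right hιD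
      exact hy0 (Subtype.ext h1)
    obtain ⟨im₀, hne, hdiv⟩ := exists_content A (fun im => cf y im) hex
    refine ⟨(cf y im₀)⁻¹, fun im => ?_, im₀, ?_⟩
    · have := hdiv im
      rwa [div_eq_inv_mul] at this
    · rw [inv_mul_cancel₀ hne, map_one]
  obtain ⟨b, hb1, hb2, hb3⟩ := Fermat.Agent.Lib.EchelonLattice.exists_basis_echelon A cf key3
  have hbO : ∀ i, (b i : LaurentSeries L) ∈ Ocal A := by
    intro i
    obtain ⟨Q, -, hQ⟩ := key1 (b i) (hb1 i)
    exact ⟨num A s X Q, evalA A s D, hρD, hQ⟩
  refine ⟨b, hbO, fun y hy => hb2 y (key2 y hy), ?_⟩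
  rw [Fintype.linearIndependent_iff]
  intro g hg i₀
  choose a ha using fun i => IsLocalRing.residue_surjective (g i)
  set y : W := ∑ i, (a i : L) • b i with hy
  have hcfy : ∀ im, cf y im = ∑ i, (a i : L) * cf (b i) im := by
    intro im
    rw [hy, map_sum, Finset.sum_apply]
    refine Finset.sum_congr rfl fun i _ => ?_
    rw [map_smul, Pi.smul_apply, smul_eq_mul]
  have hcfA : ∀ im, cf y im ∈ A := by
    intro im
    rw [hcfy]
    exact sum_mem fun i _ => A.mul_mem _ _ (a i).2 (hb1 i im)
  obtain ⟨Q, hQ1, hQ2⟩ := key1 y hcfA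
  have hyO : (y : LaurentSeries L) ∈ Ocal A := ⟨num A s X Q, evalA A s D, hρD, hQ2⟩
  have hred1 : red A ⟨(y : LaurentSeries L), hyO⟩ = rho A (num A s X Q) / rho A (evalA A s D) :=
    red_mk_eq A _ hyO _ _ hρD hQ2
  have hred2 : red A ⟨(y : LaurentSeries L), hyO⟩ = 0 := by
    have h1 : (⟨(y : LaurentSeries L), hyO⟩ : Ocal A) =
        ∑ i, constO A (a i) * ⟨(b i : LaurentSeries L), hbO i⟩ := by
      apply Subtype.ext
      rw [AddSubmonoidClass.coe_finsetSum, AddSubmonoidClass.coe_finsetSum]
      refine Finset.sum_congr rfl fun i _ => ?_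
      rw [Submodule.coe_smul, Subring.coe_mul, coe_constO, HahnSeries.C_mul_eq_smul]
    rw [h1, map_sum, ← hg]
    refine Finset.sum_congr rfl fun i _ => ?_
    rw [map_mul, red_constO, ha i, HahnSeries.C_mul_eq_smul]
  have hnum : rho A (num A s X Q) = 0 := by
    rw [hred1, div_eq_zero_iff] at hred2
    exact hred2.resolve_right hρD
  have hQ0 : ∀ i, (Q i).map (IsLocalRing.residue A) = 0 := by
    by_contra hcon
    push Not at hcon
    exact rho_num_ne_zero A s X hs hX Q hcon hnum
  have hval : ∀ im, A.valuation (∑ i, (a i : L) * cf (b i) im) < 1 := by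
    rintro ⟨i, m⟩
    rw [← hcfy, hcf, ← hQ1 i, Polynomial.coeff_map]
    have h1 : IsLocalRing.residue A ((Q i).coeff m) = 0 := by
      have := congrArg (fun p => p.coeff (m : ℕ)) (hQ0 i)
      simpa [Polynomial.coeff_map] using this
    exact (A.valuation_lt_one_iff _).mp ((IsLocalRing.residue_eq_zero_iff _).mp h1)
  have h2 := hb3 (fun i => (a i : L)) (fun i => (a i).2) hval i₀
  rw [← ha i₀]
  exact (IsLocalRing.residue_eq_zero_iff _).mpr ((A.valuation_lt_one_iff _).mpr h2)

end Dim

section DimField

variable {L : Type*} [Field L] [Algebra ℚ L] (A : ValuationSubring L) (N : ℕ) [NeZero N]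
  (ℓ : ℕ) [Fact ℓ.Prime] [CharP (IsLocalRing.ResidueField A) ℓ] (hℓN : ¬ ℓ ∣ N)

include hℓN in
/-- **(Dim).** Every finite-dimensional `L`-subspace `W` of the function field `F` of `X₀(N)` has
an `L`-basis `b` with `b i ∈ Ocal A`, such that the coordinates of every `y ∈ W ∩ Ocal` lie in
`A`, and with `k`-linearly independent reductions. -/
theorem exists_basis_red_indep (W : Submodule L (LaurentSeries L)) [FiniteDimensional L W]
    (hW : ∀ y ∈ W, y ∈ laurentBaseChange L (modularFunctionFieldFull N)) :
    ∃ (b : Module.Basis (Fin (Module.finrank L W)) L W)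
      (hb : ∀ i, (b i : LaurentSeries L) ∈ Ocal A),
      (∀ y : W, (y : LaurentSeries L) ∈ Ocal A → ∀ i, b.repr y i ∈ A) ∧
      LinearIndependent (IsLocalRing.ResidueField A)
        (fun i => red A ⟨(b i : LaurentSeries L), hb i⟩) := by
  obtain ⟨X, hmem, hind⟩ := Fermat.Agent.S28.IndepOverField.hasIndepLifts_over N ℓ hℓN
    (IsLocalRing.ResidueField A)
  exact exists_basis_red_indep_of_span A (jqModC A) (XA A X) (transcendental_rho_jA A)
    (linearIndependent_rho_XA A N X hind) W
    (fun y hy => mem_spanV_of_mem A N X hmem hind (hW y hy))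

end DimField

end Fermat.Agent.S18.Content
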