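import Mathlib
import Fermat.Agent.S18.Plan
import Fermat.Agent.S18.ContentDim

/-!
# S18 — [RED]: the Plan contracts `RedStmt` and `UnitDiv` (helper49)

* `redStmt n ℓ hℓ A hA : Plan.RedStmt A n`
* `unitDiv N ℓ hℓ A hA h0 : Plan.UnitDiv A N` (with `h0 : Plan.Char0Stmt N`)
-/

set_option autoImplicit false

namespace Fermat.Agent.S18.Red

open ModularCurve AlgebraicCurve Fermat.Agent.S24 Fermat.Agent.S18.Content Fermat.Agent.S18

set_option synthInstance.maxHeartbeats 400000 in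
set_option maxHeartbeats 1000000 in
/-- **[RED]** the content valuation at level `n`. -/
theorem redStmt (n : ℕ) [NeZero n] (ℓ : ℕ) [Fact ℓ.Prime] (hℓ : ¬ ℓ ∣ n)
    (A : ValuationSubring Kbar) (hA : A.LiesOverPrime ℓ) : Plan.RedStmt A n := by
  have : CharP (IsLocalRing.ResidueField A) ℓ := charP_residueField_of_liesOverPrime A ℓ hA
  refine ⟨?_, ?_, ?_, ?_, ?_⟩
  · intro y hy hy0
    obtain ⟨c, e, hc, -, ⟨he, hred, -⟩, hye⟩ := exists_content_unit A n ℓ hℓ hy hy0
    have h1 : HahnSeries.C c⁻¹ * y = e := by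
      rw [hye, ← mul_assoc, C_mul_C_inv hc, one_mul]
    have h2 : HahnSeries.C c⁻¹ * y ∈ Ocal A := by rw [h1]; exact he
    refine ⟨c⁻¹, inv_ne_zero hc, h2, ?_⟩
    rw [red_congr A h1 h2 he]
    exact hred
  · intro y hy
    exact red_mem_fullC A n ℓ hℓ hy y.2
  · intro x hx
    obtain ⟨y, hy, hyO, h⟩ := exists_red_eq A n hx
    exact ⟨⟨y, hyO⟩, hy, h⟩
  · intro W hW hfin
    have : FiniteDimensional Kbar W := hfin
    obtain ⟨b, hb, -, hli⟩ := exists_basis_red_indep A n ℓ hℓ W hW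
    refine ⟨Module.finrank Kbar W, fun i => ⟨(b i : Plan.Om), hb i⟩, ?_, hli⟩
    have h1 : (Set.range fun i => ((b i : W) : Plan.Om)) = W.subtype '' Set.range b := by
      rw [← Set.range_comp]
      rfl
    show Submodule.span Kbar (Set.range fun i => ((b i : W) : Plan.Om)) = W
    rw [h1, ← Submodule.map_span, b.span_eq, Submodule.map_subtype_top]
  · intro y hy hred
    obtain ⟨y₁, y₂, h₁, h₂, hk₁, hk₂, hne₁, hne₂, hmul, -⟩ :=
      exists_integral_ratio A n ℓ hℓ hy y.2 hred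
    exact ⟨y₁, y₂, h₁, h₂, hk₁, hk₂, hne₁, hne₂, hmul⟩

set_option synthInstance.maxHeartbeats 400000 in
set_option maxHeartbeats 1000000 in
/-- **[RED] (B5)** `r_* div(y) = div(ȳ)` for every `v`-unit `y`. -/
theorem unitDiv (N : ℕ) [NeZero N] (ℓ : ℕ) [Fact ℓ.Prime] (hℓ : ¬ ℓ ∣ N)
    (A : ValuationSubring Kbar) (hA : A.LiesOverPrime ℓ) (h0 : Plan.Char0Stmt N) :
    Plan.UnitDiv A N := by
  have : CharP (IsLocalRing.ResidueField A) ℓ := charP_residueField_of_liesOverPrime A ℓ hA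
  intro r hr y hy hyk hred D hD Q
  have hdiv : ∀ f : laurentBaseChange Kbar (modularFunctionFieldFull N), f ≠ 0 →
      ∃ D : Divisor Kbar (laurentBaseChange Kbar (modularFunctionFieldFull N)),
        ∀ P, D P = P.ord f := by
    intro f hf
    obtain ⟨D, hD, -⟩ := h0.2.1 f hf
    exact ⟨D, hD⟩
  exact mapDomain_ord_of_unit A N ℓ r hr hdiv hℓ y.2 hy hred D hD Q

end Fermat.Agent.S18.Red
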