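/-
S18 / [ORTHO] (helper5): orthonormal bases for an extension of valued fields without defect.

Setting: fields `F ⊆ F'` (finite), valuation subrings `O ⊆ F`, `O' ⊆ F'` with `O ⊆ O'`,
"reduction" ring homs `red : O → κ`, `red' : O' → κ'` onto fields `κ ⊆ κ'` (compatible, `red` kills
the nonunits of `O`), and **no defect**: `[κ' : κ] = [F' : F]`.

* `exists_lift_basis` : there is `w : Fin d → O'` whose reductions form a `κ`-basis of `κ'`.
* `linearIndependent_of_red` : such a `w` is `F`-linearly independent, hence an `F`-basis of `F'`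
  (`basisOf`).
* `coeff_mem_of_mem` : `Σ cᵢ wᵢ ∈ O'` iff all `cᵢ ∈ O`.
* `exists_matrix` : for `g ∈ O'` the matrix of multiplication by `g` in the basis `w` has entries
  in `O` and reduces to the matrix of multiplication by `red' g` in the basis `red' w`.
* `exists_charpoly` : the characteristic polynomial of `g` over `F` has coefficients in `O` and
  reduces to the characteristic polynomial of `red' g` over `κ`;
  `exists_charpoly_of_red_eq_one` : it reduces to `(X - 1) ^ d` if `red' g = 1`.
-/
import Mathlib

set_option autoImplicit false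

namespace Fermat.Agent.S18.OrthoBasis

open Polynomial

variable {F F' : Type*} [Field F] [Field F'] [Algebra F F']
  {κ κ' : Type*} [Field κ] [Field κ'] [Algebra κ κ']

/-- A pair of valuation subrings `O ⊆ O'` of `F ⊆ F'` with compatible reductions onto `κ ⊆ κ'`
and without defect. -/
structure Setup (O : ValuationSubring F) (O' : ValuationSubring F') (red : O →+* κ)
    (red' : O' →+* κ') : Prop where
  /-- `O ⊆ O'`. -/
  incl : ∀ x : O, algebraMap F F' (x : F) ∈ O'
  /-- `red` kills the nonunits of `O`. -/
  red_nonunit : ∀ x : O, ¬ IsUnit x → red x = 0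
  /-- `red'` extends `red`. -/
  compat : ∀ x : O, red' ⟨algebraMap F F' (x : F), incl x⟩ = algebraMap κ κ' (red x)
  /-- `red'` is onto. -/
  surj' : Function.Surjective red'
  /-- the extension is finite. -/
  finrank_pos : 0 < Module.finrank F F'
  /-- no defect. -/
  finrank_eq : Module.finrank κ κ' = Module.finrank F F'

namespace Setup

variable {O : ValuationSubring F} {O' : ValuationSubring F'} {red : O →+* κ}
  {red' : O' →+* κ'} (S : Setup O O' red red')

include S

/-- The inclusion `O → O'`. -/
def inclHom : O →+* O' where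
  toFun x := ⟨algebraMap F F' (x : F), S.incl x⟩
  map_one' := by ext; simp
  map_mul' x y := by ext; simp
  map_zero' := by ext; simp
  map_add' x y := by ext; simp

@[simp] theorem coe_inclHom (x : O) : ((S.inclHom x : O') : F') = algebraMap F F' (x : F) := rfl

theorem red'_inclHom (x : O) : red' (S.inclHom x) = algebraMap κ κ' (red x) := S.compat x

omit [Algebra F F'] [Field κ] [Field κ'] [Algebra κ κ'] S in
/-- Among finitely many elements of `F`, not all zero, one divides all the others in `O`. -/
theorem exists_max {ι : Type*} [Finite ι] (c : ι → F) (i₀ : ι) (h0 : c i₀ ≠ 0) :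
    ∃ j, c j ≠ 0 ∧ (∀ i, c i / c j ∈ O) ∧ (c i₀ / c j ∈ O) := by
  classical
  cases nonempty_fintype ι
  obtain ⟨j, -, hj⟩ := Finset.exists_max_image Finset.univ (fun i => O.valuation (c i))
    ⟨i₀, Finset.mem_univ _⟩
  have hj0 : c j ≠ 0 := by
    intro h
    have h1 := hj i₀ (Finset.mem_univ _)
    rw [h, map_zero] at h1
    exact h0 ((map_eq_zero _).mp (le_antisymm h1 zero_le))
  have key : ∀ i, c i / c j ∈ O := by
    intro i
    rw [← O.valuation_le_one_iff, map_div₀]
    exact div_le_one_of_le₀ (hj i (Finset.mem_univ _)) zero_le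
  exact ⟨j, hj0, key, key i₀⟩

/-- Lifts of a `κ`-basis of `κ'` are linearly independent over `F`. -/
theorem linearIndependent_of_red {ι : Type*} [Finite ι] (w : ι → O')
    (hw : LinearIndependent κ (fun i => red' (w i))) :
    LinearIndependent F (fun i => ((w i : O') : F')) := by
  classical
  cases nonempty_fintype ι
  rw [Fintype.linearIndependent_iff]
  intro c hc
  by_contra hne
  obtain ⟨i₀, hi₀⟩ := not_forall.mp hne
  obtain ⟨j, hj0, hj, -⟩ := exists_max (O := O) c i₀ hi₀
  -- the scaled relation in `O'`
  have hrel : ∑ i, S.inclHom ⟨c i / c j, hj i⟩ * w i = 0 := by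
    apply Subtype.ext
    have : (∑ i, (c i / c j) • ((w i : O') : F')) = 0 := by
      have h1 : (∑ i, (c i / c j) • ((w i : O') : F')) = (c j)⁻¹ • ∑ i, c i • ((w i : O') : F') := by
        rw [Finset.smul_sum]
        refine Finset.sum_congr rfl fun i _ => ?_
        rw [smul_smul, div_eq_inv_mul]
      rw [h1, hc, smul_zero]
    rw [AddSubmonoidClass.coe_finsetSum, ZeroMemClass.coe_zero, ← this]
    refine Finset.sum_congr rfl fun i _ => ?_
    rw [MulMemClass.coe_mul, coe_inclHom, Algebra.smul_def]
  have hrel' := congrArg red' hrel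
  rw [map_sum, map_zero] at hrel'
  simp only [map_mul, S.red'_inclHom] at hrel'
  have hrel'' : ∑ i, red ⟨c i / c j, hj i⟩ • red' (w i) = 0 := by
    rw [← hrel']
    exact Finset.sum_congr rfl fun i _ => by rw [Algebra.smul_def]
  have := (Fintype.linearIndependent_iff.mp hw) _ hrel'' j
  have h1 : (⟨c j / c j, hj j⟩ : O) = 1 := by
    ext; simp [div_self hj0]
  rw [h1, map_one] at this
  exact one_ne_zero this

/-- If `Σ cᵢ wᵢ ∈ O'` for lifts `w` of a `κ`-basis of `κ'`, then all `cᵢ ∈ O`. -/
theorem coeff_mem_of_mem {ι : Type*} [Finite ι] (w : ι → O')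
    (hw : LinearIndependent κ (fun i => red' (w i))) [Fintype ι] (c : ι → F) (x : O')
    (hx : (x : F') = ∑ i, c i • ((w i : O') : F')) (i : ι) : c i ∈ O := by
  classical
  by_contra hi
  have hi0 : c i ≠ 0 := by
    rintro h
    exact hi (h ▸ O.zero_mem)
  obtain ⟨j, hj0, hj, hij⟩ := exists_max (O := O) c i hi0
  -- `c j ∉ O`
  have hjO : c j ∉ O := by
    intro h
    apply hi
    have : c i = c i / c j * c j := by field_simp
    rw [this]
    exact O.mul_mem _ _ hij h
  have hinv : (c j)⁻¹ ∈ O := (O.mem_or_inv_mem (c j)).resolve_left hjO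
  have hnu : ¬ IsUnit (⟨(c j)⁻¹, hinv⟩ : O) := by
    rintro ⟨u, hu⟩
    apply hjO
    have h1 : ((u⁻¹ : Oˣ) : O) * ⟨(c j)⁻¹, hinv⟩ = 1 := by rw [← hu]; simp
    have h2 : (((u⁻¹ : Oˣ) : O) : F) * (c j)⁻¹ = 1 := by
      have := congrArg (fun z : O => (z : F)) h1
      simpa using this
    have h3 : (((u⁻¹ : Oˣ) : O) : F) = c j := by
      field_simp at h2
      exact h2
    rw [← h3]
    exact ((u⁻¹ : Oˣ) : O).2
  have hrel : x * S.inclHom ⟨(c j)⁻¹, hinv⟩ = ∑ i, S.inclHom ⟨c i / c j, hj i⟩ * w i := by
    apply Subtype.ext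
    have : (x : F') * algebraMap F F' (c j)⁻¹ = ∑ i, (c i / c j) • ((w i : O') : F') := by
      rw [hx, Finset.sum_mul]
      refine Finset.sum_congr rfl fun i _ => ?_
      rw [Algebra.smul_def, Algebra.smul_def, div_eq_mul_inv, map_mul]
      ring
    rw [MulMemClass.coe_mul, coe_inclHom, this, AddSubmonoidClass.coe_finsetSum]
    refine Finset.sum_congr rfl fun i _ => ?_
    rw [MulMemClass.coe_mul, coe_inclHom, Algebra.smul_def]
  have hrel' := congrArg red' hrel
  rw [map_mul, S.red'_inclHom, S.red_nonunit _ hnu, map_zero, mul_zero, map_sum] at hrel'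
  simp only [map_mul, S.red'_inclHom] at hrel'
  have hrel'' : ∑ i, red ⟨c i / c j, hj i⟩ • red' (w i) = 0 := by
    rw [hrel']
    exact Finset.sum_congr rfl fun i _ => by rw [Algebra.smul_def]
  have := (Fintype.linearIndependent_iff.mp hw) _ hrel'' j
  have h1 : (⟨c j / c j, hj j⟩ : O) = 1 := by
    ext; simp [div_self hj0]
  rw [h1, map_one] at this
  exact one_ne_zero this

/-- **(O1)** There are lifts `w : Fin d → O'` of a `κ`-basis of `κ'`, `d = [F' : F]`. -/
theorem exists_lift_basis :
    ∃ (w : Fin (Module.finrank F F') → O') (bb : Module.Basis (Fin (Module.finrank F F')) κ κ'),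
      ∀ i, bb i = red' (w i) := by
  have hfin : Module.Finite κ κ' :=
    Module.finite_of_finrank_pos (S.finrank_eq ▸ S.finrank_pos)
  let b0 := (Module.finBasis κ κ').reindex (finCongr S.finrank_eq)
  choose w hw using fun i => S.surj' (b0 i)
  exact ⟨w, b0, fun i => (hw i).symm⟩

/-- **(O2)** The `F`-basis of `F'` given by lifts of a `κ`-basis of `κ'`. -/
noncomputable def basisOf (w : Fin (Module.finrank F F') → O')
    (bb : Module.Basis (Fin (Module.finrank F F')) κ κ') (hw : ∀ i, bb i = red' (w i)) :
    Module.Basis (Fin (Module.finrank F F')) F F' :=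
  haveI : Nonempty (Fin (Module.finrank F F')) := ⟨⟨0, S.finrank_pos⟩⟩
  basisOfLinearIndependentOfCardEqFinrank
    (S.linearIndependent_of_red w (by
      have := bb.linearIndependent
      have e : (fun i => red' (w i)) = bb := funext fun i => (hw i).symm
      rw [e]; exact this))
    (by simp)

@[simp] theorem basisOf_apply (w : Fin (Module.finrank F F') → O')
    (bb : Module.Basis (Fin (Module.finrank F F')) κ κ') (hw : ∀ i, bb i = red' (w i))
    (i : Fin (Module.finrank F F')) : S.basisOf w bb hw i = ((w i : O') : F') := by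
  simp [basisOf]

/-- **(O2)** Coordinates of elements of `O'` in the basis `w` lie in `O`. -/
theorem repr_mem (w : Fin (Module.finrank F F') → O')
    (bb : Module.Basis (Fin (Module.finrank F F')) κ κ') (hw : ∀ i, bb i = red' (w i))
    (x : O') (i : Fin (Module.finrank F F')) : (S.basisOf w bb hw).repr (x : F') i ∈ O := by
  have hli : LinearIndependent κ (fun i => red' (w i)) := by
    have e : (fun i => red' (w i)) = bb := funext fun i => (hw i).symm
    rw [e]; exact bb.linearIndependent
  refine S.coeff_mem_of_mem w hli (fun i => (S.basisOf w bb hw).repr (x : F') i) x ?_ i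
  conv_lhs => rw [← (S.basisOf w bb hw).sum_repr (x : F')]
  exact Finset.sum_congr rfl fun i _ => by rw [basisOf_apply]

/-- **(O2)** conversely, `O`-combinations of the `w i` lie in `O'`. -/
theorem sum_mem (w : Fin (Module.finrank F F') → O') (c : Fin (Module.finrank F F') → O) :
    ∑ i, (c i : F) • ((w i : O') : F') ∈ O' := by
  have : ∑ i, (c i : F) • ((w i : O') : F') = ((∑ i, S.inclHom (c i) * w i : O') : F') := by
    rw [AddSubmonoidClass.coe_finsetSum]
    exact Finset.sum_congr rfl fun i _ => by
      rw [MulMemClass.coe_mul, coe_inclHom, Algebra.smul_def]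
  rw [this]
  exact (∑ i, S.inclHom (c i) * w i : O').2

/-- **(O3)** For `g ∈ O'` the matrix of multiplication by `g` in the basis `w` has entries in `O`
and reduces to the matrix of multiplication by `red' g` in the basis `red' w`. -/
theorem exists_matrix (w : Fin (Module.finrank F F') → O')
    (bb : Module.Basis (Fin (Module.finrank F F')) κ κ') (hw : ∀ i, bb i = red' (w i))
    (g : O') :
    ∃ M : Matrix (Fin (Module.finrank F F')) (Fin (Module.finrank F F')) O,
      Algebra.leftMulMatrix (S.basisOf w bb hw) (g : F') = M.map O.subtype ∧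
      Algebra.leftMulMatrix bb (red' g) = M.map red := by
  set b := S.basisOf w bb hw with hb
  let M : Matrix (Fin (Module.finrank F F')) (Fin (Module.finrank F F')) O := fun i j =>
    ⟨b.repr (((g * w j : O') : F')) i, S.repr_mem w bb hw (g * w j) i⟩
  have hM : ∀ i j, ((M i j : O) : F) = b.repr ((g : F') * b j) i := by
    intro i j
    simp only [M, hb, basisOf_apply, MulMemClass.coe_mul]
  refine ⟨M, ?_, ?_⟩
  · ext i j
    rw [Algebra.leftMulMatrix_eq_repr_mul, Matrix.map_apply, ← hM]
    rfl
  · -- the relation `g * w j = Σ M i j * w i` in `O'`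
    have hrel : ∀ j, g * w j = ∑ i, S.inclHom (M i j) * w i := by
      intro j
      apply Subtype.ext
      rw [AddSubmonoidClass.coe_finsetSum]
      have h1 := b.sum_repr (((g * w j : O') : F'))
      rw [← h1]
      refine Finset.sum_congr rfl fun i _ => ?_
      have e1 : ((S.inclHom (M i j) * w i : O') : F') =
          algebraMap F F' ((M i j : O) : F) * ((w i : O') : F') := rfl
      have e2 : ((M i j : O) : F) = b.repr (((g * w j : O') : F')) i := rfl
      have e3 : b i = ((w i : O') : F') := by rw [hb, basisOf_apply]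
      rw [e1, e2, e3, Algebra.smul_def]
    ext i j
    rw [Algebra.leftMulMatrix_eq_repr_mul, Matrix.map_apply, hw j, ← map_mul, hrel j, map_sum]
    have h2 : ∑ x, red' (S.inclHom (M x j) * w x) = ∑ x, red (M x j) • bb x := by
      refine Finset.sum_congr rfl fun x _ => ?_
      rw [map_mul, S.red'_inclHom, Algebra.smul_def, hw x]
    rw [h2, Module.Basis.repr_sum_self]

/-- **(O4)**, matrix form: the characteristic polynomial of `g ∈ O'` in the basis `w` has
coefficients in `O` and reduces to the characteristic polynomial of `red' g`. -/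
theorem exists_charpoly_matrix (w : Fin (Module.finrank F F') → O')
    (bb : Module.Basis (Fin (Module.finrank F F')) κ κ') (hw : ∀ i, bb i = red' (w i))
    (g : O') :
    ∃ P : O[X], P.Monic ∧ P.natDegree = Module.finrank F F' ∧
      (Algebra.leftMulMatrix (S.basisOf w bb hw) (g : F')).charpoly = P.map O.subtype ∧
      (Algebra.leftMulMatrix bb (red' g)).charpoly = P.map red := by
  obtain ⟨M, h1, h2⟩ := S.exists_matrix w bb hw g
  refine ⟨M.charpoly, M.charpoly_monic, ?_, ?_, ?_⟩
  · rw [Matrix.charpoly_natDegree_eq_dim, Fintype.card_fin]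
  · rw [h1, Matrix.charpoly_map]
  · rw [h2, Matrix.charpoly_map]

/-- **(O4)** The characteristic polynomial of (multiplication by) `g ∈ O'` over `F` has
coefficients in `O` and reduces to the characteristic polynomial of `red' g` over `κ`. -/
theorem exists_charpoly [Module.Finite F F'] [Module.Finite κ κ'] (g : O') :
    ∃ P : O[X], P.Monic ∧ P.natDegree = Module.finrank F F' ∧
      LinearMap.charpoly (Algebra.lmul F F' (g : F')) = P.map O.subtype ∧
      LinearMap.charpoly (Algebra.lmul κ κ' (red' g)) = P.map red := by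
  obtain ⟨w, bb, hw⟩ := S.exists_lift_basis
  obtain ⟨P, hm, hd, h1, h2⟩ := S.exists_charpoly_matrix w bb hw g
  refine ⟨P, hm, hd, ?_, ?_⟩
  · rw [← h1, Algebra.leftMulMatrix_apply, LinearMap.charpoly_toMatrix]
  · rw [← h2, Algebra.leftMulMatrix_apply, LinearMap.charpoly_toMatrix]

/-- **(O4)** If `red' g = 1`, the characteristic polynomial of `g` over `F` has coefficients in
`O` and reduces to `(X - 1) ^ d`, `d = [F' : F]`. -/
theorem exists_charpoly_of_red_eq_one [Module.Finite F F'] (g : O') (hg : red' g = 1) :
    ∃ P : O[X], P.Monic ∧ P.natDegree = Module.finrank F F' ∧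
      LinearMap.charpoly (Algebra.lmul F F' (g : F')) = P.map O.subtype ∧
      P.map red = (X - C 1) ^ Module.finrank F F' := by
  obtain ⟨w, bb, hw⟩ := S.exists_lift_basis
  obtain ⟨P, hm, hd, h1, h2⟩ := S.exists_charpoly_matrix w bb hw g
  refine ⟨P, hm, hd, ?_, ?_⟩
  · rw [← h1, Algebra.leftMulMatrix_apply, LinearMap.charpoly_toMatrix]
  · rw [← h2, hg, map_one, Matrix.charpoly_one, Fintype.card_fin, C_1]

/-- Consumer form of (O4): if `red' g = 1`, every coefficient `a` of the characteristic polynomial
of `g` over `F` lies in `O`, and the coefficient of `X ^ k` reduces to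
`(-1) ^ (d - k) * C(d, k)`. -/
theorem coeff_charpoly_of_red_eq_one [Module.Finite F F'] (g : O') (hg : red' g = 1) (k : ℕ) :
    ∃ a : O, (LinearMap.charpoly (Algebra.lmul F F' (g : F'))).coeff k = (a : F) ∧
      red a = (-1) ^ (Module.finrank F F' - k) * ((Module.finrank F F').choose k : κ) := by
  obtain ⟨P, -, -, h1, h2⟩ := S.exists_charpoly_of_red_eq_one g hg
  refine ⟨P.coeff k, ?_, ?_⟩
  · rw [h1, coeff_map]; rfl
  · have := congrArg (fun Q : κ[X] => Q.coeff k) h2
    simp only [coeff_map] at this
    rw [this, show (X - C (1 : κ)) = X + C (-1) by rw [C_neg, sub_eq_add_neg],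
      coeff_X_add_C_pow]

end Setup

end Fermat.Agent.S18.OrthoBasis
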