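/-
S18 / [ORTHO], second file (helper5): the two consumers of `OrthoBasis` in generic form.

* (S2) `Setup.isIntegral_red'`, `Setup.isIntegral_mul_red'`: for `g ∈ O'`, if the reductions of
  the coefficients of the characteristic polynomial of `g` over `F` are integral over a ring `R`
  (resp. become integral after the weighted scaling by `u ^ i`), then `red' g` (resp.
  `u * red' g`) is integral over `R`.
* (S3) `Setup.exists_pow_coeff_ne_zero`: if `red' g = 1` and the residue field has characteristic
  `l`, then for `l ^ b ∥ d = [F' : F]` the coefficient of `X ^ (d - l ^ b)` of the characteristic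
  polynomial of `g` is non-zero (Lucas); `Setup.descent`: the resulting descent in a group.
-/
import Mathlib
import Fermat.Agent.S18.OrthoBasis

set_option autoImplicit false

namespace Fermat.Agent.S18.OrthoDesc

open Polynomial

/-! ### Roots of monic polynomials with integral coefficients -/

/-- A root of a monic polynomial whose coefficients are integral over `R` is integral over `R`. -/
theorem isIntegral_of_monic_root {R A : Type*} [CommRing R] [CommRing A] [Algebra R A]
    (P : A[X]) (hP : P.Monic) (hc : ∀ k, IsIntegral R (P.coeff k)) (y : A) (hy : P.eval y = 0) :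
    IsIntegral R y := by
  have hl : P ∈ lifts (algebraMap (integralClosure R A) A) := by
    rw [lifts_iff_coeff_lifts]
    intro n
    exact ⟨⟨P.coeff n, hc n⟩, rfl⟩
  obtain ⟨Q, hQ, -, hQm⟩ := lifts_and_natDegree_eq_and_monic hl hP
  have h1 : IsIntegral (integralClosure R A) y := by
    refine ⟨Q, hQm, ?_⟩
    rw [← eval_map, hQ]
    exact hy
  exact isIntegral_trans y h1

/-- Weighted version: if `y` is a root of the monic `P` of degree `d` and the elements
`coeff P k * u ^ (d - k)` are integral over `R`, then `u * y` is integral over `R`. -/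
theorem isIntegral_mul_of_monic_root {R A : Type*} [CommRing R] [CommRing A] [Algebra R A]
    (P : A[X]) (hP : P.Monic) (u : A)
    (hc : ∀ k, IsIntegral R (P.coeff k * u ^ (P.natDegree - k))) (y : A) (hy : P.eval y = 0) :
    IsIntegral R (u * y) := by
  refine isIntegral_of_monic_root (P.scaleRoots u) ((monic_scaleRoots_iff u).mpr hP)
    (fun k => by rw [coeff_scaleRoots]; exact hc k) (u * y) ?_
  have h := scaleRoots_eval₂_eq_zero (RingHom.id A) (r := y) (s := u) (p := P)
    (by rw [eval₂_id]; exact hy)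
  rw [eval₂_id] at h
  exact h

/-! ### Lucas -/

/-- Lucas: if `l ^ b ∥ d` then `l ∤ C(d, l ^ b)`. -/
theorem not_dvd_choose_pow_mul (l : ℕ) [Fact l.Prime] (b m : ℕ) (hm : ¬ l ∣ m) :
    ¬ l ∣ (l ^ b * m).choose (l ^ b) := by
  have hl : l.Prime := Fact.out
  induction b with
  | zero => simpa using hm
  | succ b ih =>
    have h := Choose.choose_modEq_choose_mod_mul_choose_div_nat (n := l ^ (b + 1) * m)
      (k := l ^ (b + 1)) (p := l)
    have e1 : l ^ (b + 1) * m = l * (l ^ b * m) := by ring
    have e2 : l ^ (b + 1) = l * l ^ b := by ring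
    rw [e1, e2, Nat.mul_mod_right, Nat.mul_mod_right, Nat.mul_div_cancel_left _ hl.pos,
      Nat.mul_div_cancel_left _ hl.pos, Nat.choose_zero_right, one_mul] at h
    intro hdvd
    apply ih
    rw [e1, e2] at hdvd
    exact (Nat.modEq_zero_iff_dvd.mp (h.symm.trans (Nat.modEq_zero_iff_dvd.mpr hdvd)))

/-- For `d > 0` there is `b` with `l ^ b ∣ d` and `l ∤ C(d, l ^ b)`. -/
theorem exists_pow_dvd_not_dvd_choose (l d : ℕ) [Fact l.Prime] (hd : 0 < d) :
    ∃ b, l ^ b ∣ d ∧ 0 < l ^ b ∧ ¬ l ∣ d.choose (l ^ b) := by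
  have hl : l.Prime := Fact.out
  obtain ⟨b, m, hm, rfl⟩ := Nat.exists_eq_pow_mul_and_not_dvd hd.ne' l hl.ne_one
  exact ⟨b, dvd_mul_right _ _, pow_pos hl.pos _, not_dvd_choose_pow_mul l b m hm⟩

/-- In an additive group: if `l ^ b • D` and `m • D` lie in a subgroup and `l ∤ m`, so does `D`. -/
theorem mem_of_pow_nsmul_mem {G : Type*} [AddCommGroup G] (H : AddSubgroup G) (D : G)
    (l b m : ℕ) [Fact l.Prime] (hm : ¬ l ∣ m) (h1 : (l ^ b) • D ∈ H) (h2 : m • D ∈ H) : D ∈ H := by
  have hl : l.Prime := Fact.out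
  have hcop : Nat.Coprime (l ^ b) m := Nat.Coprime.pow_left b ((Nat.Prime.coprime_iff_not_dvd hl).mpr hm)
  have hb := Int.gcd_eq_gcd_ab ((l ^ b : ℕ) : ℤ) (m : ℤ)
  rw [Int.gcd_natCast_natCast, hcop] at hb
  have hD : D = (Int.gcdA ((l ^ b : ℕ) : ℤ) (m : ℤ)) • ((l ^ b) • D) +
      (Int.gcdB ((l ^ b : ℕ) : ℤ) (m : ℤ)) • (m • D) := by
    rw [← natCast_zsmul, ← natCast_zsmul, smul_smul, smul_smul, ← add_smul]
    have : (Int.gcdA ((l ^ b : ℕ) : ℤ) (m : ℤ)) * ((l ^ b : ℕ) : ℤ) +
        (Int.gcdB ((l ^ b : ℕ) : ℤ) (m : ℤ)) * (m : ℤ) = 1 := by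
      rw [mul_comm _ ((l ^ b : ℕ) : ℤ), mul_comm _ (m : ℤ)]
      exact_mod_cast hb.symm
    rw [this, one_smul]
  rw [hD]
  exact H.add_mem (H.zsmul_mem h1 _) (H.zsmul_mem h2 _)

/-! ### Consumers of `OrthoBasis.Setup` -/

open OrthoBasis

variable {F F' : Type*} [Field F] [Field F'] [Algebra F F']
  {κ κ' : Type*} [Field κ] [Field κ'] [Algebra κ κ']
  {O : ValuationSubring F} {O' : ValuationSubring F'} {red : O →+* κ} {red' : O' →+* κ'}

/-- `red' g` is a root of the reduction of the (integral) characteristic polynomial of `g`. -/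
theorem exists_charpoly_root (S : Setup O O' red red') [Module.Finite F F'] (g : O') :
    ∃ P : O[X], P.Monic ∧ P.natDegree = Module.finrank F F' ∧
      LinearMap.charpoly (Algebra.lmul F F' (g : F')) = P.map O.subtype ∧
      ((P.map red).map (algebraMap κ κ')).eval (red' g) = 0 := by
  have hfin : Module.Finite κ κ' :=
    Module.finite_of_finrank_pos (S.finrank_eq ▸ S.finrank_pos)
  obtain ⟨P, hm, hd, h1, h2⟩ := S.exists_charpoly g
  refine ⟨P, hm, hd, h1, ?_⟩
  have h3 := LinearMap.aeval_self_charpoly (Algebra.lmul κ κ' (red' g))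
  rw [h2] at h3
  have h4 : (aeval (Algebra.lmul κ κ' (red' g))) (P.map red) =
      Algebra.lmul κ κ' (aeval (red' g) (P.map red)) := by
    rw [← aeval_algHom_apply]
  rw [h4] at h3
  have h5 := congrArg (fun f : κ' →ₗ[κ] κ' => f 1) h3
  simp only [LinearMap.zero_apply] at h5
  rw [eval_map, ← aeval_def]
  simpa using h5

/-- **(S2), unweighted.** If the reductions of the coefficients of the characteristic polynomial of
`g ∈ O'` over `F` are integral over `R`, then `red' g` is integral over `R`. -/
theorem isIntegral_red' (S : Setup O O' red red') [Module.Finite F F'] {R : Type*} [CommRing R]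
    [Algebra R κ] [Algebra R κ'] [IsScalarTower R κ κ'] (g : O')
    (h : ∀ (i : ℕ) (a : O), i ≤ Module.finrank F F' →
      (LinearMap.charpoly (Algebra.lmul F F' (g : F'))).coeff (Module.finrank F F' - i) = (a : F) →
      IsIntegral R (red a)) :
    IsIntegral R (red' g) := by
  obtain ⟨P, hm, hd, h1, h2⟩ := exists_charpoly_root S g
  refine isIntegral_of_monic_root ((P.map red).map (algebraMap κ κ')) ((hm.map red).map _)
    (fun k => ?_) (red' g) h2
  rw [coeff_map, coeff_map]
  by_cases hk : k ≤ Module.finrank F F'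
  · have := h (Module.finrank F F' - k) (P.coeff k) (Nat.sub_le _ _)
      (by rw [Nat.sub_sub_self hk, h1, coeff_map]; rfl)
    exact this.map (IsScalarTower.toAlgHom R κ κ')
  · rw [coeff_eq_zero_of_natDegree_lt (by rw [hd]; exact not_le.mp hk), map_zero, map_zero]
    exact isIntegral_zero

/-- **(S2), weighted.** If for every `i` the reduction `ā_i` of the coefficient of `X ^ (d - i)` of
the characteristic polynomial of `g ∈ O'` over `F` is such that `u ^ i * ā_i` is integral over `R`,
then `u * red' g` is integral over `R`. -/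
theorem isIntegral_mul_red' (S : Setup O O' red red') [Module.Finite F F'] {R : Type*}
    [CommRing R] [Algebra R κ] [Algebra R κ'] [IsScalarTower R κ κ'] (u : κ) (g : O')
    (h : ∀ (i : ℕ) (a : O), i ≤ Module.finrank F F' →
      (LinearMap.charpoly (Algebra.lmul F F' (g : F'))).coeff (Module.finrank F F' - i) = (a : F) →
      IsIntegral R (u ^ i * red a)) :
    IsIntegral R (algebraMap κ κ' u * red' g) := by
  obtain ⟨P, hm, hd, h1, h2⟩ := exists_charpoly_root S g
  have hdeg : ((P.map red).map (algebraMap κ κ')).natDegree = Module.finrank F F' := by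
    rw [(hm.map red).natDegree_map (algebraMap κ κ'), hm.natDegree_map red, hd]
  refine isIntegral_mul_of_monic_root ((P.map red).map (algebraMap κ κ')) ((hm.map red).map _)
    (algebraMap κ κ' u) (fun k => ?_) (red' g) h2
  rw [coeff_map, coeff_map, hdeg]
  by_cases hk : k ≤ Module.finrank F F'
  · have := h (Module.finrank F F' - k) (P.coeff k) (Nat.sub_le _ _)
      (by rw [Nat.sub_sub_self hk, h1, coeff_map]; rfl)
    have h3 := this.map (IsScalarTower.toAlgHom R κ κ')
    rw [IsScalarTower.coe_toAlgHom', map_mul, map_pow, mul_comm] at h3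
    exact h3
  · rw [coeff_eq_zero_of_natDegree_lt (by rw [hd]; exact not_le.mp hk), map_zero, map_zero,
      zero_mul]
    exact isIntegral_zero

/-- **(S3), Lucas step.** If `red' g = 1` and `κ` has characteristic `l`, then for some `b` with
`l ^ b ∣ d = [F' : F]` the coefficient of `X ^ (d - l ^ b)` of the characteristic polynomial of `g`
over `F` is non-zero. -/
theorem exists_pow_coeff_ne_zero (S : Setup O O' red red') [Module.Finite F F'] (l : ℕ)
    [Fact l.Prime] [CharP κ l] (g : O') (hg : red' g = 1) :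
    ∃ b : ℕ, l ^ b ∣ Module.finrank F F' ∧ l ^ b ≤ Module.finrank F F' ∧
      (LinearMap.charpoly (Algebra.lmul F F' (g : F'))).coeff (Module.finrank F F' - l ^ b) ≠ 0 := by
  obtain ⟨b, hb, hpos, hnd⟩ := exists_pow_dvd_not_dvd_choose l _ S.finrank_pos
  have hle : l ^ b ≤ Module.finrank F F' := Nat.le_of_dvd S.finrank_pos hb
  refine ⟨b, hb, hle, ?_⟩
  obtain ⟨a, ha, hra⟩ := S.coeff_charpoly_of_red_eq_one g hg (Module.finrank F F' - l ^ b)
  rw [ha]
  intro h0
  have ha0 : a = 0 := Subtype.ext h0
  rw [ha0, map_zero, Nat.choose_symm hle] at hra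
  have h1 : ((Module.finrank F F').choose (l ^ b) : κ) ≠ 0 := by
    rw [Ne, CharP.cast_eq_zero_iff κ l]
    exact hnd
  exact (mul_ne_zero (pow_ne_zero _ (neg_ne_zero.mpr one_ne_zero)) h1) hra.symm

/-- **(S3), descent.** Let `g ∈ O'` with `red' g = 1`, `κ` of characteristic `l`. Let `D` be an
element of an additive group with `m • D ∈ H`, `l ∤ m`, and such that `i • D ∈ H` whenever the
coefficient of `X ^ (d - i)` of the characteristic polynomial of `g` is non-zero. Then `D ∈ H`. -/
theorem descent (S : Setup O O' red red') [Module.Finite F F'] (l : ℕ) [Fact l.Prime]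
    [CharP κ l] (g : O') (hg : red' g = 1) {G : Type*} [AddCommGroup G] (H : AddSubgroup G) (D : G)
    (m : ℕ) (hm : ¬ l ∣ m) (hmD : m • D ∈ H)
    (hcoeff : ∀ i : ℕ, 0 < i → i ≤ Module.finrank F F' →
      (LinearMap.charpoly (Algebra.lmul F F' (g : F'))).coeff (Module.finrank F F' - i) ≠ 0 →
      i • D ∈ H) : D ∈ H := by
  have hl : l.Prime := Fact.out
  obtain ⟨b, -, hle, hne⟩ := exists_pow_coeff_ne_zero S l g hg
  exact mem_of_pow_nsmul_mem H D l b m hm (hcoeff _ (pow_pos hl.pos _) hle hne) hmD

end Fermat.Agent.S18.OrthoDesc
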