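/-
S18, package [PULL] (helper27): transport of `S18/PullLocal.lean` to the vocabulary of
`S18/Plan.lean` (`Plan.pullRR`, `Plan.placeRing`, everything inside `Om = Q̄((q))`).

Convention for "`F_{N'}` over `F_N`" (helper5's): `hle : modularFunctionFieldBar N ≤
modularFunctionFieldBar N'` and `Ext hle := IntermediateField.extendScalars hle`, an intermediate
field of `Om / F_N` with carrier `F_{N'}`; all algebra structures are Mathlib's instances.
-/
import Mathlib
import Fermat.Agent.S18.Plan
import Fermat.Agent.S18.PullLocal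

set_option autoImplicit false

noncomputable section

namespace Fermat.Agent.S18.PullPlan

open ModularCurve AlgebraicCurve Fermat.Agent.S24 Fermat.Agent.S18 Fermat.Agent.S18.Plan
  Fermat.Agent.S18.Content Module

/-! ### Generic: integrality under a change of rings -/

/-- Integrality is insensitive to replacing the base ring by a surjective image and the algebra
by a bigger one. -/
theorem isIntegral_iff_of_surj_inj {R S B C : Type*} [CommRing R] [CommRing S] [CommRing B]
    [CommRing C] [Algebra R B] [Algebra S C] (φ : R →+* S) (hφ : Function.Surjective φ)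
    (ι : B →+* C) (hι : Function.Injective ι)
    (h : ∀ r, ι (algebraMap R B r) = algebraMap S C (φ r)) (y : B) :
    IsIntegral S (ι y) ↔ IsIntegral R y := by
  have hcomp : (algebraMap S C).comp φ = ι.comp (algebraMap R B) :=
    RingHom.ext fun r => (h r).symm
  constructor
  · rintro ⟨q, hq, hq0⟩
    obtain ⟨p, hpq, -, hp⟩ := Polynomial.lifts_and_natDegree_eq_and_monic
      ((Polynomial.mem_lifts q).mpr (Polynomial.map_surjective φ hφ q)) hq
    refine ⟨p, hp, hι ?_⟩
    rw [Polynomial.hom_eval₂, map_zero, ← hcomp, ← Polynomial.eval₂_map, hpq]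
    exact hq0
  · exact fun hy => IsIntegral.map_of_comp_eq φ ι hcomp hy

section Generic

variable {K F F' Ω : Type*} [Field K] [Field F] [Field F'] [Field Ω] [Algebra K F]
  [Algebra F F'] (ι : F' →+* Ω)

/-- The valuation ring of a place onto a subring of the big field which is its image. -/
def toImage (P : Place K F) (R : Subring Ω)
    (hR : R = P.toValuationSubring.toSubring.map (ι.comp (algebraMap F F'))) :
    ↥P.toValuationSubring →+* ↥R :=
  ((ι.comp (algebraMap F F')).comp P.toValuationSubring.subtype).codRestrict R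
    fun r => by rw [hR]; exact ⟨(r : F), r.2, rfl⟩

theorem toImage_surjective (P : Place K F) (R : Subring Ω)
    (hR : R = P.toValuationSubring.toSubring.map (ι.comp (algebraMap F F'))) :
    Function.Surjective (toImage ι P R hR) := by
  subst hR
  rintro ⟨s, x, hx, rfl⟩
  exact ⟨⟨x, hx⟩, rfl⟩

/-- Integrality over the image of `O_P` in the big field is integrality over `O_P`. -/
theorem isIntegral_image_iff (hι : Function.Injective ι) (P : Place K F) (R : Subring Ω)
    (hR : R = P.toValuationSubring.toSubring.map (ι.comp (algebraMap F F'))) (y : F') :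
    IsIntegral ↥R (ι y) ↔ IsIntegral ↥P.toValuationSubring y :=
  isIntegral_iff_of_surj_inj (toImage ι P R hR) (toImage_surjective ι P R hR) ι hι
    (fun _ => rfl) y

variable [Algebra K F'] [IsScalarTower K F F']

/-- Membership in the abstract pull-back space, tested inside the big field. -/
theorem mem_pullRR_iff_image (hι : Function.Injective ι) (R : Place K F → Subring Ω)
    (hR : ∀ P, R P = P.toValuationSubring.toSubring.map (ι.comp (algebraMap F F')))
    (B : Divisor K F) (g : F') :
    g ∈ PullLocal.pullRR F' B ↔ ∀ (P : Place K F) (t : F), t ≠ 0 → B P ≤ P.ord t →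
      IsIntegral ↥(R P) (ι (algebraMap F F' t) * ι g) := by
  rw [PullLocal.mem_pullRR]
  refine forall_congr' fun P => forall_congr' fun t => forall_congr' fun _ =>
    forall_congr' fun _ => ?_
  rw [← map_mul, isIntegral_image_iff ι hι P (R P) (hR P), Algebra.smul_def]

end Generic

/-! ### The extension `F_{N'} / F_N` -/

variable {N N' : ℕ} (hle : modularFunctionFieldBar N ≤ modularFunctionFieldBar N')

/-- `F_{N'}` as an intermediate field of `Q̄((q)) / F_N`. -/
abbrev Ext : IntermediateField (FN N) Om := IntermediateField.extendScalars hle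

theorem coe_mem (g : ↥(Ext hle)) : (g : Om) ∈ modularFunctionFieldBar N' :=
  (IntermediateField.mem_extendScalars hle).mp g.2

theorem placeRing_eq (P : Place Kbar (FN N)) :
    placeRing P = P.toValuationSubring.toSubring.map
      ((Ext hle).val.toRingHom.comp (algebraMap (FN N) ↥(Ext hle))) := rfl

/-- **Transport**: membership in `Plan.pullRR` is membership in the abstract `PullLocal.pullRR`
of the extension `Ext hle / F_N`. -/
theorem mem_pullRR_iff (B : Divisor Kbar (FN N)) (g : ↥(Ext hle)) :
    (g : Om) ∈ Plan.pullRR N N' B ↔ g ∈ PullLocal.pullRR ↥(Ext hle) B := by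
  rw [Plan.mem_pullRR, mem_pullRR_iff_image (Ext hle).val.toRingHom Subtype.val_injective
    (fun P => placeRing P) (placeRing_eq hle) B g]
  exact ⟨fun h => h.2, fun h => ⟨coe_mem hle g, h⟩⟩

/-- Elements of `Plan.pullRR` as elements of `Ext hle`. -/
def lift {B : Divisor Kbar (FN N)} {x : Om} (hx : x ∈ Plan.pullRR N N' B) : ↥(Ext hle) :=
  ⟨x, (IntermediateField.mem_extendScalars hle).mpr hx.1⟩

theorem lift_mem {B : Divisor Kbar (FN N)} {x : Om} (hx : x ∈ Plan.pullRR N N' B) :
    lift hle hx ∈ PullLocal.pullRR ↥(Ext hle) B :=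
  (mem_pullRR_iff hle B (lift hle hx)).mp hx

theorem coe_smul_eq (a : Kbar) (g : ↥(Ext hle)) :
    ((a • g : ↥(Ext hle)) : Om) = a • (g : Om) := by
  rw [← HahnSeries.C_mul_eq_smul, ← algebraMap_LS_eq_C]
  rfl

/-- The `Q̄`-linear identification of the abstract pull-back space with `Plan.pullRR`. -/
def equivPlan (B : Divisor Kbar (FN N)) :
    ↥(PullLocal.pullRR ↥(Ext hle) B) ≃ₗ[Kbar] ↥(Plan.pullRR N N' B) where
  toFun g := ⟨((g : ↥(Ext hle)) : Om), (mem_pullRR_iff hle B g).mpr g.2⟩
  invFun x := ⟨lift hle x.2, lift_mem hle x.2⟩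
  map_add' _ _ := rfl
  map_smul' a g := Subtype.ext (coe_smul_eq hle a g)
  left_inv _ := rfl
  right_inv _ := rfl

/-! ### Shortcut instances (all `Prop`-valued; instance search on these types is slow) -/

instance instFreeExt : Module.Free (FN N) ↥(Ext hle) := Module.Free.of_divisionRing _ _

/-- Separability of `F_{N'} / F_N` (characteristic zero). -/
theorem isSeparable [FiniteDimensional (FN N) ↥(Ext hle)] :
    Algebra.IsSeparable (FN N) ↥(Ext hle) := by
  have : Algebra.IsAlgebraic (FN N) ↥(Ext hle) := Algebra.IsAlgebraic.of_finite _ _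
  exact Algebra.IsAlgebraic.isSeparable_of_perfectField

/-! ### (a) characteristic polynomial -/

/-- **(a)** in Plan form: for `g ∈ F_{N'}` with `g ∈ Plan.pullRR N N' B`, the coefficient of
`X^(d'-i)` of the characteristic polynomial of `g` over `F_N` lies in `L_{F_N}(i • B)`. -/
theorem coeff_charpoly_mem [FiniteDimensional (FN N) ↥(Ext hle)] {B : Divisor Kbar (FN N)}
    (g : ↥(Ext hle)) (hg : (g : Om) ∈ Plan.pullRR N N' B) (i : ℕ)
    (hi : i ≤ finrank (FN N) ↥(Ext hle)) :
    (LinearMap.charpoly (Algebra.lmul (FN N) ↥(Ext hle) g)).coeff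
      (finrank (FN N) ↥(Ext hle) - i) ∈ riemannRochSpace (i • B) := by
  have := isSeparable hle
  exact PullLocal.coeff_charpoly_mem_riemannRochSpace ((mem_pullRR_iff hle B g).mp hg) i hi

/-! ### (b) dimension steps -/

/-- **(b)** in Plan form: one point of `F_N` costs at most `[F_{N'} : F_N] * deg P`
dimensions. -/
theorem finrank_pullRR_le [FiniteDimensional (FN N) ↥(Ext hle)] (B : Divisor Kbar (FN N))
    (P : Place Kbar (FN N)) (hP : 0 < P.deg)
    (hfin : Module.Finite Kbar (Plan.pullRR N N' (B - Finsupp.single P 1))) :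
    Module.Finite Kbar (Plan.pullRR N N' B) ∧
      finrank Kbar (Plan.pullRR N N' B) ≤
        finrank Kbar (Plan.pullRR N N' (B - Finsupp.single P 1)) +
          finrank (FN N) ↥(Ext hle) * P.deg := by
  have := isSeparable hle
  have hfin' : Module.Finite Kbar (PullLocal.pullRR ↥(Ext hle) (B - Finsupp.single P 1)) :=
    Module.Finite.equiv (equivPlan hle _).symm
  obtain ⟨h1, h2⟩ := PullLocal.finrank_pullRR_le' (F' := ↥(Ext hle)) B P hP hfin'
  refine ⟨Module.Finite.equiv (equivPlan hle B), ?_⟩
  rw [← (equivPlan hle B).finrank_eq, ← (equivPlan hle (B - Finsupp.single P 1)).finrank_eq]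
  exact h2

/-- **(b), chain form** (the Riemann step for pull-backs): for `B ≤ B'`,
`dim pullRR B' ≤ dim pullRR B + [F_{N'} : F_N] * (deg B' - deg B)`. -/
theorem finrank_pullRR_le_of_le [FiniteDimensional (FN N) ↥(Ext hle)]
    (hres : ∀ P : Place Kbar (FN N), 0 < P.deg) {B B' : Divisor Kbar (FN N)} (hB : B ≤ B')
    (hfin : Module.Finite Kbar (Plan.pullRR N N' B')) :
    (finrank Kbar (Plan.pullRR N N' B') : ℤ) ≤
      finrank Kbar (Plan.pullRR N N' B) +
        finrank (FN N) ↥(Ext hle) * (Divisor.degree B' - Divisor.degree B) := by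
  have := isSeparable hle
  have hfin' : Module.Finite Kbar (PullLocal.pullRR ↥(Ext hle) B') :=
    Module.Finite.equiv (equivPlan hle _).symm
  have h := PullLocal.finrank_pullRR_le_of_le (F' := ↥(Ext hle)) hres hB hfin'
  rw [← (equivPlan hle B).finrank_eq, ← (equivPlan hle B').finrank_eq]
  exact h

/-! ### The one-liners of (S1), in Plan form -/

omit hle in
theorem pullRR_mono {B B' : Divisor Kbar (FN N)} (hB : B ≤ B') :
    Plan.pullRR N N' B ≤ Plan.pullRR N N' B' := fun _ hx =>
  ⟨hx.1, fun P t ht h => hx.2 P t ht ((Finsupp.le_def.mp hB P).trans h)⟩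

omit hle in
/-- Finite-dimensionality goes down: `B ≤ B'` and `pullRR B'` finite-dimensional. -/
theorem finite_pullRR_of_le {B B' : Divisor Kbar (FN N)} (hB : B ≤ B')
    (hfin : Module.Finite Kbar (Plan.pullRR N N' B')) :
    Module.Finite Kbar (Plan.pullRR N N' B) :=
  Submodule.finiteDimensional_of_le (pullRR_mono hB)

omit hle in
theorem pullRR_inf (B₁ B₂ : Divisor Kbar (FN N)) :
    Plan.pullRR N N' B₁ ⊓ Plan.pullRR N N' B₂ = Plan.pullRR N N' (B₁ ⊓ B₂) := by
  apply le_antisymm
  · rintro x ⟨h1, h2⟩
    refine ⟨h1.1, fun P t ht hB => ?_⟩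
    rw [Finsupp.inf_apply, inf_le_iff] at hB
    rcases hB with hB | hB
    · exact h1.2 P t ht hB
    · exact h2.2 P t ht hB
  · exact le_inf (pullRR_mono inf_le_left) (pullRR_mono inf_le_right)

theorem coe_smul_ext (h : FN N) (g : ↥(Ext hle)) :
    ((h • g : ↥(Ext hle)) : Om) = (h : Om) * (g : Om) := rfl

theorem coe_algebraMap_ext (f : FN N) :
    ((algebraMap (FN N) ↥(Ext hle) f : ↥(Ext hle)) : Om) = (f : Om) := by
  rw [IntermediateField.coe_algebraMap_apply, IntermediateField.algebraMap_apply]

include hle in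
/-- Shift by a principal divisor: `h ∈ F_N^×`, `g ∈ pullRR B` ⇒ `h * g ∈ pullRR (B - div h)`. -/
theorem mul_mem_pullRR_sub {B D : Divisor Kbar (FN N)} {h : FN N} (hh : h ≠ 0)
    (hD : ∀ P : Place Kbar (FN N), D P = P.ord h) {g : Om} (hg : g ∈ Plan.pullRR N N' B) :
    (h : Om) * g ∈ Plan.pullRR N N' (B - D) := by
  have h1 := PullLocal.smul_mem_pullRR_sub hh hD (lift_mem hle hg)
  have h2 := (mem_pullRR_iff hle (B - D) (h • lift hle hg)).mpr h1
  rw [coe_smul_ext] at h2
  exact h2

include hle in
/-- Powers: `s ∈ pullRR B`, `f ∈ F_N^×` ⇒ `f * s ^ m ∈ pullRR (m • B - div f)`. -/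
theorem mul_pow_mem_pullRR {B D : Divisor Kbar (FN N)} {f : FN N} (hf : f ≠ 0)
    (hD : ∀ P : Place Kbar (FN N), D P = P.ord f) {s : Om} (hs : s ∈ Plan.pullRR N N' B)
    (m : ℕ) : (f : Om) * s ^ m ∈ Plan.pullRR N N' (m • B - D) := by
  have h1 := PullLocal.smul_pow_mem_pullRR hf hD (lift_mem hle hs) m
  have h2 := (mem_pullRR_iff hle (m • B - D) (f • lift hle hs ^ m)).mpr h1
  rw [coe_smul_ext] at h2
  exact h2

include hle in
/-- `1 ∈ pullRR B` for effective `B`. -/
theorem one_mem_pullRR {B : Divisor Kbar (FN N)} (hB : 0 ≤ B) :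
    (1 : Om) ∈ Plan.pullRR N N' B :=
  (mem_pullRR_iff hle B 1).mpr (PullLocal.one_mem_pullRR hB)

include hle in
/-- `L_{F_N}(B) ⊆ pullRR B`. -/
theorem coe_mem_pullRR {B : Divisor Kbar (FN N)} {f : FN N} (hf : f ∈ riemannRochSpace B) :
    (f : Om) ∈ Plan.pullRR N N' B := by
  have h2 := (mem_pullRR_iff hle B (algebraMap (FN N) ↥(Ext hle) f)).mpr
    (PullLocal.algebraMap_mem_pullRR hf)
  rw [coe_algebraMap_ext] at h2
  exact h2

/-! ### The step in the shape consumed by `[RR0]` -/

/-- `Ext hle` is `F_{N'}` with the algebra structure given by the inclusion `F_N ⊆ F_{N'}`. -/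
def extEquiv :
    letI := (IntermediateField.inclusion hle).toRingHom.toAlgebra
    ↥(Ext hle) ≃ₗ[FN N] FN N' :=
  letI := (IntermediateField.inclusion hle).toRingHom.toAlgebra
  { toFun := fun g => ⟨(g : Om), coe_mem hle g⟩
    invFun := fun x => ⟨(x : Om), (IntermediateField.mem_extendScalars hle).mpr x.2⟩
    map_add' := fun _ _ => rfl
    map_smul' := fun _ _ => rfl
    left_inv := fun _ => rfl
    right_inv := fun _ => rfl }

/-- The degree of `Ext hle / F_N` is the degree of `F_{N'} / F_N` for the inclusion algebra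
structure. -/
theorem finrank_ext_eq :
    letI := (IntermediateField.inclusion hle).toRingHom.toAlgebra
    finrank (FN N) ↥(Ext hle) = finrank (FN N) (FN N') :=
  letI := (IntermediateField.inclusion hle).toRingHom.toAlgebra
  (extEquiv hle).finrank_eq

/-- **(b), the step of `[RR0]`**: if all places of `F_N` have degree one, removing one point
costs at most `[F_{N'} : F_N]` dimensions. Only the finiteness of the BIGGER space is assumed. -/
theorem pullStep_of [FiniteDimensional (FN N) ↥(Ext hle)]
    (hdeg : ∀ P : Place Kbar (FN N), P.deg = 1) (B : Divisor Kbar (FN N))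
    (P : Place Kbar (FN N)) (hfin : Module.Finite Kbar (Plan.pullRR N N' B)) :
    finrank Kbar (Plan.pullRR N N' B) ≤
      finrank Kbar (Plan.pullRR N N' (B - Finsupp.single P 1)) + finrank (FN N) ↥(Ext hle) := by
  have hB : B - Finsupp.single P 1 ≤ B := by
    rw [Finsupp.le_def]
    intro Q
    rw [Finsupp.sub_apply]
    have : (0 : ℤ) ≤ (Finsupp.single P 1 : Divisor Kbar (FN N)) Q := by
      classical
      rw [Finsupp.single_apply]
      split_ifs <;> norm_num
    linarith
  have hfin' : Module.Finite Kbar (Plan.pullRR N N' (B - Finsupp.single P 1)) :=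
    finite_pullRR_of_le hB hfin
  have h := (finrank_pullRR_le hle B P (by rw [hdeg]; exact one_pos) hfin').2
  rwa [hdeg, mul_one] at h

/-- The same with the degree spelled for the inclusion algebra structure on `F_{N'}`, and
finite-dimensionality of `F_{N'} / F_N` replaced by positivity of the degree. -/
theorem pullStep_of_pos
    (hpos : letI := (IntermediateField.inclusion hle).toRingHom.toAlgebra
      0 < finrank (FN N) (FN N'))
    (hdeg : ∀ P : Place Kbar (FN N), P.deg = 1) (B : Divisor Kbar (FN N))
    (P : Place Kbar (FN N)) (hfin : Module.Finite Kbar (Plan.pullRR N N' B)) :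
    letI := (IntermediateField.inclusion hle).toRingHom.toAlgebra
    finrank Kbar (Plan.pullRR N N' B) ≤
      finrank Kbar (Plan.pullRR N N' (B - Finsupp.single P 1)) + finrank (FN N) (FN N') := by
  rw [← finrank_ext_eq hle] at hpos ⊢
  have : FiniteDimensional (FN N) ↥(Ext hle) := Module.finite_of_finrank_pos hpos
  exact pullStep_of hle hdeg B P hfin

end Fermat.Agent.S18.PullPlan
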