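/-
S18 / Plan item 4 (helper5): `Plan.CharStmt A N N'`.

Instantiation of `OrthoBasis.Setup` at `F = F_N ⊆ F' = F_{N'}` inside `Q̄((q))`, with
`O = F ∩ Ocal A`, `O' = F' ∩ Ocal A` and the residue maps `red A`.

Everything is first proved for abstract ambient fields `Ω ⊇ E₁ ⊆ E₂`, `Ωk ⊇ κ₁ ⊆ κ₂`, a subring
`Oc ⊆ Ω` and a ring hom `rd : Oc → Ωk` (section `Generic`); the concrete statement is an
instantiation.
-/
import Mathlib
import Fermat.Agent.S18.Plan
import Fermat.Agent.S18.OrthoBasis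
import Fermat.Agent.S18.OrthoDesc
import Fermat.Agent.S18.FibreCount
import Fermat.Agent.S18.CuspEmb.Degree
import Fermat.Agent.S18.PullPlan
import Fermat.Agent.S18.Red

set_option autoImplicit false

noncomputable section

namespace Fermat.Agent.S18.CharStmt

open Polynomial

/-! ### Degrees in a tower of intermediate fields -/

section Tower

variable {K Ω : Type*} [Field K] [Field Ω] [Algebra K Ω]

/-- `[E : K(x)]` computed inside `E` equals the relative degree computed in the ambient field. -/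
theorem finrank_adjoin_eq_relfinrank (E : IntermediateField K Ω) (x : Ω) (hx : x ∈ E) :
    Module.finrank (IntermediateField.adjoin K {(⟨x, hx⟩ : E)}) E =
      IntermediateField.relfinrank (IntermediateField.adjoin K {x}) E := by
  have h1 : IntermediateField.adjoin K {(⟨x, hx⟩ : E)} =
      (IntermediateField.adjoin K {x}).comap E.val := by
    apply le_antisymm
    · rw [IntermediateField.adjoin_le_iff]
      rintro _ rfl
      exact IntermediateField.mem_adjoin_simple_self K x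
    · intro y hy
      have h2 : (IntermediateField.adjoin K {(⟨x, hx⟩ : E)}).map E.val =
          IntermediateField.adjoin K {x} := by
        rw [IntermediateField.adjoin_map]
        simp
      have hy' : E.val y ∈ (IntermediateField.adjoin K {(⟨x, hx⟩ : E)}).map E.val := by
        rw [h2]; exact hy
      obtain ⟨z, hz, hzy⟩ := hy'
      have : z = y := Subtype.ext hzy
      exact this ▸ hz
  rw [h1, IntermediateField.finrank_comap, IntermediateField.fieldRange_val]

/-- Tower law `[E₁ : K(x)] · [E₂ : E₁] = [E₂ : K(x)]` for `x ∈ E₁ ⊆ E₂`. -/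
theorem finrank_adjoin_tower {E₁ E₂ : IntermediateField K Ω} (hle : E₁ ≤ E₂) (x : Ω)
    (hx : x ∈ E₁) :
    Module.finrank (IntermediateField.adjoin K {(⟨x, hx⟩ : E₁)}) E₁ *
        Module.finrank E₁ (IntermediateField.extendScalars hle) =
      Module.finrank (IntermediateField.adjoin K {(⟨x, hle hx⟩ : E₂)}) E₂ := by
  rw [finrank_adjoin_eq_relfinrank E₁ x hx, finrank_adjoin_eq_relfinrank E₂ x (hle hx),
    ← IntermediateField.relfinrank_eq_finrank_of_le hle]
  refine IntermediateField.relfinrank_mul_relfinrank ?_ hle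
  rw [IntermediateField.adjoin_le_iff]
  rintro _ rfl
  exact hx

end Tower

/-! ### The valuation subring `E ∩ Oc` of a subfield `E` of `Ω` -/

section Generic

variable {Ω Ωk : Type*} [Field Ω] [Field Ωk] (Oc : Subring Ω) (rd : Oc →+* Ωk)

section One

variable {K₀ : Type*} [Field K₀] [Algebra K₀ Ω] (E : IntermediateField K₀ Ω)

/-- `E ∩ Oc` as a valuation subring of `E`. -/
def valO (h : ∀ y : Ω, y ∈ E → y ∈ Oc ∨ y⁻¹ ∈ Oc) : ValuationSubring E where
  toSubring := Oc.comap (algebraMap E Ω)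
  mem_or_inv_mem' := fun y => by
    rcases h y y.2 with h1 | h1
    · left; exact h1
    · right
      show algebraMap E Ω y⁻¹ ∈ Oc
      rw [map_inv₀]
      exact h1

theorem mem_valO (h : ∀ y : Ω, y ∈ E → y ∈ Oc ∨ y⁻¹ ∈ Oc) (y : E) :
    y ∈ valO Oc E h ↔ (y : Ω) ∈ Oc := Iff.rfl

/-- The inclusion `E ∩ Oc → Oc`. -/
def toOc (h : ∀ y : Ω, y ∈ E → y ∈ Oc ∨ y⁻¹ ∈ Oc) : valO Oc E h →+* Oc where
  toFun y := ⟨((y : E) : Ω), y.2⟩
  map_one' := rfl
  map_mul' _ _ := rfl
  map_zero' := rfl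
  map_add' _ _ := rfl

@[simp] theorem coe_toOc (h : ∀ y : Ω, y ∈ E → y ∈ Oc ∨ y⁻¹ ∈ Oc) (y : valO Oc E h) :
    ((toOc Oc E h y : Oc) : Ω) = ((y : E) : Ω) := rfl

variable {k₀ : Type*} [Field k₀] [Algebra k₀ Ωk] (κ : IntermediateField k₀ Ωk)

/-- The reduction map `E ∩ Oc → κ`. -/
def redO (h : ∀ y : Ω, y ∈ E → y ∈ Oc ∨ y⁻¹ ∈ Oc)
    (hred : ∀ y : Oc, (y : Ω) ∈ E → rd y ∈ κ) : valO Oc E h →+* κ :=
  (rd.comp (toOc Oc E h)).codRestrict κ (fun y => hred _ (y : E).2)

@[simp] theorem coe_redO (h : ∀ y : Ω, y ∈ E → y ∈ Oc ∨ y⁻¹ ∈ Oc)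
    (hred : ∀ y : Oc, (y : Ω) ∈ E → rd y ∈ κ) (y : valO Oc E h) :
    ((redO Oc rd E κ h hred y : κ) : Ωk) = rd (toOc Oc E h y) := rfl

/-- Nonunits of `E ∩ Oc` reduce to zero. -/
theorem redO_nonunit (hinv : ∀ y : Oc, rd y ≠ 0 → (y : Ω)⁻¹ ∈ Oc)
    (h : ∀ y : Ω, y ∈ E → y ∈ Oc ∨ y⁻¹ ∈ Oc)
    (hred : ∀ y : Oc, (y : Ω) ∈ E → rd y ∈ κ) (y : valO Oc E h) (hy : ¬ IsUnit y) :
    redO Oc rd E κ h hred y = 0 := by
  by_contra hne
  apply hy
  have hne' : rd (toOc Oc E h y) ≠ 0 := fun h0 => hne (Subtype.ext h0)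
  have hi : ((toOc Oc E h y : Oc) : Ω)⁻¹ ∈ Oc := hinv _ hne'
  have hy0 : (y : E) ≠ 0 := by
    intro h0
    apply hne'
    have : toOc Oc E h y = 0 := Subtype.ext (by rw [coe_toOc, h0]; rfl)
    rw [this, map_zero]
  have hmem : (y : E)⁻¹ ∈ valO Oc E h := by
    rw [mem_valO]
    have : (((y : E)⁻¹ : E) : Ω) = ((y : E) : Ω)⁻¹ := rfl
    rw [this]
    exact hi
  exact IsUnit.of_mul_eq_one (b := ⟨_, hmem⟩) (Subtype.ext (mul_inv_cancel₀ hy0))

end One

/-! ### A pair `E₁ ⊆ E₂` -/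

section Pair

variable {K₀ : Type*} [Field K₀] [Algebra K₀ Ω] {E₁ E₂ : IntermediateField K₀ Ω}
variable {k₀ : Type*} [Field k₀] [Algebra k₀ Ωk] {κ₁ κ₂ : IntermediateField k₀ Ωk}

/-- The hypotheses on `(Oc, rd)` relative to the pairs `E₁ ⊆ E₂`, `κ₁ ⊆ κ₂`. -/
structure Data (Oc : Subring Ω) (rd : Oc →+* Ωk) (E₁ E₂ : IntermediateField K₀ Ω)
    (κ₁ κ₂ : IntermediateField k₀ Ωk) : Prop where
  /-- elements with non-zero reduction are units of `Oc` -/
  hinv : ∀ y : Oc, rd y ≠ 0 → (y : Ω)⁻¹ ∈ Oc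
  /-- `E₁ ∩ Oc` is a valuation ring -/
  hv₁ : ∀ y : Ω, y ∈ E₁ → y ∈ Oc ∨ y⁻¹ ∈ Oc
  /-- `E₂ ∩ Oc` is a valuation ring -/
  hv₂ : ∀ y : Ω, y ∈ E₂ → y ∈ Oc ∨ y⁻¹ ∈ Oc
  /-- reductions of `E₁ ∩ Oc` lie in `κ₁` -/
  hb₁ : ∀ y : Oc, (y : Ω) ∈ E₁ → rd y ∈ κ₁
  /-- reductions of `E₂ ∩ Oc` lie in `κ₂` -/
  hb₂ : ∀ y : Oc, (y : Ω) ∈ E₂ → rd y ∈ κ₂
  /-- and exhaust `κ₂` -/
  hc₂ : ∀ x : Ωk, x ∈ κ₂ → ∃ y : Oc, (y : Ω) ∈ E₂ ∧ rd y = x

variable {Oc rd}
variable (D : Data Oc rd E₁ E₂ κ₁ κ₂) (hle : E₁ ≤ E₂) (hkle : κ₁ ≤ κ₂)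

/-- `O = E₁ ∩ Oc`. -/
abbrev O₁ : ValuationSubring E₁ := valO Oc E₁ D.hv₁

/-- `O' = E₂ ∩ Oc`, as a valuation subring of `E₂ / E₁`. -/
abbrev O₂ : ValuationSubring (IntermediateField.extendScalars hle) :=
  valO Oc (IntermediateField.extendScalars hle) D.hv₂

/-- `red : O → κ₁`. -/
abbrev red₁ : O₁ D →+* κ₁ := redO Oc rd E₁ κ₁ D.hv₁ D.hb₁

/-- `red' : O' → κ₂`. -/
abbrev red₂ : O₂ D hle →+* (IntermediateField.extendScalars hkle) :=
  redO Oc rd (IntermediateField.extendScalars hle) (IntermediateField.extendScalars hkle)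
    D.hv₂ D.hb₂

theorem coe_red₁ (x : O₁ D) : ((red₁ D x : κ₁) : Ωk) = rd ⟨((x : E₁) : Ω), x.2⟩ := rfl

theorem coe_red₂ (x : O₂ D hle) :
    ((red₂ D hle hkle x : IntermediateField.extendScalars hkle) : Ωk) =
      rd ⟨((x : IntermediateField.extendScalars hle) : Ω), x.2⟩ := rfl

theorem incl₁₂ (x : O₁ D) :
    algebraMap E₁ (IntermediateField.extendScalars hle) (x : E₁) ∈ O₂ D hle := by
  show ((algebraMap E₁ (IntermediateField.extendScalars hle) (x : E₁) :
    IntermediateField.extendScalars hle) : Ω) ∈ Oc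
  rw [IntermediateField.coe_algebraMap_apply, IntermediateField.algebraMap_apply]
  exact x.2

theorem compat₁₂ (x : O₁ D) :
    red₂ D hle hkle ⟨algebraMap E₁ (IntermediateField.extendScalars hle) (x : E₁),
      incl₁₂ D hle x⟩ =
      algebraMap κ₁ (IntermediateField.extendScalars hkle) (red₁ D x) := by
  apply Subtype.ext
  rw [coe_red₂]
  conv_rhs => rw [IntermediateField.coe_algebraMap_apply, IntermediateField.algebraMap_apply,
    coe_red₁]
  refine congrArg rd (Subtype.ext ?_)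
  show ((algebraMap E₁ (IntermediateField.extendScalars hle) (x : E₁) :
    IntermediateField.extendScalars hle) : Ω) = ((x : E₁) : Ω)
  rw [IntermediateField.coe_algebraMap_apply, IntermediateField.algebraMap_apply]

theorem surj₂ : Function.Surjective (red₂ D hle hkle) := by
  intro z
  obtain ⟨y, hy, hyz⟩ := D.hc₂ (z : Ωk) z.2
  refine ⟨⟨⟨(y : Ω), (IntermediateField.mem_extendScalars hle).mpr hy⟩, y.2⟩, Subtype.ext ?_⟩
  rw [coe_red₂, ← hyz]

/-- The `OrthoBasis.Setup` of the pair, given the degree facts. -/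
theorem setup (hpos : 0 < Module.finrank E₁ (IntermediateField.extendScalars hle))
    (heq : Module.finrank κ₁ (IntermediateField.extendScalars hkle) =
      Module.finrank E₁ (IntermediateField.extendScalars hle)) :
    OrthoBasis.Setup (O₁ D) (O₂ D hle) (red₁ D) (red₂ D hle hkle) where
  incl := incl₁₂ D hle
  red_nonunit := fun x hx => redO_nonunit Oc rd E₁ κ₁ D.hinv D.hv₁ D.hb₁ x hx
  compat := compat₁₂ D hle hkle
  surj' := surj₂ D hle hkle
  finrank_pos := hpos
  finrank_eq := heq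

attribute [local instance 2000] Module.Free.of_divisionRing

include D in
/-- **Generic form of `Plan.CharStmt` (Ortho half).** For `g ∈ E₂ ∩ Oc` the characteristic
polynomial `χ` of `g` over `E₁` is monic of degree `[E₂ : E₁]`, kills `g`, has coefficients in
`Oc`, and reduces to `(X - 1) ^ d` if `rd g = 1`. -/
theorem exists_char [Module.Finite E₁ (IntermediateField.extendScalars hle)]
    (heq : Module.finrank κ₁ (IntermediateField.extendScalars hkle) =
      Module.finrank E₁ (IntermediateField.extendScalars hle))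
    (g : Oc) (hg : (g : Ω) ∈ E₂) :
    ∃ χ : E₁[X],
      χ = LinearMap.charpoly (Algebra.lmul E₁ (IntermediateField.extendScalars hle)
        ⟨(g : Ω), (IntermediateField.mem_extendScalars hle).mpr hg⟩) ∧
      χ.Monic ∧ χ.natDegree = Module.finrank E₁ (IntermediateField.extendScalars hle) ∧
      Polynomial.aeval (g : Ω) χ = 0 ∧
      ∃ hO : ∀ i : ℕ, ((χ.coeff i : E₁) : Ω) ∈ Oc,
        (rd g = 1 → ∀ i : ℕ, rd ⟨_, hO i⟩ =
          algebraMap k₀ Ωk (((X - C (1 : k₀)) ^ χ.natDegree).coeff i)) := by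
  classical
  have hpos : 0 < Module.finrank E₁ (IntermediateField.extendScalars hle) := Module.finrank_pos
  have S := setup D hle hkle hpos heq
  have : Module.Finite κ₁ (IntermediateField.extendScalars hkle) :=
    Module.finite_of_finrank_pos (heq ▸ hpos)
  set g₂ : IntermediateField.extendScalars hle :=
    ⟨(g : Ω), (IntermediateField.mem_extendScalars hle).mpr hg⟩ with hg₂
  let g' : O₂ D hle := ⟨g₂, g.2⟩
  obtain ⟨P, hm, hd, h1, -⟩ := OrthoBasis.Setup.exists_charpoly S g'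
  have hcoe : ((g' : O₂ D hle) : IntermediateField.extendScalars hle) = g₂ := rfl
  rw [hcoe] at h1
  have hO : ∀ i : ℕ, (((LinearMap.charpoly (Algebra.lmul E₁
      (IntermediateField.extendScalars hle) g₂)).coeff i : E₁) : Ω) ∈ Oc := by
    intro i
    rw [h1, coeff_map]
    exact (P.coeff i).2
  refine ⟨LinearMap.charpoly (Algebra.lmul E₁ (IntermediateField.extendScalars hle) g₂), rfl,
    LinearMap.charpoly_monic _, LinearMap.charpoly_natDegree _, ?_, hO, fun hr i => ?_⟩
  · have h3 := LinearMap.aeval_self_charpoly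
      (Algebra.lmul E₁ (IntermediateField.extendScalars hle) g₂)
    have h4 : aeval (Algebra.lmul E₁ (IntermediateField.extendScalars hle) g₂)
        (LinearMap.charpoly (Algebra.lmul E₁ (IntermediateField.extendScalars hle) g₂)) =
        Algebra.lmul E₁ (IntermediateField.extendScalars hle) (aeval g₂
          (LinearMap.charpoly (Algebra.lmul E₁ (IntermediateField.extendScalars hle) g₂))) := by
      rw [← aeval_algHom_apply]
    rw [h4] at h3
    have h5 : aeval g₂
        (LinearMap.charpoly (Algebra.lmul E₁ (IntermediateField.extendScalars hle) g₂)) = 0 := by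
      have := congrArg (fun f : (IntermediateField.extendScalars hle) →ₗ[E₁]
        (IntermediateField.extendScalars hle) => f 1) h3
      simpa using this
    have h6 := aeval_algHom_apply (IntermediateField.extendScalars hle).val g₂
      (LinearMap.charpoly (Algebra.lmul E₁ (IntermediateField.extendScalars hle) g₂))
    rw [h5, map_zero] at h6
    exact h6
  · have hr' : red₂ D hle hkle g' = 1 := Subtype.ext (by rw [coe_red₂]; exact hr)
    obtain ⟨P', -, -, h1', h2'⟩ := OrthoBasis.Setup.exists_charpoly_of_red_eq_one S g' hr'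
    rw [hcoe] at h1'
    have hc : red₁ D (P'.coeff i) =
        ((X - C (1 : κ₁)) ^ Module.finrank E₁ (IntermediateField.extendScalars hle)).coeff i := by
      rw [← h2', coeff_map]
    have e1 : rd ⟨(((LinearMap.charpoly (Algebra.lmul E₁
        (IntermediateField.extendScalars hle) g₂)).coeff i : E₁) : Ω), hO i⟩ =
        ((red₁ D (P'.coeff i) : κ₁) : Ωk) := by
      rw [coe_red₁]
      refine congrArg rd (Subtype.ext ?_)
      show (((LinearMap.charpoly (Algebra.lmul E₁
        (IntermediateField.extendScalars hle) g₂)).coeff i : E₁) : Ω) =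
        (((P'.coeff i : O₁ D) : E₁) : Ω)
      rw [h1', coeff_map]
      rfl
    have e2 : ((X - C (1 : κ₁)) ^ Module.finrank E₁ (IntermediateField.extendScalars hle) :
        κ₁[X]) = ((X - C (1 : k₀)) ^
          Module.finrank E₁ (IntermediateField.extendScalars hle)).map (algebraMap k₀ κ₁) := by
      simp [Polynomial.map_pow]
    rw [e1, hc, LinearMap.charpoly_natDegree, e2, coeff_map,
      IntermediateField.coe_algebraMap_apply]

end Pair

end Generic

/-! ### The modular instance -/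

section Modular

open ModularCurve AlgebraicCurve Fermat.Agent.S24 Fermat.Agent.S18.Content Fermat.Agent.S18.Plan

/-- `F_N ⊆ F_{N'}` for `N ∣ N'`. -/
theorem bar_le {N N' : ℕ} [NeZero N] [NeZero N'] (h : N ∣ N') :
    modularFunctionFieldBar N ≤ modularFunctionFieldBar N' := by
  apply IntermediateField.adjoin.mono
  exact Set.image_mono (full_degeneracy_le h)

/-- `F_{N,k} ⊆ F_{N',k}` for `N ∣ N'`. -/
theorem fk_le (A : ValuationSubring Kbar) {N N' : ℕ} [NeZero N] [NeZero N'] (h : N ∣ N') :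
    Fk A N ≤ Fk A N' :=
  full_degeneracyC_le _ h

variable (A : ValuationSubring Kbar)

/-- `F_n ∩ Ocal A` is a valuation ring of `F_n` (from clause (a) of `RedStmt`). -/
theorem valProp_of_redStmt {n : ℕ} (h : RedStmt A n) (y : Om)
    (hy : y ∈ modularFunctionFieldBar n) : y ∈ Ocal A ∨ y⁻¹ ∈ Ocal A := by
  by_cases hy0 : y = 0
  · left; rw [hy0]; exact zero_mem _
  obtain ⟨c, hc, hu, hred⟩ := h.1 y hy hy0
  have hinv : (HahnSeries.C c * y)⁻¹ ∈ Ocal A := inv_mem_Ocal A ⟨_, hu⟩ hred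
  have hCC : (HahnSeries.C c⁻¹ : Om) * HahnSeries.C c = 1 := by
    rw [← map_mul, inv_mul_cancel₀ hc, map_one]
  rcases A.mem_or_inv_mem c with hcA | hcA
  · right
    have e : y⁻¹ = HahnSeries.C c * (HahnSeries.C c * y)⁻¹ := by
      have hC0 : (HahnSeries.C c : Om) ≠ 0 := fun h0 => by
        rw [h0, mul_zero] at hCC; exact zero_ne_one hCC
      rw [mul_inv, ← mul_assoc, mul_inv_cancel₀ hC0, one_mul]
    rw [e]
    exact mul_mem (C_mem_Ocal A hcA) hinv
  · left
    have e : y = HahnSeries.C c⁻¹ * (HahnSeries.C c * y) := by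
      rw [← mul_assoc, hCC, one_mul]
    rw [e]
    exact mul_mem (C_mem_Ocal A hcA) hu

/-- The generic `Data` of the pair of levels, from `RedStmt` at both levels. -/
theorem data {N N' : ℕ} (hR : RedStmt A N) (hR' : RedStmt A N') :
    Data (Ocal A) (red A) (modularFunctionFieldBar N) (modularFunctionFieldBar N')
      (Fk A N) (Fk A N') where
  hinv := fun y hy => inv_mem_Ocal A y hy
  hv₁ := valProp_of_redStmt A hR
  hv₂ := valProp_of_redStmt A hR'
  hb₁ := hR.2.1
  hb₂ := hR'.2.1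
  hc₂ := hR'.2.2.1

/-- `ψ(N) · [F_{N'} : F_N] = ψ(N')`. -/
theorem psi_mul_finrank {N N' : ℕ} [NeZero N] [NeZero N']
    (hle : modularFunctionFieldBar N ≤ modularFunctionFieldBar N') :
    dedekindPsi N * Module.finrank (FN N) (IntermediateField.extendScalars hle) =
      dedekindPsi N' := by
  have h := finrank_adjoin_tower hle (coeffEmb Kbar jq) (jBar N).2
  have e1 : (⟨coeffEmb Kbar jq, (jBar N).2⟩ : FN N) = jBar N := rfl
  have e2 : (⟨coeffEmb Kbar jq, hle (jBar N).2⟩ : FN N') = jBar N' := rfl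
  rw [e1, e2, FibreCount.finrank_eq, FibreCount.finrank_eq] at h
  exact h

/-- `ψ(N) · [F_{N',k} : F_{N,k}] = ψ(N')` in characteristic `ℓ ∤ N'`. -/
theorem psi_mul_finrank_k {N N' : ℕ} [NeZero N] [NeZero N'] (hdiv : N ∣ N') (ℓ : ℕ)
    [Fact ℓ.Prime] (hℓ : ¬ ℓ ∣ N') [CharP (kk A) ℓ] (hkle : Fk A N ≤ Fk A N') :
    dedekindPsi N * Module.finrank (Fk A N) (IntermediateField.extendScalars hkle) =
      dedekindPsi N' := by
  have hℓN : ¬ ℓ ∣ N := fun h => hℓ (h.trans hdiv)
  have h := finrank_adjoin_tower hkle (jqModC (kk A)) (CuspEmb.jk (kk A) N).2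
  have e1 : (⟨jqModC (kk A), (CuspEmb.jk (kk A) N).2⟩ : Fk A N) = CuspEmb.jk (kk A) N := rfl
  have e2 : (⟨jqModC (kk A), hkle (CuspEmb.jk (kk A) N).2⟩ : Fk A N') =
      CuspEmb.jk (kk A) N' := rfl
  rw [e1, e2, CuspEmb.finrank_fullC (kk A) N ℓ hℓN, CuspEmb.finrank_fullC (kk A) N' ℓ hℓ] at h
  exact h

set_option synthInstance.maxHeartbeats 400000 in
/-- **`Plan.CharStmt A N N'`** from `Plan.RedStmt` at both levels (`N ∣ N'`, `ℓ ∤ N'`). -/
theorem charStmt_of_red (N N' : ℕ) [NeZero N] [NeZero N'] (hdiv : N ∣ N') (ℓ : ℕ)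
    [Fact ℓ.Prime] (hℓ : ¬ ℓ ∣ N') [CharP (kk A) ℓ] (hR : RedStmt A N) (hR' : RedStmt A N') :
    Plan.CharStmt A N N' := by
  intro B g hg
  have hle := bar_le hdiv
  have hkle := fk_le A hdiv
  have h0 := psi_mul_finrank hle
  have hk := psi_mul_finrank_k A hdiv ℓ hℓ hkle
  have hψ : 0 < dedekindPsi N := FibreCount.dedekindPsi_pos N
  have hψ' : 0 < dedekindPsi N' := FibreCount.dedekindPsi_pos N'
  have hpos : 0 < Module.finrank (FN N) (IntermediateField.extendScalars hle) := by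
    rcases Nat.eq_zero_or_pos (Module.finrank (FN N) (IntermediateField.extendScalars hle))
      with h | h
    · rw [h, mul_zero] at h0; omega
    · exact h
  have : Module.Finite (FN N) (IntermediateField.extendScalars hle) :=
    Module.finite_of_finrank_pos hpos
  have heq : Module.finrank (Fk A N) (IntermediateField.extendScalars hkle) =
      Module.finrank (FN N) (IntermediateField.extendScalars hle) :=
    Nat.eq_of_mul_eq_mul_left hψ (hk.trans h0.symm)
  have hgN : (g : Om) ∈ modularFunctionFieldBar N' := (mem_pullRR.mp hg).1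
  obtain ⟨χ, hχ, hmonic, hdeg, haeval, hO, hred⟩ :=
    exists_char (data A hR hR') hle hkle heq g hgN
  refine ⟨χ, hmonic, ?_, haeval, ?_, hO, fun hr i => ?_⟩
  · rw [hdeg, mul_comm]; exact h0
  · intro i hi
    rw [hdeg] at hi ⊢
    rw [hχ]
    exact PullPlan.coeff_charpoly_mem hle
      ⟨(g : Om), (IntermediateField.mem_extendScalars hle).mpr hgN⟩ hg i hi
  · rw [hred hr i, algebraMap_LS_eq_C]

/-- **`Plan.CharStmt A N N'`**, unconditional: `N ∣ N'`, `ℓ ∤ N'`, `A` over `ℓ`. -/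
theorem charStmt (N N' : ℕ) [NeZero N] [NeZero N'] (hdiv : N ∣ N') (ℓ : ℕ) [Fact ℓ.Prime]
    (hℓ : ¬ ℓ ∣ N') (A : ValuationSubring Kbar) (hA : A.LiesOverPrime ℓ) :
    Plan.CharStmt A N N' := by
  have := charP_residueField_of_liesOverPrime A ℓ hA
  have hℓN : ¬ ℓ ∣ N := fun h => hℓ (h.trans hdiv)
  exact charStmt_of_red A N N' hdiv ℓ hℓ (Red.redStmt N ℓ hℓN A hA) (Red.redStmt N' ℓ hℓ A hA)

end Modular

end Fermat.Agent.S18.CharStmt
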