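import Mathlib
import Fermat.Agent.Lib.DedekindWeber.IntegralBasis

set_option autoImplicit false

/-
# S18 [CONST]: `W 0 = k`

For a field `L` over `κ(X)` in which `κ` is algebraically closed, an element which is integral
over `κ[X]` and over the valuation ring at infinity of `κ(X)` is a constant.  In the vocabulary
of `Fermat.Agent.Lib.DedekindWeber`: `RRSpace κ L 0 = κ`.
-/

namespace Fermat.Agent.S18.ConstW

open Polynomial WithZero Fermat.Agent.Lib.DedekindWeber

section Generic

variable (κ : Type*) [Field κ] [DecidableEq (RatFunc κ)]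
variable (L : Type*) [Field L] [Algebra (RatFunc κ) L] [Algebra κ[X] L]
  [IsScalarTower κ[X] (RatFunc κ) L] [Algebra κ L] [IsScalarTower κ (RatFunc κ) L]

/-- A polynomial whose valuation at infinity is `≤ 1` is a constant. -/
theorem eq_C_of_inftyValuation_le_one (a : κ[X])
    (h : RatFunc.inftyValuation κ (algebraMap κ[X] (RatFunc κ) a) ≤ 1) : a = C (a.coeff 0) := by
  have h1 : a ∈ Polynomial.degreeLT κ 1 := by
    have := (inftyValuation_algebraMap_le_exp_iff κ a 0).mp (by simpa using h)
    simpa using this
  rw [Polynomial.mem_degreeLT] at h1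
  exact Polynomial.eq_C_of_degree_le_zero (by
    by_cases ha : a = 0
    · rw [ha, Polynomial.degree_zero]; exact bot_le
    · rw [Polynomial.degree_eq_natDegree ha] at h1 ⊢
      have : a.natDegree < 1 := by exact_mod_cast h1
      have h0 : a.natDegree = 0 := by omega
      rw [h0]; rfl)

omit [DecidableEq (RatFunc κ)] in
/-- The tower `κ → κ[X] → L` induced by the towers through `κ(X)`. -/
theorem isScalarTower_poly : IsScalarTower κ κ[X] L :=
  IsScalarTower.of_algebraMap_eq fun a => by
    rw [IsScalarTower.algebraMap_apply κ (RatFunc κ) L,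
      IsScalarTower.algebraMap_apply κ[X] (RatFunc κ) L, Polynomial.algebraMap_eq,
      RatFunc.algebraMap_C]
    rfl

/-- An element integral over `κ[X]` and over the valuation ring at infinity is integral over
`κ`. -/
theorem isIntegral_of_isIntegral_of_isIntegral (f : L) (h1 : IsIntegral κ[X] f)
    (h2 : IsIntegral (Oinf κ) f) : IsIntegral κ f := by
  have e1 : minpoly (RatFunc κ) f = (minpoly κ[X] f).map (algebraMap κ[X] (RatFunc κ)) :=
    minpoly.isIntegrallyClosed_eq_field_fractions' (RatFunc κ) h1
  have e2 : minpoly (RatFunc κ) f = (minpoly (Oinf κ) f).map (algebraMap (Oinf κ) (RatFunc κ)) :=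
    minpoly.isIntegrallyClosed_eq_field_fractions' (RatFunc κ) h2
  -- every coefficient of `minpoly κ[X] f` is a constant
  have hcoeff : ∀ i, (minpoly κ[X] f).coeff i = C (((minpoly κ[X] f).coeff i).coeff 0) := by
    intro i
    apply eq_C_of_inftyValuation_le_one
    have h3 : algebraMap κ[X] (RatFunc κ) ((minpoly κ[X] f).coeff i) =
        algebraMap (Oinf κ) (RatFunc κ) ((minpoly (Oinf κ) f).coeff i) := by
      rw [← Polynomial.coeff_map, ← Polynomial.coeff_map, ← e1, ← e2]
    rw [h3]
    exact (Valuation.mem_valuationSubring_iff _ _).mp ((minpoly (Oinf κ) f).coeff i).2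
  -- the polynomial of constant terms
  set q : κ[X] := ∑ i ∈ Finset.range ((minpoly κ[X] f).natDegree + 1),
    Polynomial.monomial i (((minpoly κ[X] f).coeff i).coeff 0) with hq
  have hqcoeff : ∀ i, q.coeff i = ((minpoly κ[X] f).coeff i).coeff 0 := by
    intro i
    rw [hq, Polynomial.finsetSum_coeff]
    simp only [Polynomial.coeff_monomial]
    rw [Finset.sum_ite_eq' (Finset.range ((minpoly κ[X] f).natDegree + 1)) i]
    split_ifs with hi
    · rfl
    · have : (minpoly κ[X] f).natDegree < i := by
        rw [Finset.mem_range] at hi; omega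
      rw [Polynomial.coeff_eq_zero_of_natDegree_lt this, Polynomial.coeff_zero]
  have hmap : q.map (algebraMap κ κ[X]) = minpoly κ[X] f := by
    ext1 i
    rw [Polynomial.coeff_map, hqcoeff, Polynomial.algebraMap_eq, ← hcoeff i]
  have hq0 : q ≠ 0 := by
    intro h0
    rw [h0, Polynomial.map_zero] at hmap
    exact minpoly.ne_zero h1 hmap.symm
  have hroot : Polynomial.aeval f q = 0 := by
    have := isScalarTower_poly κ L
    have h4 : Polynomial.aeval f (minpoly κ[X] f) = 0 := minpoly.aeval _ _
    rw [← hmap, Polynomial.aeval_map_algebraMap] at h4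
    exact h4
  exact (isAlgebraic_iff_isIntegral).mp ⟨q, hq0, hroot⟩

/-- **[CONST]**, generic form: if `κ` is algebraically closed in `L`, then
`RRSpace κ L 0` consists of the constants. -/
theorem mem_RRSpace_zero_iff (hκ : ∀ y : L, IsIntegral κ y → y ∈ Set.range (algebraMap κ L))
    (f : L) : f ∈ RRSpace κ L 0 ↔ f ∈ Set.range (algebraMap κ L) := by
  constructor
  · rintro ⟨h1, h2⟩
    rw [neg_zero, zpow_zero, one_smul] at h2
    exact hκ f (isIntegral_of_isIntegral_of_isIntegral κ L f h1 h2)
  · rintro ⟨a, rfl⟩
    refine ⟨isIntegral_poly_algebraMap κ L a, ?_⟩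
    rw [neg_zero, zpow_zero, one_smul]
    exact isIntegral_Oinf_algebraMap κ L a

/-- `RRSpace κ L 0` has dimension one when `κ` is algebraically closed in `L`. -/
theorem RRSpace_zero_eq_span (hκ : ∀ y : L, IsIntegral κ y → y ∈ Set.range (algebraMap κ L)) :
    RRSpace κ L 0 = Submodule.span κ {(1 : L)} := by
  ext f
  rw [mem_RRSpace_zero_iff κ L hκ, Submodule.mem_span_singleton]
  constructor
  · rintro ⟨a, rfl⟩
    exact ⟨a, by rw [Algebra.smul_def, mul_one]⟩
  · rintro ⟨a, rfl⟩
    exact ⟨a, by rw [Algebra.smul_def, mul_one]⟩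

theorem finrank_RRSpace_zero (hκ : ∀ y : L, IsIntegral κ y → y ∈ Set.range (algebraMap κ L)) :
    Module.finrank κ (RRSpace κ L 0) = 1 := by
  rw [RRSpace_zero_eq_span κ L hκ]
  exact finrank_span_singleton one_ne_zero

end Generic

/-- An algebraically closed field is algebraically closed in every domain containing it. -/
theorem mem_range_of_isIntegral_of_isAlgClosed {k B : Type*} [Field k] [IsAlgClosed k]
    [CommRing B] [IsDomain B] [Algebra k B] (y : B) (hy : IsIntegral k y) :
    y ∈ Set.range (algebraMap k B) := by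
  have h1 : (minpoly k y).degree = 1 :=
    IsAlgClosed.degree_eq_one_of_irreducible k (minpoly.irreducible hy)
  exact minpoly.mem_range_of_degree_eq_one k y h1

end Fermat.Agent.S18.ConstW
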