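import Mathlib
import Fermat.Agent.S18.Plan
import Fermat.Agent.S18.ConstW

set_option autoImplicit false

/-
# S18 [CONST] at Plan level: `Plan.ConstW A n`

`W 0 = k`: an element of `k((q))` which is integral over `k[j]` and over the valuation ring at
infinity `k(j) ∩ k[[q]]` of `k(j)` is a constant.  No hypothesis on the level or on `A`.

Route: `κ` is algebraically closed in `κ((q))` (power series are integrally closed); the
Plan spelling `polyJ` / `OinfJ` is transported to `κ[X]` / `Oinf κ` along `X ↦ j`
(`κ((q))` as a `κ(X)`-algebra, on a type synonym `OmJ κ`), and the generic statement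
`Fermat.Agent.S18.ConstW.isIntegral_of_isIntegral_of_isIntegral` concludes.
-/

namespace Fermat.Agent.S18.ConstWPlan

open Polynomial ModularCurve Fermat.Agent.Lib.DedekindWeber Fermat.Agent.S18.Content

noncomputable section

/-! ## `κ` is algebraically closed in `κ((q))` -/

section AlgClosed

variable (κ : Type*) [Field κ]

theorem algebraMap_powerSeries_comp :
    (algebraMap (PowerSeries κ) (LaurentSeries κ)).comp (algebraMap κ (PowerSeries κ)) =
      algebraMap κ (LaurentSeries κ) := by
  ext1 a
  rw [RingHom.comp_apply, algebraMap_LS_eq_C]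
  exact HahnSeries.ofPowerSeries_C a

variable {κ}

/-- An element of `κ((q))` which is integral over `κ` is a power series. -/
theorem exists_ofPowerSeries_of_isIntegral {y : LaurentSeries κ} (hy : IsIntegral κ y) :
    ∃ f : PowerSeries κ, HahnSeries.ofPowerSeries ℤ κ f = y := by
  have h : IsIntegral (PowerSeries κ) y := by
    obtain ⟨p, hp, hpy⟩ := hy
    refine ⟨p.map (algebraMap κ (PowerSeries κ)), hp.map _, ?_⟩
    rw [Polynomial.eval₂_map, algebraMap_powerSeries_comp]
    exact hpy
  exact (IsIntegrallyClosed.isIntegral_iff (R := PowerSeries κ) (K := LaurentSeries κ)).mp h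

/-- `κ` is algebraically closed in `κ((q))`. -/
theorem eq_C_of_isIntegral {y : LaurentSeries κ} (hy : IsIntegral κ y) :
    ∃ c : κ, y = HahnSeries.C c := by
  have key : ∀ z : LaurentSeries κ, IsIntegral κ z → z ≠ 0 → ∀ f : PowerSeries κ,
      HahnSeries.ofPowerSeries ℤ κ f = z → PowerSeries.constantCoeff f ≠ 0 := by
    intro z hz hz0 f hf
    obtain ⟨g, hg⟩ := exists_ofPowerSeries_of_isIntegral hz.inv
    have hfg : f * g = 1 := by
      apply HahnSeries.ofPowerSeries_injective (Γ := ℤ)
      rw [map_mul, hf, hg, mul_inv_cancel₀ hz0, map_one]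
    intro h0
    have := congrArg PowerSeries.constantCoeff hfg
    rw [map_mul, h0, zero_mul, map_one] at this
    exact zero_ne_one this
  obtain ⟨f, hf⟩ := exists_ofPowerSeries_of_isIntegral hy
  refine ⟨PowerSeries.constantCoeff f, ?_⟩
  by_contra hne
  have hz : IsIntegral κ (y - HahnSeries.C (PowerSeries.constantCoeff f)) :=
    hy.sub (by rw [← algebraMap_LS_eq_C]; exact isIntegral_algebraMap)
  have hf' : HahnSeries.ofPowerSeries ℤ κ (f - PowerSeries.C (PowerSeries.constantCoeff f)) =
      y - HahnSeries.C (PowerSeries.constantCoeff f) := by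
    rw [map_sub, hf, HahnSeries.ofPowerSeries_C]
  exact key _ hz (sub_ne_zero.mpr hne) _ hf' (by simp)

/-- `j` is transcendental over `κ`. -/
theorem transcendental_jqModC (κ : Type*) [Field κ] : Transcendental κ (jqModC κ) := by
  intro h
  obtain ⟨c, hc⟩ := eq_C_of_isIntegral h.isIntegral
  have h1 := coeff_jqModC_neg_one κ
  rw [hc, HahnSeries.C_apply, HahnSeries.coeff_single_of_ne (by norm_num)] at h1
  exact zero_ne_one h1

end AlgClosed

/-! ## Transport of integrality along a comparison of coefficient rings -/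

/-- If every coefficient in the image of `g` is in the image of `f`, an element integral along
`g` is integral along `f`. -/
theorem isIntegralElem_of_forall_exists {R S B : Type*} [CommRing R] [CommRing S] [Ring B]
    (f : R →+* B) (g : S →+* B) {y : B} (h : ∀ s : S, ∃ r : R, f r = g s)
    (hy : g.IsIntegralElem y) : f.IsIntegralElem y := by
  obtain ⟨p, hp, hpy⟩ := hy
  have hl : p.map g ∈ Polynomial.lifts f := by
    rw [Polynomial.lifts_iff_coeff_lifts]
    intro n
    rw [Polynomial.coeff_map]
    exact h _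
  obtain ⟨q, hq, -, hqm⟩ := Polynomial.lifts_and_natDegree_eq_and_monic hl (hp.map g)
  refine ⟨q, hqm, ?_⟩
  rw [← Polynomial.eval_map, hq, Polynomial.eval_map]
  exact hpy

/-! ## `κ((q))` as a `κ(X)`-algebra via `X ↦ j` -/

section Psi

variable (κ : Type) [Field κ]

/-- The embedding `κ(X) → κ((q))`, `X ↦ j`. -/
def psi : RatFunc κ →ₐ[κ] LaurentSeries κ :=
  RatFunc.liftAlgHom (Polynomial.aeval (jqModC κ))
    (nonZeroDivisors_le_comap_nonZeroDivisors_of_injective _
      (transcendental_iff_injective.mp (transcendental_jqModC κ)))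

theorem psi_apply (f : RatFunc κ) :
    psi κ f = Polynomial.aeval (jqModC κ) f.num / Polynomial.aeval (jqModC κ) f.denom :=
  RatFunc.liftAlgHom_apply _ _ f

theorem psi_algebraMap (p : κ[X]) :
    psi κ (algebraMap κ[X] (RatFunc κ) p) = Polynomial.aeval (jqModC κ) p := by
  have h := RatFunc.liftAlgHom_apply_div (Polynomial.aeval (jqModC κ))
    (nonZeroDivisors_le_comap_nonZeroDivisors_of_injective _
      (transcendental_iff_injective.mp (transcendental_jqModC κ))) p 1
  rw [map_one, div_one, map_one, div_one] at h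
  exact h

theorem psi_X : psi κ RatFunc.X = jqModC κ := by
  rw [← RatFunc.algebraMap_X, psi_algebraMap, Polynomial.aeval_X]

/-- `κ((q))`, seen as a `κ(X)`-algebra via `X ↦ j` (a type synonym, to keep this structure
apart from the `κ[X]`-algebra structure `X ↦ q` of Mathlib). -/
def OmJ : Type := LaurentSeries κ

instance : Field (OmJ κ) := inferInstanceAs (Field (LaurentSeries κ))

instance : Algebra κ (OmJ κ) := inferInstanceAs (Algebra κ (LaurentSeries κ))

instance : Algebra (RatFunc κ) (OmJ κ) := (psi κ).toRingHom.toAlgebra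

instance : Algebra κ[X] (OmJ κ) :=
  ((psi κ).toRingHom.comp (algebraMap κ[X] (RatFunc κ))).toAlgebra

instance : IsScalarTower κ[X] (RatFunc κ) (OmJ κ) :=
  IsScalarTower.of_algebraMap_eq fun _ => rfl

instance : IsScalarTower κ (RatFunc κ) (OmJ κ) :=
  IsScalarTower.of_algebraMap_eq fun a => ((psi κ).commutes a).symm

theorem algebraMap_ratFunc_OmJ (f : RatFunc κ) :
    algebraMap (RatFunc κ) (OmJ κ) f = psi κ f := rfl

theorem algebraMap_poly_OmJ (p : κ[X]) :
    algebraMap κ[X] (OmJ κ) p = Polynomial.aeval (jqModC κ) p := psi_algebraMap κ p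

/-- `κ(j) ⊆ κ((q))` is the image of `κ(X)`. -/
theorem adjoin_le_fieldRange :
    IntermediateField.adjoin κ {jqModC κ} ≤ (psi κ).fieldRange := by
  rw [IntermediateField.adjoin_le_iff]
  rintro x hx
  rw [Set.mem_singleton_iff] at hx
  exact ⟨RatFunc.X, by rw [hx]; exact psi_X κ⟩

/-- An element of `κ((q))` integral over `κ[[q]]` is a power series; `j` is not. -/
theorem not_isIntegral_powerSeries_jqModC : ¬ IsIntegral (PowerSeries κ) (jqModC κ) := by
  intro hint
  obtain ⟨g', hg'⟩ :=
    (IsIntegrallyClosed.isIntegral_iff (R := PowerSeries κ) (K := LaurentSeries κ)).mp hint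
  have h1 := coeff_jqModC_neg_one κ
  rw [← hg'] at h1
  have h2 : (algebraMap (PowerSeries κ) (LaurentSeries κ) g').coeff (-1) = 0 := by
    show ((g' : PowerSeries κ) : LaurentSeries κ).coeff (-1) = 0
    rw [PowerSeries.coeff_coe, if_pos (by norm_num)]
  rw [h2] at h1
  exact zero_ne_one h1

variable [DecidableEq (RatFunc κ)]

/-- **Claim 1.** If the image of `f ∈ κ(X)` under `X ↦ j` is a power series, then `f` is
integral at infinity. -/
theorem inftyValuation_le_one_of_psi_eq (f : RatFunc κ) (g : PowerSeries κ)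
    (hg : HahnSeries.ofPowerSeries ℤ κ g = psi κ f) : RatFunc.inftyValuation κ f ≤ 1 := by
  by_contra hlt
  rw [not_le] at hlt
  have hf0 : f ≠ 0 := by
    rintro rfl
    rw [map_zero] at hlt
    exact not_lt_of_ge zero_le hlt
  have hdeg : f.denom.natDegree < f.num.natDegree := by
    have h1 : RatFunc.inftyValuation κ f = WithZero.exp f.intDegree :=
      RatFunc.inftyValuation_of_nonzero κ hf0
    rw [h1, ← WithZero.exp_zero, WithZero.exp_lt_exp, RatFunc.intDegree] at hlt
    omega
  have hnum0 : f.num ≠ 0 := RatFunc.num_ne_zero hf0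
  have hden0 : f.denom ≠ 0 := RatFunc.denom_ne_zero f
  have hinj := transcendental_iff_injective.mp (transcendental_jqModC κ)
  have hden : Polynomial.aeval (jqModC κ) f.denom ≠ 0 := fun h =>
    hden0 (hinj (by rw [h, map_zero]))
  have heq : Polynomial.aeval (jqModC κ) f.num =
      HahnSeries.ofPowerSeries ℤ κ g * Polynomial.aeval (jqModC κ) f.denom := by
    rw [hg, psi_apply, div_mul_cancel₀ _ hden]
  set P : (PowerSeries κ)[X] := f.num.map (algebraMap κ (PowerSeries κ)) -
    Polynomial.C g * f.denom.map (algebraMap κ (PowerSeries κ)) with hPdef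
  have hP : Polynomial.eval₂ (algebraMap (PowerSeries κ) (LaurentSeries κ)) (jqModC κ) P = 0 := by
    rw [hPdef, Polynomial.eval₂_sub, Polynomial.eval₂_mul, Polynomial.eval₂_C,
      Polynomial.eval₂_map, Polynomial.eval₂_map, algebraMap_powerSeries_comp,
      ← Polynomial.aeval_def, ← Polynomial.aeval_def, heq]
    exact sub_self _
  have hlc : P.leadingCoeff = algebraMap κ (PowerSeries κ) f.num.leadingCoeff := by
    have hd : (Polynomial.C g * f.denom.map (algebraMap κ (PowerSeries κ))).degree <
        (f.num.map (algebraMap κ (PowerSeries κ))).degree := by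
      apply Polynomial.degree_lt_degree
      calc (Polynomial.C g * f.denom.map (algebraMap κ (PowerSeries κ))).natDegree
          ≤ (f.denom.map (algebraMap κ (PowerSeries κ))).natDegree :=
            Polynomial.natDegree_C_mul_le _ _
        _ = f.denom.natDegree := Polynomial.natDegree_map _
        _ < f.num.natDegree := hdeg
        _ = (f.num.map (algebraMap κ (PowerSeries κ))).natDegree :=
            (Polynomial.natDegree_map _).symm
    rw [hPdef, Polynomial.leadingCoeff_sub_of_degree_lt hd, Polynomial.leadingCoeff_map]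
  have hu : IsUnit P.leadingCoeff := by
    rw [hlc]
    exact (isUnit_iff_ne_zero.mpr (Polynomial.leadingCoeff_ne_zero.mpr hnum0)).map _
  apply not_isIntegral_powerSeries_jqModC κ
  have h1 : IsIntegral (PowerSeries κ) (P.leadingCoeff • jqModC κ) :=
    isIntegral_leadingCoeff_smul P (jqModC κ) (by rw [Polynomial.aeval_def]; exact hP)
  obtain ⟨u, hu'⟩ := hu
  have h2 : jqModC κ = ((u⁻¹ : (PowerSeries κ)ˣ) : PowerSeries κ) • (P.leadingCoeff • jqModC κ) := by
    rw [smul_smul, ← hu', Units.inv_mul, one_smul]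
  rw [h2]
  exact h1.smul _

omit [DecidableEq (RatFunc κ)] in
/-- Integral over `κ[j]` (Plan spelling) implies integral over `κ[X]` along `X ↦ j`. -/
theorem isIntegral_poly_of_polyJ {y : LaurentSeries κ} (h : IsIntegral (Plan.polyJ κ) y) :
    @IsIntegral κ[X] (OmJ κ) _ _ _ y := by
  refine isIntegralElem_of_forall_exists (algebraMap κ[X] (OmJ κ))
    (algebraMap (Plan.polyJ κ) (LaurentSeries κ)) ?_ h
  rintro ⟨s, hs⟩
  rw [Plan.polyJ, Algebra.adjoin_singleton_eq_range_aeval] at hs
  obtain ⟨p, rfl⟩ := hs
  exact ⟨p, algebraMap_poly_OmJ κ p⟩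

/-- Integral over `κ(j) ∩ κ[[q]]` (Plan spelling) implies integral over the valuation ring at
infinity of `κ(X)` along `X ↦ j`. -/
theorem isIntegral_Oinf_of_OinfJ {y : LaurentSeries κ} (h : IsIntegral (Plan.OinfJ κ) y) :
    @IsIntegral (Oinf κ) (OmJ κ) _ _ _ y := by
  refine isIntegralElem_of_forall_exists (algebraMap (Oinf κ) (OmJ κ))
    (algebraMap (Plan.OinfJ κ) (LaurentSeries κ)) ?_ h
  rintro ⟨s, hs1, g, hg⟩
  obtain ⟨f, hf⟩ := adjoin_le_fieldRange κ hs1
  have hv := inftyValuation_le_one_of_psi_eq κ f g (hg.trans hf.symm)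
  exact ⟨⟨f, (Valuation.mem_valuationSubring_iff _ _).mpr hv⟩, hf⟩

end Psi

/-! ## `W 0 = κ` -/

/-- **[CONST]**, generic form: `WJ κ L 0 ⊆ κ` for every field `κ` and every intermediate field
`L` of `κ((q))`. -/
theorem eq_C_of_mem_WJ_zero (κ : Type) [Field κ] (L : IntermediateField κ (LaurentSeries κ))
    {y : LaurentSeries κ} (hy : y ∈ Plan.WJ κ L 0) : ∃ c : κ, y = HahnSeries.C c := by
  classical
  obtain ⟨-, h2, h3⟩ := Plan.mem_WJ.mp hy
  rw [pow_zero, one_mul] at h3
  have h : @IsIntegral κ (OmJ κ) _ _ _ y :=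
    ConstW.isIntegral_of_isIntegral_of_isIntegral κ (OmJ κ) y (isIntegral_poly_of_polyJ κ h2)
      (isIntegral_Oinf_of_OinfJ κ h3)
  exact eq_C_of_isIntegral h

/-- **[CONST]** `Plan.ConstW A n`: `W 0 = k` at every level, for every `A`. -/
theorem constW (A : ValuationSubring Fermat.Agent.S24.Kbar) (n : ℕ) : Plan.ConstW A n :=
  fun _ hy => eq_C_of_mem_WJ_zero _ _ hy

end

end Fermat.Agent.S18.ConstWPlan
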