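import Mathlib
import Fermat.Agent.S18.Plan
import Fermat.Agent.S28.Tower.Basic

/-!
# S18 — the integrality calculus of the spaces `WJ κ L c` (helper43)

Pure integrality lemmas about `Plan.WJ κ L c = {y ∈ L | y integral over κ[j], j⁻ᶜ y integral over
O_∞}`; they turn the Plan contracts into the hypotheses `H1a`, `H1b`, `H1`, `H3`, `H4` of
`LiftCore.liftCore` and give the last step of `(Incl')` (a root of a monic polynomial whose
coefficients lie in the spaces `WJ (i c)`).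
-/

set_option autoImplicit false

noncomputable section

namespace Fermat.Agent.S18.WJCalc

open ModularCurve Fermat.Agent.S18.Plan

/-! ### Generic integrality of a root of a monic relation -/

/-- A root of a monic relation with integral coefficients is integral. -/
theorem isIntegral_of_monic_relation {R Ω : Type*} [CommRing R] [CommRing Ω] [Algebra R Ω]
    {y : Ω} {d : ℕ} (a : ℕ → Ω) (ha : ∀ i, i < d → IsIntegral R (a i))
    (h : y ^ d + ∑ i ∈ Finset.range d, a i * y ^ i = 0) : IsIntegral R y := by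
  classical
  let B := integralClosure R Ω
  let b : ℕ → B := fun i => if hi : i < d then ⟨a i, ha i hi⟩ else 0
  let Q : Polynomial B := Polynomial.X ^ d + ∑ i ∈ Finset.range d, Polynomial.C (b i) * Polynomial.X ^ i
  have hdeg : (∑ i ∈ Finset.range d, Polynomial.C (b i) * Polynomial.X ^ i : Polynomial B).degree
      < (d : WithBot ℕ) := by
    refine lt_of_le_of_lt (Polynomial.degree_sum_le _ _) ?_
    refine (Finset.sup_lt_iff (WithBot.bot_lt_coe d)).2 fun i hi => ?_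
    refine lt_of_le_of_lt (Polynomial.degree_C_mul_X_pow_le i (b i)) ?_
    exact WithBot.coe_lt_coe.2 (Finset.mem_range.1 hi)
  have hmonic : Q.Monic := Polynomial.monic_X_pow_add hdeg
  have heval : Polynomial.eval₂ (algebraMap B Ω) y Q = 0 := by
    have hb : ∀ i ∈ Finset.range d, algebraMap B Ω (b i) * y ^ i = a i * y ^ i := by
      intro i hi
      have hi' : i < d := Finset.mem_range.1 hi
      simp only [b, dif_pos hi']
      rfl
    simp only [Q, Polynomial.eval₂_add, Polynomial.eval₂_pow, Polynomial.eval₂_X,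
      Polynomial.eval₂_finsetSum, Polynomial.eval₂_mul, Polynomial.eval₂_C]
    rw [Finset.sum_congr rfl hb]
    exact h
  have hB : IsIntegral B y := ⟨Q, hmonic, heval⟩
  exact isIntegral_trans y hB

/-! ### `j` and `j⁻¹` -/

variable {κ : Type} [Field κ]

theorem j_ne_zero : jqModC κ ≠ 0 := jqModC_ne_zero_of_nontrivial κ

theorem j_mem_polyJ : jqModC κ ∈ polyJ κ := Algebra.subset_adjoin (Set.mem_singleton _)

/-- A Laurent series of non-negative order is a power series. -/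
theorem mem_range_ofPowerSeries_of_order_nonneg {f : LaurentSeries κ} (hf : 0 ≤ f.order) :
    f ∈ (HahnSeries.ofPowerSeries ℤ κ).range := by
  refine ⟨PowerSeries.mk fun n => f.coeff n, ?_⟩
  ext i
  rw [PowerSeries.coeff_coe]
  split_ifs with hi
  · exact (HahnSeries.coeff_eq_zero_of_lt_order (lt_of_lt_of_le hi hf)).symm
  · rw [PowerSeries.coeff_mk]
    congr 1
    have : 0 ≤ i := not_lt.1 hi
    exact Int.natAbs_of_nonneg this

theorem order_inv_j : ((jqModC κ)⁻¹).order = 1 := by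
  have h1 : (jqModC κ * (jqModC κ)⁻¹).order = (jqModC κ).order + ((jqModC κ)⁻¹).order :=
    HahnSeries.order_mul j_ne_zero (inv_ne_zero j_ne_zero)
  rw [mul_inv_cancel₀ j_ne_zero, HahnSeries.order_one,
    Fermat.Agent.S28.Tower.order_jqModC] at h1
  linarith

/-- `j⁻¹` lies in the valuation ring at infinity of `κ(j)`. -/
theorem inv_j_mem_OinfJ : (jqModC κ)⁻¹ ∈ OinfJ κ := by
  refine ⟨?_, ?_⟩
  · exact (IntermediateField.adjoin κ {jqModC κ}).inv_mem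
      (IntermediateField.subset_adjoin κ _ (Set.mem_singleton _))
  · exact mem_range_ofPowerSeries_of_order_nonneg (by rw [order_inv_j]; norm_num)

theorem inv_j_pow_mem_OinfJ (c : ℕ) : (jqModC κ)⁻¹ ^ c ∈ OinfJ κ :=
  pow_mem inv_j_mem_OinfJ c

theorem isIntegral_of_mem_OinfJ {x : LaurentSeries κ} (hx : x ∈ OinfJ κ) :
    IsIntegral (OinfJ κ) x :=
  isIntegral_algebraMap (R := OinfJ κ) (x := ⟨x, hx⟩)

theorem isIntegral_of_mem_polyJ {x : LaurentSeries κ} (hx : x ∈ polyJ κ) :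
    IsIntegral (polyJ κ) x :=
  isIntegral_algebraMap (R := polyJ κ) (x := ⟨x, hx⟩)

theorem inv_j_pow_mul_j_pow (c : ℕ) : (jqModC κ)⁻¹ ^ c * jqModC κ ^ c = 1 := by
  rw [← mul_pow, inv_mul_cancel₀ j_ne_zero, one_pow]

/-! ### The calculus of `WJ` -/

variable {L : IntermediateField κ (LaurentSeries κ)}

theorem WJ_mono {c c' : ℕ} (h : c ≤ c') : WJ κ L c ≤ WJ κ L c' := by
  rintro y ⟨h1, h2, h3⟩
  refine ⟨h1, h2, ?_⟩
  have e : (jqModC κ)⁻¹ ^ c' * y = (jqModC κ)⁻¹ ^ (c' - c) * ((jqModC κ)⁻¹ ^ c * y) := by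
    rw [← mul_assoc, ← pow_add, Nat.sub_add_cancel h]
  rw [e]
  exact (isIntegral_of_mem_OinfJ (inv_j_pow_mem_OinfJ _)).mul h3

theorem one_mem_WJ (c : ℕ) : (1 : LaurentSeries κ) ∈ WJ κ L c := by
  refine ⟨L.one_mem, isIntegral_one, ?_⟩
  rw [mul_one]
  exact isIntegral_of_mem_OinfJ (inv_j_pow_mem_OinfJ _)

theorem j_pow_mem_WJ (hj : jqModC κ ∈ L) (c : ℕ) : jqModC κ ^ c ∈ WJ κ L c := by
  refine ⟨pow_mem hj c, isIntegral_of_mem_polyJ (pow_mem j_mem_polyJ c), ?_⟩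
  rw [inv_j_pow_mul_j_pow]
  exact isIntegral_one

theorem mul_mem_WJ {c c' : ℕ} {y y' : LaurentSeries κ} (hy : y ∈ WJ κ L c)
    (hy' : y' ∈ WJ κ L c') : y * y' ∈ WJ κ L (c + c') := by
  obtain ⟨h1, h2, h3⟩ := hy
  obtain ⟨h1', h2', h3'⟩ := hy'
  refine ⟨L.mul_mem h1 h1', h2.mul h2', ?_⟩
  have e : (jqModC κ)⁻¹ ^ (c + c') * (y * y')
      = ((jqModC κ)⁻¹ ^ c * y) * ((jqModC κ)⁻¹ ^ c' * y') := by
    rw [pow_add]; ring
  rw [e]
  exact h3.mul h3'

/-- `j⁻ᶜ (jᶜ y) = y`. -/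
theorem inv_j_pow_mul_j_pow_mul (c : ℕ) (y : LaurentSeries κ) :
    (jqModC κ)⁻¹ ^ c * (jqModC κ ^ c * y) = y := by
  rw [← mul_assoc, inv_j_pow_mul_j_pow, one_mul]

/-- If `jᶜ y ∈ WJ c` then `y` is integral over `O_∞`. -/
theorem isIntegral_OinfJ_of_j_pow_mul_mem {c : ℕ} {y : LaurentSeries κ}
    (h : jqModC κ ^ c * y ∈ WJ κ L c) : IsIntegral (OinfJ κ) y := by
  have := h.2.2
  rwa [inv_j_pow_mul_j_pow_mul] at this

/-- `WJ c ∩ j⁻ᶜ WJ c ⊆ WJ 0` (hypotheses `H1`, `H3` of `liftCore`, with `ConstW`). -/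
theorem mem_WJ_zero_of_mem {c : ℕ} {y : LaurentSeries κ} (h₁ : y ∈ WJ κ L c)
    (h₂ : jqModC κ ^ c * y ∈ WJ κ L c) : y ∈ WJ κ L 0 := by
  refine ⟨h₁.1, h₁.2.1, ?_⟩
  rw [pow_zero, one_mul]
  exact isIntegral_OinfJ_of_j_pow_mul_mem h₂

/-- The pole-order lemma (hypothesis `H4` of `liftCore`):
`(WJ C + j⁻ᶜ' WJ C) ∩ j⁻ᶜ WJ (2c) ⊆ WJ c + j⁻ᶜ WJ c`, in element form. -/
theorem split_mem_WJ (hj : jqModC κ ∈ L) {c C : ℕ} {y₁ y₂ : LaurentSeries κ}
    (h₁ : y₁ ∈ WJ κ L C) (h₂ : jqModC κ ^ C * y₂ ∈ WJ κ L C)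
    (h : jqModC κ ^ c * (y₁ + y₂) ∈ WJ κ L (2 * c)) :
    y₁ ∈ WJ κ L c ∧ jqModC κ ^ c * y₂ ∈ WJ κ L c := by
  have hy₂ : IsIntegral (OinfJ κ) y₂ := isIntegral_OinfJ_of_j_pow_mul_mem h₂
  have hsum : IsIntegral (OinfJ κ) ((jqModC κ)⁻¹ ^ c * (y₁ + y₂)) := by
    have h3 := h.2.2
    have e : (jqModC κ)⁻¹ ^ (2 * c) * (jqModC κ ^ c * (y₁ + y₂))
        = (jqModC κ)⁻¹ ^ c * (y₁ + y₂) := by
      rw [two_mul, pow_add, mul_assoc, inv_j_pow_mul_j_pow_mul]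
    rwa [e] at h3
  have hc2 : IsIntegral (OinfJ κ) ((jqModC κ)⁻¹ ^ c * y₂) :=
    (isIntegral_of_mem_OinfJ (inv_j_pow_mem_OinfJ c)).mul hy₂
  have hjc : IsIntegral (polyJ κ) (jqModC κ ^ c * y₁) :=
    (isIntegral_of_mem_polyJ (pow_mem j_mem_polyJ c)).mul h₁.2.1
  refine ⟨⟨h₁.1, h₁.2.1, ?_⟩, ?_, ?_, ?_⟩
  · have e : (jqModC κ)⁻¹ ^ c * y₁
        = (jqModC κ)⁻¹ ^ c * (y₁ + y₂) - (jqModC κ)⁻¹ ^ c * y₂ := by ring
    rw [e]
    exact hsum.sub hc2
  · have e : jqModC κ ^ c * y₂ = jqModC κ ^ c * (y₁ + y₂) - jqModC κ ^ c * y₁ := by ring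
    show jqModC κ ^ c * y₂ ∈ L
    rw [e]
    exact L.sub_mem h.1 (L.mul_mem (pow_mem hj c) h₁.1)
  · have e : jqModC κ ^ c * y₂ = jqModC κ ^ c * (y₁ + y₂) - jqModC κ ^ c * y₁ := by ring
    show IsIntegral (polyJ κ) (jqModC κ ^ c * y₂)
    rw [e]
    exact h.2.1.sub hjc
  · show IsIntegral (OinfJ κ) ((jqModC κ)⁻¹ ^ c * (jqModC κ ^ c * y₂))
    rw [inv_j_pow_mul_j_pow_mul]
    exact hy₂

/-- Submodule form of `split_mem_WJ`. -/
theorem split_mem_WJ' (hj : jqModC κ ∈ L) {c C : ℕ} {x : LaurentSeries κ}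
    (hx : ∃ y₁ y₂ : LaurentSeries κ, y₁ ∈ WJ κ L C ∧ jqModC κ ^ C * y₂ ∈ WJ κ L C ∧ x = y₁ + y₂)
    (h : jqModC κ ^ c * x ∈ WJ κ L (2 * c)) :
    ∃ y₁ y₂ : LaurentSeries κ, y₁ ∈ WJ κ L c ∧ jqModC κ ^ c * y₂ ∈ WJ κ L c ∧ x = y₁ + y₂ := by
  obtain ⟨y₁, y₂, h₁, h₂, rfl⟩ := hx
  obtain ⟨h1, h2⟩ := split_mem_WJ hj h₁ h₂ h
  exact ⟨y₁, y₂, h1, h2, rfl⟩

/-- `(Incl')`, last step: a root in `L` of a monic relation `y^d + ∑_{i<d} a_i y^i = 0` whose
coefficients satisfy `a_i ∈ WJ ((d - i) c)` lies in `WJ c`. -/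
theorem mem_WJ_of_relation {c d : ℕ} {y : LaurentSeries κ} (hy : y ∈ L)
    (a : ℕ → LaurentSeries κ) (ha : ∀ i, i < d → a i ∈ WJ κ L ((d - i) * c))
    (h : y ^ d + ∑ i ∈ Finset.range d, a i * y ^ i = 0) : y ∈ WJ κ L c := by
  refine ⟨hy, isIntegral_of_monic_relation a (fun i hi => (ha i hi).2.1) h, ?_⟩
  refine isIntegral_of_monic_relation (d := d)
    (fun i => (jqModC κ)⁻¹ ^ ((d - i) * c) * a i) (fun i hi => (ha i hi).2.2) ?_
  have e : ((jqModC κ)⁻¹ ^ c * y) ^ d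
      + ∑ i ∈ Finset.range d, (jqModC κ)⁻¹ ^ ((d - i) * c) * a i * ((jqModC κ)⁻¹ ^ c * y) ^ i
      = (jqModC κ)⁻¹ ^ (d * c) * (y ^ d + ∑ i ∈ Finset.range d, a i * y ^ i) := by
    rw [mul_add, Finset.mul_sum]
    congr 1
    · rw [mul_pow, ← pow_mul, mul_comm c d]
    · refine Finset.sum_congr rfl fun i hi => ?_
      have hi' : i ≤ d := (Finset.mem_range.1 hi).le
      have e1 : d * c = (d - i) * c + c * i := by
        rw [mul_comm c i, ← add_mul, Nat.sub_add_cancel hi']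
      rw [mul_pow, ← pow_mul, e1, pow_add]
      ring
  rw [e, h, mul_zero]

/-- Polynomial form of `mem_WJ_of_relation`. -/
theorem mem_WJ_of_root {c : ℕ} {y : LaurentSeries κ} (hy : y ∈ L)
    (P : Polynomial (LaurentSeries κ)) (hP : P.Monic)
    (hc : ∀ i, i < P.natDegree → P.coeff i ∈ WJ κ L ((P.natDegree - i) * c))
    (h : P.eval y = 0) : y ∈ WJ κ L c := by
  refine mem_WJ_of_relation (d := P.natDegree) hy (fun i => P.coeff i) hc ?_
  rw [Polynomial.eval_eq_sum_range, Finset.sum_range_succ, hP.coeff_natDegree, one_mul] at h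
  rw [add_comm]
  exact h

/-- Variant indexed from the top: `b i` is the coefficient of `y^(d-i)`, `b i ∈ WJ (i c)`. -/
theorem mem_WJ_of_root_top {c : ℕ} {y : LaurentSeries κ} (hy : y ∈ L)
    (P : Polynomial (LaurentSeries κ)) (hP : P.Monic)
    (hc : ∀ i, i ≤ P.natDegree → P.coeff (P.natDegree - i) ∈ WJ κ L (i * c))
    (h : P.eval y = 0) : y ∈ WJ κ L c := by
  refine mem_WJ_of_root hy P hP (fun i hi => ?_) h
  have := hc (P.natDegree - i) (Nat.sub_le _ _)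
  rwa [Nat.sub_sub_self hi.le] at this

end Fermat.Agent.S18.WJCalc

end
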