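import Mathlib
import Fermat.Agent.S18.Plan
import Fermat.Agent.S18.WJCalc

/-!
# S18 — `(Incl')`: reductions of pull-back Riemann–Roch spaces lie in `WJ` (helper43)

From the Plan contracts `CharStmt A N N'`, `InclF A N`, `RedStmt A N'` (clause (b)) and
`F_{N,k} ≤ F_{N',k}`: for a divisor `E` of `F_N` with `r_* E = 0`,
`redSp (pullRR N N' (E + c • (j)_∞)) ≤ WJ k F_{N',k} c`.
-/

set_option autoImplicit false

noncomputable section

namespace Fermat.Agent.S18.InclPrime

open ModularCurve AlgebraicCurve Fermat.Agent.S24 Fermat.Agent.S18.Content Fermat.Agent.S18.Plan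
open Fermat.Agent.S18

variable (A : ValuationSubring Kbar)

/-- The subring `F_N ∩ Ocal` of `F_N`. -/
def ON (N : ℕ) : Subring (FN N) := (Ocal A).comap (algebraMap (FN N) Om)

/-- Inclusion `F_N ∩ Ocal → Ocal`. -/
def inclO (N : ℕ) : ON A N →+* Ocal A where
  toFun a := ⟨algebraMap (FN N) Om (a : FN N), a.2⟩
  map_one' := by ext; simp
  map_mul' a b := by ext; simp
  map_zero' := by ext; simp
  map_add' a b := by ext; simp

theorem coe_inclO (N : ℕ) (a : ON A N) : ((inclO A N a : Ocal A) : Om) = ((a : FN N) : Om) := rfl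

set_option synthInstance.maxHeartbeats 400000 in
set_option maxHeartbeats 1000000 in
/-- `(Incl')`. -/
theorem redSp_pullRR_le (N N' : ℕ) [NeZero N]
    (hChar : Plan.CharStmt A N N') (hIncl : Plan.InclF A N) (hRed' : Plan.RedStmt A N')
    (hle : Plan.Fk A N ≤ Plan.Fk A N')
    (r : Place Kbar (FN N) → Place (kk A) (Plan.Fk A N))
    (hr : IsPlaceReductionAlong A (IsLocalRing.residue A) N r)
    (E Cp : Divisor Kbar (FN N)) (c : ℕ) (hCp : ∀ P, Cp P = max 0 (-(P.ord (jBar N))))
    (hE : Finsupp.mapDomain r E = 0) :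
    Plan.redSp A (Plan.pullRR N N' (E + c • Cp)) ≤ Plan.WJ (kk A) (Plan.Fk A N') c := by
  rintro x ⟨g, hg, rfl⟩
  obtain ⟨χ, hmon, -, hroot, hcoeff, hO, -⟩ := hChar (E + c • Cp) g hg
  -- the polynomial over `F_N ∩ Ocal`
  have hχO : ∀ i, χ.coeff i ∈ ON A N := fun i => hO i
  have hsub : (↑χ.coeffs : Set (FN N)) ⊆ ON A N := by
    intro a ha
    obtain ⟨i, -, rfl⟩ := Polynomial.mem_coeffs_iff.1 ha
    exact hχO i
  let χ₀ : Polynomial (ON A N) := χ.toSubring (ON A N) hsub
  have hc₀ : ∀ i, ((χ₀.coeff i : ON A N) : FN N) = χ.coeff i := fun i =>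
    Polynomial.coeff_toSubring χ (ON A N) hsub
  have hχ₀ : χ₀.map (ON A N).subtype = χ := by
    ext1 i
    rw [Polynomial.coeff_map]
    exact hc₀ i
  have hmon₀ : χ₀.Monic := (Polynomial.monic_toSubring χ (ON A N) hsub).2 hmon
  let φ : ON A N →+* Omk A := (red A).comp (inclO A N)
  let P : Polynomial (Omk A) := χ₀.map φ
  have hP : P.Monic := hmon₀.map φ
  have hdeg : P.natDegree = χ.natDegree := by
    rw [hmon₀.natDegree_map, ← hχ₀, hmon₀.natDegree_map]
  have hPcoeff : ∀ i, P.coeff i = red A ⟨((χ.coeff i : FN N) : Om), hO i⟩ := by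
    intro i
    show (χ₀.map φ).coeff i = _
    rw [Polynomial.coeff_map]
    show red A (inclO A N (χ₀.coeff i)) = _
    congr 1
    apply Subtype.ext
    rw [coe_inclO, hc₀]
  -- `red g` is a root of `P`
  have hev0 : χ₀.eval₂ (inclO A N) g = 0 := by
    apply Subtype.ext
    have h1 : ((χ₀.eval₂ (inclO A N) g : Ocal A) : Om)
        = χ₀.eval₂ ((Ocal A).subtype.comp (inclO A N)) ((Ocal A).subtype g) :=
      Polynomial.hom_eval₂ χ₀ (inclO A N) (Ocal A).subtype g
    have h2 : (Ocal A).subtype.comp (inclO A N)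
        = (algebraMap (FN N) Om).comp (ON A N).subtype := by
      ext a; rfl
    rw [h1, h2, ← Polynomial.eval₂_map, hχ₀]
    exact hroot
  have hrootP : P.eval (red A g) = 0 := by
    show (χ₀.map φ).eval (red A g) = 0
    rw [Polynomial.eval_map]
    have := Polynomial.hom_eval₂ χ₀ (inclO A N) (red A) g
    rw [← this, hev0, map_zero]
  -- `red g ∈ F_{N',k}`
  have hyL : red A g ∈ Plan.Fk A N' := hRed'.2.1 g hg.1
  refine WJCalc.mem_WJ_of_root_top hyL P hP (fun i hi => ?_) hrootP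
  rw [hdeg] at hi ⊢
  rw [hPcoeff]
  have hmem : χ.coeff (χ.natDegree - i) ∈ riemannRochSpace (i • E + (i * c) • Cp) := by
    have := hcoeff i hi
    rwa [smul_add, smul_smul] at this
  have hE' : Finsupp.mapDomain r (i • E) = 0 := by
    rw [Finsupp.mapDomain_smul, hE, smul_zero]
  have := hIncl r hr (i • E) Cp (i * c) hCp hE' _ hmem (hO _)
  exact ⟨hle this.1, this.2.1, this.2.2⟩

end Fermat.Agent.S18.InclPrime

end
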