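/-
S18, package [PULL] (helper27): the step of `[RR0]` in final form.

* `bar_le` : `F_N ⊆ F_{N'}` for `N ∣ N'`;
* `finrank_ext_mul` : `[F_{N'} : F_N] * ψ(N) = ψ(N')` (tower law inside `Q̄((q))`);
* `pullStep` : removing one point from `B` costs at most `d = [F_{N'} : F_N]` dimensions of
  `Plan.pullRR N N' B`, and `d * ψ(N) = ψ(N')`.
-/
import Mathlib
import Fermat.Agent.S18.PullPlan
import Fermat.Agent.S18.FibreCount
import Fermat.Agent.S18.Char0

set_option autoImplicit false

noncomputable section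

namespace Fermat.Agent.S18.PullStep

open ModularCurve AlgebraicCurve Fermat.Agent.S24 Fermat.Agent.S18 Fermat.Agent.S18.Plan
  Module IntermediateField

/-- `F_N ⊆ F_{N'}` inside `Q̄((q))` for `N ∣ N'`. -/
theorem bar_le {N N' : ℕ} [NeZero N] [NeZero N'] (hdiv : N ∣ N') :
    modularFunctionFieldBar N ≤ modularFunctionFieldBar N' := by
  rw [modularFunctionFieldBar, laurentBaseChange, IntermediateField.adjoin_le_iff]
  rintro _ ⟨y, hy, rfl⟩
  exact coeffEmb_mem_laurentBaseChange _ (full_degeneracy_le hdiv hy)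

/-- `j` as an element of `Q̄((q))`. -/
def jOm : Om := coeffEmb Kbar jq

theorem coe_jBar (N : ℕ) [NeZero N] : ((jBar N : FN N) : Om) = jOm := rfl

theorem jOm_mem (N : ℕ) [NeZero N] : jOm ∈ modularFunctionFieldBar N := (jBar N).2

/-- `Q̄(j)` inside `Q̄((q))`. -/
def Jfield : IntermediateField Kbar Om := Kbar⟮jOm⟯

theorem Jfield_le (N : ℕ) [NeZero N] : Jfield ≤ modularFunctionFieldBar N := by
  rw [Jfield, IntermediateField.adjoin_le_iff]
  rintro _ rfl
  exact jOm_mem N

/-- `[F_N : Q̄(j)] = ψ(N)` as a relative degree inside `Q̄((q))`. -/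
theorem relfinrank_Jfield (N : ℕ) [NeZero N] :
    IntermediateField.relfinrank Jfield (modularFunctionFieldBar N) = dedekindPsi N := by
  have h1 := IntermediateField.relfinrank_map_map (A := Kbar⟮jBar N⟯)
    (B := (⊤ : IntermediateField Kbar (FN N))) (modularFunctionFieldBar N).val
  rw [IntermediateField.relfinrank_top_right, FibreCount.finrank_eq N,
    IntermediateField.adjoin_map, Set.image_singleton, ← AlgHom.fieldRange_eq_map,
    IntermediateField.fieldRange_val] at h1
  exact h1

/-- **Tower law**: `[F_{N'} : F_N] * ψ(N) = ψ(N')`. -/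
theorem finrank_ext_mul {N N' : ℕ} [NeZero N] [NeZero N'] (hdiv : N ∣ N') :
    finrank (FN N) ↥(PullPlan.Ext (bar_le hdiv)) * dedekindPsi N = dedekindPsi N' := by
  have h := IntermediateField.relfinrank_mul_relfinrank (Jfield_le N) (bar_le hdiv)
  rw [relfinrank_Jfield N, relfinrank_Jfield N',
    IntermediateField.relfinrank_eq_finrank_of_le (bar_le hdiv)] at h
  rw [mul_comm]
  exact h

theorem finrank_ext_pos {N N' : ℕ} [NeZero N] [NeZero N'] (hdiv : N ∣ N') :
    0 < finrank (FN N) ↥(PullPlan.Ext (bar_le hdiv)) := by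
  have h := finrank_ext_mul hdiv
  have hpos := FibreCount.dedekindPsi_pos N'
  rcases Nat.eq_zero_or_pos (finrank (FN N) ↥(PullPlan.Ext (bar_le hdiv))) with h0 | h0
  · rw [h0, zero_mul] at h
    omega
  · exact h0

/-- `F_{N'} / F_N` is finite. -/
theorem finiteDimensional_ext {N N' : ℕ} [NeZero N] [NeZero N'] (hdiv : N ∣ N') :
    FiniteDimensional (FN N) ↥(PullPlan.Ext (bar_le hdiv)) :=
  Module.finite_of_finrank_pos (finrank_ext_pos hdiv)

/-- **The step of `[RR0]`** (helper15's (I-PULL), verbatim): there is `d` with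
`d * ψ(N) = ψ(N')` such that removing one point from `B` costs at most `d` dimensions of
`Plan.pullRR N N' B`. -/
theorem pullStep (N N' : ℕ) [NeZero N] [NeZero N'] (hdiv : N ∣ N') :
    ∃ d : ℕ, d * dedekindPsi N = dedekindPsi N' ∧
      ∀ (B : Divisor Kbar (FN N)) (P : Place Kbar (FN N)),
        Module.Finite Kbar (Plan.pullRR N N' B) →
          Module.finrank Kbar (Plan.pullRR N N' B) ≤
            Module.finrank Kbar (Plan.pullRR N N' (B - Finsupp.single P 1)) + d := by
  have := finiteDimensional_ext hdiv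
  exact ⟨finrank (FN N) ↥(PullPlan.Ext (bar_le hdiv)), finrank_ext_mul hdiv,
    fun B P hfin => PullPlan.pullStep_of (bar_le hdiv) (Char0.deg_eq_one N) B P hfin⟩

end Fermat.Agent.S18.PullStep
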