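import Mathlib
import Fermat.Agent.S18.Plan
import Fermat.Agent.Lib.FFPoles

/-!
# S18 — bridge from the Plan spaces `WJ κ L c` to Prelude places (helper78)

`κ` a field, `F` a function field over `κ` embedded in `κ((q))` by `ι`, `x : F` with
`ι x = j` and `F / κ(x)` finite separable.

* `isIntegral_of_forall_place` : regularity at the places over a subring `S ⊆ κ((q))` implies
  integrality over `S` (Mathlib's `iInf_valuationSubring_superset` + `Lib/FFPoles`);
* `isIntegral_polyJ_of_forall_mem`, `isIntegral_OinfJ_of_forall_mem` : the two charts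
  `S = κ[j]` and `S = O_∞ = κ(j) ∩ κ[[q]]` of `S18/Plan`;
* `isIntegral_of_mem_riemannRochSpace`, `mem_WJ_of_mem_riemannRochSpace` :
  `L(D) ⊆ WJ κ L c` for every divisor `D ≤ c • (j)_∞`.
-/

set_option autoImplicit false

noncomputable section

namespace Fermat.Agent.S18.WJPlaces

open ModularCurve AlgebraicCurve IntermediateField WithZero Fermat.Agent.Lib

/-! ### The `q`-adic valuation of `j` -/

section Series

variable (κ : Type) [Field κ]

/-- The `q`-adic valuation on `κ((q))`. -/
abbrev vq : Valuation (LaurentSeries κ) ℤᵐ⁰ := Valued.v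

theorem mem_range_ofPowerSeries_iff (f : LaurentSeries κ) :
    f ∈ (HahnSeries.ofPowerSeries ℤ κ).range ↔ vq κ f ≤ 1 := by
  rw [LaurentSeries.val_le_one_iff_eq_coe]
  rfl

theorem one_lt_vq_jqModC : 1 < vq κ (jqModC κ) := by
  rw [← not_le]
  intro h
  have h1 : vq κ (jqModC κ) ≤ exp (-(0 : ℤ)) := by simpa using h
  rw [LaurentSeries.valuation_le_iff_coeff_lt_eq_zero] at h1
  have h2 := h1 (-1) (by norm_num)
  rw [coeff_jqModC_neg_one] at h2
  exact one_ne_zero h2

theorem jqModC_ne_zero : jqModC κ ≠ 0 := fun h => by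
  have := one_lt_vq_jqModC κ
  rw [h, map_zero] at this
  exact not_lt_of_ge zero_le this

theorem exp_one_le_vq_jqModC : exp (1 : ℤ) ≤ vq κ (jqModC κ) := by
  have h := one_lt_vq_jqModC κ
  have h0 : vq κ (jqModC κ) ≠ 0 := (Valuation.ne_zero_iff _).mpr (jqModC_ne_zero κ)
  rw [← exp_log h0] at h ⊢
  rw [← exp_zero, exp_lt_exp] at h
  rw [exp_le_exp]
  omega

/-- `j⁻¹` is a power series in `q`. -/
theorem vq_inv_jqModC_le_one : vq κ (jqModC κ)⁻¹ ≤ 1 := by
  rw [map_inv₀]
  exact inv_le_one_of_one_le₀ (one_lt_vq_jqModC κ).le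

/-- Every Laurent series becomes a power series after multiplication by a power of `j⁻¹`. -/
theorem exists_vq_mul_inv_pow_le_one (f : LaurentSeries κ) :
    ∃ n : ℕ, vq κ (f * (jqModC κ)⁻¹ ^ n) ≤ 1 := by
  rcases eq_or_ne f 0 with rfl | hf
  · exact ⟨0, by simp⟩
  have hf0 : vq κ f ≠ 0 := (Valuation.ne_zero_iff _).mpr hf
  refine ⟨(log (vq κ f)).toNat, ?_⟩
  rw [map_mul, map_pow, map_inv₀]
  have h1 : (vq κ (jqModC κ))⁻¹ ≤ exp (-1 : ℤ) := by
    rw [exp_neg]
    exact inv_anti₀ (by simp) (exp_one_le_vq_jqModC κ)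
  calc vq κ f * (vq κ (jqModC κ))⁻¹ ^ (log (vq κ f)).toNat
      ≤ exp (log (vq κ f)) * exp (-1 : ℤ) ^ (log (vq κ f)).toNat := by
        rw [exp_log hf0]
        gcongr
    _ = exp (log (vq κ f) + (log (vq κ f)).toNat • (-1 : ℤ)) := by
        rw [exp_add, exp_nsmul]
    _ ≤ 1 := by
        rw [← exp_zero, exp_le_exp]
        have := Int.self_le_toNat (log (vq κ f))
        simp only [nsmul_eq_mul]
        omega

theorem mem_OinfJ_iff (f : LaurentSeries κ) :
    f ∈ Plan.OinfJ κ ↔ f ∈ IntermediateField.adjoin κ {jqModC κ} ∧ vq κ f ≤ 1 := by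
  rw [← mem_range_ofPowerSeries_iff]
  rfl

theorem algebraMap_mem_OinfJ (a : κ) : algebraMap κ (LaurentSeries κ) a ∈ Plan.OinfJ κ := by
  refine ⟨(IntermediateField.adjoin κ {jqModC κ}).algebraMap_mem a, ?_⟩
  refine ⟨PowerSeries.C a, ?_⟩
  rw [Fermat.Agent.S18.Content.algebraMap_LS_eq_C]
  simp

end Series

/-! ### Integrality over subrings of `κ((q))` from the places of an embedded function field -/

section Bridge

variable {κ : Type} [Field κ] {F : Type*} [Field F] [Algebra κ F]
variable (ι : F →ₐ[κ] LaurentSeries κ)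

theorem isIntegral_of_subring_eq {S T : Subring (LaurentSeries κ)} (h : S = T)
    {y : LaurentSeries κ} (hy : IsIntegral S y) : IsIntegral T y := by
  subst h
  exact hy

/-- **Integrality from places.** Let `S` be a subring of `κ((q))` containing `κ`, and `y ∈ F`.
If `y` is regular at every place of `F` whose valuation ring contains (the preimage of) `S`,
then `ι y` is integral over `S`. -/
theorem isIntegral_of_forall_place (x : F) [FiniteDimensional κ⟮x⟯ F] [Algebra.IsSeparable κ⟮x⟯ F]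
    (S : Subring (LaurentSeries κ))
    (hκ : ∀ a : κ, algebraMap κ (LaurentSeries κ) a ∈ S) (y : F)
    (h : ∀ v : Place κ F, (∀ s : F, ι s ∈ S → s ∈ v.toValuationSubring) →
      y ∈ v.toValuationSubring) : IsIntegral S (ι y) := by
  have hmem : ι y ∈
      (⨅ V : {V : ValuationSubring (LaurentSeries κ) // (S : Set (LaurentSeries κ)) ⊆ V.toSubring},
        V.1.toSubring) := by
    rw [Subring.mem_iInf]
    rintro ⟨V, hV⟩
    show ι y ∈ V
    let V' : ValuationSubring F := V.comap (ι : F →+* LaurentSeries κ)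
    have hV'mem : ∀ z : F, z ∈ V' ↔ ι z ∈ V := fun z => Iff.rfl
    by_cases htop : V' = ⊤
    · exact (hV'mem y).mp (htop ▸ ValuationSubring.mem_top y)
    · obtain ⟨v, hv⟩ := FFPoles.exists_place_of_valuationSubring x V' htop
        (fun a => (hV'mem _).mpr (by rw [AlgHom.commutes]; exact hV (hκ a)))
      have := h v (fun s hs => hv ▸ (hV'mem s).mpr (hV hs))
      rw [hv] at this
      exact (hV'mem y).mp this
  rw [iInf_valuationSubring_superset] at hmem
  have h1 : IsIntegral (Subring.closure (S : Set (LaurentSeries κ))) (ι y) := hmem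
  exact isIntegral_of_subring_eq (Subring.closure_eq S) h1

variable {ι} {x : F} (hx : ι x = jqModC κ)

include hx in
/-- **(W1)** regular where `j` is regular ⟹ integral over `κ[j]`. -/
theorem isIntegral_polyJ_of_forall_mem [FiniteDimensional κ⟮x⟯ F] [Algebra.IsSeparable κ⟮x⟯ F]
    (y : F) (h : ∀ v : Place κ F, x ∈ v.toValuationSubring → y ∈ v.toValuationSubring) :
    IsIntegral (Plan.polyJ κ) (ι y) := by
  have h1 : IsIntegral (Plan.polyJ κ).toSubring (ι y) :=
    isIntegral_of_forall_place ι x (Plan.polyJ κ).toSubring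
      (fun a => (Plan.polyJ κ).algebraMap_mem a) y
      (fun v hv => h v (hv x (by
        rw [hx]; exact Algebra.self_mem_adjoin_singleton κ (jqModC κ))))
  exact h1

include hx in
theorem map_mem_adjoin (e : κ⟮x⟯) :
    ι (e : F) ∈ IntermediateField.adjoin κ {jqModC κ} := by
  have h1 : ι (e : F) ∈ (IntermediateField.adjoin κ {x}).map ι := ⟨(e : F), e.2, rfl⟩
  rw [IntermediateField.adjoin_map, Set.image_singleton, hx] at h1
  exact h1

include hx in
/-- A place whose valuation ring contains the preimage of `O_∞` is a pole of `j`. -/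
theorem not_mem_of_OinfJ_le [FiniteDimensional κ⟮x⟯ F] (v : Place κ F)
    (hv : ∀ s : F, ι s ∈ Plan.OinfJ κ → s ∈ v.toValuationSubring) :
    x ∉ v.toValuationSubring := by
  intro hxv
  apply v.ne_top'
  have hx0 : x ≠ 0 := by
    intro h0
    rw [h0, map_zero] at hx
    exact jqModC_ne_zero κ hx.symm
  -- `κ(j) ⊆ O_v`
  have hE : ∀ e : κ⟮x⟯, algebraMap κ⟮x⟯ F e ∈ v.toValuationSubring := by
    intro e
    obtain ⟨n, hn⟩ := exists_vq_mul_inv_pow_le_one κ (ι (e : F))
    have h1 : ((e : F) * x⁻¹ ^ n) ∈ v.toValuationSubring := by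
      apply hv
      rw [mem_OinfJ_iff, map_mul, map_pow, map_inv₀, hx]
      refine ⟨?_, hn⟩
      exact mul_mem (map_mem_adjoin hx e)
        (pow_mem (inv_mem (IntermediateField.mem_adjoin_simple_self κ _)) n)
    have h2 : (e : F) = ((e : F) * x⁻¹ ^ n) * x ^ n := by
      rw [inv_pow, mul_assoc, inv_mul_cancel₀ (pow_ne_zero n hx0), mul_one]
    show (e : F) ∈ v.toValuationSubring
    rw [h2]
    exact mul_mem h1 (pow_mem hxv n)
  refine SetLike.ext fun z => ⟨fun _ => ValuationSubring.mem_top z, fun _ => ?_⟩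
  exact FFPoles.mem_valuationSubring_of_isIntegral (R := κ⟮x⟯) v.toValuationSubring hE
    (IsIntegral.of_finite κ⟮x⟯ z)

include hx in
/-- **(W2)** regular at the poles of `j` ⟹ integral over `O_∞`. -/
theorem isIntegral_OinfJ_of_forall_mem [FiniteDimensional κ⟮x⟯ F] [Algebra.IsSeparable κ⟮x⟯ F]
    (y : F) (h : ∀ v : Place κ F, x ∉ v.toValuationSubring → y ∈ v.toValuationSubring) :
    IsIntegral (Plan.OinfJ κ) (ι y) :=
  isIntegral_of_forall_place ι x (Plan.OinfJ κ) (algebraMap_mem_OinfJ κ) y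
    (fun v hv => h v (not_mem_of_OinfJ_le hx v hv))

include hx in
/-- **(W3)** for `y ∈ L(D)`, `D ≤ c • (j)_∞`: `y` is integral over `κ[j]` and `j⁻ᶜ y` is
integral over `O_∞`. -/
theorem isIntegral_of_mem_riemannRochSpace [FiniteDimensional κ⟮x⟯ F] [Algebra.IsSeparable κ⟮x⟯ F]
    (c : ℕ) (D : Divisor κ F)
    (hD : ∀ v : Place κ F, D v ≤ c * max 0 (-(v.ord x))) (y : F)
    (hy : y ∈ riemannRochSpace D) :
    IsIntegral (Plan.polyJ κ) (ι y) ∧ IsIntegral (Plan.OinfJ κ) ((jqModC κ)⁻¹ ^ c * ι y) := by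
  refine ⟨?_, ?_⟩
  · exact isIntegral_polyJ_of_forall_mem hx y fun v hv =>
      FFPoles.mem_of_mem_riemannRochSpace_of_mem x c hy v (hD v) hv
  · have h1 := isIntegral_OinfJ_of_forall_mem hx (x ^ (-(c : ℤ)) * y) fun v hv =>
      FFPoles.zpow_mul_mem_of_mem_riemannRochSpace x c hy v (hD v) hv
    rw [map_mul, zpow_neg, zpow_natCast, ← inv_pow, map_pow, map_inv₀, hx] at h1
    exact h1

end Bridge

/-! ### Specialisation to an intermediate field of `κ((q))` -/

section Intermediate

variable {κ : Type} [Field κ] (L : IntermediateField κ (LaurentSeries κ))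

/-- **`L(D) ⊆ WJ κ L c` for `D ≤ c • (j)_∞`** (Plan vocabulary); `x` is `j` as an element of
`L`. -/
theorem mem_WJ_of_mem_riemannRochSpace (x : L) (hx : (x : LaurentSeries κ) = jqModC κ)
    [FiniteDimensional (IntermediateField.adjoin κ {x}) L]
    [Algebra.IsSeparable (IntermediateField.adjoin κ {x}) L]
    (c : ℕ) (D : Divisor κ L)
    (hD : ∀ v : Place κ L, D v ≤ c * max 0 (-(v.ord x))) (y : L)
    (hy : y ∈ riemannRochSpace D) : (y : LaurentSeries κ) ∈ Plan.WJ κ L c := by
  rw [Plan.mem_WJ]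
  exact ⟨y.2, isIntegral_of_mem_riemannRochSpace (ι := L.val) (x := x) hx c D hD y hy⟩

end Intermediate

end Fermat.Agent.S18.WJPlaces
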