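import Mathlib
import Fermat.Agent.S18.Plan
import Fermat.Agent.S18.WJCalc
import Fermat.Agent.S18.InclPrime
import Fermat.Agent.S18.ConstWPlan
import Fermat.Agent.S18.WJPlaces
import Fermat.Agent.S18.PullStep
import Fermat.Agent.S18.Char0
import Fermat.Agent.S18.ContentField

/-!
# S18 — `r`-free inclusion at `E = 0` (helper78)

`Plan.InclF` and `InclPrime.redSp_pullRR_le` are stated for a place reduction `r`.  For `E = 0`
no place reduction is needed:

* `exists_poly_of_mem_WJ` : `WJ κ κ(j) c ⊆ κ[j]_{≤ c}` (any field `κ`);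
* `exists_polyA_of_aeval_mem` : Gauss, `Q̄[j] ∩ Ocal = A[j]`; `red_aeval_map`;
* `red_aeval_mem_WJ` : a polynomial of degree `≤ c` in `j` lying in `Ocal` reduces into
  `WJ k L c`;
* `exists_polyA_of_mem_one` : an element of `L_{F_1}(c (j)_∞) ∩ Ocal` is a polynomial of degree
  `≤ c` in `j` with coefficients in `A`;
* `inclF0_one` : `InclF0 A 1` — the reduction of `L_{F_1}(c (j)_∞) ∩ Ocal` lies in `WJ k L c`;
* `redSp_pullRR_le0` : `redSp (pullRR N N' (c • (j)_∞)) ≤ WJ k F_{N',k} c` from `CharStmt`,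
  `InclF0 A N` and `RedStmt A N'` (the proof of `InclPrime.redSp_pullRR_le` at `E = 0`).
-/

set_option autoImplicit false

noncomputable section

namespace Fermat.Agent.S18.InclFree

open Polynomial ModularCurve AlgebraicCurve Fermat.Agent.S24 Fermat.Agent.S18.Content
open Fermat.Agent.S18.Plan Fermat.Agent.S18 Fermat.Agent.Lib.DedekindWeber

/-! ### `WJ κ κ(j) c` consists of polynomials of degree `≤ c` in `j` -/

section Poly

variable (κ : Type) [Field κ]

/-- `WJ κ κ(j) c ⊆ κ[j]_{≤ c}`. -/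
theorem exists_poly_of_mem_WJ (c : ℕ) {y : LaurentSeries κ}
    (hy : y ∈ WJ κ (IntermediateField.adjoin κ {jqModC κ}) c) :
    ∃ p : κ[X], p.natDegree ≤ c ∧ Polynomial.aeval (jqModC κ) p = y := by
  classical
  obtain ⟨h1, h2, h3⟩ := mem_WJ.mp hy
  obtain ⟨f, hf⟩ := ConstWPlan.adjoin_le_fieldRange κ h1
  have hinj : Function.Injective (algebraMap (RatFunc κ) (ConstWPlan.OmJ κ)) :=
    (algebraMap (RatFunc κ) (ConstWPlan.OmJ κ)).injective
  -- `f` is a polynomial
  have hint : @IsIntegral κ[X] (ConstWPlan.OmJ κ) _ _ _ y :=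
    ConstWPlan.isIntegral_poly_of_polyJ κ h2
  have hf' : algebraMap (RatFunc κ) (ConstWPlan.OmJ κ) f = y := hf
  rw [← hf'] at hint
  have hintf : IsIntegral κ[X] f := (isIntegral_algebraMap_iff hinj).mp hint
  obtain ⟨p, hp⟩ := IsIntegrallyClosed.isIntegral_iff.mp hintf
  have hyp : Polynomial.aeval (jqModC κ) p = y := by
    rw [← hf, ← hp]
    exact (ConstWPlan.psi_algebraMap κ p).symm
  refine ⟨p, ?_, hyp⟩
  -- the degree bound
  have hint2 : @IsIntegral (Oinf κ) (ConstWPlan.OmJ κ) _ _ _ ((jqModC κ)⁻¹ ^ c * y) :=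
    ConstWPlan.isIntegral_Oinf_of_OinfJ κ h3
  have hg : algebraMap (RatFunc κ) (ConstWPlan.OmJ κ) (RatFunc.X⁻¹ ^ c * f) =
      (jqModC κ)⁻¹ ^ c * y := by
    rw [map_mul, map_pow, map_inv₀, hf']
    congr 2
    exact congrArg _ (ConstWPlan.psi_X κ)
  rw [← hg] at hint2
  have hintg : IsIntegral (Oinf κ) (RatFunc.X⁻¹ ^ c * f) :=
    (isIntegral_algebraMap_iff hinj).mp hint2
  obtain ⟨o, ho⟩ := IsIntegrallyClosed.isIntegral_iff.mp hintg
  have hval : RatFunc.inftyValuation κ (RatFunc.X⁻¹ ^ c * f) ≤ 1 := by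
    rw [← ho]
    exact (Valuation.mem_valuationSubring_iff _ _).mp o.2
  by_cases hp0 : p = 0
  · rw [hp0]; simp
  have hvp : RatFunc.inftyValuation κ (algebraMap κ[X] (RatFunc κ) p) =
      WithZero.exp (p.natDegree : ℤ) := inftyValuation_algebraMap κ hp0
  rw [← hp, map_mul, map_pow, map_inv₀, RatFunc.inftyValuation.X, hvp, ← WithZero.exp_neg,
    ← WithZero.exp_nsmul, ← WithZero.exp_add, ← WithZero.exp_zero, WithZero.exp_le_exp] at hval
  simp at hval
  omega

end Poly

/-! ### Reduction of polynomials in `j` -/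

section Red

variable (A : ValuationSubring Kbar)

theorem iota_jqModC : iota A (jqModC A) = jqModC Kbar := coeffMap_jqModC _

/-- Powers of `j̄` and their `k`-combinations of degree `≤ c` lie in `WJ k L c`. -/
theorem aeval_mem_WJ {κ : Type} [Field κ] (L : IntermediateField κ (LaurentSeries κ))
    (hj : jqModC κ ∈ L) (c : ℕ) (q : κ[X]) (hq : q.natDegree ≤ c) :
    Polynomial.aeval (jqModC κ) q ∈ WJ κ L c := by
  rw [Polynomial.aeval_eq_sum_range]
  refine Submodule.sum_mem _ fun i hi => ?_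
  have hi' : i ≤ c := by
    have := Finset.mem_range.mp hi
    omega
  have h1 : jqModC κ ^ i ∈ WJ κ L c := WJCalc.WJ_mono hi' (WJCalc.j_pow_mem_WJ hj i)
  rw [Algebra.smul_def, algebraMap_LS_eq_C, HahnSeries.C_mul_eq_smul]
  exact Submodule.smul_mem _ _ h1

/-- **Gauss**: `Q̄[j] ∩ Ocal = A[j]`. -/
theorem exists_polyA_of_aeval_mem (p : Kbar[X])
    (ha : Polynomial.aeval (jqModC Kbar) p ∈ Ocal A) :
    ∃ P : A[X], P.map A.subtype = p := by
  by_cases hp0 : p = 0
  · exact ⟨0, by rw [hp0, Polynomial.map_zero]⟩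
  obtain ⟨c₁, Q, hc₁, hQ, hpQ⟩ := exists_primitive A p hp0
  have he : Polynomial.aeval (jqModC Kbar) p =
      HahnSeries.C c₁ * iota A (evalA A (jqModC A) Q) := by
    rw [hpQ, map_mul, Polynomial.aeval_C, algebraMap_LS_eq_C, iota_evalA, iota_jqModC]
  set e : Ocal A := ⟨iota A (evalA A (jqModC A) Q), iota_mem_Ocal A _⟩ with hedef
  have hred : red A e = Polynomial.aeval (jqModC (kk A)) (Q.map (IsLocalRing.residue A)) := by
    rw [hedef, red_iota, rho_evalA, rho_jA]
  have hne : red A e ≠ 0 := by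
    rw [hred]
    intro h0
    exact ConstWPlan.transcendental_jqModC (kk A) ⟨_, hQ, h0⟩
  have hmem : HahnSeries.C c₁ * (e : Om) ∈ Ocal A := by
    have := ha
    rw [he] at this
    exact this
  have hc₁A : c₁ ∈ A := (C_mul_mem_Ocal_iff A c₁ e hne).mp hmem
  refine ⟨Polynomial.C ⟨c₁, hc₁A⟩ * Q, ?_⟩
  rw [Polynomial.map_mul, Polynomial.map_C, hpQ]
  rfl

/-- A polynomial in `j` with coefficients in `A` lies in `Ocal`, and its reduction is the reduced
polynomial in `j̄`. -/
theorem aeval_map_mem_Ocal (P : A[X]) :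
    Polynomial.aeval (jqModC Kbar) (P.map A.subtype) ∈ Ocal A := by
  rw [← iota_jqModC A, ← iota_evalA]
  exact iota_mem_Ocal A _

theorem red_aeval_map (P : A[X]) :
    red A ⟨_, aeval_map_mem_Ocal A P⟩ =
      Polynomial.aeval (jqModC (kk A)) (P.map (IsLocalRing.residue A)) := by
  have e : Polynomial.aeval (jqModC Kbar) (P.map A.subtype) = iota A (evalA A (jqModC A) P) := by
    rw [iota_evalA, iota_jqModC]
  rw [red_congr A e (aeval_map_mem_Ocal A P) (iota_mem_Ocal A _), red_iota, rho_evalA, rho_jA]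

/-- A polynomial of degree `≤ c` in `j` which lies in `Ocal` reduces into `WJ k L c`. -/
theorem red_aeval_mem_WJ (c : ℕ) (L : IntermediateField (kk A) (Omk A))
    (hj : jqModC (kk A) ∈ L) (p : Kbar[X]) (hp : p.natDegree ≤ c)
    (ha : Polynomial.aeval (jqModC Kbar) p ∈ Ocal A) :
    red A ⟨_, ha⟩ ∈ WJ (kk A) L c := by
  obtain ⟨P, hP⟩ := exists_polyA_of_aeval_mem A p ha
  have e : Polynomial.aeval (jqModC Kbar) p = Polynomial.aeval (jqModC Kbar) (P.map A.subtype) := by
    rw [hP]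
  rw [red_congr A e ha (aeval_map_mem_Ocal A P), red_aeval_map]
  refine aeval_mem_WJ L hj c _ ?_
  have h1 : (P.map (IsLocalRing.residue A)).natDegree ≤ P.natDegree := Polynomial.natDegree_map_le
  have h2 : (P.map A.subtype).natDegree = P.natDegree :=
    Polynomial.natDegree_map_eq_of_injective Subtype.val_injective P
  rw [hP] at h2
  omega

end Red

/-! ### The `r`-free inclusion -/

section Incl

variable (A : ValuationSubring Kbar)

/-- **`Plan.InclF` at `E = 0`, without a place reduction**: the reduction of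
`L_{F_N}(c (j)_∞) ∩ Ocal` lies in `WJ k F_{N,k} c`. -/
def InclF0 (N : ℕ) [NeZero N] : Prop :=
  ∀ (Cp : Divisor Kbar (FN N)) (c : ℕ), (∀ P, Cp P = max 0 (-(P.ord (jBar N)))) →
    ∀ a : FN N, a ∈ riemannRochSpace (c • Cp) → ∀ ha : (a : Om) ∈ Ocal A,
      red A ⟨(a : Om), ha⟩ ∈ WJ (kk A) (Fk A N) c

theorem coe_jBar_eq (N : ℕ) [NeZero N] : ((jBar N : FN N) : Om) = jqModC Kbar := by
  show coeffEmb Kbar jq = jqModC Kbar
  rw [coeffEmb, ← jqModC_rat, coeffMap_jqModC]

/-- `F_1 = Q̄(j)`. -/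
theorem mem_adjoin_of_mem_one {y : Om} (hy : y ∈ modularFunctionFieldBar 1) :
    y ∈ IntermediateField.adjoin Kbar {jqModC Kbar} := by
  have h1 := PullStep.relfinrank_Jfield 1
  rw [dedekindPsi_one, IntermediateField.relfinrank_eq_one_iff] at h1
  have h2 : y ∈ PullStep.Jfield := h1 hy
  have e : PullStep.jOm = jqModC Kbar := coe_jBar_eq 1
  rw [PullStep.Jfield, e] at h2
  exact h2

set_option synthInstance.maxHeartbeats 400000 in
set_option maxHeartbeats 1000000 in
/-- **Level one**: `InclF0 A 1`, in the stronger form with an arbitrary target field `L ∋ j̄`. -/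
theorem red_mem_WJ_one (L : IntermediateField (kk A) (Omk A)) (hj : jqModC (kk A) ∈ L)
    (Cp : Divisor Kbar (FN 1)) (c : ℕ) (hCp : ∀ P, Cp P = max 0 (-(P.ord (jBar 1))))
    (a : FN 1) (hmem : a ∈ riemannRochSpace (c • Cp)) (ha : (a : Om) ∈ Ocal A) :
    red A ⟨(a : Om), ha⟩ ∈ WJ (kk A) L c := by
  have := FibreCount.finiteDimensional 1
  have := Char0.isSeparable_jBar 1
  have hW : (a : Om) ∈ WJ Kbar (modularFunctionFieldBar 1) c := by
    refine WJPlaces.mem_WJ_of_mem_riemannRochSpace (modularFunctionFieldBar 1) (jBar 1)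
      (coe_jBar_eq 1) c (c • Cp) (fun v => ?_) a hmem
    rw [Finsupp.smul_apply, hCp, nsmul_eq_mul]
  obtain ⟨h1, h2, h3⟩ := mem_WJ.mp hW
  have hW' : (a : Om) ∈ WJ Kbar (IntermediateField.adjoin Kbar {jqModC Kbar}) c :=
    mem_WJ.mpr ⟨mem_adjoin_of_mem_one h1, h2, h3⟩
  obtain ⟨p, hp, hpa⟩ := exists_poly_of_mem_WJ Kbar c hW'
  have ha' : Polynomial.aeval (jqModC Kbar) p ∈ Ocal A := by rw [hpa]; exact ha
  have := red_aeval_mem_WJ A c L hj p hp ha'
  rwa [red_congr A hpa ha' ha] at this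

set_option synthInstance.maxHeartbeats 400000 in
set_option maxHeartbeats 1000000 in
/-- **Level one, polynomial form**: an element of `L_{F_1}(c (j)_∞) ∩ Ocal` is a polynomial of
degree `≤ c` in `j` with coefficients in `A`. -/
theorem exists_polyA_of_mem_one (Cp : Divisor Kbar (FN 1)) (c : ℕ)
    (hCp : ∀ P, Cp P = max 0 (-(P.ord (jBar 1))))
    (a : FN 1) (hmem : a ∈ riemannRochSpace (c • Cp)) (ha : (a : Om) ∈ Ocal A) :
    ∃ P : A[X], P.natDegree ≤ c ∧
      (a : Om) = Polynomial.aeval (jqModC Kbar) (P.map A.subtype) := by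
  have := FibreCount.finiteDimensional 1
  have := Char0.isSeparable_jBar 1
  have hW : (a : Om) ∈ WJ Kbar (modularFunctionFieldBar 1) c := by
    refine WJPlaces.mem_WJ_of_mem_riemannRochSpace (modularFunctionFieldBar 1) (jBar 1)
      (coe_jBar_eq 1) c (c • Cp) (fun v => ?_) a hmem
    rw [Finsupp.smul_apply, hCp, nsmul_eq_mul]
  obtain ⟨h1, h2, h3⟩ := mem_WJ.mp hW
  have hW' : (a : Om) ∈ WJ Kbar (IntermediateField.adjoin Kbar {jqModC Kbar}) c :=
    mem_WJ.mpr ⟨mem_adjoin_of_mem_one h1, h2, h3⟩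
  obtain ⟨p, hp, hpa⟩ := exists_poly_of_mem_WJ Kbar c hW'
  have ha' : Polynomial.aeval (jqModC Kbar) p ∈ Ocal A := by rw [hpa]; exact ha
  obtain ⟨P, hP⟩ := exists_polyA_of_aeval_mem A p ha'
  refine ⟨P, ?_, ?_⟩
  · have h2 : (P.map A.subtype).natDegree = P.natDegree :=
      Polynomial.natDegree_map_eq_of_injective Subtype.val_injective P
    rw [hP] at h2
    omega
  · rw [hP, hpa]

/-- `InclF0 A 1`. -/
theorem inclF0_one : InclF0 A 1 := fun Cp c hCp a hmem ha =>
  red_mem_WJ_one A (Fk A 1) (jqModC_mem_full (kk A) 1) Cp c hCp a hmem ha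

set_option synthInstance.maxHeartbeats 400000 in
set_option maxHeartbeats 1000000 in
/-- `(Incl')` at `E = 0`, without a place reduction. -/
theorem redSp_pullRR_le0 (N N' : ℕ) [NeZero N]
    (hChar : Plan.CharStmt A N N') (hIncl : InclF0 A N) (hRed' : Plan.RedStmt A N')
    (hle : Plan.Fk A N ≤ Plan.Fk A N')
    (Cp : Divisor Kbar (FN N)) (c : ℕ) (hCp : ∀ P, Cp P = max 0 (-(P.ord (jBar N)))) :
    Plan.redSp A (Plan.pullRR N N' (c • Cp)) ≤ Plan.WJ (kk A) (Plan.Fk A N') c := by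
  rintro x ⟨g, hg, rfl⟩
  obtain ⟨χ, hmon, -, hroot, hcoeff, hO, -⟩ := hChar (c • Cp) g hg
  -- the polynomial over `F_N ∩ Ocal`
  have hχO : ∀ i, χ.coeff i ∈ InclPrime.ON A N := fun i => hO i
  have hsub : (↑χ.coeffs : Set (FN N)) ⊆ InclPrime.ON A N := by
    intro a ha
    obtain ⟨i, -, rfl⟩ := Polynomial.mem_coeffs_iff.1 ha
    exact hχO i
  let χ₀ : Polynomial (InclPrime.ON A N) := χ.toSubring (InclPrime.ON A N) hsub
  have hc₀ : ∀ i, ((χ₀.coeff i : InclPrime.ON A N) : FN N) = χ.coeff i := fun i =>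
    Polynomial.coeff_toSubring χ (InclPrime.ON A N) hsub
  have hχ₀ : χ₀.map (InclPrime.ON A N).subtype = χ := by
    ext1 i
    rw [Polynomial.coeff_map]
    exact hc₀ i
  have hmon₀ : χ₀.Monic := (Polynomial.monic_toSubring χ (InclPrime.ON A N) hsub).2 hmon
  let φ : InclPrime.ON A N →+* Omk A := (red A).comp (InclPrime.inclO A N)
  let P : Polynomial (Omk A) := χ₀.map φ
  have hP : P.Monic := hmon₀.map φ
  have hdeg : P.natDegree = χ.natDegree := by
    rw [hmon₀.natDegree_map, ← hχ₀, hmon₀.natDegree_map]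
  have hPcoeff : ∀ i, P.coeff i = red A ⟨((χ.coeff i : FN N) : Om), hO i⟩ := by
    intro i
    show (χ₀.map φ).coeff i = _
    rw [Polynomial.coeff_map]
    show red A (InclPrime.inclO A N (χ₀.coeff i)) = _
    congr 1
    apply Subtype.ext
    rw [InclPrime.coe_inclO, hc₀]
  -- `red g` is a root of `P`
  have hev0 : χ₀.eval₂ (InclPrime.inclO A N) g = 0 := by
    apply Subtype.ext
    have h1 : ((χ₀.eval₂ (InclPrime.inclO A N) g : Ocal A) : Om)
        = χ₀.eval₂ ((Ocal A).subtype.comp (InclPrime.inclO A N)) ((Ocal A).subtype g) :=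
      Polynomial.hom_eval₂ χ₀ (InclPrime.inclO A N) (Ocal A).subtype g
    have h2 : (Ocal A).subtype.comp (InclPrime.inclO A N)
        = (algebraMap (FN N) Om).comp (InclPrime.ON A N).subtype := by
      ext a; rfl
    rw [h1, h2, ← Polynomial.eval₂_map, hχ₀]
    exact hroot
  have hrootP : P.eval (red A g) = 0 := by
    show (χ₀.map φ).eval (red A g) = 0
    rw [Polynomial.eval_map]
    have := Polynomial.hom_eval₂ χ₀ (InclPrime.inclO A N) (red A) g
    rw [← this, hev0, map_zero]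
  -- `red g ∈ F_{N',k}`
  have hyL : red A g ∈ Plan.Fk A N' := hRed'.2.1 g hg.1
  refine WJCalc.mem_WJ_of_root_top hyL P hP (fun i hi => ?_) hrootP
  rw [hdeg] at hi ⊢
  rw [hPcoeff]
  have hmem : χ.coeff (χ.natDegree - i) ∈ riemannRochSpace ((i * c) • Cp) := by
    have := hcoeff i hi
    rwa [smul_smul] at this
  have := hIncl Cp (i * c) hCp _ hmem (hO _)
  exact ⟨hle this.1, this.2.1, this.2.2⟩

end Incl

end Fermat.Agent.S18.InclFree

end
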