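import Mathlib
import Fermat.Agent.S18.Plan
import Fermat.Agent.S18.OrthoDesc
import Fermat.Agent.Lib.FFPlaces

/-!
# S18 — top of the assembly: `DivCore` from `[MAIN]` and the Plan contracts (helper49)

* `MainStmt A N N' ℓ` : the statement `[MAIN]` (step (3) of the skeleton): for a degree-zero divisor
  `D1` of `F_N` with `r_* D1 = 0` and `m • D1 = div f`, `red f = 1`, there is
  `g0 ∈ pullRR N N' D1 ∩ Ocal` with `red g0 = 1`.
* `divCore_of_main` : `Plan.DivCore A N ℓ` from `MainStmt` and the contracts `RedStmt`, `UnitDiv`,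
  `Char0Stmt`, `ConstF`, `CharStmt` (steps (1), (2), (4) of the skeleton).
-/

set_option autoImplicit false

noncomputable section

namespace Fermat.Agent.S18.MainTop

open ModularCurve AlgebraicCurve Fermat.Agent.S24 Fermat.Agent.S18.Content Fermat.Agent.S18.Plan
open Polynomial

set_option synthInstance.maxHeartbeats 400000 in
/-- **[MAIN]** (step (3)): for a degree-zero divisor `D1` of `F_N` with `r_* D1 = 0` and
`m • D1 = div f`, `red f = 1`, there is `g0 ∈ pullRR N N' D1 ∩ Ocal` with `red g0 = 1`. -/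
def MainStmt (A : ValuationSubring Kbar) (N N' ℓ : ℕ) : Prop :=
  ∀ (r : Place Kbar (FN N) → Place (kk A) (Fk A N)),
    IsPlaceReductionAlong A (IsLocalRing.residue A) N r →
    ∀ m : ℕ, ¬ ℓ ∣ m → ∀ D1 : Divisor Kbar (FN N), Divisor.degree D1 = 0 →
      Finsupp.mapDomain r D1 = 0 →
      ∀ (f : FN N) (hf : (f : Om) ∈ Ocal A), red A ⟨_, hf⟩ = 1 →
        (∀ P : Place Kbar (FN N), (m • D1) P = P.ord f) →
        ∃ g0 : Ocal A, (g0 : Om) ∈ pullRR N N' D1 ∧ red A g0 = 1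

section Generic

variable {K F : Type*} [Field K] [Field F] [Algebra K F]

/-- The degree of a divisor as a sum. -/
theorem degree_eq_sum (E : Divisor K F) :
    Divisor.degree E = E.sum fun v n => n * (v.deg : ℤ) := by
  simp [Divisor.degree, Finsupp.liftAddHom_apply]

/-- An effective divisor of degree zero on a curve all of whose places have degree one is zero. -/
theorem eq_zero_of_nonneg_of_degree_eq_zero (hdeg1 : ∀ P : Place K F, P.deg = 1)
    (E : Divisor K F) (hE : ∀ P, 0 ≤ E P) (h0 : Divisor.degree E = 0) : E = 0 := by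
  rw [degree_eq_sum, Finsupp.sum] at h0
  have h1 : ∀ P ∈ E.support, E P * (P.deg : ℤ) = 0 :=
    (Finset.sum_eq_zero_iff_of_nonneg fun P _ => mul_nonneg (hE P) (Nat.cast_nonneg _)).mp h0
  ext P
  by_cases hP : P ∈ E.support
  · have := h1 P hP
    rw [hdeg1 P, Nat.cast_one, mul_one] at this
    rw [this, Finsupp.zero_apply]
  · rw [Finsupp.notMem_support_iff.mp hP, Finsupp.zero_apply]

/-- A divisor `E` of degree zero with `L(E) ≠ 0` is principal (all places of degree one, principal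
divisors of degree zero). -/
theorem mem_principal_of_mem_riemannRochSpace (hdeg1 : ∀ P : Place K F, P.deg = 1)
    (hdiv : ∀ y : F, y ≠ 0 → ∃ D : Divisor K F, (∀ P, D P = P.ord y) ∧ Divisor.degree D = 0)
    (E : Divisor K F) (hE0 : Divisor.degree E = 0) {a : F} (ha0 : a ≠ 0)
    (ha : a ∈ riemannRochSpace E) : E ∈ Divisor.principal (K := K) (F := F) := by
  obtain ⟨Da, hDa, hDa0⟩ := hdiv a ha0
  have hsum : E + Da = 0 := by
    refine eq_zero_of_nonneg_of_degree_eq_zero hdeg1 _ (fun P => ?_) (by rw [map_add, hE0, hDa0, add_zero])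
    rw [Finsupp.add_apply, hDa P]
    have := (mem_riemannRochSpace_iff.mp ha P).resolve_left ha0
    linarith
  have hEq : E = -Da := eq_neg_of_add_eq_zero_left hsum
  rw [hEq]
  exact AddSubgroup.neg_mem _ ⟨a, ha0, hDa⟩

end Generic

set_option synthInstance.maxHeartbeats 400000 in
set_option maxHeartbeats 1000000 in
/-- **`DivCore` from `[MAIN]`**: steps (1), (2), (4) of the skeleton. -/
theorem divCore_of_main (N N' ℓ : ℕ) [NeZero N] [Fact ℓ.Prime] (A : ValuationSubring Kbar)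
    (hchar : CharP (kk A) ℓ) (hred : Plan.RedStmt A N) (hunit : Plan.UnitDiv A N)
    (h0 : Plan.Char0Stmt N) (hconstF : Plan.ConstF A N) (hcharS : Plan.CharStmt A N N')
    (hmain : MainStmt A N N' ℓ) : Plan.DivCore A N ℓ := by
  obtain ⟨hRa, hRb, hRc, -, -⟩ := hred
  obtain ⟨hdeg1, hdivex, -⟩ := h0
  intro r hr _ m hm D hD0 hmD hrD
  -- Step (1): lift the generator of `r_* D` to a `v`-unit `g` of `F_N`.
  obtain ⟨gbar, hgbar0, hgbar⟩ := hrD
  obtain ⟨y, hyF, hyred⟩ := hRc (gbar : Omk A) gbar.2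
  have hredy0 : red A y ≠ 0 := by
    rw [hyred]
    exact fun h => hgbar0 (Subtype.ext h)
  have hy0 : (y : Om) ≠ 0 := ne_zero_of_red_ne_zero A y hredy0
  let g : FN N := ⟨(y : Om), hyF⟩
  have hg0 : g ≠ 0 := fun h => hy0 (congrArg Subtype.val h)
  obtain ⟨Dg, hDg, hDg0⟩ := hdivex g hg0
  have hyk : red A ⟨(g : Om), y.2⟩ ∈ Fk A N := by
    have : red A ⟨(g : Om), y.2⟩ = (gbar : Omk A) := hyred
    rw [this]
    exact gbar.2
  have hUg := hunit r hr g y.2 hyk hredy0 Dg hDg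
  have hgbar_eq : (⟨red A ⟨(g : Om), y.2⟩, hyk⟩ : Fk A N) = gbar := Subtype.ext hyred
  have hmapsub : ∀ E E' : Divisor Kbar (FN N),
      Finsupp.mapDomain r (E - E') = Finsupp.mapDomain r E - Finsupp.mapDomain r E' := fun E E' =>
    (Finsupp.mapDomain.addMonoidHom r).map_sub E E'
  have hmapnsmul : ∀ (k : ℕ) (E : Divisor Kbar (FN N)),
      Finsupp.mapDomain r (k • E) = k • Finsupp.mapDomain r E := fun k E =>
    map_nsmul (Finsupp.mapDomain.addMonoidHom r) k E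
  have hrD1 : Finsupp.mapDomain r (D - Dg) = 0 := by
    ext Q
    rw [hmapsub, Finsupp.sub_apply, hgbar Q, hUg Q, hgbar_eq, sub_self, Finsupp.zero_apply]
  have hD1deg : Divisor.degree (D - Dg) = 0 := by rw [map_sub, hD0, hDg0, sub_zero]
  -- Step (2): `m • D1 = div f`, normalise `red f = 1`.
  obtain ⟨f0, hf00, hf0⟩ := hmD
  have hgm0 : g ^ m ≠ 0 := pow_ne_zero m hg0
  have hf10 : f0 / g ^ m ≠ 0 := div_ne_zero hf00 hgm0
  have hf1ord : ∀ P : Place Kbar (FN N), P.ord (f0 / g ^ m) = (m • (D - Dg)) P := by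
    intro P
    rw [div_eq_mul_inv, P.ord_mul hf00 (inv_ne_zero hgm0), P.ord_inv, ← zpow_natCast, P.ord_zpow,
      ← hf0 P, ← hDg P, smul_sub, Finsupp.sub_apply, Finsupp.smul_apply, Finsupp.smul_apply]
    simp only [nsmul_eq_mul]
    ring
  obtain ⟨c, hc0, hcmem, hcred⟩ := hRa ((f0 / g ^ m : FN N) : Om) (f0 / g ^ m : FN N).2
    (fun h => hf10 (Subtype.ext h))
  let f2 : FN N := algebraMap Kbar (FN N) c * (f0 / g ^ m)
  have hf2coe : (f2 : Om) = HahnSeries.C c * ((f0 / g ^ m : FN N) : Om) := by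
    show (algebraMap Kbar Om c) * ((f0 / g ^ m : FN N) : Om) = _
    rw [algebraMap_LS_eq_C]
  have hcF0 : algebraMap Kbar (FN N) c ≠ 0 := by
    rw [Ne, map_eq_zero]
    exact hc0
  have hf20 : f2 ≠ 0 := mul_ne_zero hcF0 hf10
  have hf2ord : ∀ P : Place Kbar (FN N), P.ord f2 = (m • (D - Dg)) P := by
    intro P
    rw [P.ord_mul hcF0 hf10, Fermat.Agent.Lib.FFPlaces.ord_algebraMap, zero_add, hf1ord P]
  have hf2mem : (f2 : Om) ∈ Ocal A := by rw [hf2coe]; exact hcmem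
  have hf2red0 : red A ⟨(f2 : Om), hf2mem⟩ ≠ 0 := by
    rw [red_congr A hf2coe hf2mem hcmem]
    exact hcred
  have hf2k : red A ⟨(f2 : Om), hf2mem⟩ ∈ Fk A N := hRb ⟨(f2 : Om), hf2mem⟩ f2.2
  have hUf := hunit r hr f2 hf2mem hf2k hf2red0 (m • (D - Dg)) (fun P => (hf2ord P).symm)
  have hQ0 : ∀ Q : Place (kk A) (Fk A N),
      Q.ord (⟨red A ⟨(f2 : Om), hf2mem⟩, hf2k⟩ : Fk A N) = 0 := by
    intro Q
    rw [← hUf Q, hmapnsmul, hrD1, smul_zero, Finsupp.zero_apply]
  obtain ⟨κ, hκ⟩ := hconstF ⟨red A ⟨(f2 : Om), hf2mem⟩, hf2k⟩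
    (fun h => hf2red0 (congrArg Subtype.val h)) hQ0
  have hκ' : red A ⟨(f2 : Om), hf2mem⟩ = HahnSeries.C κ := hκ
  have hκ0 : κ ≠ 0 := by
    rintro rfl
    rw [map_zero] at hκ'
    exact hf2red0 hκ'
  obtain ⟨a, rfl⟩ := IsLocalRing.residue_surjective (R := A) κ
  have haunit : IsUnit a := by
    by_contra hna
    exact hκ0 ((IsLocalRing.residue_eq_zero_iff a).mpr ((IsLocalRing.mem_maximalIdeal a).mpr hna))
  obtain ⟨u, rfl⟩ := haunit
  let f3 : FN N := algebraMap Kbar (FN N) (((u⁻¹ : Aˣ) : A) : Kbar) * f2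
  have hu0 : algebraMap Kbar (FN N) (((u⁻¹ : Aˣ) : A) : Kbar) ≠ 0 := by
    rw [Ne, map_eq_zero]
    intro h
    have h' : ((u⁻¹ : Aˣ) : A) = 0 := Subtype.ext h
    exact (u⁻¹).ne_zero h'
  have hf30 : f3 ≠ 0 := mul_ne_zero hu0 hf20
  have hf3coe : (f3 : Om) =
      ((constO A ((u⁻¹ : Aˣ) : A) * ⟨(f2 : Om), hf2mem⟩ : Ocal A) : Om) := by
    show (algebraMap Kbar Om (((u⁻¹ : Aˣ) : A) : Kbar)) * (f2 : Om) = _
    rw [algebraMap_LS_eq_C, Subring.coe_mul, coe_constO]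
  have hf3mem : (f3 : Om) ∈ Ocal A := by rw [hf3coe]; exact SetLike.coe_mem _
  have hf3red : red A ⟨(f3 : Om), hf3mem⟩ = 1 := by
    rw [red_congr A hf3coe hf3mem (SetLike.coe_mem _)]
    show red A (constO A ((u⁻¹ : Aˣ) : A) * ⟨(f2 : Om), hf2mem⟩) = 1
    rw [map_mul, red_constO, hκ', ← map_mul, ← map_mul, Units.inv_mul, map_one, map_one]
  have hf3ord : ∀ P : Place Kbar (FN N), (m • (D - Dg)) P = P.ord f3 := by
    intro P
    rw [P.ord_mul hu0 hf20, Fermat.Agent.Lib.FFPlaces.ord_algebraMap, zero_add, hf2ord P]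
  -- Step (3): `[MAIN]`.
  obtain ⟨g0, hg0mem, hg0red⟩ := hmain r hr m hm (D - Dg) hD1deg hrD1 f3 hf3mem hf3red hf3ord
  -- Step (4): descent.
  obtain ⟨χ, hmonic, -, haeval, hcoeff, hO, hredχ⟩ := hcharS (D - Dg) g0 hg0mem
  have hdpos : 0 < χ.natDegree := by
    rcases Nat.eq_zero_or_pos χ.natDegree with h | h
    · exfalso
      rw [Polynomial.eq_one_of_monic_natDegree_zero hmonic h, map_one] at haeval
      exact one_ne_zero haeval
    · exact h
  obtain ⟨b, hbdvd, hbpos, hbchoose⟩ :=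
    OrthoDesc.exists_pow_dvd_not_dvd_choose ℓ χ.natDegree hdpos
  have hble : ℓ ^ b ≤ χ.natDegree := Nat.le_of_dvd hdpos hbdvd
  have hcoeff_ne : χ.coeff (χ.natDegree - ℓ ^ b) ≠ 0 := by
    intro hzero
    have h1 := hredχ hg0red (χ.natDegree - ℓ ^ b)
    have h2 : red A ⟨((χ.coeff (χ.natDegree - ℓ ^ b) : FN N) : Om), hO _⟩ = 0 := by
      have h3 : ((χ.coeff (χ.natDegree - ℓ ^ b) : FN N) : Om) = ((0 : Ocal A) : Om) := by
        rw [hzero]; rfl
      rw [red_congr A h3 (hO _) (SetLike.coe_mem _)]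
      exact map_zero _
    rw [h2, sub_eq_add_neg, ← Polynomial.C_neg, Polynomial.coeff_X_add_C_pow,
      Nat.sub_sub_self hble, Nat.choose_symm hble] at h1
    have h4 : ((-1 : kk A)) ^ (ℓ ^ b) * ((χ.natDegree.choose (ℓ ^ b) : ℕ) : kk A) = 0 := by
      have := h1.symm
      rwa [map_eq_zero] at this
    rcases mul_eq_zero.mp h4 with h5 | h5
    · exact absurd h5 (pow_ne_zero _ (neg_ne_zero.mpr one_ne_zero))
    · exact hbchoose ((CharP.cast_eq_zero_iff (kk A) ℓ _).mp h5)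
  have hpowD1 : (ℓ ^ b) • (D - Dg) ∈ Divisor.principal (K := Kbar) (F := FN N) :=
    mem_principal_of_mem_riemannRochSpace hdeg1 hdivex _
      (by rw [map_nsmul, hD1deg, smul_zero]) hcoeff_ne (hcoeff (ℓ ^ b) hble)
  have hmD1 : m • (D - Dg) ∈ Divisor.principal (K := Kbar) (F := FN N) := ⟨f3, hf30, hf3ord⟩
  have hD1 : D - Dg ∈ Divisor.principal (K := Kbar) (F := FN N) :=
    OrthoDesc.mem_of_pow_nsmul_mem _ (D - Dg) ℓ b m hm hpowD1 hmD1
  have hDgp : Dg ∈ Divisor.principal (K := Kbar) (F := FN N) := ⟨g, hg0, hDg⟩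
  have := AddSubgroup.add_mem _ hD1 hDgp
  rwa [sub_add_cancel] at this

end Fermat.Agent.S18.MainTop

end
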