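import Mathlib

/-!
# S18 — LiftCore: the abstract lifting argument (owner: helper18)

Abstract data: a field `K` with a valuation subring `A` and residue map `π : A →+* k`; an ambient
field `Ω ⊇ K` with a subring `O` and a ring hom `ρ : O →+* R` (`R` a field over `k`) such that
`O ∩ K = A`, `ρ` extends `π`, and `ρ y ≠ 0 → y⁻¹ ∈ O`.  For a `K`-subspace `W` of `Ω`,
`redSp W` is the `k`-space of the reductions of `W ∩ O`.

`(Dim)` on a subspace `S`: every finite-dimensional `W ≤ S` has a `K`-spanning family in `O`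
with `k`-linearly independent reductions.

`liftCore`: the lifting theorem (two dimension counts).
-/

set_option autoImplicit false

namespace Fermat.Agent.S18.LiftCore

variable {K Ω k R : Type*} [Field K] [Field Ω] [Algebra K Ω] [Field k] [Field R] [Algebra k R]

/-- Abstract reduction data. -/
structure RedData (A : ValuationSubring K) (π : A →+* k) (O : Subring Ω) (ρ : O →+* R) : Prop where
  π_surj : Function.Surjective π
  π_eq_zero : ∀ a : A, π a = 0 ↔ ¬ IsUnit a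
  mem_iff : ∀ c : K, algebraMap K Ω c ∈ O ↔ c ∈ A
  ρ_alg : ∀ (a : A) (h : algebraMap K Ω (a : K) ∈ O), ρ ⟨_, h⟩ = algebraMap k R (π a)
  inv_mem : ∀ y : O, ρ y ≠ 0 → ((y : Ω))⁻¹ ∈ O

/-- `(Dim)` on the subspace `S`. -/
def HasDim (k : Type*) [Field k] [Algebra k R] (O : Subring Ω) (ρ : O →+* R) (S : Submodule K Ω) :
    Prop :=
  ∀ W : Submodule K Ω, W ≤ S → Module.Finite K W →
    ∃ (r : ℕ) (b : Fin r → O), Submodule.span K (Set.range fun i => (b i : Ω)) = W ∧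
      LinearIndependent k (fun i => ρ (b i))

section

variable {A : ValuationSubring K} {π : A →+* k} {O : Subring Ω} {ρ : O →+* R}

namespace RedData

variable (h : RedData A π O ρ)
include h

/-- The constant `a ∈ A` as an element of `O`. -/
def const (a : A) : O := ⟨algebraMap K Ω (a : K), (h.mem_iff _).2 a.2⟩

omit h in
@[simp] theorem coe_const (h : RedData A π O ρ) (a : A) :
    ((h.const a : O) : Ω) = algebraMap K Ω (a : K) := rfl

theorem ρ_const (a : A) : ρ (h.const a) = algebraMap k R (π a) := h.ρ_alg a _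

/-- Scalar multiplication by `a ∈ A` preserves `O`. -/
theorem smul_mem (a : A) (y : O) : (a : K) • (y : Ω) ∈ O := by
  rw [Algebra.smul_def]
  exact O.mul_mem (h.const a).2 y.2

theorem ρ_smul (a : A) (y : O) : ρ ⟨(a : K) • (y : Ω), h.smul_mem a y⟩ = π a • ρ y := by
  have e : (⟨(a : K) • (y : Ω), h.smul_mem a y⟩ : O) = h.const a * y := by
    apply Subtype.ext
    simp [Algebra.smul_def]
  rw [e, map_mul, h.ρ_const, Algebra.smul_def]

/-- The reductions of `W ∩ O`. -/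
def redSp (W : Submodule K Ω) : Submodule k R where
  carrier := {x | ∃ y : O, (y : Ω) ∈ W ∧ ρ y = x}
  add_mem' := by
    rintro x x' ⟨y, hy, rfl⟩ ⟨y', hy', rfl⟩
    exact ⟨y + y', W.add_mem hy hy', map_add _ _ _⟩
  zero_mem' := ⟨0, W.zero_mem, map_zero _⟩
  smul_mem' := by
    rintro c x ⟨y, hy, rfl⟩
    obtain ⟨a, rfl⟩ := h.π_surj c
    exact ⟨⟨_, h.smul_mem a y⟩, W.smul_mem _ hy, h.ρ_smul a y⟩

theorem mem_redSp {W : Submodule K Ω} {x : R} :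
    x ∈ h.redSp W ↔ ∃ y : O, (y : Ω) ∈ W ∧ ρ y = x := Iff.rfl

theorem redSp_mono {W W' : Submodule K Ω} (hW : W ≤ W') : h.redSp W ≤ h.redSp W' := by
  rintro x ⟨y, hy, rfl⟩
  exact ⟨y, hW hy, rfl⟩

theorem ρ_mem_redSp {W : Submodule K Ω} (y : O) (hy : (y : Ω) ∈ W) : ρ y ∈ h.redSp W :=
  ⟨y, hy, rfl⟩

/-- an element of `K` not in `A` has its inverse in `A`, a non-unit. -/
theorem π_inv_eq_zero {c : K} (hc : c ∉ A) : ∃ a : A, (a : K) = c⁻¹ ∧ π a = 0 := by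
  have hinv : c⁻¹ ∈ A := (A.mem_or_inv_mem c).resolve_left hc
  refine ⟨⟨c⁻¹, hinv⟩, rfl, ?_⟩
  rw [h.π_eq_zero]
  intro hu
  apply hc
  obtain ⟨u, hu'⟩ := hu
  have h1 : ((u⁻¹ : Aˣ) : A) * (⟨c⁻¹, hinv⟩ : A) = 1 := by
    rw [← hu']; exact u.inv_mul
  have h2 : (((u⁻¹ : Aˣ) : A) : K) * c⁻¹ = 1 := by
    have := congrArg (fun z : A => (z : K)) h1
    simpa using this
  have hc0 : c ≠ 0 := by
    rintro rfl
    exact hc A.zero_mem
  have h3 : (((u⁻¹ : Aˣ) : A) : K) = c := by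
    field_simp at h2
    exact h2
  rw [← h3]
  exact ((u⁻¹ : Aˣ) : A).2

/-- **Coefficients are integral**: if `ρ ∘ b` is `k`-linearly independent and `∑ aᵢ bᵢ ∈ O`,
then all `aᵢ ∈ A`. -/
theorem coeff_mem {r : ℕ} (b : Fin r → O) (hb : LinearIndependent k (fun i => ρ (b i)))
    (a : Fin r → K) (hy : ∑ i, a i • (b i : Ω) ∈ O) : ∀ i, a i ∈ A := by
  classical
  by_contra hne
  push Not at hne
  obtain ⟨i₁, hi₁⟩ := hne
  -- choose an index of maximal valuation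
  obtain ⟨i₀, -, hmax⟩ := Finset.exists_max_image Finset.univ (fun i => A.valuation (a i))
    ⟨i₁, Finset.mem_univ _⟩
  have hi₀ : a i₀ ∉ A := by
    intro hmem
    apply hi₁
    rw [← A.valuation_le_one_iff] at hmem ⊢
    exact (hmax i₁ (Finset.mem_univ _)).trans hmem
  have ha0 : a i₀ ≠ 0 := by
    intro h0
    exact hi₀ (h0 ▸ A.zero_mem)
  obtain ⟨e, he, hπe⟩ := h.π_inv_eq_zero hi₀
  -- the normalised coefficients
  have hc : ∀ i, a i * (a i₀)⁻¹ ∈ A := by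
    intro i
    rw [← A.valuation_le_one_iff, map_mul, map_inv₀]
    have hv0 : A.valuation (a i₀) ≠ 0 := (Valuation.ne_zero_iff _).2 ha0
    rw [mul_inv_le_iff₀ (zero_lt_iff.2 hv0), one_mul]
    exact hmax i (Finset.mem_univ _)
  let c : Fin r → A := fun i => ⟨a i * (a i₀)⁻¹, hc i⟩
  -- z = ∑ cᵢ bᵢ = e • y
  have hz : (∑ i, h.const (c i) * b i : O) = h.const e * ⟨_, hy⟩ := by
    apply Subtype.ext
    push_cast
    rw [Finset.mul_sum]
    refine Finset.sum_congr rfl fun i _ => ?_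
    simp only [coe_const, c, he, Algebra.smul_def, map_mul]
    ring
  have hρ := congrArg ρ hz
  rw [map_sum, map_mul, h.ρ_const, hπe, map_zero, zero_mul] at hρ
  simp only [map_mul, h.ρ_const] at hρ
  have hlin := Fintype.linearIndependent_iff.1 hb (fun i => π (c i)) (by
    simpa [Algebra.smul_def] using hρ)
  have h1 := hlin i₀
  have hci₀ : c i₀ = 1 := by
    apply Subtype.ext
    simp [c, mul_inv_cancel₀ ha0]
  rw [hci₀, map_one] at h1
  exact one_ne_zero h1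

/-- The reduction of `∑ aᵢ bᵢ ∈ O` is `∑ π(aᵢ) ρ(bᵢ)`. -/
theorem ρ_sum {r : ℕ} (b : Fin r → O) (a : Fin r → A) (hy : ∑ i, (a i : K) • (b i : Ω) ∈ O) :
    ρ ⟨_, hy⟩ = ∑ i, π (a i) • ρ (b i) := by
  have e : (⟨_, hy⟩ : O) = ∑ i, h.const (a i) * b i := by
    apply Subtype.ext
    push_cast
    refine Finset.sum_congr rfl fun i _ => ?_
    simp [Algebra.smul_def]
  rw [e, map_sum]
  refine Finset.sum_congr rfl fun i _ => ?_
  rw [map_mul, h.ρ_const, Algebra.smul_def]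

/-- A spanning family in `O` with independent reductions is `K`-linearly independent. -/
theorem linearIndependent_of_red {r : ℕ} (b : Fin r → O)
    (hb : LinearIndependent k (fun i => ρ (b i))) :
    LinearIndependent K (fun i => (b i : Ω)) := by
  classical
  rw [Fintype.linearIndependent_iff]
  intro a ha
  by_contra hne
  push Not at hne
  obtain ⟨i₁, hi₁⟩ := hne
  obtain ⟨i₀, -, hmax⟩ := Finset.exists_max_image Finset.univ (fun i => A.valuation (a i))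
    ⟨i₁, Finset.mem_univ _⟩
  have ha0 : a i₀ ≠ 0 := by
    intro h0
    have := hmax i₁ (Finset.mem_univ _)
    rw [h0, map_zero] at this
    exact hi₁ ((Valuation.zero_iff _).1 (le_antisymm this zero_le))
  -- rescale
  have hsum : ∑ i, (a i * (a i₀)⁻¹) • (b i : Ω) = 0 := by
    have : ∑ i, (a i * (a i₀)⁻¹) • (b i : Ω) = (a i₀)⁻¹ • ∑ i, a i • (b i : Ω) := by
      rw [Finset.smul_sum]
      refine Finset.sum_congr rfl fun i _ => ?_
      rw [smul_smul, mul_comm]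
    rw [this, ha, smul_zero]
  have hmem : ∑ i, (a i * (a i₀)⁻¹) • (b i : Ω) ∈ O := by rw [hsum]; exact O.zero_mem
  have hc := h.coeff_mem b hb _ hmem
  have hρ := h.ρ_sum b (fun i => ⟨_, hc i⟩) hmem
  have h0 : (⟨_, hmem⟩ : O) = 0 := Subtype.ext hsum
  rw [h0, map_zero] at hρ
  have hlin := Fintype.linearIndependent_iff.1 hb _ hρ.symm i₀
  have h1 : (⟨a i₀ * (a i₀)⁻¹, hc i₀⟩ : A) = 1 := Subtype.ext (mul_inv_cancel₀ ha0)
  rw [h1, map_one] at hlin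
  exact one_ne_zero hlin

/-- `redSp W` is spanned by the reductions of a `(Dim)`-family of `W`. -/
theorem redSp_eq_span {r : ℕ} (b : Fin r → O) (hb : LinearIndependent k (fun i => ρ (b i)))
    {W : Submodule K Ω} (hW : Submodule.span K (Set.range fun i => (b i : Ω)) = W) :
    h.redSp W = Submodule.span k (Set.range fun i => ρ (b i)) := by
  apply le_antisymm
  · rintro x ⟨y, hy, rfl⟩
    rw [← hW] at hy
    obtain ⟨a, ha⟩ := (Submodule.mem_span_range_iff_exists_fun K).1 hy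
    have hmem : ∑ i, a i • (b i : Ω) ∈ O := by rw [ha]; exact y.2
    have hc := h.coeff_mem b hb a hmem
    have hρ := h.ρ_sum b (fun i => ⟨_, hc i⟩) hmem
    have e : (⟨_, hmem⟩ : O) = y := Subtype.ext ha
    rw [e] at hρ
    rw [hρ]
    exact Submodule.sum_mem _ fun i _ =>
      Submodule.smul_mem _ _ (Submodule.subset_span ⟨i, rfl⟩)
  · rw [Submodule.span_le]
    rintro _ ⟨i, rfl⟩
    refine ⟨b i, ?_, rfl⟩
    rw [← hW]
    exact Submodule.subset_span ⟨i, rfl⟩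

/-- **Dimension equality** from `(Dim)`. -/
theorem finrank_redSp {S : Submodule K Ω} (hS : HasDim k O ρ S) {W : Submodule K Ω} (hWS : W ≤ S)
    [Module.Finite K W] :
    Module.Finite k (h.redSp W) ∧ Module.finrank k (h.redSp W) = Module.finrank K W := by
  obtain ⟨r, b, hW, hb⟩ := hS W hWS inferInstance
  have hK := h.linearIndependent_of_red b hb
  have e1 : Module.finrank K W = r := by
    rw [← hW, finrank_span_eq_card hK, Fintype.card_fin]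
  have e2 := h.redSp_eq_span b hb hW
  rw [e2]
  refine ⟨?_, ?_⟩
  · exact FiniteDimensional.span_of_finite k (Set.finite_range _)
  · rw [finrank_span_eq_card hb, Fintype.card_fin, e1]

/-- **Scaling** from `(Dim)`: a nonzero element of `S` is a constant times a unit of `O`. -/
theorem exists_smul_unit {S : Submodule K Ω} (hS : HasDim k O ρ S) {y : Ω} (hy : y ∈ S)
    (hy0 : y ≠ 0) : ∃ c : K, c ≠ 0 ∧ ∃ hc : c • y ∈ O, ρ ⟨_, hc⟩ ≠ 0 := by
  have hWS : Submodule.span K {y} ≤ S := by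
    rw [Submodule.span_le, Set.singleton_subset_iff]; exact hy
  obtain ⟨r, b, hW, hb⟩ := hS _ hWS inferInstance
  have hK := h.linearIndependent_of_red b hb
  have e1 : r = 1 := by
    have := finrank_span_eq_card hK
    rw [hW, finrank_span_singleton hy0, Fintype.card_fin] at this
    exact this.symm
  subst e1
  have hb0 : (b 0 : Ω) ∈ Submodule.span K {y} := by
    rw [← hW]; exact Submodule.subset_span ⟨0, rfl⟩
  obtain ⟨c, hc⟩ := Submodule.mem_span_singleton.1 hb0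
  have hρ0 : ρ (b 0) ≠ 0 := hb.ne_zero 0
  refine ⟨c, ?_, ?_⟩
  · rintro rfl
    rw [zero_smul] at hc
    apply hρ0
    have : b 0 = 0 := Subtype.ext hc.symm
    rw [this, map_zero]
  · have hmem : c • y ∈ O := by rw [hc]; exact (b 0).2
    refine ⟨hmem, ?_⟩
    have : (⟨_, hmem⟩ : O) = b 0 := Subtype.ext hc
    rw [this]
    exact hρ0

end RedData

end

section Main

variable {A : ValuationSubring K} {π : A →+* k} {O : Subring Ω} {ρ : O →+* R}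

/-- **LiftCore.** If `V₁ ∩ V₂ = 0` the hypotheses are contradictory; hence `V₁ ⊓ V₂ ≠ ⊥`. -/
theorem liftCore (h : RedData A π O ρ) (S : Submodule K Ω) (hS : HasDim k O ρ S)
    (V₁ V₂ V₁₂ U₁ U₂ : Submodule K Ω)
    (hV₁S : V₁ ≤ S) (hV₂S : V₂ ≤ S) (hU₁S : U₁ ≤ S) (hU₂S : U₂ ≤ S)
    [Module.Finite K V₁] [Module.Finite K V₂] [Module.Finite K U₁] [Module.Finite K U₂]
    (hV₁ : V₁ ≤ V₁₂) (hV₂ : V₂ ≤ V₁₂)
    (f : O) (hf : ρ f = 1) (m : ℕ) (hm : (m : k) ≠ 0)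
    (H7a : ∀ s ∈ V₁, s ^ m * (f : Ω) ∈ U₁) (H7b : ∀ s ∈ V₂, s ^ m * (f : Ω) ∈ U₂)
    (hU₁1 : (1 : Ω) ∈ U₁) (hU₂1 : (1 : Ω) ∈ U₂)
    (H1a : (1 : R) ∈ h.redSp V₁) (H1b : (1 : R) ∈ h.redSp V₂)
    (H1 : ∀ x, x ∈ h.redSp V₁ → x ∈ h.redSp V₂ → ∃ κ : k, x = algebraMap k R κ)
    (H3 : ∀ x, x ∈ h.redSp U₁ → x ∈ h.redSp U₂ → ∃ κ : k, x = algebraMap k R κ)
    (H4 : ∀ x, x ∈ h.redSp U₁ ⊔ h.redSp U₂ → x ∈ h.redSp V₁₂ →
      x ∈ h.redSp V₁ ⊔ h.redSp V₂) :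
    V₁ ⊓ V₂ ≠ ⊥ := by
  classical
  intro hdisj
  have hVS : V₁ ⊔ V₂ ≤ S := sup_le hV₁S hV₂S
  obtain ⟨hfin1, hd1⟩ := h.finrank_redSp hS hV₁S
  obtain ⟨hfin2, hd2⟩ := h.finrank_redSp hS hV₂S
  obtain ⟨hfin12, hd12⟩ := h.finrank_redSp hS hVS
  have hsup : Module.finrank K ↥(V₁ ⊔ V₂) = Module.finrank K V₁ + Module.finrank K V₂ := by
    have := Submodule.finrank_sup_add_finrank_inf_eq V₁ V₂
    rw [hdisj, finrank_bot, add_zero] at this
    exact this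
  have hE_le : h.redSp V₁ ⊔ h.redSp V₂ ≤ h.redSp (V₁ ⊔ V₂) :=
    sup_le (h.redSp_mono le_sup_left) (h.redSp_mono le_sup_right)
  have hinf : 1 ≤ Module.finrank k ↥(h.redSp V₁ ⊓ h.redSp V₂) := by
    have hne : (⟨1, H1a, H1b⟩ : ↥(h.redSp V₁ ⊓ h.redSp V₂)) ≠ 0 := by
      intro h0
      exact one_ne_zero (congrArg Subtype.val h0)
    exact Module.finrank_pos_iff_exists_ne_zero.2 ⟨_, hne⟩
  have hElt : Module.finrank k ↥(h.redSp V₁ ⊔ h.redSp V₂) <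
      Module.finrank k ↥(h.redSp (V₁ ⊔ V₂)) := by
    have := Submodule.finrank_sup_add_finrank_inf_eq (h.redSp V₁) (h.redSp V₂)
    omega
  have hEne : ∃ x ∈ h.redSp (V₁ ⊔ V₂), x ∉ h.redSp V₁ ⊔ h.redSp V₂ := by
    by_contra hcon
    push Not at hcon
    have hle : h.redSp (V₁ ⊔ V₂) ≤ h.redSp V₁ ⊔ h.redSp V₂ := hcon
    rw [le_antisymm hE_le hle] at hElt
    exact lt_irrefl _ hElt
  obtain ⟨x, ⟨u, huV, rfl⟩, huE⟩ := hEne
  obtain ⟨v₁, hv₁, v₂, hv₂, huv⟩ := Submodule.mem_sup.1 huV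
  -- `v₁ ∉ O`
  have hv₁O : v₁ ∉ O := by
    intro hv₁O
    have hv₂O : v₂ ∈ O := by
      have : v₂ = (u : Ω) - v₁ := by rw [← huv]; ring
      rw [this]; exact O.sub_mem u.2 hv₁O
    apply huE
    have : u = ⟨v₁, hv₁O⟩ + ⟨v₂, hv₂O⟩ := Subtype.ext huv.symm
    rw [this, map_add]
    exact Submodule.add_mem_sup (h.ρ_mem_redSp ⟨v₁, hv₁O⟩ hv₁) (h.ρ_mem_redSp ⟨v₂, hv₂O⟩ hv₂)
  have hv₁0 : v₁ ≠ 0 := fun h0 => hv₁O (h0 ▸ O.zero_mem)
  obtain ⟨c, hc0, hcO, hcρ⟩ := h.exists_smul_unit hS (hV₁S hv₁) hv₁0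
  have hcA : c ∈ A := by
    by_contra hcA
    obtain ⟨e, he, -⟩ := h.π_inv_eq_zero hcA
    apply hv₁O
    have : v₁ = (e : K) • (c • v₁) := by rw [he, smul_smul, inv_mul_cancel₀ hc0, one_smul]
    rw [this]; exact h.smul_mem e ⟨_, hcO⟩
  have hπc : π ⟨c, hcA⟩ = 0 := by
    rw [h.π_eq_zero]
    rintro ⟨w, hw⟩
    apply hv₁O
    have hinv : (((w⁻¹ : Aˣ) : A) : K) = c⁻¹ := by
      have h1 : ((w⁻¹ : Aˣ) : A) * ⟨c, hcA⟩ = 1 := by rw [← hw]; exact w.inv_mul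
      have h2 : (((w⁻¹ : Aˣ) : A) : K) * c = 1 := by
        have := congrArg (fun z : A => (z : K)) h1
        simpa using this
      exact eq_inv_of_mul_eq_one_left h2
    have : v₁ = (((w⁻¹ : Aˣ) : A) : K) • (c • v₁) := by
      rw [hinv, smul_smul, inv_mul_cancel₀ hc0, one_smul]
    rw [this]; exact h.smul_mem _ ⟨_, hcO⟩
  have ht₂O : c • v₂ ∈ O := by
    have : c • v₂ = c • (u : Ω) - c • v₁ := by rw [← huv, smul_add]; ring
    rw [this]; exact O.sub_mem (h.smul_mem ⟨c, hcA⟩ u) hcO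
  have hρt : ρ ⟨c • v₁, hcO⟩ + ρ ⟨c • v₂, ht₂O⟩ = 0 := by
    have : (⟨c • v₁, hcO⟩ : O) + ⟨c • v₂, ht₂O⟩ = ⟨_, h.smul_mem ⟨c, hcA⟩ u⟩ :=
      Subtype.ext (by simp [← huv, smul_add])
    rw [← map_add, this, h.ρ_smul, hπc, zero_smul]
  have hρt₁ : ρ ⟨c • v₁, hcO⟩ ∈ h.redSp V₁ := h.ρ_mem_redSp _ (V₁.smul_mem c hv₁)
  have hρt₂ : ρ ⟨c • v₂, ht₂O⟩ ∈ h.redSp V₂ := h.ρ_mem_redSp _ (V₂.smul_mem c hv₂)
  have hρt₁' : ρ ⟨c • v₁, hcO⟩ ∈ h.redSp V₂ := by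
    have : ρ ⟨c • v₁, hcO⟩ = -ρ ⟨c • v₂, ht₂O⟩ := eq_neg_of_add_eq_zero_left hρt
    rw [this]; exact neg_mem hρt₂
  obtain ⟨κ₀, hκ₀⟩ := H1 _ hρt₁ hρt₁'
  have hκ₀0 : κ₀ ≠ 0 := by
    rintro rfl
    rw [map_zero] at hκ₀
    exact hcρ hκ₀
  obtain ⟨α, hα⟩ := h.π_surj κ₀⁻¹
  have hα0 : (α : K) ≠ 0 := by
    intro h0
    have : α = 0 := Subtype.ext h0
    rw [this, map_zero] at hα
    exact inv_ne_zero hκ₀0 hα.symm
  -- `s`, `s'`
  have hsO : (α : K) • (c • v₁) ∈ O := h.smul_mem α ⟨_, hcO⟩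
  have hs'O : -((α : K) • (c • v₂)) ∈ O := O.neg_mem (h.smul_mem α ⟨_, ht₂O⟩)
  have hρs : ρ ⟨_, hsO⟩ = 1 := by
    rw [h.ρ_smul α ⟨_, hcO⟩, hα, hκ₀, Algebra.smul_def, ← map_mul, inv_mul_cancel₀ hκ₀0, map_one]
  have hρs' : ρ ⟨_, hs'O⟩ = 1 := by
    have e : (⟨_, hs'O⟩ : O) = -⟨_, h.smul_mem α ⟨_, ht₂O⟩⟩ := rfl
    have e2 : ρ ⟨c • v₂, ht₂O⟩ = -ρ ⟨c • v₁, hcO⟩ := eq_neg_of_add_eq_zero_right hρt
    rw [e, map_neg, h.ρ_smul α ⟨_, ht₂O⟩, e2, hα, hκ₀, smul_neg, neg_neg, Algebra.smul_def,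
      ← map_mul, inv_mul_cancel₀ hκ₀0, map_one]
  have hsV : (α : K) • (c • v₁) ∈ V₁ := V₁.smul_mem _ (V₁.smul_mem _ hv₁)
  have hs'V : -((α : K) • (c • v₂)) ∈ V₂ := V₂.neg_mem (V₂.smul_mem _ (V₂.smul_mem _ hv₂))
  have ha0 : (α : K) * c ≠ 0 := mul_ne_zero hα0 hc0
  have hdiff : (α : K) • (c • v₁) - -((α : K) • (c • v₂)) = ((α : K) * c) • (u : Ω) := by
    rw [← huv, sub_neg_eq_add, ← smul_add, ← smul_add, smul_smul]
  -- `x = s^m f`, `x' = s'^m f`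
  have hx := H7a _ hsV
  have hx' := H7b _ hs'V
  have hGO : ∑ i ∈ Finset.range m, ((α : K) • (c • v₁)) ^ i * (-((α : K) • (c • v₂))) ^ (m - 1 - i) ∈ O :=
    O.sum_mem fun i _ => O.mul_mem (O.pow_mem hsO _) (O.pow_mem hs'O _)
  have hρG : ρ ⟨_, hGO⟩ = (m : R) := by
    have e : (⟨_, hGO⟩ : O) =
        ∑ i ∈ Finset.range m, (⟨_, hsO⟩ : O) ^ i * (⟨_, hs'O⟩ : O) ^ (m - 1 - i) := by
      apply Subtype.ext
      rw [AddSubmonoidClass.coe_finsetSum]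
      rfl
    rw [e, map_sum]
    have : ∀ i ∈ Finset.range m,
        ρ ((⟨_, hsO⟩ : O) ^ i * (⟨_, hs'O⟩ : O) ^ (m - 1 - i)) = 1 := by
      intro i _
      rw [map_mul, map_pow, map_pow, hρs, hρs', one_pow, one_pow, one_mul]
    rw [Finset.sum_congr rfl this]
    simp
  have hgeom := (Commute.all ((α : K) • (c • v₁)) (-((α : K) • (c • v₂)))).geom_sum₂_mul m
  have hyO : (u : Ω) * (f : Ω) *
      ∑ i ∈ Finset.range m, ((α : K) • (c • v₁)) ^ i * (-((α : K) • (c • v₂))) ^ (m - 1 - i) ∈ O :=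
    O.mul_mem (O.mul_mem u.2 f.2) hGO
  have hay : ((α : K) * c) • ((u : Ω) * (f : Ω) *
      ∑ i ∈ Finset.range m, ((α : K) • (c • v₁)) ^ i * (-((α : K) • (c • v₂))) ^ (m - 1 - i)) =
      ((α : K) • (c • v₁)) ^ m * (f : Ω) - (-((α : K) • (c • v₂))) ^ m * (f : Ω) := by
    rw [← sub_mul, ← hgeom, hdiff]
    simp only [Algebra.smul_def]
    ring
  have hyU : (u : Ω) * (f : Ω) *
      ∑ i ∈ Finset.range m, ((α : K) • (c • v₁)) ^ i * (-((α : K) • (c • v₂))) ^ (m - 1 - i) ∈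
      U₁ ⊔ U₂ := by
    have h1 : ((α : K) * c) • ((u : Ω) * (f : Ω) *
        ∑ i ∈ Finset.range m, ((α : K) • (c • v₁)) ^ i * (-((α : K) • (c • v₂))) ^ (m - 1 - i)) ∈
        U₁ ⊔ U₂ := by
      rw [hay]
      exact Submodule.sub_mem _ (Submodule.mem_sup_left hx) (Submodule.mem_sup_right hx')
    have h2 := Submodule.smul_mem (U₁ ⊔ U₂) ((α : K) * c)⁻¹ h1
    rwa [smul_smul, inv_mul_cancel₀ ha0, one_smul] at h2
  have hρy : ρ ⟨_, hyO⟩ = (m : R) * ρ u := by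
    have e : (⟨_, hyO⟩ : O) = u * f * ⟨_, hGO⟩ := rfl
    rw [e, map_mul, map_mul, hf, hρG]
    ring
  -- second dimension count
  have hUS : U₁ ⊔ U₂ ≤ S := sup_le hU₁S hU₂S
  obtain ⟨hfu1, hdu1⟩ := h.finrank_redSp hS hU₁S
  obtain ⟨hfu2, hdu2⟩ := h.finrank_redSp hS hU₂S
  obtain ⟨hfu12, hdu12⟩ := h.finrank_redSp hS hUS
  have hYle : h.redSp U₁ ⊔ h.redSp U₂ ≤ h.redSp (U₁ ⊔ U₂) :=
    sup_le (h.redSp_mono le_sup_left) (h.redSp_mono le_sup_right)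
  have hUinf : 1 ≤ Module.finrank K ↥(U₁ ⊓ U₂) := by
    have hne : (⟨1, hU₁1, hU₂1⟩ : ↥(U₁ ⊓ U₂)) ≠ 0 := by
      intro h0
      exact one_ne_zero (congrArg Subtype.val h0)
    exact Module.finrank_pos_iff_exists_ne_zero.2 ⟨_, hne⟩
  have hYinf : Module.finrank k ↥(h.redSp U₁ ⊓ h.redSp U₂) ≤ 1 := by
    have hle : h.redSp U₁ ⊓ h.redSp U₂ ≤ Submodule.span k {(1 : R)} := by
      rintro x ⟨hx1, hx2⟩
      obtain ⟨κ, rfl⟩ := H3 x hx1 hx2
      rw [Submodule.mem_span_singleton]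
      exact ⟨κ, by rw [Algebra.smul_def, mul_one]⟩
    calc Module.finrank k ↥(h.redSp U₁ ⊓ h.redSp U₂)
        ≤ Module.finrank k ↥(Submodule.span k {(1 : R)}) := Submodule.finrank_mono hle
      _ = 1 := finrank_span_singleton one_ne_zero
  have hYeq : h.redSp U₁ ⊔ h.redSp U₂ = h.redSp (U₁ ⊔ U₂) := by
    apply Submodule.eq_of_le_of_finrank_le hYle
    have e1 := Submodule.finrank_sup_add_finrank_inf_eq (h.redSp U₁) (h.redSp U₂)
    have e2 := Submodule.finrank_sup_add_finrank_inf_eq U₁ U₂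
    omega
  have hρyY : ρ ⟨_, hyO⟩ ∈ h.redSp U₁ ⊔ h.redSp U₂ := by
    rw [hYeq]; exact h.ρ_mem_redSp _ hyU
  have hρuV : (m : R) * ρ u ∈ h.redSp V₁₂ := by
    have hu12 : (u : Ω) ∈ V₁₂ := (sup_le hV₁ hV₂) huV
    have := (h.redSp V₁₂).smul_mem (m : k) (h.ρ_mem_redSp u hu12)
    rwa [Algebra.smul_def, map_natCast] at this
  rw [hρy] at hρyY
  have hmem := H4 _ hρyY hρuV
  apply huE
  have : ρ u = (m : k)⁻¹ • ((m : R) * ρ u) := by
    rw [Algebra.smul_def, ← mul_assoc, ← map_natCast (algebraMap k R), ← map_mul,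
      inv_mul_cancel₀ hm, map_one, one_mul]
  rw [this]
  exact Submodule.smul_mem _ _ hmem

end Main

end Fermat.Agent.S18.LiftCore
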