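import Mathlib
import Fermat.Agent.S18.Red
import Fermat.Agent.S18.LiftCore

/-!
# S18 — [RED] glue for LiftCore (helper49)

`S18/LiftCore.lean` is abstract in `[Algebra K Ω]`.  For `Ω = K((q))` instance search finds
`HahnSeries.powerSeriesAlgebra`, whose module structure is **not** definitionally the default one
(`HahnSeries.instModule`) used by `S18/Plan.lean`.  Here `LiftCore` is instantiated with the
algebra instance `HahnSeries.instAlgebra` (module structure defeq to the default one,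
`algebraMap c = HahnSeries.C c` by `rfl`):

* `redData A` : the abstract reduction data of the content valuation (any field `K`);
* `hasDim n ℓ hℓ A hA` : `(Dim)` on the function field of `X₀(n)`;
* `liftCore_plan` : `LiftCore.liftCore` restated in the vocabulary of `S18/Plan.lean`.
-/

set_option autoImplicit false

namespace Fermat.Agent.S18.RedGlue

open ModularCurve AlgebraicCurve Fermat.Agent.S24 Fermat.Agent.S18.Content Fermat.Agent.S18

/-- The content valuation gives abstract reduction data (any field, any valuation subring), for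
the algebra structures `HahnSeries.instAlgebra` on `K((q))` and `k((q))`. -/
theorem redData {K : Type*} [Field K] (A : ValuationSubring K) :
    @LiftCore.RedData K (LaurentSeries K) (IsLocalRing.ResidueField A)
      (LaurentSeries (IsLocalRing.ResidueField A)) _ _ HahnSeries.instAlgebra _ _
      HahnSeries.instAlgebra A (IsLocalRing.residue A) (Ocal A) (red A) :=
  letI : Algebra K (LaurentSeries K) := HahnSeries.instAlgebra
  letI : Algebra (IsLocalRing.ResidueField A) (LaurentSeries (IsLocalRing.ResidueField A)) :=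
    HahnSeries.instAlgebra
  { π_surj := IsLocalRing.residue_surjective
    π_eq_zero := fun a => by
      rw [IsLocalRing.residue_eq_zero_iff, IsLocalRing.mem_maximalIdeal, mem_nonunits_iff]
    mem_iff := fun c => C_mem_Ocal_iff A c
    ρ_alg := fun a h => red_C A a.2
    inv_mem := fun y hy => inv_mem_Ocal A y hy }

set_option synthInstance.maxHeartbeats 400000 in
set_option maxHeartbeats 1000000 in
/-- `(Dim)` on the function field of `X₀(n)`, in the `LiftCore` vocabulary. -/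
theorem hasDim (n : ℕ) [NeZero n] (ℓ : ℕ) [Fact ℓ.Prime] (hℓ : ¬ ℓ ∣ n)
    (A : ValuationSubring Kbar) (hA : A.LiesOverPrime ℓ) (S : Submodule Kbar Plan.Om)
    (hS : ∀ w ∈ S, w ∈ modularFunctionFieldBar n) :
    @LiftCore.HasDim Kbar Plan.Om (Plan.Omk A) _ _ HahnSeries.instAlgebra _ (Plan.kk A) _
      HahnSeries.instAlgebra (Ocal A) (red A) S := by
  intro W hW hfin
  exact (Red.redStmt n ℓ hℓ A hA).2.2.2.1 W (fun w hw => hS w (hW hw)) hfin

/-- The two spellings of "reductions of `W ∩ Ocal`" agree. -/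
theorem redSp_eq (A : ValuationSubring Kbar) (W : Submodule Kbar Plan.Om) :
    @LiftCore.RedData.redSp Kbar Plan.Om (Plan.kk A) (Plan.Omk A) _ _ HahnSeries.instAlgebra _ _
      HahnSeries.instAlgebra A (IsLocalRing.residue A) (Ocal A) (red A) (redData A) W =
      Plan.redSp A W :=
  Submodule.ext fun _ => Iff.rfl

set_option synthInstance.maxHeartbeats 400000 in
set_option maxHeartbeats 1000000 in
/-- **LiftCore in Plan vocabulary.**  `S` any subspace with `(Dim)` (e.g. `F_{N'}`), all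
submodules for the default module structure of `Q̄((q))`. -/
theorem liftCore_plan (A : ValuationSubring Kbar) (S : Submodule Kbar Plan.Om)
    (hS : ∀ W : Submodule Kbar Plan.Om, W ≤ S → Module.Finite Kbar W →
      ∃ (r : ℕ) (b : Fin r → Ocal A),
        Submodule.span Kbar (Set.range fun i => (b i : Plan.Om)) = W ∧
        LinearIndependent (Plan.kk A) (fun i => red A (b i)))
    (V₁ V₂ V₁₂ U₁ U₂ : Submodule Kbar Plan.Om)
    (hV₁S : V₁ ≤ S) (hV₂S : V₂ ≤ S) (hU₁S : U₁ ≤ S) (hU₂S : U₂ ≤ S)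
    [Module.Finite Kbar V₁] [Module.Finite Kbar V₂] [Module.Finite Kbar U₁] [Module.Finite Kbar U₂]
    (hV₁ : V₁ ≤ V₁₂) (hV₂ : V₂ ≤ V₁₂)
    (f : Ocal A) (hf : red A f = 1) (m : ℕ) (hm : (m : Plan.kk A) ≠ 0)
    (H7a : ∀ s ∈ V₁, s ^ m * (f : Plan.Om) ∈ U₁) (H7b : ∀ s ∈ V₂, s ^ m * (f : Plan.Om) ∈ U₂)
    (hU₁1 : (1 : Plan.Om) ∈ U₁) (hU₂1 : (1 : Plan.Om) ∈ U₂)
    (H1a : (1 : Plan.Omk A) ∈ Plan.redSp A V₁) (H1b : (1 : Plan.Omk A) ∈ Plan.redSp A V₂)
    (H1 : ∀ x, x ∈ Plan.redSp A V₁ → x ∈ Plan.redSp A V₂ → ∃ κ : Plan.kk A, x = HahnSeries.C κ)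
    (H3 : ∀ x, x ∈ Plan.redSp A U₁ → x ∈ Plan.redSp A U₂ → ∃ κ : Plan.kk A, x = HahnSeries.C κ)
    (H4 : ∀ x, x ∈ Plan.redSp A U₁ ⊔ Plan.redSp A U₂ → x ∈ Plan.redSp A V₁₂ →
      x ∈ Plan.redSp A V₁ ⊔ Plan.redSp A V₂) :
    V₁ ⊓ V₂ ≠ ⊥ := by
  have h := redData A
  refine @LiftCore.liftCore Kbar Plan.Om (Plan.kk A) (Plan.Omk A) _ _ HahnSeries.instAlgebra _ _
    HahnSeries.instAlgebra A (IsLocalRing.residue A) (Ocal A) (red A) h S hS V₁ V₂ V₁₂ U₁ U₂
    hV₁S hV₂S hU₁S hU₂S _ _ _ _ hV₁ hV₂ f hf m hm H7a H7b hU₁1 hU₂1 ?_ ?_ ?_ ?_ ?_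
  · rw [redSp_eq]; exact H1a
  · rw [redSp_eq]; exact H1b
  · intro x hx1 hx2
    rw [redSp_eq] at hx1 hx2
    exact H1 x hx1 hx2
  · intro x hx1 hx2
    rw [redSp_eq] at hx1 hx2
    exact H3 x hx1 hx2
  · intro x hx1 hx2
    rw [redSp_eq, redSp_eq] at hx1
    rw [redSp_eq] at hx2
    rw [redSp_eq, redSp_eq]
    exact H4 x hx1 hx2

/-- The function field of `X₀(n)` over `Q̄` as a `Q̄`-subspace of `Q̄((q))` (default module
structure). -/
def levelSub (n : ℕ) : Submodule Kbar Plan.Om where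
  carrier := {w | w ∈ modularFunctionFieldBar n}
  add_mem' := fun ha hb => (modularFunctionFieldBar n).add_mem ha hb
  zero_mem' := (modularFunctionFieldBar n).zero_mem
  smul_mem' := fun c w hw => by
    show c • w ∈ modularFunctionFieldBar n
    rw [← HahnSeries.C_mul_eq_smul, ← algebraMap_LS_eq_C]
    exact mul_mem ((modularFunctionFieldBar n).algebraMap_mem c) hw

theorem mem_levelSub {n : ℕ} {w : Plan.Om} : w ∈ levelSub n ↔ w ∈ modularFunctionFieldBar n :=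
  Iff.rfl

set_option synthInstance.maxHeartbeats 400000 in
set_option maxHeartbeats 1000000 in
/-- **LiftCore at level `n`** (`ℓ ∤ n`, `A` over `ℓ`, `ℓ ∤ m`): all spaces inside `F_n`. -/
theorem liftCore_level (n : ℕ) [NeZero n] (ℓ : ℕ) [Fact ℓ.Prime] (hℓ : ¬ ℓ ∣ n)
    (A : ValuationSubring Kbar) (hA : A.LiesOverPrime ℓ)
    (V₁ V₂ V₁₂ U₁ U₂ : Submodule Kbar Plan.Om)
    (hV₁S : V₁ ≤ levelSub n) (hV₂S : V₂ ≤ levelSub n) (hU₁S : U₁ ≤ levelSub n)
    (hU₂S : U₂ ≤ levelSub n)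
    [Module.Finite Kbar V₁] [Module.Finite Kbar V₂] [Module.Finite Kbar U₁] [Module.Finite Kbar U₂]
    (hV₁ : V₁ ≤ V₁₂) (hV₂ : V₂ ≤ V₁₂)
    (f : Ocal A) (hf : red A f = 1) (m : ℕ) (hm : ¬ ℓ ∣ m)
    (H7a : ∀ s ∈ V₁, s ^ m * (f : Plan.Om) ∈ U₁) (H7b : ∀ s ∈ V₂, s ^ m * (f : Plan.Om) ∈ U₂)
    (hU₁1 : (1 : Plan.Om) ∈ U₁) (hU₂1 : (1 : Plan.Om) ∈ U₂)
    (H1a : (1 : Plan.Omk A) ∈ Plan.redSp A V₁) (H1b : (1 : Plan.Omk A) ∈ Plan.redSp A V₂)
    (H1 : ∀ x, x ∈ Plan.redSp A V₁ → x ∈ Plan.redSp A V₂ → ∃ κ : Plan.kk A, x = HahnSeries.C κ)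
    (H3 : ∀ x, x ∈ Plan.redSp A U₁ → x ∈ Plan.redSp A U₂ → ∃ κ : Plan.kk A, x = HahnSeries.C κ)
    (H4 : ∀ x, x ∈ Plan.redSp A U₁ ⊔ Plan.redSp A U₂ → x ∈ Plan.redSp A V₁₂ →
      x ∈ Plan.redSp A V₁ ⊔ Plan.redSp A V₂) :
    V₁ ⊓ V₂ ≠ ⊥ := by
  have hchar : CharP (IsLocalRing.ResidueField A) ℓ := charP_residueField_of_liesOverPrime A ℓ hA
  have hm' : (m : Plan.kk A) ≠ 0 := by
    intro h0
    exact hm ((CharP.cast_eq_zero_iff (IsLocalRing.ResidueField A) ℓ m).mp h0)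
  exact liftCore_plan A (levelSub n)
    (fun W hW hfin => (Red.redStmt n ℓ hℓ A hA).2.2.2.1 W (fun w hw => hW hw) hfin)
    V₁ V₂ V₁₂ U₁ U₂ hV₁S hV₂S hU₁S hU₂S hV₁ hV₂ f hf m hm' H7a H7b hU₁1 hU₂1 H1a H1b H1 H3 H4

end Fermat.Agent.S18.RedGlue
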