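import Mathlib
import Fermat.Agent.S18.Plan
import Fermat.Agent.S18.WJCalc
import Fermat.Agent.S18.InclPrime
import Fermat.Agent.S18.ContentField
import Fermat.Agent.S18.PullPlan

/-!
# S18 — `(Surj)` and the hypotheses `H1a`, `H1b`, `H1`, `H3`, `H4` of LiftCore (helper43)

Everything is stated against the Plan contracts (`S18/Plan.lean`) only.

* `redSp_pullRR_eq` : `redSp (pullRR (E + c•(j)_∞)) = WJ k F'_k c` for `r_* E = 0`, `deg E = 0`
  (Riemann's inequality `RR0` against the genus bound `RRl`, `(Dim)` and `(Incl')`);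
* `mem_redSp_shift_iff` : `x ∈ redSp (pullRR (B + c•div j)) ↔ j̄ᶜ x ∈ redSp (pullRR B)`;
* `H1a`, `H1b`, `H1`, `H3`, `H4` : the reduction-side hypotheses of `RedGlue.liftCore_level` for
  `V₁ = pullRR (D + c•Cp)`, `V₂ = pullRR (D + c•Cp + c•Dj)`,
  `V₁₂ = pullRR (D + (2c)•Cp + c•Dj)`, `U₁ = pullRR (C•Cp)`, `U₂ = pullRR (C•Cp + C•Dj)`,
  where `Cp = (j)_∞` and `Dj = div j`.
-/

set_option autoImplicit false

noncomputable section

namespace Fermat.Agent.S18.Surj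

open ModularCurve AlgebraicCurve Fermat.Agent.S24 Fermat.Agent.S18.Content Fermat.Agent.S18.Plan
open Fermat.Agent.S18

variable (A : ValuationSubring Kbar)

/-! ### `(Surj)` -/

set_option synthInstance.maxHeartbeats 400000 in
set_option maxHeartbeats 1000000 in
/-- `(Surj)`: Riemann's inequality in characteristic zero against the genus bound in
characteristic `ℓ`. -/
theorem redSp_pullRR_eq (N N' : ℕ) [NeZero N] (hψ : 0 < dedekindPsi N)
    (hChar : Plan.CharStmt A N N') (hIncl : Plan.InclF A N) (hRed' : Plan.RedStmt A N')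
    (hle : Plan.Fk A N ≤ Plan.Fk A N') (hRR0 : Plan.RR0 N N')
    (r : Place Kbar (FN N) → Place (kk A) (Plan.Fk A N))
    (hr : IsPlaceReductionAlong A (IsLocalRing.residue A) N r)
    (E Cp : Divisor Kbar (FN N)) (c : ℕ) (hCp : ∀ P, Cp P = max 0 (-(P.ord (jBar N))))
    (hdegCp : Divisor.degree Cp = (dedekindPsi N : ℤ))
    (hE : Finsupp.mapDomain r E = 0) (hdegE : Divisor.degree E = 0)
    (hfin : Module.Finite (kk A) (Plan.WJ (kk A) (Plan.Fk A N') c))
    (hbound : 12 * (Module.finrank (kk A) (Plan.WJ (kk A) (Plan.Fk A N') c) : ℤ)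
      ≤ 12 * (c : ℤ) * (dedekindPsi N' : ℤ) - (dedekindPsi N' : ℤ) + 6 * (cuspCount N' : ℤ)) :
    Plan.redSp A (Plan.pullRR N N' (E + c • Cp)) = Plan.WJ (kk A) (Plan.Fk A N') c ∧
      Module.finrank Kbar (Plan.pullRR N N' (E + c • Cp))
        = Module.finrank (kk A) (Plan.WJ (kk A) (Plan.Fk A N') c) := by
  obtain ⟨hfinV, hrr⟩ := hRR0 (E + c • Cp)
  have hle1 : Plan.redSp A (Plan.pullRR N N' (E + c • Cp)) ≤ Plan.WJ (kk A) (Plan.Fk A N') c :=
    InclPrime.redSp_pullRR_le A N N' hChar hIncl hRed' hle r hr E Cp c hCp hE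
  obtain ⟨n, b, hspan, hli⟩ := hRed'.2.2.2.1 (Plan.pullRR N N' (E + c • Cp))
    (fun w hw => hw.1) hfinV
  -- `dim V ≤ n`
  have h1 : Module.finrank Kbar (Plan.pullRR N N' (E + c • Cp)) ≤ n := by
    have h := finrank_range_le_card (R := Kbar) (fun i => ((b i : Ocal A) : Om))
    rw [Set.finrank, hspan, Fintype.card_fin] at h
    exact h
  -- `n ≤ dim redSp V`
  have hfinR : Module.Finite (kk A) (Plan.redSp A (Plan.pullRR N N' (E + c • Cp))) :=
    Submodule.finiteDimensional_of_le hle1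
  have hmem : ∀ i, red A (b i) ∈ Plan.redSp A (Plan.pullRR N N' (E + c • Cp)) := fun i =>
    ⟨b i, by rw [← hspan]; exact Submodule.subset_span ⟨i, rfl⟩, rfl⟩
  have hli' : LinearIndependent (kk A)
      (fun i => (⟨red A (b i), hmem i⟩ : Plan.redSp A (Plan.pullRR N N' (E + c • Cp)))) :=
    LinearIndependent.of_comp (Plan.redSp A (Plan.pullRR N N' (E + c • Cp))).subtype hli
  have h2 : n ≤ Module.finrank (kk A) (Plan.redSp A (Plan.pullRR N N' (E + c • Cp))) := by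
    have := hli'.fintype_card_le_finrank
    rwa [Fintype.card_fin] at this
  have h3 : Module.finrank (kk A) (Plan.redSp A (Plan.pullRR N N' (E + c • Cp)))
      ≤ Module.finrank (kk A) (Plan.WJ (kk A) (Plan.Fk A N') c) :=
    Submodule.finrank_mono hle1
  -- numerics
  have hdeg : Divisor.degree (E + c • Cp) = (c : ℤ) * (dedekindPsi N : ℤ) := by
    rw [map_add, map_nsmul, hdegE, hdegCp, zero_add, nsmul_eq_mul]
  rw [hdeg] at hrr
  have hψ' : (0 : ℤ) < (dedekindPsi N : ℤ) := by exact_mod_cast hψ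
  have h13 : (Module.finrank Kbar (Plan.pullRR N N' (E + c • Cp)) : ℤ)
      ≤ (Module.finrank (kk A) (Plan.WJ (kk A) (Plan.Fk A N') c) : ℤ) := by
    exact_mod_cast h1.trans (h2.trans h3)
  have hkey : (Module.finrank (kk A) (Plan.WJ (kk A) (Plan.Fk A N') c) : ℤ)
      ≤ (Module.finrank Kbar (Plan.pullRR N N' (E + c • Cp)) : ℤ) := by
    by_contra hlt
    rw [not_le] at hlt
    nlinarith [mul_le_mul_of_nonneg_left hbound hψ'.le]
  have heq : Module.finrank Kbar (Plan.pullRR N N' (E + c • Cp))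
      = Module.finrank (kk A) (Plan.WJ (kk A) (Plan.Fk A N') c) := by
    exact_mod_cast le_antisymm h13 hkey
  refine ⟨?_, heq⟩
  refine Submodule.eq_of_le_of_finrank_le hle1 ?_
  rw [← heq]
  exact h1.trans h2

/-! ### `j` is a unit of `Ocal` with reduction `j̄` -/

theorem coe_jBar (N : ℕ) [NeZero N] : ((jBar N : FN N) : Om) = iota A (jqModC A) :=
  (iota_jA A).symm

theorem jBar_mem_Ocal (N : ℕ) [NeZero N] : ((jBar N : FN N) : Om) ∈ Ocal A := by
  rw [coe_jBar A]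
  exact iota_mem_Ocal A _

theorem red_jBar (N : ℕ) [NeZero N] :
    red A ⟨((jBar N : FN N) : Om), jBar_mem_Ocal A N⟩ = jqModC (kk A) := by
  rw [red_congr A (coe_jBar A N) (jBar_mem_Ocal A N) (iota_mem_Ocal A _), red_iota, rho_jA]

theorem jBar_ne_zero (A : ValuationSubring Kbar) (N : ℕ) [NeZero N] : jBar N ≠ 0 := by
  intro h
  have h1 := red_jBar A N
  have h2 : (⟨((jBar N : FN N) : Om), jBar_mem_Ocal A N⟩ : Ocal A) = 0 := by
    apply Subtype.ext
    show ((jBar N : FN N) : Om) = 0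
    rw [h]
    rfl
  rw [h2, map_zero] at h1
  exact WJCalc.j_ne_zero h1.symm

/-! ### Shifting a pull-back Riemann–Roch space by a principal divisor -/

/-- The reductions of `pullRR (B + c • div j)` are `j̄⁻ᶜ` times those of `pullRR B`. -/
theorem mem_redSp_shift_iff {N N' : ℕ} [NeZero N]
    (hle0 : modularFunctionFieldBar N ≤ modularFunctionFieldBar N')
    (B Dj : Divisor Kbar (FN N)) (hDj : ∀ P, Dj P = P.ord (jBar N)) (c : ℕ) (x : Omk A) :
    x ∈ Plan.redSp A (Plan.pullRR N N' (B + c • Dj)) ↔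
      jqModC (kk A) ^ c * x ∈ Plan.redSp A (Plan.pullRR N N' B) := by
  have hj0 : jBar N ≠ 0 := jBar_ne_zero A N
  let J : Ocal A := ⟨((jBar N : FN N) : Om), jBar_mem_Ocal A N⟩
  have hJ : red A J = jqModC (kk A) := red_jBar A N
  have hJ0 : red A J ≠ 0 := by rw [hJ]; exact WJCalc.j_ne_zero
  constructor
  · rintro ⟨g, hg, rfl⟩
    have hD : ∀ P : Place Kbar (FN N), (c • Dj) P = P.ord (jBar N ^ c) := by
      intro P
      have := P.ord_zpow (jBar N) (c : ℤ)
      rw [zpow_natCast] at this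
      rw [this, ← hDj P]
      simp
    have h1 := PullPlan.mul_mem_pullRR_sub hle0 (pow_ne_zero c hj0) hD hg
    rw [add_sub_cancel_right] at h1
    refine ⟨J ^ c * g, h1, ?_⟩
    rw [map_mul, map_pow, hJ]
  · rintro ⟨g', hg', hx⟩
    let Ji : Ocal A := ⟨(J : Om)⁻¹, inv_mem_Ocal A J hJ0⟩
    have hJi : red A Ji = (jqModC (kk A))⁻¹ := by
      rw [← hJ]; exact red_inv A J hJ0
    have hD : ∀ P : Place Kbar (FN N), (-(c • Dj)) P = P.ord ((jBar N)⁻¹ ^ c) := by
      intro P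
      have := P.ord_zpow ((jBar N)⁻¹) (c : ℤ)
      rw [zpow_natCast] at this
      rw [this, P.ord_inv, ← hDj P]
      simp
    have h1 := PullPlan.mul_mem_pullRR_sub hle0 (pow_ne_zero c (inv_ne_zero hj0)) hD hg'
    rw [sub_neg_eq_add] at h1
    refine ⟨Ji ^ c * g', h1, ?_⟩
    rw [map_mul, map_pow, hJi, hx, ← mul_assoc, ← mul_pow,
      inv_mul_cancel₀ WJCalc.j_ne_zero, one_pow, one_mul]

/-! ### The hypotheses of LiftCore -/

section Hyps

set_option synthInstance.maxHeartbeats 400000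

variable (N N' : ℕ) [NeZero N]
  (hChar : Plan.CharStmt A N N') (hIncl : Plan.InclF A N) (hRed' : Plan.RedStmt A N')
  (hle : Plan.Fk A N ≤ Plan.Fk A N')
  (hle0 : modularFunctionFieldBar N ≤ modularFunctionFieldBar N')
  (hConst : Plan.ConstW A N')
  (r : Place Kbar (FN N) → Place (kk A) (Plan.Fk A N))
  (hr : IsPlaceReductionAlong A (IsLocalRing.residue A) N r)
  (Cp Dj : Divisor Kbar (FN N)) (hCp : ∀ P, Cp P = max 0 (-(P.ord (jBar N))))
  (hDj : ∀ P, Dj P = P.ord (jBar N))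

include hChar hIncl hRed' hle hle0 hr hCp hDj

set_option synthInstance.maxHeartbeats 400000 in
set_option maxHeartbeats 1000000 in
/-- `(Incl')` on the `(j)_0`-side. -/
theorem mul_mem_WJ_of_mem_redSp (E : Divisor Kbar (FN N)) (hE : Finsupp.mapDomain r E = 0)
    (c c' : ℕ) {x : Omk A}
    (hx : x ∈ Plan.redSp A (Plan.pullRR N N' (E + c • Cp + c' • Dj))) :
    jqModC (kk A) ^ c' * x ∈ Plan.WJ (kk A) (Plan.Fk A N') c :=
  InclPrime.redSp_pullRR_le A N N' hChar hIncl hRed' hle r hr E Cp c hCp hE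
    ((mem_redSp_shift_iff A hle0 (E + c • Cp) Dj hDj c' x).1 hx)

include hConst

set_option synthInstance.maxHeartbeats 400000 in
set_option maxHeartbeats 1000000 in
/-- `H1` / `H3`: an element of `redSp (pullRR (E + c•Cp)) ∩ redSp (pullRR (E + c•Cp + c•Dj))` is a
constant (only `(Incl')` and `ConstW`). -/
theorem eq_C_of_mem_redSp (E : Divisor Kbar (FN N)) (hE : Finsupp.mapDomain r E = 0)
    (c : ℕ) {x : Omk A}
    (hx₁ : x ∈ Plan.redSp A (Plan.pullRR N N' (E + c • Cp)))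
    (hx₂ : x ∈ Plan.redSp A (Plan.pullRR N N' (E + c • Cp + c • Dj))) :
    ∃ κ : kk A, x = HahnSeries.C κ := by
  have h1 : x ∈ Plan.WJ (kk A) (Plan.Fk A N') c :=
    InclPrime.redSp_pullRR_le A N N' hChar hIncl hRed' hle r hr E Cp c hCp hE hx₁
  have h2 : jqModC (kk A) ^ c * x ∈ Plan.WJ (kk A) (Plan.Fk A N') c :=
    mul_mem_WJ_of_mem_redSp A N N' hChar hIncl hRed' hle hle0 r hr Cp Dj hCp hDj E hE c c hx₂
  exact hConst x (WJCalc.mem_WJ_zero_of_mem h1 h2)

set_option synthInstance.maxHeartbeats 400000 in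
set_option maxHeartbeats 1000000 in
/-- `H3` in the spelling `U₁ = pullRR (C • Cp)`, `U₂ = pullRR (C • Cp + C • Dj)`. -/
theorem H3 (C : ℕ) {x : Omk A}
    (hx₁ : x ∈ Plan.redSp A (Plan.pullRR N N' (C • Cp)))
    (hx₂ : x ∈ Plan.redSp A (Plan.pullRR N N' (C • Cp + C • Dj))) :
    ∃ κ : kk A, x = HahnSeries.C κ := by
  rw [← zero_add (C • Cp)] at hx₁ hx₂
  exact eq_C_of_mem_redSp A N N' hChar hIncl hRed' hle hle0 hConst r hr Cp Dj hCp hDj 0
    Finsupp.mapDomain_zero C hx₁ hx₂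

end Hyps

/-! ### With `(Surj)`: `H1a`, `H1b`, `H4` -/

section Main

set_option synthInstance.maxHeartbeats 400000

variable (N N' : ℕ) [NeZero N] (hψ : 0 < dedekindPsi N)
  (hChar : Plan.CharStmt A N N') (hIncl : Plan.InclF A N) (hRed' : Plan.RedStmt A N')
  (hle : Plan.Fk A N ≤ Plan.Fk A N')
  (hle0 : modularFunctionFieldBar N ≤ modularFunctionFieldBar N')
  (hRR0 : Plan.RR0 N N')
  (r : Place Kbar (FN N) → Place (kk A) (Plan.Fk A N))
  (hr : IsPlaceReductionAlong A (IsLocalRing.residue A) N r)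
  (D Cp Dj : Divisor Kbar (FN N)) (hCp : ∀ P, Cp P = max 0 (-(P.ord (jBar N))))
  (hDj : ∀ P, Dj P = P.ord (jBar N))
  (hdegCp : Divisor.degree Cp = (dedekindPsi N : ℤ))
  (hD : Finsupp.mapDomain r D = 0) (hdegD : Divisor.degree D = 0) (c : ℕ)
  (hfin : Module.Finite (kk A) (Plan.WJ (kk A) (Plan.Fk A N') c))
  (hbound : 12 * (Module.finrank (kk A) (Plan.WJ (kk A) (Plan.Fk A N') c) : ℤ)
      ≤ 12 * (c : ℤ) * (dedekindPsi N' : ℤ) - (dedekindPsi N' : ℤ) + 6 * (cuspCount N' : ℤ))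

include hψ hChar hIncl hRed' hle hRR0 hr hCp hdegCp hD hdegD hfin hbound

set_option maxHeartbeats 1000000 in
/-- `redSp V₁ = WJ c`. -/
theorem redSp_V₁ :
    Plan.redSp A (Plan.pullRR N N' (D + c • Cp)) = Plan.WJ (kk A) (Plan.Fk A N') c :=
  (redSp_pullRR_eq A N N' hψ hChar hIncl hRed' hle hRR0 r hr D Cp c hCp hdegCp hD hdegD
    hfin hbound).1

set_option maxHeartbeats 1000000 in
/-- `H1a`. -/
theorem H1a : (1 : Omk A) ∈ Plan.redSp A (Plan.pullRR N N' (D + c • Cp)) := by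
  rw [redSp_V₁ A N N' hψ hChar hIncl hRed' hle hRR0 r hr D Cp hCp hdegCp hD hdegD c hfin hbound]
  exact WJCalc.one_mem_WJ c

include hle0 hDj

set_option maxHeartbeats 1000000 in
/-- `redSp V₂ = j̄⁻ᶜ · WJ c`, in element form. -/
theorem mem_redSp_V₂_iff (x : Omk A) :
    x ∈ Plan.redSp A (Plan.pullRR N N' (D + c • Cp + c • Dj)) ↔
      jqModC (kk A) ^ c * x ∈ Plan.WJ (kk A) (Plan.Fk A N') c := by
  rw [mem_redSp_shift_iff A hle0 (D + c • Cp) Dj hDj c x,
    redSp_V₁ A N N' hψ hChar hIncl hRed' hle hRR0 r hr D Cp hCp hdegCp hD hdegD c hfin hbound]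

set_option maxHeartbeats 1000000 in
/-- `H1b`. -/
theorem H1b : (1 : Omk A) ∈ Plan.redSp A (Plan.pullRR N N' (D + c • Cp + c • Dj)) := by
  rw [mem_redSp_V₂_iff A N N' hψ hChar hIncl hRed' hle hle0 hRR0 r hr D Cp Dj hCp hDj hdegCp hD
    hdegD c hfin hbound, mul_one]
  exact WJCalc.j_pow_mem_WJ (jqModC_mem_full (kk A) N') c

set_option maxHeartbeats 1000000 in
/-- `H4`, for `U₁ = pullRR (C • Cp)`, `U₂ = pullRR (C • Cp + C • Dj)`,
`V₁₂ = pullRR (D + (2c) • Cp + c • Dj)`. -/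
theorem H4 (C : ℕ) {x : Omk A}
    (hx : x ∈ Plan.redSp A (Plan.pullRR N N' (C • Cp)) ⊔
      Plan.redSp A (Plan.pullRR N N' (C • Cp + C • Dj)))
    (hx12 : x ∈ Plan.redSp A (Plan.pullRR N N' (D + (2 * c) • Cp + c • Dj))) :
    x ∈ Plan.redSp A (Plan.pullRR N N' (D + c • Cp)) ⊔
      Plan.redSp A (Plan.pullRR N N' (D + c • Cp + c • Dj)) := by
  obtain ⟨y₁, hy₁, y₂, hy₂, rfl⟩ := Submodule.mem_sup.1 hx
  rw [← zero_add (C • Cp)] at hy₁ hy₂
  have h₁ : y₁ ∈ Plan.WJ (kk A) (Plan.Fk A N') C :=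
    InclPrime.redSp_pullRR_le A N N' hChar hIncl hRed' hle r hr 0 Cp C hCp
      Finsupp.mapDomain_zero hy₁
  have h₂ : jqModC (kk A) ^ C * y₂ ∈ Plan.WJ (kk A) (Plan.Fk A N') C :=
    mul_mem_WJ_of_mem_redSp A N N' hChar hIncl hRed' hle hle0 r hr Cp Dj hCp hDj 0
      Finsupp.mapDomain_zero C C hy₂
  have h : jqModC (kk A) ^ c * (y₁ + y₂) ∈ Plan.WJ (kk A) (Plan.Fk A N') (2 * c) :=
    mul_mem_WJ_of_mem_redSp A N N' hChar hIncl hRed' hle hle0 r hr Cp Dj hCp hDj D hD (2 * c) c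
      hx12
  obtain ⟨h1, h2⟩ := WJCalc.split_mem_WJ (jqModC_mem_full (kk A) N') h₁ h₂ h
  refine Submodule.add_mem_sup ?_ ?_
  · rw [redSp_V₁ A N N' hψ hChar hIncl hRed' hle hRR0 r hr D Cp hCp hdegCp hD hdegD c hfin
      hbound]
    exact h1
  · rw [mem_redSp_V₂_iff A N N' hψ hChar hIncl hRed' hle hle0 hRR0 r hr D Cp Dj hCp hDj hdegCp
      hD hdegD c hfin hbound]
    exact h2

end Main

end Fermat.Agent.S18.Surj

end
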