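import Mathlib
import Fermat.Agent.S18.Plan
import Fermat.Agent.S18.WJCalc
import Fermat.Agent.S18.PullPlan
import Fermat.Agent.S18.Surj
import Fermat.Agent.S18.RedGlue
import Fermat.Agent.S18.MainTop

/-!
# S18 — the divisor-level core WITHOUT any place map (helper77)

`DivCoreFree A N ℓ` : for a degree-zero divisor `D` of `F_N`, `m • D = div f` with `ℓ ∤ m` and
`f ∈ F_N ∩ Ocal`, `red f = 1`, the divisor `D` is principal.  No place reduction map `r`, no
`IsPlaceReductionAlong`, no `PrincipalGeneratedByIntegral` appears.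

In the `r`-version of the argument (`S18/Surj.lean`, `S18/MainTop.lean`) the place map enters only
through the inclusion `redSp (pullRR N N' (E + c • (j)_∞)) ≤ WJ k F_{N',k} c`, used for `E = 0` and
`E = D` (`r_* D = 0`).  Here the case `E = D` is *deduced from the case `E = 0`* by a power trick
(`redSp_pullRR_le_of_pow`): for `g ∈ pullRR (D + c • Cp) ∩ Ocal`, `f * g ^ m ∈ pullRR ((m c) • Cp)`
and `red (f * g ^ m) = (red g) ^ m`, so `(red g) ^ m ∈ WJ (m c)`, hence `red g ∈ WJ c`.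

* `Incl0 A N N'`      : the `r`-free inclusion at `E = 0` (hypothesis; provider: `S18/InclFree`);
* `mainFree_of`       : `[MAIN]` without `r` (LiftCore with the `r`-free inclusions);
* `divCoreFree_of`    : `DivCoreFree A N ℓ` from the Plan contracts and `Incl0`.
-/

set_option autoImplicit false

noncomputable section

namespace Fermat.Agent.S18.MainFree

open ModularCurve AlgebraicCurve Fermat.Agent.S24 Fermat.Agent.S18.Content Fermat.Agent.S18.Plan
open Fermat.Agent.S18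

set_option synthInstance.maxHeartbeats 400000

variable (A : ValuationSubring Kbar)

/-! ### Statements -/

/-- The `r`-free inclusion at `E = 0`:
`redSp (pullRR N N' (c • (j)_∞)) ≤ WJ k F_{N',k} c`. -/
def Incl0 (N N' : ℕ) [NeZero N] : Prop :=
  ∀ (Cp : Divisor Kbar (FN N)) (c : ℕ), (∀ P, Cp P = max 0 (-(P.ord (jBar N)))) →
    Plan.redSp A (Plan.pullRR N N' (c • Cp)) ≤ Plan.WJ (kk A) (Plan.Fk A N') c

/-- **The divisor-level core without a place map**: `m • D = div f`, `ℓ ∤ m`, `f ∈ Ocal`,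
`red f = 1`, `deg D = 0`  ⟹  `D` principal. -/
def DivCoreFree (N ℓ : ℕ) : Prop :=
  ∀ m : ℕ, ¬ ℓ ∣ m → ∀ D : Divisor Kbar (FN N), Divisor.degree D = 0 →
    ∀ (f : FN N) (hf : (f : Om) ∈ Ocal A), red A ⟨(f : Om), hf⟩ = 1 →
      (∀ P : Place Kbar (FN N), (m • D) P = P.ord f) →
      D ∈ Divisor.principal (K := Kbar) (F := FN N)

/-- `[MAIN]` without a place map. -/
def MainFree (N N' ℓ : ℕ) : Prop :=
  ∀ m : ℕ, ¬ ℓ ∣ m → ∀ D : Divisor Kbar (FN N), Divisor.degree D = 0 →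
    ∀ (f : FN N) (hf : (f : Om) ∈ Ocal A), red A ⟨(f : Om), hf⟩ = 1 →
      (∀ P : Place Kbar (FN N), (m • D) P = P.ord f) →
      ∃ g0 : Ocal A, (g0 : Om) ∈ Plan.pullRR N N' D ∧ red A g0 = 1

/-! ### The power trick -/

/-- `x ^ m ∈ WJ (m c)` and `x ∈ L` imply `x ∈ WJ c`. -/
theorem mem_WJ_of_pow_mem {κ : Type} [Field κ] {L : IntermediateField κ (LaurentSeries κ)}
    {c m : ℕ} (hm : 0 < m) {x : LaurentSeries κ} (hx : x ∈ L)
    (h : x ^ m ∈ Plan.WJ κ L (m * c)) : x ∈ Plan.WJ κ L c := by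
  refine ⟨hx, IsIntegral.of_pow hm h.2.1, ?_⟩
  have h3 := h.2.2
  have e : (jqModC κ)⁻¹ ^ (m * c) * x ^ m = ((jqModC κ)⁻¹ ^ c * x) ^ m := by
    rw [mul_pow, ← pow_mul, mul_comm c m]
  rw [e] at h3
  exact IsIntegral.of_pow hm h3

theorem ne_zero_of_red_eq_one {N : ℕ} (f : FN N) (hf : (f : Om) ∈ Ocal A)
    (hfred : red A ⟨(f : Om), hf⟩ = 1) : f ≠ 0 := by
  rintro rfl
  have h2 : (⟨((0 : FN N) : Om), hf⟩ : Ocal A) = 0 := Subtype.ext rfl
  rw [h2, map_zero] at hfred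
  exact zero_ne_one hfred

/-- **The power trick**: the inclusion for `E = D` from the inclusion for `E = 0`, when
`m • D = div f` with `red f = 1`. -/
theorem redSp_pullRR_le_of_pow (N N' : ℕ) [NeZero N]
    (hle0 : modularFunctionFieldBar N ≤ modularFunctionFieldBar N')
    (hRed' : Plan.RedStmt A N') (hI0 : Incl0 A N N')
    (m : ℕ) (hm : 0 < m) (D : Divisor Kbar (FN N)) (f : FN N) (hf : (f : Om) ∈ Ocal A)
    (hfred : red A ⟨(f : Om), hf⟩ = 1) (hdiv : ∀ P : Place Kbar (FN N), (m • D) P = P.ord f)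
    (Cp : Divisor Kbar (FN N)) (hCp : ∀ P, Cp P = max 0 (-(P.ord (jBar N)))) (c : ℕ) :
    Plan.redSp A (Plan.pullRR N N' (D + c • Cp)) ≤ Plan.WJ (kk A) (Plan.Fk A N') c := by
  rintro x ⟨g, hg, rfl⟩
  have hf0 : f ≠ 0 := ne_zero_of_red_eq_one A f hf hfred
  have h1 := PullPlan.mul_pow_mem_pullRR hle0 hf0 (D := m • D) (fun P => hdiv P) hg m
  have e : m • (D + c • Cp) - m • D = (m * c) • Cp := by
    rw [smul_add, add_sub_cancel_left, smul_smul]
  rw [e] at h1
  have hy2 : red A ((⟨(f : Om), hf⟩ : Ocal A) * g ^ m) = red A g ^ m := by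
    rw [map_mul, hfred, one_mul, map_pow]
  have hy1 : (((⟨(f : Om), hf⟩ : Ocal A) * g ^ m : Ocal A) : Om) ∈
      Plan.pullRR N N' ((m * c) • Cp) := by
    rw [Subring.coe_mul, Subring.coe_pow]
    exact h1
  have h2 : red A g ^ m ∈ Plan.redSp A (Plan.pullRR N N' ((m * c) • Cp)) :=
    ⟨(⟨(f : Om), hf⟩ : Ocal A) * g ^ m, hy1, hy2⟩
  exact mem_WJ_of_pow_mem hm (hRed'.2.1 g hg.1) (hI0 Cp (m * c) hCp h2)

/-! ### `(Surj)` with an abstract inclusion -/

set_option maxHeartbeats 1000000 in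
/-- `(Surj)`: Riemann's inequality in characteristic zero against the genus bound in
characteristic `ℓ`, given the inclusion `redSp (pullRR (E + c • Cp)) ≤ WJ c`. -/
theorem redSp_pullRR_eq (N N' : ℕ) [NeZero N] (hψ : 0 < dedekindPsi N)
    (hRed' : Plan.RedStmt A N') (hRR0 : Plan.RR0 N N')
    (E Cp : Divisor Kbar (FN N)) (c : ℕ)
    (hdegCp : Divisor.degree Cp = (dedekindPsi N : ℤ)) (hdegE : Divisor.degree E = 0)
    (hle1 : Plan.redSp A (Plan.pullRR N N' (E + c • Cp)) ≤ Plan.WJ (kk A) (Plan.Fk A N') c)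
    (hfin : Module.Finite (kk A) (Plan.WJ (kk A) (Plan.Fk A N') c))
    (hbound : 12 * (Module.finrank (kk A) (Plan.WJ (kk A) (Plan.Fk A N') c) : ℤ)
      ≤ 12 * (c : ℤ) * (dedekindPsi N' : ℤ) - (dedekindPsi N' : ℤ) + 6 * (cuspCount N' : ℤ)) :
    Plan.redSp A (Plan.pullRR N N' (E + c • Cp)) = Plan.WJ (kk A) (Plan.Fk A N') c := by
  obtain ⟨hfinV, hrr⟩ := hRR0 (E + c • Cp)
  obtain ⟨n, b, hspan, hli⟩ := hRed'.2.2.2.1 (Plan.pullRR N N' (E + c • Cp))
    (fun w hw => hw.1) hfinV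
  -- `dim V ≤ n`
  have h1 : Module.finrank Kbar (Plan.pullRR N N' (E + c • Cp)) ≤ n := by
    have h := finrank_range_le_card (R := Kbar) (fun i => ((b i : Ocal A) : Om))
    rw [Set.finrank, hspan, Fintype.card_fin] at h
    exact h
  -- `n ≤ dim redSp V`
  have hfinR : Module.Finite (kk A) (Plan.redSp A (Plan.pullRR N N' (E + c • Cp))) :=
    Submodule.finiteDimensional_of_le hle1
  have hmem : ∀ i, red A (b i) ∈ Plan.redSp A (Plan.pullRR N N' (E + c • Cp)) := fun i =>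
    ⟨b i, by rw [← hspan]; exact Submodule.subset_span ⟨i, rfl⟩, rfl⟩
  have hli' : LinearIndependent (kk A)
      (fun i => (⟨red A (b i), hmem i⟩ : Plan.redSp A (Plan.pullRR N N' (E + c • Cp)))) :=
    LinearIndependent.of_comp (Plan.redSp A (Plan.pullRR N N' (E + c • Cp))).subtype hli
  have h2 : n ≤ Module.finrank (kk A) (Plan.redSp A (Plan.pullRR N N' (E + c • Cp))) := by
    have := hli'.fintype_card_le_finrank
    rwa [Fintype.card_fin] at this
  have h3 : Module.finrank (kk A) (Plan.redSp A (Plan.pullRR N N' (E + c • Cp)))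
      ≤ Module.finrank (kk A) (Plan.WJ (kk A) (Plan.Fk A N') c) :=
    Submodule.finrank_mono hle1
  -- numerics
  have hdeg : Divisor.degree (E + c • Cp) = (c : ℤ) * (dedekindPsi N : ℤ) := by
    rw [map_add, map_nsmul, hdegE, hdegCp, zero_add, nsmul_eq_mul]
  rw [hdeg] at hrr
  have hψ' : (0 : ℤ) < (dedekindPsi N : ℤ) := by exact_mod_cast hψ
  have h13 : (Module.finrank Kbar (Plan.pullRR N N' (E + c • Cp)) : ℤ)
      ≤ (Module.finrank (kk A) (Plan.WJ (kk A) (Plan.Fk A N') c) : ℤ) := by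
    exact_mod_cast h1.trans (h2.trans h3)
  have hkey : (Module.finrank (kk A) (Plan.WJ (kk A) (Plan.Fk A N') c) : ℤ)
      ≤ (Module.finrank Kbar (Plan.pullRR N N' (E + c • Cp)) : ℤ) := by
    by_contra hlt
    rw [not_le] at hlt
    nlinarith [mul_le_mul_of_nonneg_left hbound hψ'.le]
  have heq : Module.finrank Kbar (Plan.pullRR N N' (E + c • Cp))
      = Module.finrank (kk A) (Plan.WJ (kk A) (Plan.Fk A N') c) := by
    exact_mod_cast le_antisymm h13 hkey
  refine Submodule.eq_of_le_of_finrank_le hle1 ?_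
  rw [← heq]
  exact h1.trans h2

/-! ### The `(j)_0`-side and constants, with an abstract inclusion -/

section Hyps

variable (N N' : ℕ) [NeZero N]
  (hle0 : modularFunctionFieldBar N ≤ modularFunctionFieldBar N')
  (Cp Dj : Divisor Kbar (FN N)) (hDj : ∀ P, Dj P = P.ord (jBar N))
  (E : Divisor Kbar (FN N))
  (hIE : ∀ c : ℕ,
    Plan.redSp A (Plan.pullRR N N' (E + c • Cp)) ≤ Plan.WJ (kk A) (Plan.Fk A N') c)

include hle0 hDj hIE

theorem mul_mem_WJ_of_mem_redSp (c c' : ℕ) {x : Omk A}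
    (hx : x ∈ Plan.redSp A (Plan.pullRR N N' (E + c • Cp + c' • Dj))) :
    jqModC (kk A) ^ c' * x ∈ Plan.WJ (kk A) (Plan.Fk A N') c :=
  hIE c ((Surj.mem_redSp_shift_iff A hle0 (E + c • Cp) Dj hDj c' x).1 hx)

theorem eq_C_of_mem_redSp (hConst : Plan.ConstW A N') (c : ℕ) {x : Omk A}
    (hx₁ : x ∈ Plan.redSp A (Plan.pullRR N N' (E + c • Cp)))
    (hx₂ : x ∈ Plan.redSp A (Plan.pullRR N N' (E + c • Cp + c • Dj))) :
    ∃ κ : kk A, x = HahnSeries.C κ :=
  hConst x (WJCalc.mem_WJ_zero_of_mem (hIE c hx₁)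
    (mul_mem_WJ_of_mem_redSp A N N' hle0 Cp Dj hDj E hIE c c hx₂))

end Hyps

/-! ### Pointwise facts on `(j)_∞` and `div j` -/

section Pointwise

variable {N : ℕ} [NeZero N] (Cp Dj : Divisor Kbar (FN N))
  (hCp : ∀ P, Cp P = max 0 (-(P.ord (jBar N)))) (hDj : ∀ P, Dj P = P.ord (jBar N))

include hCp in
theorem Cp_nonneg : 0 ≤ Cp := by
  refine Finsupp.le_def.2 fun P => ?_
  rw [Finsupp.zero_apply, hCp P]
  exact le_max_left _ _

include hCp hDj in
theorem Cp_add_Dj_nonneg : 0 ≤ Cp + Dj := by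
  refine Finsupp.le_def.2 fun P => ?_
  rw [Finsupp.zero_apply, Finsupp.add_apply, hCp P, hDj P]
  have h2 : -(P.ord (jBar N)) ≤ max 0 (-(P.ord (jBar N))) := le_max_right _ _
  linarith

end Pointwise

/-! ### `[MAIN]` without a place map -/

set_option maxHeartbeats 2000000 in
/-- **`[MAIN]` without a place map**: LiftCore with the `r`-free inclusions. -/
theorem mainFree_of (N N' ℓ : ℕ) [NeZero N] [NeZero N'] [Fact ℓ.Prime] (hℓ' : ¬ ℓ ∣ N')
    (hA : A.LiesOverPrime ℓ)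
    (hle0 : modularFunctionFieldBar N ≤ modularFunctionFieldBar N')
    (hψ : 0 < dedekindPsi N) (h0 : Plan.Char0Stmt N) (hRR0 : Plan.RR0 N N')
    (hRRl : Plan.RRl A N') (hConst : Plan.ConstW A N') (hI0 : Incl0 A N N') :
    MainFree A N N' ℓ := by
  intro m hm D hdegD f hf hfred hdiv
  have hRed' : Plan.RedStmt A N' := Red.redStmt N' ℓ hℓ' A hA
  obtain ⟨-, hdivex, Cp, hCp, hdegCp⟩ := h0
  have hj0 : jBar N ≠ 0 := Surj.jBar_ne_zero A N
  obtain ⟨Dj, hDj, -⟩ := hdivex (jBar N) hj0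
  obtain ⟨c, hc₀⟩ := hRRl
  obtain ⟨hfinW, hbound⟩ := hc₀ c le_rfl
  have hm0 : 0 < m := Nat.pos_of_ne_zero (by rintro rfl; exact hm (dvd_zero ℓ))
  have hf0 : f ≠ 0 := ne_zero_of_red_eq_one A f hf hfred
  have hCp0 : (0 : Divisor Kbar (FN N)) ≤ Cp := Cp_nonneg Cp hCp
  have hCD0 : (0 : Divisor Kbar (FN N)) ≤ Cp + Dj := Cp_add_Dj_nonneg Cp Dj hCp hDj
  -- the two inclusions
  have hID : ∀ c : ℕ, Plan.redSp A (Plan.pullRR N N' (D + c • Cp))
      ≤ Plan.WJ (kk A) (Plan.Fk A N') c := fun c =>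
    redSp_pullRR_le_of_pow A N N' hle0 hRed' hI0 m hm0 D f hf hfred hdiv Cp hCp c
  have hIZ : ∀ c : ℕ, Plan.redSp A (Plan.pullRR N N' (0 + c • Cp))
      ≤ Plan.WJ (kk A) (Plan.Fk A N') c := by
    intro c
    rw [zero_add]
    exact hI0 Cp c hCp
  -- `(Surj)`
  have hS : Plan.redSp A (Plan.pullRR N N' (D + c • Cp)) = Plan.WJ (kk A) (Plan.Fk A N') c :=
    redSp_pullRR_eq A N N' hψ hRed' hRR0 D Cp c hdegCp hdegD (hID c) hfinW hbound
  have hjk : jqModC (kk A) ∈ Plan.Fk A N' := jqModC_mem_full (kk A) N'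
  -- divisor bookkeeping
  have e12a : D + (2 * c) • Cp + c • Dj = (D + c • Cp) + c • (Cp + Dj) := by
    rw [two_mul, add_smul, smul_add]; abel
  have e12b : D + (2 * c) • Cp + c • Dj = (D + c • Cp + c • Dj) + c • Cp := by
    rw [two_mul, add_smul]; abel
  have e2 : D + c • Cp + c • Dj = D + c • (Cp + Dj) := by
    rw [smul_add, add_assoc]
  have eU1 : m • (D + c • Cp) - m • D = (m * c) • Cp := by
    rw [smul_add, add_sub_cancel_left, smul_smul]
  have eU2 : m • (D + c • Cp + c • Dj) - m • D = (m * c) • Cp + (m * c) • Dj := by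
    rw [smul_add, smul_add, smul_smul, smul_smul]; abel
  have hDV1 : D ≤ D + c • Cp := le_add_of_nonneg_right (nsmul_nonneg hCp0 c)
  have hDV2 : D ≤ D + c • Cp + c • Dj := by
    rw [e2]; exact le_add_of_nonneg_right (nsmul_nonneg hCD0 c)
  -- LiftCore
  have : Module.Finite Kbar (Plan.pullRR N N' (D + c • Cp)) := (hRR0 _).1
  have : Module.Finite Kbar (Plan.pullRR N N' (D + c • Cp + c • Dj)) := (hRR0 _).1
  have : Module.Finite Kbar (Plan.pullRR N N' ((m * c) • Cp)) := (hRR0 _).1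
  have : Module.Finite Kbar (Plan.pullRR N N' ((m * c) • Cp + (m * c) • Dj)) := (hRR0 _).1
  have hH1 : ∀ x, x ∈ Plan.redSp A (Plan.pullRR N N' (D + c • Cp)) →
      x ∈ Plan.redSp A (Plan.pullRR N N' (D + c • Cp + c • Dj)) →
      ∃ κ : kk A, x = HahnSeries.C κ := fun x hx1 hx2 =>
    eq_C_of_mem_redSp A N N' hle0 Cp Dj hDj D hID hConst c hx1 hx2
  have hne : Plan.pullRR N N' (D + c • Cp) ⊓ Plan.pullRR N N' (D + c • Cp + c • Dj) ≠ ⊥ := by
    refine RedGlue.liftCore_level N' ℓ hℓ' A hA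
      (Plan.pullRR N N' (D + c • Cp)) (Plan.pullRR N N' (D + c • Cp + c • Dj))
      (Plan.pullRR N N' (D + (2 * c) • Cp + c • Dj))
      (Plan.pullRR N N' ((m * c) • Cp)) (Plan.pullRR N N' ((m * c) • Cp + (m * c) • Dj))
      (fun w hw => hw.1) (fun w hw => hw.1) (fun w hw => hw.1) (fun w hw => hw.1)
      ?_ ?_ ⟨(f : Om), hf⟩ hfred m hm ?_ ?_ ?_ ?_ ?_ ?_ hH1 ?_ ?_
    · -- `V₁ ≤ V₁₂`
      rw [e12a]
      exact PullPlan.pullRR_mono (le_add_of_nonneg_right (nsmul_nonneg hCD0 c))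
    · -- `V₂ ≤ V₁₂`
      rw [e12b]
      exact PullPlan.pullRR_mono (le_add_of_nonneg_right (nsmul_nonneg hCp0 c))
    · -- `H7a`
      intro s hs
      have h1 := PullPlan.mul_pow_mem_pullRR hle0 hf0 (D := m • D) (fun P => hdiv P) hs m
      rw [eU1] at h1
      rw [mul_comm (s ^ m)]
      exact h1
    · -- `H7b`
      intro s hs
      have h1 := PullPlan.mul_pow_mem_pullRR hle0 hf0 (D := m • D) (fun P => hdiv P) hs m
      rw [eU2] at h1
      rw [mul_comm (s ^ m)]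
      exact h1
    · -- `1 ∈ U₁`
      exact PullPlan.one_mem_pullRR hle0 (nsmul_nonneg hCp0 _)
    · -- `1 ∈ U₂`
      rw [← smul_add]
      exact PullPlan.one_mem_pullRR hle0 (nsmul_nonneg hCD0 _)
    · -- `H1a`
      rw [hS]
      exact WJCalc.one_mem_WJ c
    · -- `H1b`
      refine (Surj.mem_redSp_shift_iff A hle0 (D + c • Cp) Dj hDj c 1).2 ?_
      rw [mul_one, hS]
      exact WJCalc.j_pow_mem_WJ hjk c
    · -- `H3`
      intro x hx1 hx2
      rw [← zero_add ((m * c) • Cp)] at hx1 hx2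
      exact eq_C_of_mem_redSp A N N' hle0 Cp Dj hDj 0 hIZ hConst (m * c) hx1 hx2
    · -- `H4`
      intro x hx hx12
      obtain ⟨y₁, hy₁, y₂, hy₂, rfl⟩ := Submodule.mem_sup.1 hx
      rw [← zero_add ((m * c) • Cp)] at hy₁ hy₂
      have h₁ : y₁ ∈ Plan.WJ (kk A) (Plan.Fk A N') (m * c) := hIZ (m * c) hy₁
      have h₂ : jqModC (kk A) ^ (m * c) * y₂ ∈ Plan.WJ (kk A) (Plan.Fk A N') (m * c) :=
        mul_mem_WJ_of_mem_redSp A N N' hle0 Cp Dj hDj 0 hIZ (m * c) (m * c) hy₂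
      have h : jqModC (kk A) ^ c * (y₁ + y₂) ∈ Plan.WJ (kk A) (Plan.Fk A N') (2 * c) :=
        mul_mem_WJ_of_mem_redSp A N N' hle0 Cp Dj hDj D hID (2 * c) c hx12
      obtain ⟨h1, h2⟩ := WJCalc.split_mem_WJ hjk h₁ h₂ h
      refine Submodule.add_mem_sup ?_ ?_
      · rw [hS]
        exact h1
      · refine (Surj.mem_redSp_shift_iff A hle0 (D + c • Cp) Dj hDj c y₂).2 ?_
        rw [hS]
        exact h2
  -- a nonzero element of `V₁ ⊓ V₂ = pullRR D`
  obtain ⟨g, hg, hg0⟩ := (Submodule.ne_bot_iff _).1 hne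
  obtain ⟨hg1, hg2⟩ := Submodule.mem_inf.1 hg
  have hgD : g ∈ Plan.pullRR N N' D := by
    refine ⟨hg1.1, fun P t ht hB => ?_⟩
    rcases le_total 0 (P.ord (jBar N)) with hP | hP
    · refine hg1.2 P t ht ?_
      have h0 : max 0 (-(P.ord (jBar N))) = 0 := max_eq_left (by linarith)
      have e : (D + c • Cp) P = D P := by
        rw [Finsupp.add_apply, Finsupp.smul_apply, hCp P, h0, smul_zero, add_zero]
      rw [e]
      exact hB
    · refine hg2.2 P t ht ?_
      have h0 : max 0 (-(P.ord (jBar N))) = -(P.ord (jBar N)) := max_eq_right (by linarith)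
      have e : (D + c • Cp + c • Dj) P = D P := by
        rw [Finsupp.add_apply, Finsupp.add_apply, Finsupp.smul_apply, Finsupp.smul_apply, hCp P,
          hDj P, h0, smul_neg, add_assoc, neg_add_cancel, add_zero]
      rw [e]
      exact hB
  -- normalise: a `v`-unit multiple, then reduction `1`
  obtain ⟨c', -, hc'mem, hc'red⟩ := hRed'.1 g hg1.1 hg0
  have hg1D : HahnSeries.C c' * g ∈ Plan.pullRR N N' D := by
    rw [HahnSeries.C_mul_eq_smul]
    exact (Plan.pullRR N N' D).smul_mem c' hgD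
  obtain ⟨κ, hκ⟩ := hH1 (red A ⟨HahnSeries.C c' * g, hc'mem⟩)
    ⟨⟨HahnSeries.C c' * g, hc'mem⟩, PullPlan.pullRR_mono hDV1 hg1D, rfl⟩
    ⟨⟨HahnSeries.C c' * g, hc'mem⟩, PullPlan.pullRR_mono hDV2 hg1D, rfl⟩
  have hκ0 : κ ≠ 0 := by
    rintro rfl
    rw [map_zero] at hκ
    exact hc'red hκ
  obtain ⟨a, ha⟩ := IsLocalRing.residue_surjective (R := A) κ⁻¹
  refine ⟨constO A a * (⟨HahnSeries.C c' * g, hc'mem⟩ : Ocal A), ?_, ?_⟩
  · rw [Subring.coe_mul, coe_constO, HahnSeries.C_mul_eq_smul]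
    exact (Plan.pullRR N N' D).smul_mem _ hg1D
  · rw [map_mul, red_constO, ha, hκ, ← map_mul, inv_mul_cancel₀ hκ0, map_one]

/-! ### The divisor-level core without a place map -/

set_option maxHeartbeats 1000000 in
/-- **`DivCoreFree` from `MainFree`** and the characteristic polynomial (`[CHAR]`): step (4) of
the skeleton (no place map). -/
theorem divCoreFree_of (N N' ℓ : ℕ) [NeZero N] [Fact ℓ.Prime]
    (hchar : CharP (kk A) ℓ) (h0 : Plan.Char0Stmt N) (hcharS : Plan.CharStmt A N N')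
    (hmain : MainFree A N N' ℓ) : DivCoreFree A N ℓ := by
  obtain ⟨hdeg1, hdivex, -⟩ := h0
  intro m hm D hD0 f hf hfred hdiv
  have hf0 : f ≠ 0 := ne_zero_of_red_eq_one A f hf hfred
  obtain ⟨g0, hg0mem, hg0red⟩ := hmain m hm D hD0 f hf hfred hdiv
  obtain ⟨χ, hmonic, -, haeval, hcoeff, hO, hredχ⟩ := hcharS D g0 hg0mem
  have hdpos : 0 < χ.natDegree := by
    rcases Nat.eq_zero_or_pos χ.natDegree with h | h
    · exfalso
      rw [Polynomial.eq_one_of_monic_natDegree_zero hmonic h, map_one] at haeval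
      exact one_ne_zero haeval
    · exact h
  obtain ⟨b, hbdvd, hbpos, hbchoose⟩ :=
    OrthoDesc.exists_pow_dvd_not_dvd_choose ℓ χ.natDegree hdpos
  have hble : ℓ ^ b ≤ χ.natDegree := Nat.le_of_dvd hdpos hbdvd
  have hcoeff_ne : χ.coeff (χ.natDegree - ℓ ^ b) ≠ 0 := by
    intro hzero
    have h1 := hredχ hg0red (χ.natDegree - ℓ ^ b)
    have h2 : red A ⟨((χ.coeff (χ.natDegree - ℓ ^ b) : FN N) : Om), hO _⟩ = 0 := by
      have h3 : ((χ.coeff (χ.natDegree - ℓ ^ b) : FN N) : Om) = ((0 : Ocal A) : Om) := by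
        rw [hzero]; rfl
      rw [red_congr A h3 (hO _) (SetLike.coe_mem _)]
      exact map_zero _
    rw [h2, sub_eq_add_neg, ← Polynomial.C_neg, Polynomial.coeff_X_add_C_pow,
      Nat.sub_sub_self hble, Nat.choose_symm hble] at h1
    have h4 : ((-1 : kk A)) ^ (ℓ ^ b) * ((χ.natDegree.choose (ℓ ^ b) : ℕ) : kk A) = 0 := by
      have := h1.symm
      rwa [map_eq_zero] at this
    rcases mul_eq_zero.mp h4 with h5 | h5
    · exact absurd h5 (pow_ne_zero _ (neg_ne_zero.mpr one_ne_zero))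
    · exact hbchoose ((CharP.cast_eq_zero_iff (kk A) ℓ _).mp h5)
  have hpowD : (ℓ ^ b) • D ∈ Divisor.principal (K := Kbar) (F := FN N) :=
    MainTop.mem_principal_of_mem_riemannRochSpace hdeg1 hdivex _
      (by rw [map_nsmul, hD0, smul_zero]) hcoeff_ne (hcoeff (ℓ ^ b) hble)
  have hmD : m • D ∈ Divisor.principal (K := Kbar) (F := FN N) := ⟨f, hf0, hdiv⟩
  exact OrthoDesc.mem_of_pow_nsmul_mem _ D ℓ b m hm hpowD hmD

/-- `MainFree` gives the `r`-version `[MAIN]` of `S18/MainTop.lean` (second provider). -/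
theorem mainStmt_of_mainFree (N N' ℓ : ℕ) (h : MainFree A N N' ℓ) :
    MainTop.MainStmt A N N' ℓ :=
  fun _ _ m hm D1 hdeg _ f hf hfred hdiv => h m hm D1 hdeg f hf hfred hdiv

end Fermat.Agent.S18.MainFree

end
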