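import Mathlib
import Fermat.Agent.S18.Plan
import Fermat.Agent.S18.FibreCount
import Fermat.Agent.S18.Char0
import Fermat.Agent.S18.RR0.Step
import Fermat.Agent.S18.RR0.Tower
import Fermat.Agent.S18.RR0.Pull
import Fermat.Agent.S18.RR0.PullBase
import Fermat.Agent.S18.PullStep
import Fermat.Agent.Lib.DedekindWeber.Genus

/-!
# S18 — [RR0]: Riemann's inequality for pull-back divisors in characteristic zero (helper15)

`Plan.RR0 N N'` for `N ∣ N'` and `N'` torsion-free (`4 ∣ N'` or `9 ∣ N'`):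
`dim pullRR N N' B ≥ (ψ(N')/ψ(N)) deg B + 1 - g'` with `12 (1 - g') = 6 c' - ψ(N')`.

* the exponents `δ` of `F_{N'} / Q̄(j)` (Dedekind–Weber) give `dim L(c (j)_∞) = c ψ(N') + γ` for
  `c` large, with `12 γ = 6 c' - ψ(N')` by the fibre counts of `j` (`S18/FibreCount`);
* `pullRR N N' (c (j)_∞) = L_{F_{N'}}(c (j)_∞)` (`RR0/PullBase`);
* the abstract Riemann step (`RR0/Step`) descends from `c (j)_∞` to an arbitrary divisor `B`
  of `F_N`, losing at most `d = ψ(N')/ψ(N)` per point.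
-/

set_option autoImplicit false

namespace Fermat.Agent.S18.RR0

open IntermediateField ModularCurve AlgebraicCurve Fermat.Agent.S24 Fermat.Agent.S18.Plan
open Fermat.Agent.Lib Fermat.Agent.S18.Content

section genus

variable (N' : ℕ) [NeZero N']

/-- The Dedekind–Weber exponents of `F_{N'} / Q̄(j)` in the torsion-free case:
`dim L(c (j)_∞) = ∑ (c - δ_i + 1)⁺` and `12 ∑ δ = 13 ψ(N') - 6 c'`. -/
theorem exists_exponents_level (hTF : 4 ∣ N' ∨ 9 ∣ N') :
    ∃ δ : Fin (Module.finrank Kbar⟮jBar N'⟯ (FN N')) → ℤ,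
      (∀ (c : ℤ) (D : Divisor Kbar (FN N')),
        (∀ v : Place Kbar (FN N'), D v = c * max 0 (-(v.ord (jBar N')))) →
        Module.Finite Kbar (riemannRochSpace D) ∧
          Module.finrank Kbar (riemannRochSpace D) = ∑ i, (c - δ i + 1).toNat) ∧
      12 * ∑ i, δ i = 13 * (dedekindPsi N' : ℤ) - 6 * (cuspCount N' : ℤ) := by
  classical
  have : FiniteDimensional Kbar⟮jBar N'⟯ (FN N') := FibreCount.finiteDimensional N'
  have : Algebra.IsSeparable Kbar⟮jBar N'⟯ (FN N') := Char0.isSeparable_jBar N'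
  have hxt := FibreCount.transcendental_jBar N'
  obtain ⟨δ, h1, h2⟩ := DedekindWeber.exists_exponents_genus_eq hxt
  refine ⟨δ, h1, ?_⟩
  have hfr := FibreCount.finrank_eq N'
  have hS : ∀ a : Kbar, a ∉ ({0, 1728} : Finset Kbar) →
      Nat.card {v : Place Kbar (FN N') // 0 < v.ord (jBar N' - algebraMap Kbar (FN N') a)}
        = Module.finrank Kbar⟮jBar N'⟯ (FN N') := by
    intro a ha
    rw [Finset.mem_insert, Finset.mem_singleton, not_or] at ha
    rw [hfr]
    exact FibreCount.card_zeros_generic N' a ha.1 ha.2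
  have h3 := h2 {0, 1728} hS
  have hne : (0 : Kbar) ∉ ({1728} : Finset Kbar) := by
    rw [Finset.mem_singleton]
    norm_num
  rw [Finset.sum_insert hne, Finset.sum_singleton, map_zero, sub_zero] at h3
  have hfrZ : ((Module.finrank Kbar⟮jBar N'⟯ (FN N') : ℕ) : ℤ) = (dedekindPsi N' : ℤ) := by
    exact_mod_cast hfr
  have h4 := FibreCount.six_mul_ramification_of_torsionFree N' hTF
  have e1 : Nat.card {v : Place Kbar (FN N') // 0 < v.ord (jBar N')}
      = Nat.card (zerosOf Kbar (jBar N')) := rfl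
  have e2 : Nat.card {v : Place Kbar (FN N') //
        0 < v.ord (jBar N' - algebraMap Kbar (FN N') 1728)}
      = Nat.card (zerosOf Kbar (jBar N' - algebraMap Kbar (FN N') 1728)) := rfl
  have e3 : Nat.card {v : Place Kbar (FN N') // v.ord (jBar N') < 0}
      = Nat.card (polesOf Kbar (jBar N')) := rfl
  rw [e1, e2, e3, hfrZ] at h3
  linarith

/-- `dim L_{F_{N'}}(c (j)_∞) = c ψ(N') + γ` for `c ≥ c₀`, with `12 γ = 6 c' - ψ(N')`. -/
theorem exists_gamma (hTF : 4 ∣ N' ∨ 9 ∣ N') :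
    ∃ (γ : ℤ) (c₀ : ℕ), 12 * γ = 6 * (cuspCount N' : ℤ) - (dedekindPsi N' : ℤ) ∧
      ∀ c : ℕ, c₀ ≤ c → ∀ D' : Divisor Kbar (FN N'),
        (∀ v : Place Kbar (FN N'), D' v = c * max 0 (-(v.ord (jBar N')))) →
        Module.Finite Kbar (riemannRochSpace D') ∧
          (Module.finrank Kbar (riemannRochSpace D') : ℤ) = (c : ℤ) * dedekindPsi N' + γ := by
  classical
  obtain ⟨δ, h1, h2⟩ := exists_exponents_level N' hTF
  have hfr := FibreCount.finrank_eq N'
  refine ⟨(dedekindPsi N' : ℤ) - ∑ i, δ i, (∑ i, |δ i|).toNat, by linarith, ?_⟩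
  intro c hc D' hD'
  obtain ⟨hfin, hdim⟩ := h1 (c : ℤ) D' hD'
  refine ⟨hfin, ?_⟩
  have hb : ∀ i, δ i ≤ (c : ℤ) + 1 := by
    intro i
    have h3 : δ i ≤ |δ i| := le_abs_self _
    have h4 : |δ i| ≤ ∑ i, |δ i| :=
      Finset.single_le_sum (f := fun i => |δ i|) (fun j _ => abs_nonneg (δ j)) (Finset.mem_univ i)
    have h5 : (∑ i, |δ i|) ≤ ((∑ i, |δ i|).toNat : ℤ) := Int.self_le_toNat _
    have h6 : (((∑ i, |δ i|).toNat : ℕ) : ℤ) ≤ (c : ℤ) := by exact_mod_cast hc
    linarith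
  have hfrZ : ((Module.finrank Kbar⟮jBar N'⟯ (FN N') : ℕ) : ℤ) = (dedekindPsi N' : ℤ) := by
    exact_mod_cast hfr
  rw [hdim, DedekindWeber.sum_toNat_eq δ (c : ℤ) hb, Fintype.card_fin, hfrZ]
  ring

end genus

section main

variable (N N' : ℕ) [NeZero N] [NeZero N']

/-- **[RR0]**, given the pull-back step with `d = ψ(N')/ψ(N)`. -/
theorem rr0_of (hdiv : N ∣ N') (hTF : 4 ∣ N' ∨ 9 ∣ N') (d : ℕ)
    (hd : d * dedekindPsi N = dedekindPsi N')
    (hstep : ∀ (B : Divisor Kbar (FN N)) (P : Place Kbar (FN N)),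
      Module.Finite Kbar (pullRR N N' B) →
      Module.finrank Kbar (pullRR N N' B)
        ≤ Module.finrank Kbar (pullRR N N' (B - Finsupp.single P 1)) + d) :
    Plan.RR0 N N' := by
  classical
  intro B
  have : FiniteDimensional Kbar⟮jBar N⟯ (FN N) := FibreCount.finiteDimensional N
  obtain ⟨γ, c₀, hγ, hc₀⟩ := exists_gamma N' hTF
  obtain ⟨X', hX', -⟩ := Char0.exists_poleDivisor_jBar N'
  have hbase : ∃ c₀ : ℕ, ∀ c : ℕ, c₀ ≤ c → ∀ D : Divisor Kbar (FN N),
      (∀ P : Place Kbar (FN N), D P = c * poleMult (jBar N) P) →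
      Module.Finite Kbar (pullRR N N' D) ∧
        (c : ℤ) * (d * Module.finrank Kbar⟮jBar N⟯ (FN N)) + γ
          ≤ Module.finrank Kbar (pullRR N N' D) := by
    refine ⟨c₀, fun c hc D hD => ?_⟩
    have hD' : ∀ v : Place Kbar (FN N'), (c • X') v = c * max 0 (-(v.ord (jBar N'))) := by
      intro v
      rw [Finsupp.smul_apply, hX', nsmul_eq_mul]
    obtain ⟨hfin, hdim⟩ := hc₀ c hc (c • X') hD'
    have hEq := pullRR_base hdiv c D hD (c • X') hD'
    let e : riemannRochSpace (c • X') ≃ₗ[Kbar] (riemannRochSpace (c • X')).map (inclLin N') :=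
      Submodule.equivMapOfInjective (inclLin N') (inclLin_injective (N' := N')) _
    rw [hEq]
    refine ⟨Module.Finite.equiv e, ?_⟩
    rw [← e.finrank_eq, hdim, FibreCount.finrank_eq N]
    have : ((d : ℤ) * (dedekindPsi N : ℤ)) = (dedekindPsi N' : ℤ) := by exact_mod_cast hd
    rw [this]
  obtain ⟨hfin, hineq⟩ := riemann_step (FibreCount.transcendental_jBar N) (pullRR N N') d γ
    (fun B B' h => pullRR_mono h) (fun B h Dh hh hDh => pullRR_mul hdiv B h Dh hh hDh) hstep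
    hbase B
  refine ⟨hfin, ?_⟩
  have hdZ : ((d : ℤ) * (dedekindPsi N : ℤ)) = (dedekindPsi N' : ℤ) := by exact_mod_cast hd
  have hψ : (0 : ℤ) ≤ (dedekindPsi N : ℤ) := Nat.cast_nonneg _
  have h1 : 12 * (dedekindPsi N : ℤ) * ((d : ℤ) * Divisor.degree B + γ)
      ≤ 12 * (dedekindPsi N : ℤ) * (Module.finrank Kbar (pullRR N N' B) : ℤ) :=
    mul_le_mul_of_nonneg_left hineq (by positivity)
  have h2 : 12 * (dedekindPsi N : ℤ) * ((d : ℤ) * Divisor.degree B + γ)
      = 12 * (dedekindPsi N' : ℤ) * Divisor.degree B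
        + (dedekindPsi N : ℤ) * (6 * (cuspCount N' : ℤ) - (dedekindPsi N' : ℤ)) := by
    rw [← hγ, ← hdZ]
    ring
  rw [← h2]
  exact h1

/-- **[RR0]** — the contract `Plan.RR0 N N'` for `N ∣ N'` and `N'` torsion-free. -/
theorem rr0 (hdiv : N ∣ N') (hTF : 4 ∣ N' ∨ 9 ∣ N') : Plan.RR0 N N' := by
  obtain ⟨d, hd, hstep⟩ := PullStep.pullStep N N' hdiv
  exact rr0_of N N' hdiv hTF d hd hstep

end main

end Fermat.Agent.S18.RR0
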