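import Mathlib
import Fermat.Agent.S18.CuspEmb.Family
import Fermat.Agent.Lib.EmbOrbit.Laurent

/-!
# S18 [CUSP] — the cusps of `X₀(n)` in characteristic `ℓ ∤ n` (helper16)

`k` algebraically closed of characteristic `ℓ ∤ n`, `F := modularFunctionFieldFullC k n`,
`j̄ = jk k n ∈ F`.

* `finiteDimensional_fullC` : `F / k(j̄)` is finite (any field `k` of characteristic `ℓ ∤ n`);
* `exists_cusp_data` : the embeddings `ι x : F → k((u))` of `CuspEmb/Family.lean` together with a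
  bijection from the `⟨T⟩`-orbits on `SL₂(ℤ)/Γ₀(n)` onto the poles of `j̄`, the place of the orbit
  of `x` being `(ι x)⁻¹ (k[[u]])`;
* `card_poles_jk` : **the number of places of `F` over `j̄ = ∞` is `cuspCount n`**;
* `cuspCount_four`, `cuspCount_nine`.
-/

set_option autoImplicit false

namespace Fermat.Agent.S18.CuspEmb

open ModularCurve AlgebraicCurve IntermediateField
open scoped MatrixGroups
open CongruenceSubgroup
open Fermat.Agent.S28

section Degree

variable (n ℓ : ℕ) [NeZero n] [Fact ℓ.Prime]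

/-- `F_{n,k} / k(j̄)` is finite, for every field `k` of characteristic `ℓ ∤ n`. -/
theorem finiteDimensional_fullC (hℓn : ¬ ℓ ∣ n) (k : Type*) [Field k] [CharP k ℓ] :
    FiniteDimensional k⟮jk k n⟯ ↥(modularFunctionFieldFullC k n) :=
  FiniteDimensional.of_finrank_pos (by
    rw [finrank_fullC k n ℓ hℓn]
    exact Nat.pos_of_ne_zero (Char0Degree.dedekindPsi_ne_zero n))

end Degree

section Count

lemma coe_units_pow_zpow {k : Type*} [Field k] (ζ : kˣ) (K : ℕ) (m : ℤ) :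
    (((ζ ^ K) ^ m : kˣ) : k) = (ζ : k) ^ ((K : ℤ) * m) := by
  rw [Units.val_zpow_eq_zpow_val, Units.val_pow_eq_pow_val, zpow_mul, zpow_natCast]

variable (n ℓ : ℕ) [NeZero n] [Fact ℓ.Prime] (hℓn : ¬ ℓ ∣ n)
  (k : Type) [Field k] [CharP k ℓ] [IsAlgClosed k]

include hℓn in
/-- **The cusp data.** The `ψ(n)` embeddings `ι x : F_{n,k} → k((u))` and the bijection between
`⟨T⟩`-orbits and the places over `j̄ = ∞`. -/
theorem exists_cusp_data :
    ∃ (ζ : kˣ) (ι : SL(2, ℤ) ⧸ Gamma0 n →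
        (↥(modularFunctionFieldFullC k n) →ₐ[k] LaurentSeries k))
      (f : MulAction.orbitRel.Quotient (Subgroup.zpowers ModularGroup.T) (SL(2, ℤ) ⧸ Gamma0 n) →
        {w : Place k ↥(modularFunctionFieldFullC k n) // w.ord (jk k n) < 0}),
      IsPrimitiveRoot ζ n ∧ Function.Injective ι ∧
      (∀ x, ι x (jk k n) = qExpand k n (jqModC k)) ∧
      (∀ y, ι (QuotientGroup.mk 1) y = qExpand k n (y : LaurentSeries k)) ∧
      (∀ x y, ι (ModularGroup.T⁻¹ • x) y = scale ζ (ι x y)) ∧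
      Function.Bijective f ∧
      ∀ (x : SL(2, ℤ) ⧸ Gamma0 n) (y : ↥(modularFunctionFieldFullC k n)),
        y ∈ (f (Quotient.mk'' x) : Place k ↥(modularFunctionFieldFullC k n)).toValuationSubring ↔
          ∀ m : ℤ, m < 0 → (ι x y).coeff m = 0 := by
  obtain ⟨ζ, ι, hζ, hι, hj, h0, hT, hsep⟩ := exists_cusp_embeddings n ℓ hℓn k
  have hfin := finiteDimensional_fullC n ℓ hℓn k
  have hpow : ∀ (m : ℕ) (x : SL(2, ℤ) ⧸ Gamma0 n) (y : ↥(modularFunctionFieldFullC k n)),
      ι ((ModularGroup.T⁻¹) ^ m • x) y = scale (ζ ^ m) (ι x y) := by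
    intro m
    induction m with
    | zero => intro x y; rw [pow_zero, one_smul, pow_zero, scale_one]
    | succ m ih => intro x y; rw [pow_succ', mul_smul, hT, ih, scale_scale, pow_succ']
  have hper : ∀ x : SL(2, ℤ) ⧸ Gamma0 n, (ModularGroup.T⁻¹) ^ n • x = x := by
    intro x
    apply hι
    ext y : 1
    rw [hpow, hζ.pow_eq_one, scale_one]
  have hz : ∀ (e : ℤ) (x : SL(2, ℤ) ⧸ Gamma0 n),
      ∃ K : ℕ, (ModularGroup.T ^ e) • x = (ModularGroup.T⁻¹) ^ K • x := by
    intro e x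
    have hn0 : (n : ℤ) ≠ 0 := Nat.cast_ne_zero.mpr (NeZero.ne n)
    refine ⟨((-e) % (n : ℤ)).toNat, ?_⟩
    have hr : (((-e) % (n : ℤ)).toNat : ℤ) = (-e) % (n : ℤ) :=
      Int.toNat_of_nonneg (Int.emod_nonneg _ hn0)
    have hstab : ((ModularGroup.T⁻¹) ^ n) ^ ((-e) / (n : ℤ)) ∈
        MulAction.stabilizer SL(2, ℤ) x :=
      Subgroup.zpow_mem _ (MulAction.mem_stabilizer_iff.mpr (hper x)) _
    have hTe : ModularGroup.T ^ e = (ModularGroup.T⁻¹) ^ ((-e) % (n : ℤ)).toNat *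
        ((ModularGroup.T⁻¹) ^ n) ^ ((-e) / (n : ℤ)) := by
      rw [← zpow_natCast (ModularGroup.T⁻¹) ((-e) % (n : ℤ)).toNat, hr,
        ← zpow_natCast (ModularGroup.T⁻¹) n, ← zpow_mul, ← zpow_add, Int.emod_add_mul_ediv,
        inv_zpow', neg_neg]
    rw [hTe, mul_smul, MulAction.mem_stabilizer_iff.mp hstab]
  have hcoe : IsPrimitiveRoot (ζ : k) n := IsPrimitiveRoot.coe_units_iff.mpr hζ
  have hcardI : Nat.card (SL(2, ℤ) ⧸ Gamma0 n) =
      Module.finrank k⟮jk k n⟯ ↥(modularFunctionFieldFullC k n) := by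
    rw [Fermat.Agent.Lib.Gamma0Count.card_quotient, finrank_fullC k n ℓ hℓn]
  obtain ⟨f, hf, hfi⟩ := Fermat.Agent.Lib.EmbOrbit.exists_bijective_orbit_place_poles_laurent
    (G := Subgroup.zpowers ModularGroup.T) (transcendental_jk n k) n (ζ : k) hcoe ι hι hcardI
    (qExpand k n (jqModC k)) hj (fun m hm => coeff_qExpand_jq_of_not_dvd n k hm)
    (order_qExpand_jq n k)
    (fun g i => by
      obtain ⟨e, he⟩ := Subgroup.mem_zpowers_iff.mp g.2
      obtain ⟨K, hK⟩ := hz e i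
      refine ⟨K, fun y m => ?_⟩
      have hg : g • i = (ModularGroup.T⁻¹) ^ K • i := by
        rw [← hK, he]; rfl
      rw [hg, hpow, scale_coeff, coe_units_pow_zpow])
    (fun i K => by
      refine ⟨⟨(ModularGroup.T⁻¹) ^ K,
        Subgroup.pow_mem _ (Subgroup.inv_mem _ (Subgroup.mem_zpowers ModularGroup.T)) K⟩,
        fun y m => ?_⟩
      have hg : (⟨(ModularGroup.T⁻¹) ^ K,
          Subgroup.pow_mem _ (Subgroup.inv_mem _ (Subgroup.mem_zpowers ModularGroup.T)) K⟩ :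
          Subgroup.zpowers ModularGroup.T) • i = (ModularGroup.T⁻¹) ^ K • i := rfl
      rw [hg, hpow, scale_coeff, coe_units_pow_zpow])
  exact ⟨ζ, ι, f, hζ, hι, hj, h0, hT, hf, hfi⟩

include hℓn in
/-- **(C4) The number of places of `F_{n,k}` over `j̄ = ∞` is the number of cusps of `X₀(n)`.** -/
theorem card_poles_jk :
    Nat.card {w : Place k ↥(modularFunctionFieldFullC k n) // w.ord (jk k n) < 0} =
      cuspCount n := by
  obtain ⟨ζ, ι, f, -, -, -, -, -, hf, -⟩ := exists_cusp_data n ℓ hℓn k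
  rw [← Fermat.Agent.Lib.Gamma0Count.card_orbits_T n]
  exact (Nat.card_eq_of_bijective f hf).symm

end Count

theorem cuspCount_four : cuspCount 4 = 3 := by decide

theorem cuspCount_nine : cuspCount 9 = 4 := by decide

end Fermat.Agent.S18.CuspEmb
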