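import Mathlib
import Fermat.Agent.S18.MainFree
import Fermat.Agent.S18.InclFree
import Fermat.Agent.S18.Char0
import Fermat.Agent.S18.CharStmt
import Fermat.Agent.S18.RR0
import Fermat.Agent.S18.RRl.Main
import Fermat.Agent.S18.ConstWPlan
import Fermat.Agent.S18.FibreCount
import Fermat.Agent.S18.ContentMain

/-!
# S18 — the divisor-level core without a place map, UNCONDITIONAL (helper77)

All inputs of `S18/MainFree.lean` are discharged from the landed providers: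

* `incl0`        : `Incl0 A N N'` for `N ∣ N'`, `ℓ ∤ N'`, `A` over `ℓ` — from the level-one inclusion
  `InclFree.redSp_pullRR_le0 A 1 N'` and the base case `RR0.pullRR_base`
  (`pullRR N N' (c (j)_∞) = L_{F_{N'}}(c (j)_∞) = pullRR 1 N' (c (j)_∞)`);
* `mainFree`     : `MainFree A N (M * N) ℓ`, `M = 9` if `ℓ = 2` and `M = 4` otherwise;
* `divCoreFree`  : **`DivCoreFree A N ℓ`** for `ℓ ∤ N` and `A` over `ℓ`;
* `mainStmt`     : the `r`-version `MainTop.MainStmt A N (M * N) ℓ`.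
-/

set_option autoImplicit false

noncomputable section

namespace Fermat.Agent.S18.MainFree

open ModularCurve AlgebraicCurve Fermat.Agent.S24 Fermat.Agent.S18.Content Fermat.Agent.S18.Plan
open Fermat.Agent.S18

set_option synthInstance.maxHeartbeats 400000

set_option maxHeartbeats 1000000 in
/-- The `r`-free inclusion at `E = 0`, base level `N`: from level one by the base case of
`[RR0]`. -/
theorem incl0 (N N' : ℕ) [NeZero N] [NeZero N'] (hdiv : N ∣ N') (ℓ : ℕ) [Fact ℓ.Prime]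
    (hℓ' : ¬ ℓ ∣ N') (A : ValuationSubring Kbar) (hA : A.LiesOverPrime ℓ) : Incl0 A N N' := by
  intro Cp c hCp
  obtain ⟨-, -, Cp₁, hCp₁, -⟩ := Char0.char0Stmt 1
  obtain ⟨-, -, Cp', hCp', -⟩ := Char0.char0Stmt N'
  have hD' : ∀ v : Place Kbar (FN N'), (c • Cp') v = c * max 0 (-(v.ord (jBar N'))) := fun v => by
    rw [Finsupp.smul_apply, hCp' v, nsmul_eq_mul]
  have e1 : Plan.pullRR N N' (c • Cp) = (riemannRochSpace (c • Cp')).map (RR0.inclLin N') :=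
    RR0.pullRR_base hdiv c (c • Cp) (fun P => by
      rw [Finsupp.smul_apply, hCp P, nsmul_eq_mul]; rfl) (c • Cp') hD'
  have e2 : Plan.pullRR 1 N' (c • Cp₁) = (riemannRochSpace (c • Cp')).map (RR0.inclLin N') :=
    RR0.pullRR_base (one_dvd N') c (c • Cp₁) (fun P => by
      rw [Finsupp.smul_apply, hCp₁ P, nsmul_eq_mul]; rfl) (c • Cp') hD'
  rw [e1, ← e2]
  exact InclFree.redSp_pullRR_le0 A 1 N' (CharStmt.charStmt 1 N' (one_dvd N') ℓ hℓ' A hA)
    (InclFree.inclF0_one A) (Red.redStmt N' ℓ hℓ' A hA) (CharStmt.fk_le A (one_dvd N')) Cp₁ c hCp₁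

/-- `[MAIN]` without a place map, at a torsion-free auxiliary level `N'` with `[RRl]`. -/
theorem mainFree_level (N N' : ℕ) [NeZero N] [NeZero N'] (hdiv : N ∣ N')
    (hTF : 4 ∣ N' ∨ 9 ∣ N') (ℓ : ℕ) [Fact ℓ.Prime] (hℓ' : ¬ ℓ ∣ N')
    (A : ValuationSubring Kbar) (hA : A.LiesOverPrime ℓ) (hRRl : Plan.RRl A N') :
    MainFree A N N' ℓ :=
  mainFree_of A N N' ℓ hℓ' hA (CharStmt.bar_le hdiv) (FibreCount.dedekindPsi_pos N)
    (Char0.char0Stmt N) (RR0.rr0 N N' hdiv hTF) hRRl (ConstWPlan.constW A N')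
    (incl0 N N' hdiv ℓ hℓ' A hA)

/-- `DivCoreFree` from a torsion-free auxiliary level `N'` with `[RRl]`. -/
theorem divCoreFree_of_level (N N' : ℕ) [NeZero N] [NeZero N'] (hdiv : N ∣ N')
    (hTF : 4 ∣ N' ∨ 9 ∣ N') (ℓ : ℕ) [Fact ℓ.Prime] (hℓ' : ¬ ℓ ∣ N')
    (A : ValuationSubring Kbar) (hA : A.LiesOverPrime ℓ) (hRRl : Plan.RRl A N') :
    DivCoreFree A N ℓ :=
  divCoreFree_of A N N' ℓ (Content.charP_residueField_of_liesOverPrime A ℓ hA)
    (Char0.char0Stmt N) (CharStmt.charStmt N N' hdiv ℓ hℓ' A hA)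
    (mainFree_level N N' hdiv hTF ℓ hℓ' A hA hRRl)

/-- The auxiliary level: `ℓ ∤ M * N` for `M = 9` (`ℓ = 2`) or `M = 4` (`ℓ ≠ 2`). -/
theorem not_dvd_aux (N ℓ : ℕ) [Fact ℓ.Prime] (hℓ : ¬ ℓ ∣ N) :
    ¬ ℓ ∣ (if ℓ = 2 then 9 else 4) * N := by
  have hp : ℓ.Prime := Fact.out
  intro hd
  rcases (Nat.Prime.dvd_mul hp).mp hd with h | hN
  · by_cases h2 : ℓ = 2
    · rw [if_pos h2, h2] at h
      omega
    · rw [if_neg h2] at h
      have h4' : ℓ ∣ 2 ^ 2 := by norm_num; exact h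
      exact h2 ((Nat.prime_dvd_prime_iff_eq hp Nat.prime_two).mp (hp.dvd_of_dvd_pow h4'))
  · exact hℓ hN

theorem aux_ne_zero (N ℓ : ℕ) [NeZero N] : (if ℓ = 2 then 9 else 4) * N ≠ 0 := by
  refine mul_ne_zero ?_ (NeZero.ne N)
  split_ifs <;> norm_num

theorem aux_torsionFree (N ℓ : ℕ) :
    4 ∣ (if ℓ = 2 then 9 else 4) * N ∨ 9 ∣ (if ℓ = 2 then 9 else 4) * N := by
  by_cases h : ℓ = 2
  · right
    rw [if_pos h]
    exact dvd_mul_right 9 N
  · left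
    rw [if_neg h]
    exact dvd_mul_right 4 N

/-- **`[MAIN]` without a place map**, at the auxiliary level `M * N`. -/
theorem mainFree (N : ℕ) [NeZero N] (ℓ : ℕ) [Fact ℓ.Prime] (hℓ : ¬ ℓ ∣ N)
    (A : ValuationSubring Kbar) (hA : A.LiesOverPrime ℓ) :
    MainFree A N ((if ℓ = 2 then 9 else 4) * N) ℓ :=
  haveI : NeZero ((if ℓ = 2 then 9 else 4) * N) := ⟨aux_ne_zero N ℓ⟩
  mainFree_level N _ (dvd_mul_left N _) (aux_torsionFree N ℓ) ℓ (not_dvd_aux N ℓ hℓ) A hA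
    (RRl.Main.rrl ℓ N A hℓ hA)

/-- **The divisor-level core without a place map** (unconditional): for `ℓ ∤ N`, `A` over `ℓ`,
a degree-zero divisor `D` of `F_N` with `m • D = div f`, `ℓ ∤ m`, `f ∈ Ocal A`, `red f = 1`, is
principal. -/
theorem divCoreFree (N : ℕ) [NeZero N] (ℓ : ℕ) [Fact ℓ.Prime] (hℓ : ¬ ℓ ∣ N)
    (A : ValuationSubring Kbar) (hA : A.LiesOverPrime ℓ) : DivCoreFree A N ℓ :=
  haveI : NeZero ((if ℓ = 2 then 9 else 4) * N) := ⟨aux_ne_zero N ℓ⟩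
  divCoreFree_of_level N _ (dvd_mul_left N _) (aux_torsionFree N ℓ) ℓ (not_dvd_aux N ℓ hℓ) A hA
    (RRl.Main.rrl ℓ N A hℓ hA)

/-- The `r`-version `[MAIN]` of `S18/MainTop.lean`, unconditional. -/
theorem mainStmt (N : ℕ) [NeZero N] (ℓ : ℕ) [Fact ℓ.Prime] (hℓ : ¬ ℓ ∣ N)
    (A : ValuationSubring Kbar) (hA : A.LiesOverPrime ℓ) :
    MainTop.MainStmt A N ((if ℓ = 2 then 9 else 4) * N) ℓ :=
  mainStmt_of_mainFree A N _ ℓ (mainFree N ℓ hℓ A hA)

end Fermat.Agent.S18.MainFree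

end
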