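import Mathlib
import Fermat.Agent.S18.MainTop
import Fermat.Agent.S18.RedGlue
import Fermat.Agent.S18.PullPlan
import Fermat.Agent.S18.Surj

/-!
# S18 — `[MAIN]`: the application of `LiftCore` (helper49; file `S18/LiftH.lean`)

`exists_lift_of_H` : one application of `RedGlue.liftCore_level` at level `N'` with
`V₁ = pullRR (D1 + c • Cp)`, `V₂ = pullRR (D1 + c • C0)`, `V₁₂ = pullRR (D1 + c • Cp + c • C0)`,
`U₁ = pullRR ((m * c) • Cp)`, `U₂ = pullRR ((m * c) • C0)` (`Cp`, `C0` effective with disjoint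
supports), followed by the normalisation of the non-zero element of `V₁ ⊓ V₂ = pullRR D1`.
The five hypotheses `H1a`, `H1b`, `H1`, `H3`, `H4` on the reductions are kept as hypotheses
(they are provided by `S18/Surj.lean`).
-/

set_option autoImplicit false

noncomputable section

namespace Fermat.Agent.S18.MainLift

open ModularCurve AlgebraicCurve Fermat.Agent.S24 Fermat.Agent.S18.Content Fermat.Agent.S18.Plan

/-- Normalisation: a non-zero element of a `Q̄`-subspace `W ⊆ F_n` all of whose reductions are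
constants can be scaled to an element of `W ∩ Ocal` with reduction `1`. -/
theorem exists_red_eq_one (A : ValuationSubring Kbar) (n : ℕ) (hRa : ∀ y : Om,
      y ∈ modularFunctionFieldBar n → y ≠ 0 →
      ∃ c : Kbar, c ≠ 0 ∧ ∃ h : HahnSeries.C c * y ∈ Ocal A, red A ⟨_, h⟩ ≠ 0)
    (W : Submodule Kbar Om) (hW : ∀ w ∈ W, w ∈ modularFunctionFieldBar n)
    (hconst : ∀ x, x ∈ redSp A W → ∃ κ : kk A, x = HahnSeries.C κ)
    {g : Om} (hg : g ∈ W) (hg0 : g ≠ 0) :
    ∃ g0 : Ocal A, (g0 : Om) ∈ W ∧ red A g0 = 1 := by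
  obtain ⟨c', -, hmem, hred0⟩ := hRa g (hW g hg) hg0
  have hg'W : HahnSeries.C c' * g ∈ W := by
    rw [HahnSeries.C_mul_eq_smul]
    exact W.smul_mem _ hg
  obtain ⟨κ, hκ⟩ := hconst (red A ⟨_, hmem⟩) ⟨⟨_, hmem⟩, hg'W, rfl⟩
  have hκ0 : κ ≠ 0 := by
    rintro rfl
    rw [map_zero] at hκ
    exact hred0 hκ
  obtain ⟨a, rfl⟩ := IsLocalRing.residue_surjective (R := A) κ
  have haunit : IsUnit a := by
    by_contra hna
    exact hκ0 ((IsLocalRing.residue_eq_zero_iff a).mpr ((IsLocalRing.mem_maximalIdeal a).mpr hna))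
  obtain ⟨u, rfl⟩ := haunit
  refine ⟨constO A ((u⁻¹ : Aˣ) : A) * ⟨_, hmem⟩, ?_, ?_⟩
  · rw [Subring.coe_mul, coe_constO, HahnSeries.C_mul_eq_smul]
    exact W.smul_mem _ hg'W
  · rw [map_mul, red_constO, hκ, ← map_mul, ← map_mul, Units.inv_mul, map_one, map_one]

set_option synthInstance.maxHeartbeats 400000 in
set_option maxHeartbeats 1000000 in
/-- **`[MAIN]` in H-form**: one application of `LiftCore` at level `N'`. -/
theorem exists_lift_of_H (N N' ℓ : ℕ) [NeZero N'] [Fact ℓ.Prime]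
    (hle : modularFunctionFieldBar N ≤ modularFunctionFieldBar N') (hℓ' : ¬ ℓ ∣ N')
    (A : ValuationSubring Kbar) (hA : A.LiesOverPrime ℓ)
    (hfin : ∀ B : Divisor Kbar (FN N), Module.Finite Kbar (pullRR N N' B))
    (m : ℕ) (hm : ¬ ℓ ∣ m) (D1 Cp C0 : Divisor Kbar (FN N)) (hCp : 0 ≤ Cp) (hC0 : 0 ≤ C0)
    (hdisj : ∀ P : Place Kbar (FN N), Cp P = 0 ∨ C0 P = 0)
    (f : FN N) (hf : (f : Om) ∈ Ocal A) (hfred : red A ⟨_, hf⟩ = 1)
    (hford : ∀ P : Place Kbar (FN N), (m • D1) P = P.ord f) (c : ℕ)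
    (H1a : (1 : Omk A) ∈ redSp A (pullRR N N' (D1 + c • Cp)))
    (H1b : (1 : Omk A) ∈ redSp A (pullRR N N' (D1 + c • C0)))
    (H1 : ∀ x, x ∈ redSp A (pullRR N N' (D1 + c • Cp)) →
      x ∈ redSp A (pullRR N N' (D1 + c • C0)) → ∃ κ : kk A, x = HahnSeries.C κ)
    (H3 : ∀ x, x ∈ redSp A (pullRR N N' ((m * c) • Cp)) →
      x ∈ redSp A (pullRR N N' ((m * c) • C0)) → ∃ κ : kk A, x = HahnSeries.C κ)
    (H4 : ∀ x, x ∈ redSp A (pullRR N N' ((m * c) • Cp)) ⊔ redSp A (pullRR N N' ((m * c) • C0)) →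
      x ∈ redSp A (pullRR N N' (D1 + c • Cp + c • C0)) →
      x ∈ redSp A (pullRR N N' (D1 + c • Cp)) ⊔ redSp A (pullRR N N' (D1 + c • C0))) :
    ∃ g0 : Ocal A, (g0 : Om) ∈ pullRR N N' D1 ∧ red A g0 = 1 := by
  have hf0 : f ≠ 0 := by
    intro h0
    have h1 : red A ⟨(f : Om), hf⟩ ≠ 0 := by rw [hfred]; exact one_ne_zero
    exact ne_zero_of_red_ne_zero A _ h1 (congrArg Subtype.val h0)
  have hcCp : (0 : Divisor Kbar (FN N)) ≤ c • Cp := smul_nonneg (Nat.zero_le c) hCp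
  have hcC0 : (0 : Divisor Kbar (FN N)) ≤ c • C0 := smul_nonneg (Nat.zero_le c) hC0
  have := hfin (D1 + c • Cp)
  have := hfin (D1 + c • C0)
  have := hfin ((m * c) • Cp)
  have := hfin ((m * c) • C0)
  have hV₁ : pullRR N N' (D1 + c • Cp) ≤ pullRR N N' (D1 + c • Cp + c • C0) :=
    PullPlan.pullRR_mono (le_add_of_nonneg_right hcC0)
  have hV₂ : pullRR N N' (D1 + c • C0) ≤ pullRR N N' (D1 + c • Cp + c • C0) :=
    PullPlan.pullRR_mono (by
      rw [add_assoc, add_comm (c • Cp)]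
      rw [← add_assoc]
      exact le_add_of_nonneg_right hcCp)
  have hpow : ∀ C : Divisor Kbar (FN N), ∀ s ∈ pullRR N N' (D1 + c • C),
      s ^ m * (f : Om) ∈ pullRR N N' ((m * c) • C) := by
    intro C s hs
    have h1 := PullPlan.mul_pow_mem_pullRR hle hf0 hford hs m
    have h2 : m • (D1 + c • C) - m • D1 = (m * c) • C := by
      rw [smul_add, add_sub_cancel_left, mul_smul]
    rw [h2, mul_comm (f : Om)] at h1
    exact h1
  have hne := RedGlue.liftCore_level N' ℓ hℓ' A hA (pullRR N N' (D1 + c • Cp))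
    (pullRR N N' (D1 + c • C0)) (pullRR N N' (D1 + c • Cp + c • C0))
    (pullRR N N' ((m * c) • Cp)) (pullRR N N' ((m * c) • C0))
    (fun _ hx => hx.1) (fun _ hx => hx.1) (fun _ hx => hx.1) (fun _ hx => hx.1) hV₁ hV₂
    ⟨(f : Om), hf⟩ hfred m hm (hpow Cp) (hpow C0)
    (PullPlan.one_mem_pullRR hle (smul_nonneg (Nat.zero_le _) hCp))
    (PullPlan.one_mem_pullRR hle (smul_nonneg (Nat.zero_le _) hC0)) H1a H1b H1 H3 H4
  obtain ⟨g, hgV, hg0⟩ := (Submodule.ne_bot_iff _).mp hne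
  -- `V₁ ⊓ V₂ ≤ pullRR D1`
  have hinf : pullRR N N' (D1 + c • Cp) ⊓ pullRR N N' (D1 + c • C0) ≤ pullRR N N' D1 := by
    rw [PullPlan.pullRR_inf]
    refine PullPlan.pullRR_mono (Finsupp.le_def.mpr fun P => ?_)
    rw [Finsupp.inf_apply, Finsupp.add_apply, Finsupp.add_apply, Finsupp.smul_apply,
      Finsupp.smul_apply]
    rcases hdisj P with h | h
    · rw [h, smul_zero, add_zero]
      exact inf_le_left
    · rw [h, smul_zero, add_zero]
      exact inf_le_right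
  have hD1V₁ : pullRR N N' D1 ≤ pullRR N N' (D1 + c • Cp) :=
    PullPlan.pullRR_mono (le_add_of_nonneg_right hcCp)
  have hD1V₂ : pullRR N N' D1 ≤ pullRR N N' (D1 + c • C0) :=
    PullPlan.pullRR_mono (le_add_of_nonneg_right hcC0)
  refine exists_red_eq_one A N' (Red.redStmt N' ℓ hℓ' A hA).1 (pullRR N N' D1)
    (fun _ hw => hw.1) (fun x hx => ?_) (hinf hgV) hg0
  obtain ⟨y, hy, rfl⟩ := hx
  exact H1 _ ⟨y, hD1V₁ hy, rfl⟩ ⟨y, hD1V₂ hy, rfl⟩

set_option synthInstance.maxHeartbeats 400000 in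
set_option maxHeartbeats 1000000 in
/-- **`[MAIN]` from the Plan contracts**: `MainStmt A N N' ℓ` from `CharStmt`, `InclF`, `RR0`,
`RRl`, `ConstW`, `Char0Stmt` (and `RedStmt A N'`, `(Dim)` through `RedGlue.liftCore_level`). -/
theorem mainStmt_of (A : ValuationSubring Kbar) (N N' ℓ : ℕ) [NeZero N] [NeZero N']
    [Fact ℓ.Prime] (hle0 : modularFunctionFieldBar N ≤ modularFunctionFieldBar N')
    (hle : Fk A N ≤ Fk A N') (hψ : 0 < dedekindPsi N) (hℓ' : ¬ ℓ ∣ N')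
    (hA : A.LiesOverPrime ℓ) (h0 : Plan.Char0Stmt N) (hChar : Plan.CharStmt A N N')
    (hIncl : Plan.InclF A N) (hRR0 : Plan.RR0 N N') (hRRl : Plan.RRl A N')
    (hConst : Plan.ConstW A N') : MainTop.MainStmt A N N' ℓ := by
  obtain ⟨-, hdivex, Cp, hCp, hdegCp⟩ := h0
  obtain ⟨Dj, hDj, -⟩ := hdivex (jBar N) (Surj.jBar_ne_zero A N)
  obtain ⟨c, hc⟩ := hRRl
  obtain ⟨hfinW, hbound⟩ := hc c le_rfl
  have hRed' : Plan.RedStmt A N' := Red.redStmt N' ℓ hℓ' A hA
  intro r hr m hm D1 hdeg hrD1 f hf hfred hford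
  have hCp0 : (0 : Divisor Kbar (FN N)) ≤ Cp := Finsupp.le_def.mpr fun P => by
    rw [hCp P, Finsupp.zero_apply]
    exact le_max_left _ _
  have hC00 : (0 : Divisor Kbar (FN N)) ≤ Cp + Dj := Finsupp.le_def.mpr fun P => by
    rw [Finsupp.add_apply, hCp P, hDj P, Finsupp.zero_apply]
    rcases le_total 0 (P.ord (jBar N)) with h | h
    · rw [max_eq_left (by linarith)]
      linarith
    · rw [max_eq_right (by linarith)]
      linarith
  have hdisj : ∀ P : Place Kbar (FN N), Cp P = 0 ∨ (Cp + Dj) P = 0 := by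
    intro P
    rw [Finsupp.add_apply, hCp P, hDj P]
    rcases le_total 0 (P.ord (jBar N)) with h | h
    · left
      exact max_eq_left (by linarith)
    · right
      rw [max_eq_right (by linarith)]
      linarith
  have e2 : D1 + c • (Cp + Dj) = D1 + c • Cp + c • Dj := by rw [smul_add, add_assoc]
  have eU : (m * c) • (Cp + Dj) = (m * c) • Cp + (m * c) • Dj := smul_add _ _ _
  have e12 : D1 + c • Cp + c • (Cp + Dj) = D1 + (2 * c) • Cp + c • Dj := by
    rw [smul_add, two_mul, add_smul]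
    abel
  refine exists_lift_of_H N N' ℓ hle0 hℓ' A hA (fun B => (hRR0 B).1) m hm D1 Cp (Cp + Dj)
    hCp0 hC00 hdisj f hf hfred hford c ?_ ?_ ?_ ?_ ?_
  · exact Surj.H1a A N N' hψ hChar hIncl hRed' hle hRR0 r hr D1 Cp hCp hdegCp hrD1 hdeg c
      hfinW hbound
  · rw [e2]
    exact Surj.H1b A N N' hψ hChar hIncl hRed' hle hle0 hRR0 r hr D1 Cp Dj hCp hDj hdegCp hrD1
      hdeg c hfinW hbound
  · intro x hx₁ hx₂
    rw [e2] at hx₂
    exact Surj.eq_C_of_mem_redSp A N N' hChar hIncl hRed' hle hle0 hConst r hr Cp Dj hCp hDj D1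
      hrD1 c hx₁ hx₂
  · intro x hx₁ hx₂
    rw [eU] at hx₂
    exact Surj.H3 A N N' hChar hIncl hRed' hle hle0 hConst r hr Cp Dj hCp hDj (m * c) hx₁ hx₂
  · intro x hx hx12
    rw [eU] at hx
    rw [e12] at hx12
    rw [e2]
    exact Surj.H4 A N N' hψ hChar hIncl hRed' hle hle0 hRR0 r hr D1 Cp Dj hCp hDj hdegCp hrD1
      hdeg c hfinW hbound (m * c) hx hx12

end Fermat.Agent.S18.MainLift

end
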