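import Mathlib
import Fermat.Agent.S18.Plan
import Fermat.Agent.S18.WJPlaces
import Fermat.Agent.Lib.FFPoles

/-!
# S18 [CHARL]: places of `F_{N,k}` — `Plan.ConstF` and `Plan.InclF` (helper78)

`A` a valuation subring of `Q̄`, `k = kk A` its residue field, `F_k = Fk A N`, `j̄ = jb A N`.
Inputs (explicit hypotheses / instances): `F_k / k(j̄)` finite separable of degree `ψ(N)`
([CUSP] / [RED]), and the contracts `Plan.RedStmt`, `Plan.UnitDiv`, `Plan.Char0Stmt`.
(`k` is algebraically closed: `isAlgClosed_kk`.)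

* `constF`  : `Plan.ConstF A N` — a function of `F_k` without zeros and poles is constant;
* `mapDomain_poleDivisor_jBar` : **[CUSPMAP]** `r_* (j)_∞ = (j̄)_∞`;
* `inclF`   : `Plan.InclF A N` — `red (L(E + c (j)_∞) ∩ Ocal) ⊆ WJ k F_k c` when `r_* E = 0`.
-/

set_option autoImplicit false

noncomputable section

namespace Fermat.Agent.S18.PlacesModL

open ModularCurve AlgebraicCurve IntermediateField Polynomial
open Fermat.Agent.S24 Fermat.Agent.S18.Content Fermat.Agent.S18.Plan Fermat.Agent.Lib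

/-- The residue field of a valuation subring of an algebraically closed field is algebraically
closed. -/
theorem isAlgClosed_residueField {K : Type*} [Field K] [IsAlgClosed K] (A : ValuationSubring K) :
    IsAlgClosed (IsLocalRing.ResidueField A) := by
  refine IsAlgClosed.of_exists_root _ fun p hp hirr => ?_
  have hlift : p ∈ Polynomial.lifts (IsLocalRing.residue A) :=
    Polynomial.map_surjective _ IsLocalRing.residue_surjective p |>.elim fun q hq => ⟨q, hq⟩
  obtain ⟨P, hP, hPdeg, hPm⟩ := Polynomial.lifts_and_degree_eq_and_monic hlift hp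
  have hdeg : (P.map A.subtype).degree ≠ 0 := by
    rw [Polynomial.degree_map_eq_of_injective A.subtype_injective, hPdeg]
    exact Polynomial.degree_pos_of_irreducible hirr |>.ne'
  obtain ⟨z, hz⟩ := IsAlgClosed.exists_root (P.map A.subtype) hdeg
  have hint : IsIntegral A z := ⟨P, hPm, by
    rw [Polynomial.IsRoot, Polynomial.eval_map] at hz
    exact hz⟩
  obtain ⟨w, rfl⟩ := IsIntegrallyClosed.isIntegral_iff.mp hint
  refine ⟨IsLocalRing.residue A w, ?_⟩
  rw [← hP, Polynomial.eval_map, Polynomial.eval₂_hom]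
  have hw : P.eval w = 0 := by
    rw [Polynomial.IsRoot, Polynomial.eval_map] at hz
    have h2 : (A.subtype) (P.eval w) = 0 := by
      rw [← Polynomial.eval₂_hom]
      exact hz
    exact A.subtype_injective (by rw [h2, map_zero])
  rw [hw, map_zero]

/-- The residue field of a valuation subring of `Q̄` is algebraically closed. -/
theorem isAlgClosed_kk (A : ValuationSubring Kbar) : IsAlgClosed (kk A) :=
  isAlgClosed_residueField A

/-! ### Generic core: reduction of `L(E + c (x)_∞)` along a place map -/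

section Generic

variable {K F k Fk : Type*} [Field K] [Field F] [Algebra K F] [Field k] [Field Fk] [Algebra k Fk]

/-- **[CUSPMAP], generic.** If `r_* div(x) = div(x̄)` and `deg (x)_∞ = [F_k : k(x̄)]`, then
`r_* (x)_∞ = (x̄)_∞`. -/
theorem mapDomain_poleDivisor_of_finrank [IsAlgClosed k] (r : Place K F → Place k Fk)
    (hdeg : ∀ P, (r P).deg = P.deg) (x : F) (xb : Fk) [FiniteDimensional k⟮xb⟯ Fk]
    [Algebra.IsSeparable k⟮xb⟯ Fk] (hxt : Transcendental k xb)
    (Dj : Divisor K F) (hDj : ∀ P, Dj P = P.ord x)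
    (hrj : ∀ Q, Finsupp.mapDomain r Dj Q = Q.ord xb)
    (Cp : Divisor K F) (hCp : ∀ P, Cp P = max 0 (-(P.ord x)))
    (hdegC : Divisor.degree Cp = (Module.finrank k⟮xb⟯ Fk : ℤ))
    (Cb : Divisor k Fk) (hCb : ∀ Q, Cb Q = max 0 (-(Q.ord xb))) :
    Finsupp.mapDomain r Cp = Cb :=
  FFPoles.mapDomain_poleDivisor r hdeg x xb Dj hDj hrj Cp hCp Cb hCb
    (by rw [hdegC, FFPoles.degree_poleDivisor hxt Cb hCb])
    (fun Q => by rw [FFSep.deg_eq_one xb Q]; exact one_pos)

/-- **(Incl), generic.** Let `a ∈ L(E + c (x)_∞)` with `r_* E = 0`, and let `ā` be a function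
with `r_* div(a) = div(ā)`.  Then `ā ∈ L(c (x̄)_∞)`. -/
theorem mem_riemannRochSpace_of_push [IsAlgClosed k] (r : Place K F → Place k Fk)
    (hdeg : ∀ P, (r P).deg = P.deg) (x : F) (xb : Fk) [FiniteDimensional k⟮xb⟯ Fk]
    [Algebra.IsSeparable k⟮xb⟯ Fk] (hxt : Transcendental k xb)
    (Dj : Divisor K F) (hDj : ∀ P, Dj P = P.ord x)
    (hrj : ∀ Q, Finsupp.mapDomain r Dj Q = Q.ord xb)
    (Cp : Divisor K F) (hCp : ∀ P, Cp P = max 0 (-(P.ord x)))
    (hdegC : Divisor.degree Cp = (Module.finrank k⟮xb⟯ Fk : ℤ))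
    (E : Divisor K F) (hE : Finsupp.mapDomain r E = 0) (c : ℕ)
    (a : F) (ha0 : a ≠ 0) (ha : a ∈ riemannRochSpace (E + c • Cp))
    (ab : Fk) (Da : Divisor K F) (hDa : ∀ P, Da P = P.ord a)
    (hra : ∀ Q, Finsupp.mapDomain r Da Q = Q.ord ab)
    (Db : Divisor k Fk) (hDb : ∀ Q, Db Q = c * max 0 (-(Q.ord xb))) :
    ab ∈ riemannRochSpace Db := by
  obtain ⟨Cb, hCb⟩ := FFPoles.exists_poleDivisor (K := k) (F := Fk) hxt
  have hpush := mapDomain_poleDivisor_of_finrank r hdeg x xb hxt Dj hDj hrj Cp hCp hdegC Cb hCb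
  rw [mem_riemannRochSpace_iff]
  intro Q
  right
  have hnn : ∀ P, 0 ≤ (Da + (E + c • Cp)) P := by
    intro P
    have h1 := (mem_riemannRochSpace_iff.mp ha P).resolve_left ha0
    rw [Finsupp.add_apply, hDa]
    omega
  have h1 := FFPoles.mapDomain_nonneg r hnn Q
  rw [Finsupp.mapDomain_add, Finsupp.mapDomain_add, hE, zero_add, Finsupp.mapDomain_smul, hpush,
    Finsupp.add_apply, hra Q, Finsupp.smul_apply, hCb, nsmul_eq_mul] at h1
  rw [hDb]
  omega

end Generic

section Level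

set_option synthInstance.maxHeartbeats 400000

variable (A : ValuationSubring Kbar) (N : ℕ)

/-- `j̄` as an element of `F_{N,k}`. -/
def jb : Fk A N := ⟨jk A, jqModC_mem_full (kk A) N⟩

@[simp] theorem coe_jb : ((jb A N : Fk A N) : Omk A) = jk A := rfl

/-- `j` is transcendental over the constants (it has a pole at `q = 0`). -/
theorem transcendental_jqModC (κ : Type) [Field κ] : Transcendental κ (jqModC κ) := by
  intro halg
  have hint : IsIntegral κ (jqModC κ) := isAlgebraic_iff_isIntegral.mp halg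
  have hmem := FFPoles.mem_valuationSubring_of_isIntegral (R := κ)
    (WJPlaces.vq κ).valuationSubring (fun a => by
      rw [Valuation.mem_valuationSubring_iff, ← WJPlaces.mem_range_ofPowerSeries_iff]
      exact (WJPlaces.algebraMap_mem_OinfJ κ a).2) hint
  rw [Valuation.mem_valuationSubring_iff] at hmem
  exact not_lt_of_ge hmem (WJPlaces.one_lt_vq_jqModC κ)

theorem transcendental_jb : Transcendental (kk A) (jb A N) := by
  intro halg
  exact transcendental_jqModC (kk A) (IsAlgebraic.algHom (Fk A N).val halg)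

/-- **`Plan.ConstF`**: a function of `F_{N,k}` without zeros and poles is constant. -/
theorem constF [FiniteDimensional (kk A)⟮jb A N⟯ (Fk A N)]
    [Algebra.IsSeparable (kk A)⟮jb A N⟯ (Fk A N)] : Plan.ConstF A N := by
  have := isAlgClosed_kk A
  intro y _ hy
  obtain ⟨a, ha⟩ := FFPoles.mem_range_of_forall_ord_eq_zero (jb A N) hy
  refine ⟨a, ?_⟩
  rw [← ha, ← algebraMap_LS_eq_C]
  rfl

/-- `j ∈ F_N` is the image of the `A`-integral series `j`. -/
theorem coe_jBar [NeZero N] : ((jBar N : FN N) : Om) = iota A (jqModC A) := by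
  show coeffEmb Kbar jq = coeffMap A.subtype (jqModC A)
  rw [coeffMap_jqModC, ← jqModC_rat, coeffEmb, coeffMap_jqModC]

theorem coe_jBar_mem_Ocal [NeZero N] : ((jBar N : FN N) : Om) ∈ Ocal A := by
  rw [coe_jBar A N]
  exact iota_mem_Ocal A _

theorem red_jBar [NeZero N] : red A ⟨((jBar N : FN N) : Om), coe_jBar_mem_Ocal A N⟩ = jk A := by
  rw [red_congr A (coe_jBar A N) _ (iota_mem_Ocal A _), red_iota, rho, coeffMap_jqModC]

/-- **[CUSPMAP]** `r_* (j)_∞ = (j̄)_∞` for every place reduction `r`. -/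
theorem mapDomain_poleDivisor_jBar [NeZero N] (hunit : Plan.UnitDiv A N)
    (hchar0 : Plan.Char0Stmt N) [FiniteDimensional (kk A)⟮jb A N⟯ (Fk A N)]
    [Algebra.IsSeparable (kk A)⟮jb A N⟯ (Fk A N)]
    (hdeg : Module.finrank (kk A)⟮jb A N⟯ (Fk A N) = dedekindPsi N)
    (r : Place Kbar (FN N) → Place (kk A) (Fk A N))
    (hr : IsPlaceReductionAlong A (IsLocalRing.residue A) N r)
    (Cp : Divisor Kbar (FN N)) (hCp : ∀ P, Cp P = max 0 (-(P.ord (jBar N))))
    (Cb : Divisor (kk A) (Fk A N)) (hCb : ∀ Q, Cb Q = max 0 (-(Q.ord (jb A N)))) :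
    Finsupp.mapDomain r Cp = Cb := by
  have := isAlgClosed_kk A
  obtain ⟨-, hdiv, Cp', hCp', hdegCp'⟩ := hchar0
  have hjred := red_jBar A N
  have hjk : red A ⟨((jBar N : FN N) : Om), coe_jBar_mem_Ocal A N⟩ ∈ Fk A N := by
    rw [hjred]; exact jqModC_mem_full (kk A) N
  have hjne : red A ⟨((jBar N : FN N) : Om), coe_jBar_mem_Ocal A N⟩ ≠ 0 := by
    rw [hjred]; exact WJPlaces.jqModC_ne_zero (kk A)
  have hj0 : jBar N ≠ 0 := fun h0 =>
    ne_zero_of_red_ne_zero A ⟨_, coe_jBar_mem_Ocal A N⟩ hjne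
      (congrArg (fun z : FN N => (z : Om)) h0)
  obtain ⟨Dj, hDj, -⟩ := hdiv (jBar N) hj0
  have hrj : ∀ Q, Finsupp.mapDomain r Dj Q = Q.ord (jb A N) := by
    intro Q
    rw [hunit r hr (jBar N) (coe_jBar_mem_Ocal A N) hjk hjne Dj hDj Q]
    congr 1
    exact Subtype.ext hjred
  have hCpeq : Cp = Cp' := Finsupp.ext fun P => by rw [hCp, hCp']
  exact mapDomain_poleDivisor_of_finrank r hr.1 (jBar N) (jb A N) (transcendental_jb A N) Dj hDj
    hrj Cp hCp (by rw [hCpeq, hdegCp', hdeg]) Cb hCb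

/-- **`Plan.InclF`**: for `r_* E = 0`, the reduction of `L_{F_N}(E + c (j)_∞) ∩ Ocal` lies in
`WJ k F_{N,k} c`. -/
theorem inclF [NeZero N] (hred : Plan.RedStmt A N) (hunit : Plan.UnitDiv A N)
    (hchar0 : Plan.Char0Stmt N) [FiniteDimensional (kk A)⟮jb A N⟯ (Fk A N)]
    [Algebra.IsSeparable (kk A)⟮jb A N⟯ (Fk A N)]
    (hdeg : Module.finrank (kk A)⟮jb A N⟯ (Fk A N) = dedekindPsi N) : Plan.InclF A N := by
  have := isAlgClosed_kk A
  intro r hr E Cp c hCp hE a ha haO
  by_cases hred0 : red A ⟨(a : Om), haO⟩ = 0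
  · rw [hred0]; exact Submodule.zero_mem _
  have hak : red A ⟨(a : Om), haO⟩ ∈ Fk A N := hred.2.1 ⟨(a : Om), haO⟩ a.2
  have ha0 : a ≠ 0 := fun h0 =>
    ne_zero_of_red_ne_zero A ⟨_, haO⟩ hred0 (congrArg (fun z : FN N => (z : Om)) h0)
  obtain ⟨-, hdiv, Cp', hCp', hdegCp'⟩ := hchar0
  obtain ⟨Da, hDa, -⟩ := hdiv a ha0
  have hra := hunit r hr a haO hak hred0 Da hDa
  -- `j`
  have hjred := red_jBar A N
  have hjk : red A ⟨((jBar N : FN N) : Om), coe_jBar_mem_Ocal A N⟩ ∈ Fk A N := by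
    rw [hjred]; exact jqModC_mem_full (kk A) N
  have hjne : red A ⟨((jBar N : FN N) : Om), coe_jBar_mem_Ocal A N⟩ ≠ 0 := by
    rw [hjred]; exact WJPlaces.jqModC_ne_zero (kk A)
  have hj0 : jBar N ≠ 0 := fun h0 =>
    ne_zero_of_red_ne_zero A ⟨_, coe_jBar_mem_Ocal A N⟩ hjne
      (congrArg (fun z : FN N => (z : Om)) h0)
  obtain ⟨Dj, hDj, -⟩ := hdiv (jBar N) hj0
  have hrj : ∀ Q, Finsupp.mapDomain r Dj Q = Q.ord (jb A N) := by
    intro Q
    rw [hunit r hr (jBar N) (coe_jBar_mem_Ocal A N) hjk hjne Dj hDj Q]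
    congr 1
    exact Subtype.ext hjred
  have hCpeq : Cp = Cp' := Finsupp.ext fun P => by rw [hCp, hCp']
  -- the reduction lies in `L(c (j̄)_∞)`
  obtain ⟨Cb, hCb⟩ := FFPoles.exists_poleDivisor (K := kk A) (F := Fk A N) (transcendental_jb A N)
  have hDb : ∀ Q, (c • Cb) Q = (c : ℤ) * max 0 (-(Q.ord (jb A N))) := fun Q => by
    rw [Finsupp.smul_apply, hCb, nsmul_eq_mul]
  have hmem := mem_riemannRochSpace_of_push r hr.1 (jBar N) (jb A N) (transcendental_jb A N) Dj
    hDj hrj Cp hCp (by rw [hCpeq, hdegCp', hdeg]) E hE c a ha0 ha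
    (⟨red A ⟨(a : Om), haO⟩, hak⟩ : Fk A N) Da hDa hra (c • Cb) hDb
  exact WJPlaces.mem_WJ_of_mem_riemannRochSpace (Fk A N) (jb A N) rfl c (c • Cb)
    (fun v => (hDb v).le) ⟨red A ⟨(a : Om), haO⟩, hak⟩ hmem

end Level

end Fermat.Agent.S18.PlacesModL
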