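import Mathlib
import Fermat.Agent.S18.PlacesModL
import Fermat.Agent.S18.CuspEmb
import Fermat.Agent.S18.Red
import Fermat.Agent.S18.Char0

/-!
# S18 [CHARL]: `Plan.ConstF` and `Plan.InclF`, hypothesis-free (helper78)

The chart inputs of `S18/PlacesModL` are discharged by `S18/CuspEmb` (helper16: `F_{N,k} / k(j̄)`
is finite separable of degree `ψ(N)`), `S18/Red` (helper49) and `S18/Char0` (helper36).
-/

set_option autoImplicit false
set_option synthInstance.maxHeartbeats 400000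

namespace Fermat.Agent.S18.PlacesModL

open ModularCurve AlgebraicCurve IntermediateField
open Fermat.Agent.S24 Fermat.Agent.S18.Content Fermat.Agent.S18.Plan

section Main

variable (N : ℕ) [NeZero N] (ℓ : ℕ) [Fact ℓ.Prime]

theorem finiteDimensional_jb (hℓ : ¬ ℓ ∣ N) (A : ValuationSubring Kbar)
    (hA : A.LiesOverPrime ℓ) : FiniteDimensional (kk A)⟮jb A N⟯ (Fk A N) := by
  have : CharP (kk A) ℓ := charP_residueField_of_liesOverPrime A ℓ hA
  exact CuspEmb.finiteDimensional_fullC N ℓ hℓ (kk A)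

theorem isSeparable_jb (hℓ : ¬ ℓ ∣ N) (A : ValuationSubring Kbar)
    (hA : A.LiesOverPrime ℓ) : Algebra.IsSeparable (kk A)⟮jb A N⟯ (Fk A N) := by
  have : CharP (kk A) ℓ := charP_residueField_of_liesOverPrime A ℓ hA
  have := isAlgClosed_kk A
  obtain ⟨-, -, -, -, -, -, -, hsep⟩ := CuspEmb.exists_cusp_embeddings N ℓ hℓ (kk A)
  exact hsep

theorem finrank_jb (hℓ : ¬ ℓ ∣ N) (A : ValuationSubring Kbar)
    (hA : A.LiesOverPrime ℓ) :
    Module.finrank (kk A)⟮jb A N⟯ (Fk A N) = dedekindPsi N := by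
  have : CharP (kk A) ℓ := charP_residueField_of_liesOverPrime A ℓ hA
  exact CuspEmb.finrank_fullC (kk A) N ℓ hℓ

/-- **`Plan.ConstF A N`**, unconditional. -/
theorem constF_main (hℓ : ¬ ℓ ∣ N) (A : ValuationSubring Kbar) (hA : A.LiesOverPrime ℓ) :
    Plan.ConstF A N := by
  have := finiteDimensional_jb N ℓ hℓ A hA
  have := isSeparable_jb N ℓ hℓ A hA
  exact constF A N

/-- **`Plan.InclF A N`**, unconditional. -/
theorem inclF_main (hℓ : ¬ ℓ ∣ N) (A : ValuationSubring Kbar) (hA : A.LiesOverPrime ℓ) :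
    Plan.InclF A N := by
  have := finiteDimensional_jb N ℓ hℓ A hA
  have := isSeparable_jb N ℓ hℓ A hA
  exact inclF A N (Red.redStmt N ℓ hℓ A hA) (Red.unitDiv N ℓ hℓ A hA (Char0.char0Stmt N))
    (Char0.char0Stmt N) (finrank_jb N ℓ hℓ A hA)

/-- **[CUSPMAP]** `r_* (j)_∞ = (j̄)_∞`, unconditional. -/
theorem mapDomain_poleDivisor_jBar_main (hℓ : ¬ ℓ ∣ N) (A : ValuationSubring Kbar)
    (hA : A.LiesOverPrime ℓ) (r : Place Kbar (FN N) → Place (kk A) (Fk A N))
    (hr : IsPlaceReductionAlong A (IsLocalRing.residue A) N r)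
    (Cp : Divisor Kbar (FN N)) (hCp : ∀ P, Cp P = max 0 (-(P.ord (jBar N))))
    (Cb : Divisor (kk A) (Fk A N)) (hCb : ∀ Q, Cb Q = max 0 (-(Q.ord (jb A N)))) :
    Finsupp.mapDomain r Cp = Cb := by
  have := finiteDimensional_jb N ℓ hℓ A hA
  have := isSeparable_jb N ℓ hℓ A hA
  exact mapDomain_poleDivisor_jBar A N (Red.unitDiv N ℓ hℓ A hA (Char0.char0Stmt N))
    (Char0.char0Stmt N) (finrank_jb N ℓ hℓ A hA) r hr Cp hCp Cb hCb

end Main

end Fermat.Agent.S18.PlacesModL
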