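import Mathlib
import Fermat.Prelude.Def_ModularCurve_ReductionModL
import Fermat.Prelude.Def_EllipticCurve_FrobeniusTrace

set_option autoImplicit false

/-
# S18, top bridge: the frozen statement follows from its divisor-level core

The frozen statement S18 is about classes `z : JZero N = Pic⁰`.  Unfolding the quotient and the
definition of `reductionModL` (push-forward of divisors along the chosen place map `r`), it is
equivalent to the following statement about divisors (`DivCore`): a divisor `D` of degree `0`
with `m • D` principal and `r_* D` principal is principal.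
-/

namespace Fermat.Agent.S18.TopBridge

open ModularCurve AlgebraicCurve

set_option synthInstance.maxHeartbeats 400000

/-- The divisor-level core of S18 for one place map `r`: a degree-zero divisor `D` with `m • D`
principal whose push-forward `r_* D` is principal is itself principal. -/
def DivCoreFor (A : ValuationSubring (AlgebraicClosure ℚ)) (N m : ℕ)
    (r : Place (AlgebraicClosure ℚ) (modularFunctionFieldBar N) →
      Place (IsLocalRing.ResidueField A)
        (modularFunctionFieldFullC (IsLocalRing.ResidueField A) N)) : Prop :=
  ∀ D : Divisor (AlgebraicClosure ℚ) (modularFunctionFieldBar N),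
    Divisor.degree D = 0 →
    m • D ∈ Divisor.principal (K := AlgebraicClosure ℚ) (F := modularFunctionFieldBar N) →
    Finsupp.mapDomain r D ∈ Divisor.principal (K := IsLocalRing.ResidueField A)
      (F := modularFunctionFieldFullC (IsLocalRing.ResidueField A) N) →
    D ∈ Divisor.principal (K := AlgebraicClosure ℚ) (F := modularFunctionFieldBar N)

/-- The divisor-level core of S18: `DivCoreFor` for every place map satisfying the two reduction
axioms. -/
def DivCore (A : ValuationSubring (AlgebraicClosure ℚ)) (N m : ℕ) : Prop :=
  ∀ r : Place (AlgebraicClosure ℚ) (modularFunctionFieldBar N) →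
      Place (IsLocalRing.ResidueField A)
        (modularFunctionFieldFullC (IsLocalRing.ResidueField A) N),
    IsPlaceReductionModL A N r → PrincipalGeneratedByIntegral A (IsLocalRing.residue A) N →
    DivCoreFor A N m r

/-- The frozen conclusion of S18 from the divisor-level core for the chosen place map. -/
theorem eq_zero_of_divCoreFor (A : ValuationSubring (AlgebraicClosure ℚ)) (N m : ℕ)
    (h : ReductionInputsModL A N) (hcore : DivCoreFor A N m (placeReductionModL h))
    (z : JZero N) (hmz : m • z = 0) (hz : reductionModL A N z = 0) : z = 0 := by
  obtain ⟨D, rfl⟩ := Pic0.mk_surjective z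
  have hD0 : Divisor.degree (D : Divisor (AlgebraicClosure ℚ) (modularFunctionFieldBar N)) = 0 :=
    Divisor.mem_degZero.mp D.2
  -- `m • D` is principal
  have hmD : m • (D : Divisor (AlgebraicClosure ℚ) (modularFunctionFieldBar N)) ∈
      Divisor.principal (K := AlgebraicClosure ℚ) (F := modularFunctionFieldBar N) := by
    have h1 : Pic0.mk (m • D) = 0 := hmz
    have h2 := (QuotientAddGroup.eq_zero_iff (m • D)).mp h1
    rw [AddSubgroup.mem_addSubgroupOf] at h2
    simpa using h2
  -- `r_* D` is principal
  have hrD : Finsupp.mapDomain (placeReductionModL h)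
      (D : Divisor (AlgebraicClosure ℚ) (modularFunctionFieldBar N)) ∈
      Divisor.principal (K := IsLocalRing.ResidueField A)
        (F := modularFunctionFieldFullC (IsLocalRing.ResidueField A) N) := by
    rw [reductionModL_mk h D] at hz
    have h2 := (QuotientAddGroup.eq_zero_iff _).mp hz
    rw [AddSubgroup.mem_addSubgroupOf] at h2
    exact h2
  have hprin := hcore D hD0 hmD hrD
  exact (QuotientAddGroup.eq_zero_iff D).mpr (AddSubgroup.mem_addSubgroupOf.mpr hprin)

/-- The frozen statement S18 (all hypotheses kept) from the divisor-level core. -/
theorem result_of_divCore (N : ℕ) [NeZero N] {ℓ : ℕ} [Fact ℓ.Prime] (_hℓN : ¬ ℓ ∣ N)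
    (A : ValuationSubring (AlgebraicClosure ℚ)) (_hA : A.LiesOverPrime ℓ)
    (h : ReductionInputsModL A N) (m : ℕ) (_hm : ¬ ℓ ∣ m) (hcore : DivCore A N m)
    (z : JZero N) (hmz : m • z = 0) (hz : reductionModL A N z = 0) : z = 0 :=
  eq_zero_of_divCoreFor A N m h
    (hcore (placeReductionModL h) (isPlaceReductionModL_placeReductionModL h) h.choose_spec.2)
    z hmz hz

end Fermat.Agent.S18.TopBridge
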