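import Mathlib
import Fermat.Agent.S18.Plan
import Fermat.Agent.S18.TopBridge

set_option autoImplicit false

/-
# S18, top bridge in Plan vocabulary

The frozen statement S18 follows from the Plan contract `Plan.DivCore A N ℓ`
(`S18/Plan.lean`): one term, for the final `S18.lean`.
-/

namespace Fermat.Agent.S18.TopBridge

open ModularCurve AlgebraicCurve

set_option synthInstance.maxHeartbeats 400000

/-- `Plan.DivCore A N ℓ` gives the divisor-level core `DivCore A N m` for every `m` prime
to `ℓ`. -/
theorem divCore_of_plan (A : ValuationSubring (AlgebraicClosure ℚ)) (N ℓ : ℕ)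
    (hcore : Plan.DivCore A N ℓ) (m : ℕ) (hm : ¬ ℓ ∣ m) : DivCore A N m :=
  fun r hr hgen D hD hmD hrD => hcore r hr hgen m hm D hD hmD hrD

/-- The frozen statement S18 (all hypotheses kept) from the Plan contract `Plan.DivCore`. -/
theorem result_of_planDivCore (N : ℕ) [NeZero N] {ℓ : ℕ} [Fact ℓ.Prime] (hℓN : ¬ ℓ ∣ N)
    (A : ValuationSubring (AlgebraicClosure ℚ)) (hA : A.LiesOverPrime ℓ)
    (h : ReductionInputsModL A N) (m : ℕ) (hm : ¬ ℓ ∣ m) (hcore : Plan.DivCore A N ℓ)
    (z : JZero N) (hmz : m • z = 0) (hz : reductionModL A N z = 0) : z = 0 :=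
  result_of_divCore N hℓN A hA h m hm (divCore_of_plan A N ℓ hcore m hm) z hmz hz

end Fermat.Agent.S18.TopBridge
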