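import Mathlib
import Fermat.Agent.S18.LiftH
import Fermat.Agent.S18.CharStmt
import Fermat.Agent.S18.RR0
import Fermat.Agent.S18.RRl.Main
import Fermat.Agent.S18.PlacesModLMain
import Fermat.Agent.S18.ConstWPlan
import Fermat.Agent.S18.Char0
import Fermat.Agent.S18.TopBridgePlan

/-!
# S18 — final wiring: `Plan.DivCore A N ℓ` for every `N`, `ℓ ∤ N`, `A` over `ℓ` (helper49)

All Plan contracts are instantiated at the auxiliary level `N' = M * N`, `M = 9` if `ℓ = 2` and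
`M = 4` otherwise:

* `RedStmt`, `UnitDiv` (`S18/Red`), `Char0Stmt` (`S18/Char0`), `ConstF`, `InclF`
  (`S18/PlacesModLMain`), `CharStmt` (`S18/CharStmt`), `RR0` (`S18/RR0`), `RRl` (`S18/RRl/Main`),
  `ConstW` (`S18/ConstWPlan`);
* `[MAIN]` = `MainLift.mainStmt_of`, top = `MainTop.divCore_of_main`.
-/

set_option autoImplicit false

namespace Fermat.Agent.S18.Final

open ModularCurve AlgebraicCurve Fermat.Agent.S24 Fermat.Agent.S18.Content Fermat.Agent.S18

set_option synthInstance.maxHeartbeats 400000 in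
set_option maxHeartbeats 1000000 in
/-- **The divisor-level core of S18**, unconditionally. -/
theorem divCore (N : ℕ) [NeZero N] (ℓ : ℕ) [Fact ℓ.Prime] (hℓN : ¬ ℓ ∣ N)
    (A : ValuationSubring Kbar) (hA : A.LiesOverPrime ℓ) : Plan.DivCore A N ℓ := by
  have hℓp : ℓ.Prime := Fact.out
  have hM0 : (if ℓ = 2 then 9 else 4) ≠ 0 := by split_ifs <;> norm_num
  have hℓM : ¬ ℓ ∣ (if ℓ = 2 then 9 else 4) := by
    split_ifs with h2
    · subst h2
      norm_num
    · intro hdvd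
      have h4 : ℓ ∣ 2 ^ 2 := by norm_num; exact hdvd
      exact h2 ((Nat.prime_dvd_prime_iff_eq hℓp Nat.prime_two).mp (hℓp.dvd_of_dvd_pow h4))
  have : NeZero ((if ℓ = 2 then 9 else 4) * N) := ⟨mul_ne_zero hM0 (NeZero.ne N)⟩
  have hℓ' : ¬ ℓ ∣ (if ℓ = 2 then 9 else 4) * N := fun h =>
    (hℓp.dvd_mul.mp h).elim hℓM hℓN
  have hdiv : N ∣ (if ℓ = 2 then 9 else 4) * N := dvd_mul_left N _
  have hTF : 4 ∣ (if ℓ = 2 then 9 else 4) * N ∨ 9 ∣ (if ℓ = 2 then 9 else 4) * N := by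
    split_ifs
    · exact Or.inr (dvd_mul_right 9 N)
    · exact Or.inl (dvd_mul_right 4 N)
  have hchar : CharP (Plan.kk A) ℓ := charP_residueField_of_liesOverPrime A ℓ hA
  have h0 : Plan.Char0Stmt N := Char0.char0Stmt N
  have hred : Plan.RedStmt A N := Red.redStmt N ℓ hℓN A hA
  have hunit : Plan.UnitDiv A N := Red.unitDiv N ℓ hℓN A hA h0
  have hconstF : Plan.ConstF A N := PlacesModL.constF_main N ℓ hℓN A hA
  have hincl : Plan.InclF A N := PlacesModL.inclF_main N ℓ hℓN A hA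
  have hcharS : Plan.CharStmt A N ((if ℓ = 2 then 9 else 4) * N) :=
    CharStmt.charStmt N _ hdiv ℓ hℓ' A hA
  have hRR0 : Plan.RR0 N ((if ℓ = 2 then 9 else 4) * N) := RR0.rr0 N _ hdiv hTF
  have hRRl : Plan.RRl A ((if ℓ = 2 then 9 else 4) * N) := RRl.Main.rrl ℓ N A hℓN hA
  have hConstW : Plan.ConstW A ((if ℓ = 2 then 9 else 4) * N) := ConstWPlan.constW A _
  exact MainTop.divCore_of_main N ((if ℓ = 2 then 9 else 4) * N) ℓ A hchar hred hunit h0 hconstF
    hcharS (MainLift.mainStmt_of A N ((if ℓ = 2 then 9 else 4) * N) ℓ (PullStep.bar_le hdiv)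
      (CharStmt.fk_le A hdiv) (FibreCount.dedekindPsi_pos N) hℓ' hA h0 hcharS hincl hRR0 hRRl
      hConstW)

end Fermat.Agent.S18.Final
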