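import Mathlib
import Fermat.Agent.S18.Plan
import Fermat.Agent.S18.LiftCore
import Fermat.Agent.S18.OrthoDesc
import Fermat.Agent.S18.ContentField
import Fermat.Agent.Lib.FFPlaces

/-!
# S18 — Main lemmas (owner: helper18)

Generic lemmas for the assembly `Main.divCore`:

* places: elements of prescribed order;
* `pullRR`: monotonicity, intersection, shift by a function of `F_N`, powers, `1 ∈ pullRR B`;
* `WJ`: `1`, `j̄ ^ c`, the manipulations behind (H1), (H3), (H4);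
* `redData A`: the abstract reduction data of `LiftCore` for `(Ocal A, red A)`; `j`.
-/

set_option autoImplicit false

noncomputable section

namespace Fermat.Agent.S18.Main

open ModularCurve AlgebraicCurve Fermat.Agent.S24 Fermat.Agent.S18.Content Fermat.Agent.S18.Plan
open Fermat.Agent.Lib

set_option synthInstance.maxHeartbeats 400000

/-! ## Places -/

section PlaceFacts

variable {K F : Type*} [Field K] [Field F] [Algebra K F]

/-- An element of `F` with prescribed order at a place. -/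
theorem exists_ord_eq (P : Place K F) (n : ℤ) : ∃ u : F, u ≠ 0 ∧ P.ord u = n := by
  obtain ⟨ϖ, hϖ⟩ := IsDiscreteValuationRing.exists_irreducible ↥P.toValuationSubring
  have hϖ0 : (ϖ : F) ≠ 0 := by
    simpa [ne_eq, ZeroMemClass.coe_eq_zero] using hϖ.ne_zero
  refine ⟨(ϖ : F) ^ n, zpow_ne_zero n hϖ0, ?_⟩
  rw [P.ord_zpow, P.ord_coe_irreducible hϖ, mul_one]

theorem mem_of_ord_nonneg (P : Place K F) {s : F} (hs0 : s ≠ 0) (hs : 0 ≤ P.ord s) :
    s ∈ P.toValuationSubring :=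
  (FFPlaces.mem_iff_ord_nonneg P hs0).mpr hs

theorem ord_pow (P : Place K F) (a : F) (m : ℕ) : P.ord (a ^ m) = m * P.ord a := by
  rw [← zpow_natCast, P.ord_zpow]

theorem ord_algebraMap_mul (P : Place K F) {c : K} (hc : c ≠ 0) {f : F} (hf : f ≠ 0) :
    P.ord (algebraMap K F c * f) = P.ord f := by
  have hc' : algebraMap K F c ≠ 0 := by
    rw [Ne, map_eq_zero]; exact hc
  rw [P.ord_mul hc' hf, FFPlaces.ord_algebraMap, zero_add]

end PlaceFacts

/-! ## `pullRR` -/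

section Pull

variable {N N' : ℕ}

theorem coe_mem_placeRing (P : Place Kbar (FN N)) {t : FN N} (ht : t ∈ P.toValuationSubring) :
    (t : Om) ∈ placeRing P := ⟨t, ht, rfl⟩

theorem isIntegral_coe (P : Place Kbar (FN N)) {t : FN N} (ht : t ∈ P.toValuationSubring) :
    IsIntegral (placeRing P) (t : Om) :=
  isIntegral_algebraMap (R := placeRing P) (x := ⟨_, coe_mem_placeRing P ht⟩)

theorem pullRR_le (B : Divisor Kbar (FN N)) {g : Om} (hg : g ∈ pullRR N N' B) :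
    g ∈ modularFunctionFieldBar N' := hg.1

theorem pullRR_mono {B B' : Divisor Kbar (FN N)} (h : ∀ P, B P ≤ B' P) :
    pullRR N N' B ≤ pullRR N N' B' := by
  rintro g ⟨h1, h2⟩
  exact ⟨h1, fun P t ht hB => h2 P t ht ((h P).trans hB)⟩

theorem mem_pullRR_of_or {B₁ B₂ B : Divisor Kbar (FN N)} {g : Om}
    (h1 : g ∈ pullRR N N' B₁) (h2 : g ∈ pullRR N N' B₂) (h : ∀ P, B₁ P ≤ B P ∨ B₂ P ≤ B P) :
    g ∈ pullRR N N' B := by
  refine ⟨h1.1, fun P t ht hB => ?_⟩
  rcases h P with h' | h'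
  · exact h1.2 P t ht (h'.trans hB)
  · exact h2.2 P t ht (h'.trans hB)

theorem mul_mem_pullRR (hle : modularFunctionFieldBar N ≤ modularFunctionFieldBar N')
    {B B' : Divisor Kbar (FN N)} {h : FN N} (hh : h ≠ 0) (hB : ∀ P, B' P = B P - P.ord h)
    {g : Om} (hg : g ∈ pullRR N N' B) : (h : Om) * g ∈ pullRR N N' B' := by
  refine ⟨mul_mem (hle h.2) hg.1, fun P t ht hBt => ?_⟩
  have h1 := hg.2 P (t * h) (mul_ne_zero ht hh) (by
    rw [P.ord_mul ht hh]
    have := hB P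
    omega)
  have e : (t : Om) * ((h : Om) * g) = ((t * h : FN N) : Om) * g := by
    push_cast
    ring
  rw [e]
  exact h1

theorem pow_mem_pullRR {B B' : Divisor Kbar (FN N)} (m : ℕ) (hB : ∀ P, B' P = m * B P)
    {s : Om} (hs : s ∈ pullRR N N' B) : s ^ m ∈ pullRR N N' B' := by
  refine ⟨pow_mem hs.1 m, fun P t ht hBt => ?_⟩
  obtain ⟨u, hu0, hu⟩ := exists_ord_eq P (B P)
  have h1 : IsIntegral (placeRing P) ((u : Om) * s) := hs.2 P u hu0 (le_of_eq hu.symm)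
  have h2 := h1.pow m
  have hu0' : (u : Om) ≠ 0 := by
    intro h0
    apply hu0
    exact Subtype.ext h0
  have hum : u ^ m ≠ 0 := pow_ne_zero m hu0
  have hmem : t * (u ^ m)⁻¹ ∈ P.toValuationSubring := by
    apply mem_of_ord_nonneg P (mul_ne_zero ht (inv_ne_zero hum))
    rw [P.ord_mul ht (inv_ne_zero hum), P.ord_inv, ord_pow, hu]
    have := hB P
    omega
  have h3 := (isIntegral_coe P hmem).mul h2
  have e : (t : Om) * s ^ m = ((t * (u ^ m)⁻¹ : FN N) : Om) * ((u : Om) * s) ^ m := by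
    push_cast
    rw [mul_pow]
    field_simp
  rw [e]
  exact h3

theorem one_mem_pullRR {B : Divisor Kbar (FN N)} (hB : ∀ P, 0 ≤ B P) :
    (1 : Om) ∈ pullRR N N' B := by
  refine ⟨one_mem _, fun P t ht hBt => ?_⟩
  rw [mul_one]
  exact isIntegral_coe P (mem_of_ord_nonneg P ht ((hB P).trans hBt))

theorem C_mul_mem_pullRR {B : Divisor Kbar (FN N)} (c : Kbar) {g : Om}
    (hg : g ∈ pullRR N N' B) : HahnSeries.C c * g ∈ pullRR N N' B := by
  rw [HahnSeries.C_mul_eq_smul]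
  exact (pullRR N N' B).smul_mem c hg

end Pull

/-! ## `WJ` -/

section WJfacts

variable (κ : Type) [Field κ]

theorem jqModC_ne_zero' : jqModC κ ≠ 0 := jqModC_ne_zero_of_nontrivial κ

theorem jqModC_mem_polyJ : jqModC κ ∈ polyJ κ :=
  Algebra.subset_adjoin (Set.mem_singleton _)

theorem jqModC_inv_mem_OinfJ : (jqModC κ)⁻¹ ∈ OinfJ κ := by
  refine ⟨?_, ?_⟩
  · show (jqModC κ)⁻¹ ∈ IntermediateField.adjoin κ {jqModC κ}
    exact inv_mem (IntermediateField.subset_adjoin κ _ (Set.mem_singleton _))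
  · have hu : PowerSeries.constantCoeff (jNum.map (Int.castRingHom κ)) ≠ 0 := by
      have : PowerSeries.constantCoeff (jNum.map (Int.castRingHom κ)) = 1 := by
        rw [← PowerSeries.coeff_zero_eq_constantCoeff_apply, PowerSeries.coeff_map,
          PowerSeries.coeff_zero_eq_constantCoeff_apply, constantCoeff_jNum]
        simp
      rw [this]
      exact one_ne_zero
    refine ⟨PowerSeries.X * (jNum.map (Int.castRingHom κ))⁻¹, ?_⟩
    symm
    apply inv_eq_of_mul_eq_one_right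
    have h1 : jqModC κ * (HahnSeries.ofPowerSeries ℤ κ)
        (PowerSeries.X * (jNum.map (Int.castRingHom κ))⁻¹) =
        HahnSeries.single (-1 : ℤ) (1 : κ) * (HahnSeries.ofPowerSeries ℤ κ)
          (jNum.map (Int.castRingHom κ) * (PowerSeries.X * (jNum.map (Int.castRingHom κ))⁻¹)) := by
      rw [jqModC, map_mul, map_mul, map_mul]
      ring
    rw [h1]
    have h2 : jNum.map (Int.castRingHom κ) * (PowerSeries.X * (jNum.map (Int.castRingHom κ))⁻¹) =
        PowerSeries.X := by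
      rw [mul_left_comm, PowerSeries.mul_inv_cancel _ hu, mul_one]
    rw [h2, HahnSeries.ofPowerSeries_X, HahnSeries.single_mul_single]
    simp

/-- elements of `OinfJ` are integral over `OinfJ`. -/
theorem isIntegral_of_mem_OinfJ {x : LaurentSeries κ} (hx : x ∈ OinfJ κ) :
    IsIntegral (OinfJ κ) x :=
  isIntegral_algebraMap (R := OinfJ κ) (x := ⟨x, hx⟩)

theorem isIntegral_of_mem_polyJ {x : LaurentSeries κ} (hx : x ∈ polyJ κ) :
    IsIntegral (polyJ κ) x :=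
  isIntegral_algebraMap (R := polyJ κ) (x := ⟨x, hx⟩)

variable {κ}
variable {L : IntermediateField κ (LaurentSeries κ)}

theorem one_mem_WJ (c : ℕ) : (1 : LaurentSeries κ) ∈ WJ κ L c := by
  refine ⟨L.one_mem, isIntegral_one, ?_⟩
  rw [mul_one]
  exact isIntegral_of_mem_OinfJ κ ((OinfJ κ).pow_mem (jqModC_inv_mem_OinfJ κ) c)

theorem jpow_mem_WJ (hj : jqModC κ ∈ L) (c : ℕ) : jqModC κ ^ c ∈ WJ κ L c := by
  refine ⟨L.pow_mem hj c, isIntegral_of_mem_polyJ κ ((polyJ κ).pow_mem (jqModC_mem_polyJ κ) c), ?_⟩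
  rw [← mul_pow, inv_mul_cancel₀ (jqModC_ne_zero' κ), one_pow]
  exact isIntegral_one

/-- (H1)/(H3): `x ∈ W c` and `j̄ ^ c x ∈ W c` imply `x ∈ W 0`. -/
theorem mem_WJ_zero {c : ℕ} {x : LaurentSeries κ} (h1 : x ∈ WJ κ L c)
    (h2 : jqModC κ ^ c * x ∈ WJ κ L c) : x ∈ WJ κ L 0 := by
  refine ⟨h1.1, h1.2.1, ?_⟩
  have h3 := h2.2.2
  rw [← mul_assoc, ← mul_pow, inv_mul_cancel₀ (jqModC_ne_zero' κ), one_pow, one_mul] at h3
  rw [pow_zero, one_mul]
  exact h3

/-- (H4): the splitting. -/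
theorem WJ_split (hj : jqModC κ ∈ L) {c n : ℕ} {x₁ x₂ : LaurentSeries κ} (h1 : x₁ ∈ WJ κ L n)
    (h2 : jqModC κ ^ n * x₂ ∈ WJ κ L n) (h12 : jqModC κ ^ c * (x₁ + x₂) ∈ WJ κ L (2 * c)) :
    x₁ ∈ WJ κ L c ∧ jqModC κ ^ c * x₂ ∈ WJ κ L c := by
  have hj0 := jqModC_ne_zero' κ
  -- `x₂` is integral over `O_∞`
  have hx₂ : IsIntegral (OinfJ κ) x₂ := by
    have h3 := h2.2.2
    rwa [← mul_assoc, ← mul_pow, inv_mul_cancel₀ hj0, one_pow, one_mul] at h3
  have hx₂L : x₂ ∈ L := by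
    have h3 : (jqModC κ ^ n)⁻¹ * (jqModC κ ^ n * x₂) ∈ L :=
      L.mul_mem (L.inv_mem (L.pow_mem hj n)) h2.1
    rwa [← mul_assoc, inv_mul_cancel₀ (pow_ne_zero n hj0), one_mul] at h3
  -- `j⁻ᶜ (x₁ + x₂)` is integral over `O_∞`
  have hx : IsIntegral (OinfJ κ) ((jqModC κ)⁻¹ ^ c * (x₁ + x₂)) := by
    have h3 := h12.2.2
    have e : (jqModC κ)⁻¹ ^ (2 * c) * (jqModC κ ^ c * (x₁ + x₂)) =
        (jqModC κ)⁻¹ ^ c * (x₁ + x₂) := by
      rw [two_mul, pow_add, mul_assoc, ← mul_assoc ((jqModC κ)⁻¹ ^ c) (jqModC κ ^ c), ← mul_pow,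
        inv_mul_cancel₀ hj0, one_pow, one_mul]
    rwa [e] at h3
  have hjc : IsIntegral (OinfJ κ) ((jqModC κ)⁻¹ ^ c) :=
    isIntegral_of_mem_OinfJ κ ((OinfJ κ).pow_mem (jqModC_inv_mem_OinfJ κ) c)
  have hjc' : IsIntegral (polyJ κ) (jqModC κ ^ c) :=
    isIntegral_of_mem_polyJ κ ((polyJ κ).pow_mem (jqModC_mem_polyJ κ) c)
  refine ⟨⟨h1.1, h1.2.1, ?_⟩, ⟨L.mul_mem (L.pow_mem hj c) hx₂L, ?_, ?_⟩⟩
  · have e : (jqModC κ)⁻¹ ^ c * x₁ = (jqModC κ)⁻¹ ^ c * (x₁ + x₂) - (jqModC κ)⁻¹ ^ c * x₂ := by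
      ring
    rw [e]
    exact hx.sub (hjc.mul hx₂)
  · have e : jqModC κ ^ c * x₂ = jqModC κ ^ c * (x₁ + x₂) - jqModC κ ^ c * x₁ := by ring
    rw [e]
    exact h12.2.1.sub (hjc'.mul h1.2.1)
  · rw [← mul_assoc, ← mul_pow, inv_mul_cancel₀ hj0, one_pow, one_mul]
    exact hx₂

end WJfacts

/-! ## The reduction data -/

section Red

variable (A : ValuationSubring Kbar)

/-- The abstract reduction datum of `LiftCore`, with the coefficientwise algebra structures on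
`Q̄((q))` and `k((q))` (so that the induced module structures are the ones of `Plan`). -/
abbrev RD : Prop :=
  @LiftCore.RedData Kbar Om (kk A) (Omk A) _ _ HahnSeries.instAlgebra _ _ HahnSeries.instAlgebra
    A (IsLocalRing.residue A) (Ocal A) (red A)

/-- `(Ocal A, red A)` is an abstract reduction datum. -/
theorem redData : RD A :=
  @LiftCore.RedData.mk Kbar Om (kk A) (Omk A) _ _ HahnSeries.instAlgebra _ _ HahnSeries.instAlgebra
    A (IsLocalRing.residue A) (Ocal A) (red A)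
    IsLocalRing.residue_surjective
    (fun a => by
      rw [IsLocalRing.residue_eq_zero_iff, IsLocalRing.mem_maximalIdeal, mem_nonunits_iff])
    (fun c => C_mem_Ocal_iff A c)
    (fun a _ => red_C A a.2)
    (fun y hy => inv_mem_Ocal A y hy)

/-- `LiftCore`'s `redSp` is `Plan.redSp`. -/
theorem redSp_eq (W : Submodule Kbar Om) :
    @LiftCore.RedData.redSp Kbar Om (kk A) (Omk A) _ _ HahnSeries.instAlgebra _ _
      HahnSeries.instAlgebra A (IsLocalRing.residue A) (Ocal A) (red A) (redData A) W =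
      redSp A W := rfl

/-- `F_n` as a `Q̄`-subspace of `Q̄((q))` (coefficientwise module structure). -/
def fieldSub (n : ℕ) : Submodule Kbar Om where
  carrier := {w | w ∈ modularFunctionFieldBar n}
  add_mem' := by
    intro a b ha hb
    exact (modularFunctionFieldBar n).add_mem ha hb
  zero_mem' := (modularFunctionFieldBar n).zero_mem
  smul_mem' := by
    intro c x hx
    show c • x ∈ modularFunctionFieldBar n
    rw [← HahnSeries.C_mul_eq_smul, ← algebraMap_LS_eq_C]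
    exact mul_mem ((modularFunctionFieldBar n).algebraMap_mem c) hx

theorem mem_fieldSub {n : ℕ} {w : Om} : w ∈ fieldSub n ↔ w ∈ modularFunctionFieldBar n := Iff.rfl

/-- Clause (d) of `RedStmt` is `LiftCore.HasDim` on `F_n`. -/
theorem hasDim (n : ℕ) (hRed : RedStmt A n) :
    @LiftCore.HasDim Kbar Om (Omk A) _ _ HahnSeries.instAlgebra _ (kk A) _ HahnSeries.instAlgebra
      (Ocal A) (red A) (fieldSub n) := by
  intro W hW hfin
  exact hRed.2.2.2.1 W (fun w hw => hW hw) hfin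

/-- **(Dim)** in `Plan` vocabulary. -/
theorem finrank_redSp (n : ℕ) (hRed : RedStmt A n) {W : Submodule Kbar Om}
    (hW : ∀ w ∈ W, w ∈ modularFunctionFieldBar n) [Module.Finite Kbar W] :
    Module.Finite (kk A) (redSp A W) ∧
      Module.finrank (kk A) (redSp A W) = Module.finrank Kbar W :=
  @LiftCore.RedData.finrank_redSp Kbar Om (kk A) (Omk A) _ _ HahnSeries.instAlgebra _ _
    HahnSeries.instAlgebra A (IsLocalRing.residue A) (Ocal A) (red A) (redData A) (fieldSub n)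
    (hasDim A n hRed) W (fun w hw => hW w hw) _

/-- **LiftCore** in `Plan` vocabulary. -/
theorem liftCore' (n : ℕ) (hRed : RedStmt A n) (V₁ V₂ V₁₂ U₁ U₂ : Submodule Kbar Om)
    (hV₁S : ∀ w ∈ V₁, w ∈ modularFunctionFieldBar n)
    (hV₂S : ∀ w ∈ V₂, w ∈ modularFunctionFieldBar n)
    (hU₁S : ∀ w ∈ U₁, w ∈ modularFunctionFieldBar n)
    (hU₂S : ∀ w ∈ U₂, w ∈ modularFunctionFieldBar n)
    [Module.Finite Kbar V₁] [Module.Finite Kbar V₂] [Module.Finite Kbar U₁] [Module.Finite Kbar U₂]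
    (hV₁ : V₁ ≤ V₁₂) (hV₂ : V₂ ≤ V₁₂)
    (f : Ocal A) (hf : red A f = 1) (m : ℕ) (hm : (m : kk A) ≠ 0)
    (H7a : ∀ s ∈ V₁, s ^ m * (f : Om) ∈ U₁) (H7b : ∀ s ∈ V₂, s ^ m * (f : Om) ∈ U₂)
    (hU₁1 : (1 : Om) ∈ U₁) (hU₂1 : (1 : Om) ∈ U₂)
    (H1a : (1 : Omk A) ∈ redSp A V₁) (H1b : (1 : Omk A) ∈ redSp A V₂)
    (H1 : ∀ x, x ∈ redSp A V₁ → x ∈ redSp A V₂ → ∃ κ : kk A, x = HahnSeries.C κ)
    (H3 : ∀ x, x ∈ redSp A U₁ → x ∈ redSp A U₂ → ∃ κ : kk A, x = HahnSeries.C κ)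
    (H4 : ∀ x, x ∈ redSp A U₁ ⊔ redSp A U₂ → x ∈ redSp A V₁₂ → x ∈ redSp A V₁ ⊔ redSp A V₂) :
    ∃ g : Om, g ∈ V₁ ∧ g ∈ V₂ ∧ g ≠ 0 := by
  have h := @LiftCore.liftCore Kbar Om (kk A) (Omk A) _ _ HahnSeries.instAlgebra _ _
    HahnSeries.instAlgebra A (IsLocalRing.residue A) (Ocal A) (red A) (redData A) (fieldSub n)
    (hasDim A n hRed) V₁ V₂ V₁₂ U₁ U₂ (fun w hw => hV₁S w hw) (fun w hw => hV₂S w hw)
    (fun w hw => hU₁S w hw) (fun w hw => hU₂S w hw) _ _ _ _ hV₁ hV₂ f hf m hm H7a H7b hU₁1 hU₂1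
    H1a H1b H1 H3 H4
  obtain ⟨g, hg, hg0⟩ := (Submodule.ne_bot_iff _).1 h
  exact ⟨g, hg.1, hg.2, hg0⟩

theorem jK_eq_iota : jK = iota A (jqModC A) := by
  rw [iota, coeffMap_jqModC]

theorem jK_mem_Ocal : jK ∈ Ocal A := by
  rw [jK_eq_iota A]
  exact iota_mem_Ocal A _

theorem red_jK : red A ⟨jK, jK_mem_Ocal A⟩ = jk A := by
  rw [red_congr A (jK_eq_iota A) (jK_mem_Ocal A) (iota_mem_Ocal A _), red_iota, rho_jA]

theorem coe_jBar (N : ℕ) [NeZero N] : ((jBar N : FN N) : Om) = jK := by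
  show coeffEmb Kbar jq = jqModC Kbar
  rw [coeffEmb, ← jqModC_rat, coeffMap_jqModC]

theorem jBar_ne_zero (N : ℕ) [NeZero N] : jBar N ≠ 0 := by
  intro h
  have := congrArg (fun x : FN N => (x : Om)) h
  simp only [coe_jBar] at this
  exact jqModC_ne_zero' Kbar this

/-- `j` as an element of `Ocal A`. -/
def jO : Ocal A := ⟨jK, jK_mem_Ocal A⟩

theorem red_jO : red A (jO A) = jk A := red_jK A

/-- `j⁻¹` as an element of `Ocal A`. -/
def jInvO : Ocal A := ⟨jK⁻¹, inv_mem_Ocal A (jO A) (by rw [red_jO]; exact jqModC_ne_zero' _)⟩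

theorem red_jInvO : red A (jInvO A) = (jk A)⁻¹ := by
  have h : jInvO A * jO A = 1 := by
    apply Subtype.ext
    show jK⁻¹ * jK = 1
    exact inv_mul_cancel₀ (jqModC_ne_zero' Kbar)
  have h2 := congrArg (red A) h
  rw [map_mul, map_one, red_jO] at h2
  exact eq_inv_of_mul_eq_one_left h2

theorem red_mul_mem (h : Ocal A) {W W' : Submodule Kbar Om}
    (hW : ∀ y ∈ W, (h : Om) * y ∈ W') {x : Omk A} (hx : x ∈ redSp A W) :
    red A h * x ∈ redSp A W' := by
  obtain ⟨y, hy, rfl⟩ := hx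
  exact ⟨h * y, hW _ hy, map_mul _ _ _⟩

end Red

end Fermat.Agent.S18.Main

end
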