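import Mathlib
import Fermat.Agent.S18.MainLemmas

/-!
# S18 — MainIncl: multiplication by powers of `j`, and (Incl) for pull-back spaces (helper18)
-/

set_option autoImplicit false
set_option maxHeartbeats 400000

noncomputable section

namespace Fermat.Agent.S18.Main

open ModularCurve AlgebraicCurve Fermat.Agent.S24 Fermat.Agent.S18.Content Fermat.Agent.S18.Plan
open Fermat.Agent.Lib

set_option synthInstance.maxHeartbeats 400000

section Assembly

variable (N N' : ℕ) [NeZero N] [NeZero N'] (A : ValuationSubring Kbar)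

/-! ## Multiplication by powers of `j` -/

omit [NeZero N'] in
theorem jpow_mul_mem (hle : modularFunctionFieldBar N ≤ modularFunctionFieldBar N')
    {B B' : Divisor Kbar (FN N)} (c : ℕ) (Dj : Divisor Kbar (FN N))
    (hDj : ∀ P, Dj P = P.ord (jBar N)) (hB : ∀ P, B' P = B P - c * Dj P) {g : Om}
    (hg : g ∈ pullRR N N' B) : jK ^ c * g ∈ pullRR N N' B' := by
  have h := mul_mem_pullRR hle (h := jBar N ^ c) (pow_ne_zero c (jBar_ne_zero N)) (B' := B')
    (fun P => by rw [hB P, ord_pow, hDj P]) hg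
  have e : ((jBar N ^ c : FN N) : Om) = jK ^ c := by
    push_cast
    rw [coe_jBar]
  rwa [e] at h

omit [NeZero N'] in
theorem jinvpow_mul_mem (hle : modularFunctionFieldBar N ≤ modularFunctionFieldBar N')
    {B B' : Divisor Kbar (FN N)} (c : ℕ) (Dj : Divisor Kbar (FN N))
    (hDj : ∀ P, Dj P = P.ord (jBar N)) (hB : ∀ P, B' P = B P + c * Dj P) {g : Om}
    (hg : g ∈ pullRR N N' B) : jK⁻¹ ^ c * g ∈ pullRR N N' B' := by
  have h := mul_mem_pullRR hle (h := (jBar N)⁻¹ ^ c)
    (pow_ne_zero c (inv_ne_zero (jBar_ne_zero N))) (B' := B')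
    (fun P => by rw [hB P, ord_pow, Place.ord_inv, hDj P]; ring) hg
  have e : (((jBar N)⁻¹ ^ c : FN N) : Om) = jK⁻¹ ^ c := by
    push_cast
    rw [coe_jBar]
  rwa [e] at h

omit [NeZero N] [NeZero N'] in
theorem red_jpow_mul (c : ℕ) {W W' : Submodule Kbar Om} (hW : ∀ y ∈ W, jK ^ c * y ∈ W')
    {x : Omk A} (hx : x ∈ redSp A W) : jk A ^ c * x ∈ redSp A W' := by
  have h := red_mul_mem A (jO A ^ c) (W := W) (W' := W') (fun y hy => hW y hy) hx
  rwa [map_pow, red_jO] at h

omit [NeZero N] [NeZero N'] in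
theorem red_jinvpow_mul (c : ℕ) {W W' : Submodule Kbar Om} (hW : ∀ y ∈ W, jK⁻¹ ^ c * y ∈ W')
    {x : Omk A} (hx : x ∈ redSp A W) : (jk A)⁻¹ ^ c * x ∈ redSp A W' := by
  have h := red_mul_mem A (jInvO A ^ c) (W := W) (W' := W') (fun y hy => hW y hy) hx
  rwa [map_pow, red_jInvO] at h

/-! ## (Incl): the reduction of a pull-back space lies in `WJ` -/

omit [NeZero N'] in
theorem red_mem_WJ (hRedN' : RedStmt A N') (hChar : CharStmt A N N') (hIncl : InclF A N)
    (r : Place Kbar (FN N) → Place (kk A) (Fk A N))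
    (hr : IsPlaceReductionAlong A (IsLocalRing.residue A) N r)
    (Cp : Divisor Kbar (FN N)) (hCp : ∀ P, Cp P = max 0 (-(P.ord (jBar N))))
    (E : Divisor Kbar (FN N)) (hE : Finsupp.mapDomain r E = 0) (c : ℕ)
    (g : Ocal A) (hg : (g : Om) ∈ pullRR N N' (E + c • Cp)) :
    red A g ∈ WJ (kk A) (Fk A N') c := by
  obtain ⟨χ, hmonic, -, hroot, hcoef, hO, -⟩ := hChar (E + c • Cp) g hg
  -- the polynomial over `Ocal`
  have hl : χ.map (algebraMap (FN N) Om) ∈ Polynomial.lifts (Ocal A).subtype := by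
    rw [Polynomial.lifts_iff_coeff_lifts]
    intro i
    rw [Polynomial.coeff_map]
    exact ⟨⟨_, hO i⟩, rfl⟩
  obtain ⟨χO, hχO, hdegO, hmonicO⟩ :=
    Polynomial.lifts_and_natDegree_eq_and_monic hl (hmonic.map _)
  have hcoeffO : ∀ i, ((χO.coeff i : Ocal A) : Om) = ((χ.coeff i : FN N) : Om) := by
    intro i
    have h1 := congrArg (fun p => Polynomial.coeff p i) hχO
    simpa [Polynomial.coeff_map] using h1
  have hdegO' : χO.natDegree = χ.natDegree := by
    rw [hdegO, hmonic.natDegree_map]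
  have hrootO : χO.eval g = 0 := by
    apply Subtype.ext
    have h1 : ((χO.eval g : Ocal A) : Om) = (χO.map (Ocal A).subtype).eval (g : Om) := by
      rw [Polynomial.eval_map]
      exact (Polynomial.eval₂_hom (Ocal A).subtype g).symm
    rw [h1, hχO, Polynomial.eval_map, ← Polynomial.aeval_def]
    exact hroot
  have hmonick : (χO.map (red A)).Monic := hmonicO.map _
  have hdegk : (χO.map (red A)).natDegree = χ.natDegree := by
    rw [hmonicO.natDegree_map, hdegO']
  have hrootk : (χO.map (red A)).eval (red A g) = 0 := by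
    rw [Polynomial.eval_map, Polynomial.eval₂_hom, hrootO, map_zero]
  -- coefficients
  have hcoeffk : ∀ i, i ≤ χ.natDegree →
      (χO.map (red A)).coeff (χ.natDegree - i) ∈ WJ (kk A) (Fk A N) (i * c) := by
    intro i hi
    have ha := hcoef i hi
    have e : i • (E + c • Cp) = i • E + (i * c) • Cp := by rw [smul_add, mul_smul]
    rw [e] at ha
    have hE' : Finsupp.mapDomain r (i • E) = 0 := by
      rw [Finsupp.mapDomain_smul, hE, smul_zero]
    have h1 := hIncl r hr (i • E) Cp (i * c) hCp hE' _ ha (hO _)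
    have e2 : (χO.map (red A)).coeff (χ.natDegree - i) = red A ⟨_, hO (χ.natDegree - i)⟩ := by
      rw [Polynomial.coeff_map]
      exact congrArg (red A) (Subtype.ext (hcoeffO _))
    rw [e2]
    exact h1
  have hzero : ∀ i, χ.natDegree < i → (χO.map (red A)).coeff i = 0 := by
    intro i hi
    apply Polynomial.coeff_eq_zero_of_natDegree_lt
    rw [hdegk]
    exact hi
  refine ⟨hRedN'.2.1 g (pullRR_le _ hg), ?_, ?_⟩
  · apply OrthoDesc.isIntegral_of_monic_root (χO.map (red A)) hmonick _ (red A g) hrootk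
    intro i
    rcases le_or_gt i χ.natDegree with hi | hi
    · have h1 := hcoeffk (χ.natDegree - i) (Nat.sub_le _ _)
      rw [Nat.sub_sub_self hi] at h1
      exact h1.2.1
    · rw [hzero i hi]
      exact isIntegral_zero
  · apply OrthoDesc.isIntegral_mul_of_monic_root (χO.map (red A)) hmonick
      ((jqModC (kk A))⁻¹ ^ c) _ (red A g) hrootk
    intro i
    rcases le_or_gt i χ.natDegree with hi | hi
    · have h1 := hcoeffk (χ.natDegree - i) (Nat.sub_le _ _)
      rw [Nat.sub_sub_self hi] at h1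
      have h3 := h1.2.2
      rw [hdegk, ← pow_mul, mul_comm c, mul_comm ((χO.map (red A)).coeff i)]
      exact h3
    · rw [hzero i hi, zero_mul]
      exact isIntegral_zero

end Assembly

end Fermat.Agent.S18.Main

end
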