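import Mathlib
import Fermat.Agent.S18.MainIncl
import Fermat.Agent.Lib.FFPoles

/-!
# S18 — MainDesc: step 4 of the assembly, the descent (helper18)

`exists_pow_principal`: if `r_* D₁ = 0`, `deg D₁ = 0` and `pullRR N N' D₁ ≠ 0`, then
`ℓ ^ b • D₁` is principal for some `b`.
-/

set_option autoImplicit false
set_option maxHeartbeats 400000

noncomputable section

namespace Fermat.Agent.S18.Main

open ModularCurve AlgebraicCurve Fermat.Agent.S24 Fermat.Agent.S18.Content Fermat.Agent.S18.Plan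
open Fermat.Agent.Lib

set_option synthInstance.maxHeartbeats 400000

section Assembly

variable (N N' : ℕ) [NeZero N] [NeZero N'] (A : ValuationSubring Kbar)

set_option maxHeartbeats 400000 in
omit [NeZero N'] in
theorem exists_pow_principal (ℓ : ℕ) [Fact ℓ.Prime] [CharP (kk A) ℓ] (hψ' : 0 < dedekindPsi N')
    (hRedN' : RedStmt A N') (hChar0 : Char0Stmt N) (hChar : CharStmt A N N') (hIncl : InclF A N)
    (hConstW : ConstW A N')
    (r : Place Kbar (FN N) → Place (kk A) (Fk A N))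
    (hr : IsPlaceReductionAlong A (IsLocalRing.residue A) N r)
    (D₁ : Divisor Kbar (FN N)) (hdeg : Divisor.degree D₁ = 0)
    (hD₁r : Finsupp.mapDomain r D₁ = 0)
    (g : Om) (hg : g ∈ pullRR N N' D₁) (hg0 : g ≠ 0) :
    ∃ b : ℕ, (ℓ ^ b) • D₁ ∈ Divisor.principal (K := Kbar) (F := FN N) := by
  obtain ⟨hdeg1, hdiv0, Cp, hCp, -⟩ := hChar0
  -- scale `g`
  obtain ⟨c, hc, hcO, hcred⟩ := hRedN'.1 g hg.1 hg0
  have hg₀ : HahnSeries.C c * g ∈ pullRR N N' D₁ := C_mul_mem_pullRR c hg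
  have hg₀' : HahnSeries.C c * g ∈ pullRR N N' (D₁ + 0 • Cp) := by
    rw [zero_smul, add_zero]
    exact hg₀
  have hW0 := red_mem_WJ N N' A hRedN' hChar hIncl r hr Cp hCp D₁ hD₁r 0 ⟨_, hcO⟩ hg₀'
  obtain ⟨κ, hκ⟩ := hConstW _ hW0
  have hκ0 : κ ≠ 0 := by
    rintro rfl
    apply hcred
    rw [hκ, map_zero]
  obtain ⟨a, ha⟩ := IsLocalRing.residue_surjective (R := A) κ⁻¹
  -- `g₁ = a g₀`, `red g₁ = 1`
  obtain ⟨g₁, hg₁def⟩ : ∃ g₁ : Ocal A, g₁ = constO A a * ⟨HahnSeries.C c * g, hcO⟩ := ⟨_, rfl⟩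
  have hg₁ : (g₁ : Om) ∈ pullRR N N' D₁ := by
    rw [hg₁def, Subring.coe_mul, coe_constO]
    exact C_mul_mem_pullRR _ hg₀
  have hg₁red : red A g₁ = 1 := by
    rw [hg₁def, map_mul, red_constO, ha, hκ, ← map_mul, inv_mul_cancel₀ hκ0, map_one]
  clear hg₁def
  obtain ⟨χ, hmonic, hdegχ, -, hcoef, hO, hred⟩ := hChar D₁ g₁ hg₁
  have hred' := hred hg₁red
  have hd : 0 < χ.natDegree := by
    rcases Nat.eq_zero_or_pos χ.natDegree with h | h
    · rw [h, zero_mul] at hdegχ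
      omega
    · exact h
  obtain ⟨b, hbd, hbpos, hbch⟩ := OrthoDesc.exists_pow_dvd_not_dvd_choose ℓ χ.natDegree hd
  have hble : ℓ ^ b ≤ χ.natDegree := Nat.le_of_dvd hd hbd
  refine ⟨b, ?_⟩
  -- the coefficient of `X ^ (d - ℓ ^ b)` of `(X - 1) ^ d` is non-zero in `k`
  have hcoefk : ((Polynomial.X - Polynomial.C (1 : kk A)) ^ χ.natDegree).coeff
      (χ.natDegree - ℓ ^ b) ≠ 0 := by
    rw [sub_eq_add_neg, ← Polynomial.C_neg, Polynomial.coeff_X_add_C_pow, Nat.sub_sub_self hble,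
      Nat.choose_symm hble]
    apply mul_ne_zero
    · exact pow_ne_zero _ (neg_ne_zero.mpr one_ne_zero)
    · rw [Ne, CharP.cast_eq_zero_iff (kk A) ℓ]
      exact hbch
  have ha0 : χ.coeff (χ.natDegree - ℓ ^ b) ≠ 0 := by
    intro h0
    apply hcoefk
    have h1 := hred' (χ.natDegree - ℓ ^ b)
    have h2 : (⟨((χ.coeff (χ.natDegree - ℓ ^ b) : FN N) : Om), hO _⟩ : Ocal A) = 0 :=
      Subtype.ext (by
        show ((χ.coeff (χ.natDegree - ℓ ^ b) : FN N) : Om) = 0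
        rw [h0]
        rfl)
    rw [h2, map_zero] at h1
    exact HahnSeries.C_injective (by rw [← h1, map_zero])
  have hmem := hcoef (ℓ ^ b) hble
  obtain ⟨Da, hDa, hDadeg⟩ := hdiv0 _ ha0
  have hE : Da + (ℓ ^ b) • D₁ = 0 := by
    apply FFPoles.eq_zero_of_nonneg_of_degree_eq_zero
    · intro P
      rw [Finsupp.add_apply, hDa]
      have h1 := (mem_riemannRochSpace_iff.mp hmem P).resolve_left ha0
      linarith
    · intro P
      rw [hdeg1]
      exact one_pos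
    · rw [map_add, map_nsmul, hDadeg, hdeg, smul_zero, add_zero]
  have h3 : (ℓ ^ b) • D₁ = -Da := eq_neg_of_add_eq_zero_right hE
  rw [h3]
  exact neg_mem ⟨_, ha0, hDa⟩

end Assembly

end Fermat.Agent.S18.Main

end
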