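import Mathlib
import Fermat.Agent.S18.MainIncl

/-!
# S18 — MainLift: step 3 of the assembly, the lifting step (helper18)

`exists_section`: if `r_* D₁ = 0`, `deg D₁ = 0` and `m D₁ = div f` with `red f = 1`, `ℓ ∤ m`, then
the pull-back space `pullRR N N' D₁` is non-zero.
-/

set_option autoImplicit false
set_option maxHeartbeats 400000

noncomputable section

namespace Fermat.Agent.S18.Main

open ModularCurve AlgebraicCurve Fermat.Agent.S24 Fermat.Agent.S18.Content Fermat.Agent.S18.Plan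
open Fermat.Agent.Lib

set_option synthInstance.maxHeartbeats 400000

section Assembly

variable (N N' : ℕ) [NeZero N] [NeZero N'] (A : ValuationSubring Kbar)

set_option maxHeartbeats 1600000 in
omit [NeZero N'] in
theorem exists_section (hle : modularFunctionFieldBar N ≤ modularFunctionFieldBar N')
    (hψ : 0 < dedekindPsi N)
    (hRedN' : RedStmt A N') (hChar0 : Char0Stmt N) (hChar : CharStmt A N N') (hRR0 : RR0 N N')
    (hRRl : RRl A N') (hIncl : InclF A N) (hConstW : ConstW A N')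
    (r : Place Kbar (FN N) → Place (kk A) (Fk A N))
    (hr : IsPlaceReductionAlong A (IsLocalRing.residue A) N r)
    (m : ℕ) (hm : (m : kk A) ≠ 0) (D₁ : Divisor Kbar (FN N)) (hdeg : Divisor.degree D₁ = 0)
    (hD₁r : Finsupp.mapDomain r D₁ = 0)
    (f : FN N) (hfO : (f : Om) ∈ Ocal A) (hf0 : f ≠ 0) (hfred : red A ⟨_, hfO⟩ = 1)
    (hfdiv : ∀ P : Place Kbar (FN N), (m • D₁) P = P.ord f) :
    ∃ g : Om, g ∈ pullRR N N' D₁ ∧ g ≠ 0 := by
  obtain ⟨-, hdiv0, Cp, hCp, hCpdeg⟩ := hChar0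
  obtain ⟨Dj, hDj, -⟩ := hdiv0 (jBar N) (jBar_ne_zero N)
  obtain ⟨c, hc⟩ := hRRl
  obtain ⟨hWfin, hWdim⟩ := hc c le_rfl
  -- pointwise facts
  have hCp0 : ∀ P, 0 ≤ Cp P := fun P => by rw [hCp]; exact le_max_left _ _
  have hCz0 : ∀ P, 0 ≤ Cp P + Dj P := fun P => by rw [hCp, hDj]; omega
  have hmin : ∀ P, Cp P = 0 ∨ Cp P + Dj P = 0 := fun P => by rw [hCp, hDj]; omega
  have hfdiv' : ∀ P : Place Kbar (FN N), P.ord f = m * D₁ P := fun P => by
    rw [← hfdiv P, Finsupp.smul_apply, nsmul_eq_mul]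
  -- multiplication by powers of `j`
  have hV₂V₁ : ∀ y ∈ pullRR N N' (D₁ + c • Cp + c • Dj), jK ^ c * y ∈ pullRR N N' (D₁ + c • Cp) :=
    fun y hy => jpow_mul_mem N N' hle c Dj hDj (fun P => by
      simp only [Finsupp.add_apply, Finsupp.smul_apply, nsmul_eq_mul]
      ring) hy
  have hV₁V₂ : ∀ y ∈ pullRR N N' (D₁ + c • Cp), jK⁻¹ ^ c * y ∈ pullRR N N' (D₁ + c • Cp + c • Dj) :=
    fun y hy => jinvpow_mul_mem N N' hle c Dj hDj (fun P => by
      simp only [Finsupp.add_apply, Finsupp.smul_apply, nsmul_eq_mul]) hy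
  have hV₁₂V₃ : ∀ y ∈ pullRR N N' (D₁ + (2 * c) • Cp + c • Dj),
      jK ^ c * y ∈ pullRR N N' (D₁ + (2 * c) • Cp) :=
    fun y hy => jpow_mul_mem N N' hle c Dj hDj (fun P => by
      simp only [Finsupp.add_apply, Finsupp.smul_apply, nsmul_eq_mul]
      ring) hy
  have hU₂U₁ : ∀ y ∈ pullRR N N' ((0 : Divisor Kbar (FN N)) + (m * c) • Cp + (m * c) • Dj),
      jK ^ (m * c) * y ∈ pullRR N N' ((0 : Divisor Kbar (FN N)) + (m * c) • Cp) :=
    fun y hy => jpow_mul_mem N N' hle (m * c) Dj hDj (fun P => by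
      simp only [Finsupp.add_apply, Finsupp.smul_apply, nsmul_eq_mul]
      ring) hy
  -- inclusions
  have hincl₁ : redSp A (pullRR N N' (D₁ + c • Cp)) ≤ WJ (kk A) (Fk A N') c := by
    rintro x ⟨y, hy, rfl⟩
    exact red_mem_WJ N N' A hRedN' hChar hIncl r hr Cp hCp D₁ hD₁r c y hy
  have hincl₃ : redSp A (pullRR N N' (D₁ + (2 * c) • Cp)) ≤ WJ (kk A) (Fk A N') (2 * c) := by
    rintro x ⟨y, hy, rfl⟩
    exact red_mem_WJ N N' A hRedN' hChar hIncl r hr Cp hCp D₁ hD₁r (2 * c) y hy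
  have hinclU : redSp A (pullRR N N' ((0 : Divisor Kbar (FN N)) + (m * c) • Cp)) ≤
      WJ (kk A) (Fk A N') (m * c) := by
    rintro x ⟨y, hy, rfl⟩
    exact red_mem_WJ N N' A hRedN' hChar hIncl r hr Cp hCp 0 Finsupp.mapDomain_zero (m * c) y hy
  -- the dimension count
  have hfin₁ : Module.Finite Kbar (pullRR N N' (D₁ + c • Cp)) := (hRR0 _).1
  have hineq := (hRR0 (D₁ + c • Cp)).2
  have hdegB : Divisor.degree (D₁ + c • Cp) = c * dedekindPsi N := by
    rw [map_add, map_nsmul, hdeg, hCpdeg, zero_add, nsmul_eq_mul]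
  rw [hdegB] at hineq
  obtain ⟨hfinr, hdimr⟩ := finrank_redSp A N' hRedN' (W := pullRR N N' (D₁ + c • Cp))
    (fun w hw => hw.1)
  have := hWfin
  have heq₁ : redSp A (pullRR N N' (D₁ + c • Cp)) = WJ (kk A) (Fk A N') c := by
    apply Submodule.eq_of_le_of_finrank_le hincl₁
    rw [hdimr]
    have hψ' : (0 : ℤ) < dedekindPsi N := by exact_mod_cast hψ
    have h1 := mul_le_mul_of_nonneg_left hWdim hψ'.le
    have h2 : (dedekindPsi N : ℤ) * (Module.finrank (kk A) (WJ (kk A) (Fk A N') c) : ℤ) ≤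
        (dedekindPsi N : ℤ) * (Module.finrank Kbar (pullRR N N' (D₁ + c • Cp)) : ℤ) := by
      nlinarith
    exact_mod_cast le_of_mul_le_mul_left h2 hψ'
  -- hypotheses of LiftCore
  have : Module.Finite Kbar (pullRR N N' (D₁ + c • Cp + c • Dj)) := (hRR0 _).1
  have : Module.Finite Kbar (pullRR N N' ((0 : Divisor Kbar (FN N)) + (m * c) • Cp)) :=
    (hRR0 _).1
  have : Module.Finite Kbar
      (pullRR N N' ((0 : Divisor Kbar (FN N)) + (m * c) • Cp + (m * c) • Dj)) := (hRR0 _).1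
  have hle₁ : pullRR N N' (D₁ + c • Cp) ≤ pullRR N N' (D₁ + (2 * c) • Cp + c • Dj) :=
    pullRR_mono (fun P => by
      simp only [Finsupp.add_apply, Finsupp.smul_apply, nsmul_eq_mul, Nat.cast_mul, Nat.cast_ofNat]
      have := mul_nonneg (Nat.cast_nonneg (α := ℤ) c) (hCz0 P)
      nlinarith)
  have hle₂ : pullRR N N' (D₁ + c • Cp + c • Dj) ≤ pullRR N N' (D₁ + (2 * c) • Cp + c • Dj) :=
    pullRR_mono (fun P => by
      simp only [Finsupp.add_apply, Finsupp.smul_apply, nsmul_eq_mul, Nat.cast_mul, Nat.cast_ofNat]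
      have := mul_nonneg (Nat.cast_nonneg (α := ℤ) c) (hCp0 P)
      nlinarith)
  have H7a : ∀ s ∈ pullRR N N' (D₁ + c • Cp),
      s ^ m * (f : Om) ∈ pullRR N N' ((0 : Divisor Kbar (FN N)) + (m * c) • Cp) := by
    intro s hs
    have h1 := pow_mem_pullRR (N' := N') m (B' := m • (D₁ + c • Cp))
      (fun P => by rw [Finsupp.smul_apply, nsmul_eq_mul]) hs
    have h2 := mul_mem_pullRR hle hf0 (B' := (0 : Divisor Kbar (FN N)) + (m * c) • Cp)
      (fun P => by
        rw [hfdiv' P]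
        simp only [Finsupp.add_apply, Finsupp.smul_apply, nsmul_eq_mul, Finsupp.zero_apply,
          Nat.cast_mul]
        ring) h1
    rw [mul_comm (s ^ m) (f : Om)]
    exact h2
  have H7b : ∀ s ∈ pullRR N N' (D₁ + c • Cp + c • Dj),
      s ^ m * (f : Om) ∈
        pullRR N N' ((0 : Divisor Kbar (FN N)) + (m * c) • Cp + (m * c) • Dj) := by
    intro s hs
    have h1 := pow_mem_pullRR (N' := N') m (B' := m • (D₁ + c • Cp + c • Dj))
      (fun P => by rw [Finsupp.smul_apply, nsmul_eq_mul]) hs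
    have h2 := mul_mem_pullRR hle hf0
      (B' := (0 : Divisor Kbar (FN N)) + (m * c) • Cp + (m * c) • Dj)
      (fun P => by
        rw [hfdiv' P]
        simp only [Finsupp.add_apply, Finsupp.smul_apply, nsmul_eq_mul, Finsupp.zero_apply,
          Nat.cast_mul]
        ring) h1
    rw [mul_comm (s ^ m) (f : Om)]
    exact h2
  have hU₁1 : (1 : Om) ∈ pullRR N N' ((0 : Divisor Kbar (FN N)) + (m * c) • Cp) :=
    one_mem_pullRR (fun P => by
      simp only [Finsupp.add_apply, Finsupp.smul_apply, nsmul_eq_mul, Finsupp.zero_apply, zero_add]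
      exact mul_nonneg (Nat.cast_nonneg _) (hCp0 P))
  have hU₂1 : (1 : Om) ∈
      pullRR N N' ((0 : Divisor Kbar (FN N)) + (m * c) • Cp + (m * c) • Dj) :=
    one_mem_pullRR (fun P => by
      simp only [Finsupp.add_apply, Finsupp.smul_apply, nsmul_eq_mul, Finsupp.zero_apply, zero_add]
      rw [← mul_add]
      exact mul_nonneg (Nat.cast_nonneg _) (hCz0 P))
  have hj0 := jqModC_ne_zero' (kk A)
  have hjL : jqModC (kk A) ∈ Fk A N' := jqModC_mem_full (kk A) N'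
  have H1a : (1 : Omk A) ∈ redSp A (pullRR N N' (D₁ + c • Cp)) := by
    rw [heq₁]
    exact one_mem_WJ c
  have H1b : (1 : Omk A) ∈ redSp A (pullRR N N' (D₁ + c • Cp + c • Dj)) := by
    have h3 : jk A ^ c ∈ redSp A (pullRR N N' (D₁ + c • Cp)) := by
      rw [heq₁]
      exact jpow_mem_WJ hjL c
    have h4 := red_jinvpow_mul A c hV₁V₂ h3
    rwa [← mul_pow, inv_mul_cancel₀ hj0, one_pow] at h4
  have H1 : ∀ x, x ∈ redSp A (pullRR N N' (D₁ + c • Cp)) →
      x ∈ redSp A (pullRR N N' (D₁ + c • Cp + c • Dj)) → ∃ κ : kk A, x = HahnSeries.C κ := by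
    intro x hx1 hx2
    have h1 := hincl₁ hx1
    have h2 := hincl₁ (red_jpow_mul A c hV₂V₁ hx2)
    exact hConstW x (mem_WJ_zero h1 h2)
  have H3 : ∀ x, x ∈ redSp A (pullRR N N' ((0 : Divisor Kbar (FN N)) + (m * c) • Cp)) →
      x ∈ redSp A (pullRR N N' ((0 : Divisor Kbar (FN N)) + (m * c) • Cp + (m * c) • Dj)) →
      ∃ κ : kk A, x = HahnSeries.C κ := by
    intro x hx1 hx2
    have h1 := hinclU hx1
    have h2 := hinclU (red_jpow_mul A (m * c) hU₂U₁ hx2)
    exact hConstW x (mem_WJ_zero h1 h2)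
  have H4 : ∀ x, x ∈ redSp A (pullRR N N' ((0 : Divisor Kbar (FN N)) + (m * c) • Cp)) ⊔
        redSp A (pullRR N N' ((0 : Divisor Kbar (FN N)) + (m * c) • Cp + (m * c) • Dj)) →
      x ∈ redSp A (pullRR N N' (D₁ + (2 * c) • Cp + c • Dj)) →
      x ∈ redSp A (pullRR N N' (D₁ + c • Cp)) ⊔
        redSp A (pullRR N N' (D₁ + c • Cp + c • Dj)) := by
    intro x hx hx12
    obtain ⟨x₁, hx₁, x₂, hx₂, rfl⟩ := Submodule.mem_sup.1 hx
    have h1 := hinclU hx₁
    have h2 := hinclU (red_jpow_mul A (m * c) hU₂U₁ hx₂)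
    have h12 := hincl₃ (red_jpow_mul A c hV₁₂V₃ hx12)
    obtain ⟨hw1, hw2⟩ := WJ_split hjL h1 h2 h12
    rw [← heq₁] at hw1 hw2
    have h4 := red_jinvpow_mul A c hV₁V₂ hw2
    rw [← mul_assoc, ← mul_pow, inv_mul_cancel₀ hj0, one_pow, one_mul] at h4
    exact Submodule.add_mem_sup hw1 h4
  obtain ⟨g, hg1, hg2, hg0⟩ := liftCore' A N' hRedN'
    (pullRR N N' (D₁ + c • Cp)) (pullRR N N' (D₁ + c • Cp + c • Dj))
    (pullRR N N' (D₁ + (2 * c) • Cp + c • Dj))
    (pullRR N N' ((0 : Divisor Kbar (FN N)) + (m * c) • Cp))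
    (pullRR N N' ((0 : Divisor Kbar (FN N)) + (m * c) • Cp + (m * c) • Dj))
    (fun w hw => hw.1) (fun w hw => hw.1) (fun w hw => hw.1) (fun w hw => hw.1)
    hle₁ hle₂ ⟨(f : Om), hfO⟩ hfred m hm H7a H7b hU₁1 hU₂1 H1a H1b H1 H3 H4
  refine ⟨g, mem_pullRR_of_or hg1 hg2 (fun P => ?_), hg0⟩
  simp only [Finsupp.add_apply, Finsupp.smul_apply, nsmul_eq_mul]
  rcases hmin P with h | h
  · left
    rw [h, mul_zero, add_zero]
  · right
    rw [add_assoc, ← mul_add, h, mul_zero, add_zero]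

end Assembly

end Fermat.Agent.S18.Main

end
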