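import Mathlib
import Fermat.Agent.S18.MainLemmas

/-!
# S18 — MainSteps: steps 1 and 2 of the assembly (helper18)
-/

set_option autoImplicit false
set_option maxHeartbeats 400000

noncomputable section

namespace Fermat.Agent.S18.Main

open ModularCurve AlgebraicCurve Fermat.Agent.S24 Fermat.Agent.S18.Content Fermat.Agent.S18.Plan
open Fermat.Agent.Lib

set_option synthInstance.maxHeartbeats 400000

section CMul

variable {N : ℕ}

/-! ## Constant multiples in `F_N` -/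

/-- `a • x` in `F_N`, with underlying series `C a * x`. -/
def cmul (a : Kbar) (x : FN N) : FN N :=
  ⟨HahnSeries.C a * (x : Om), by
    rw [← algebraMap_LS_eq_C]
    exact mul_mem ((modularFunctionFieldBar N).algebraMap_mem a) x.2⟩

theorem coe_cmul (a : Kbar) (x : FN N) : ((cmul a x : FN N) : Om) = HahnSeries.C a * (x : Om) :=
  rfl

theorem cmul_eq (a : Kbar) (x : FN N) : cmul a x = algebraMap Kbar (FN N) a * x := by
  apply Subtype.ext
  rw [coe_cmul, ← algebraMap_LS_eq_C]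
  rfl

theorem cmul_ne_zero {a : Kbar} (ha : a ≠ 0) {x : FN N} (hx : x ≠ 0) : cmul a x ≠ 0 := by
  rw [cmul_eq]
  exact mul_ne_zero (by rw [Ne, map_eq_zero]; exact ha) hx

theorem ord_cmul (P : Place Kbar (FN N)) {a : Kbar} (ha : a ≠ 0) {x : FN N} (hx : x ≠ 0) :
    P.ord (cmul a x) = P.ord x := by
  rw [cmul_eq, ord_algebraMap_mul P ha hx]

end CMul

section Assembly

variable (N : ℕ) [NeZero N] (A : ValuationSubring Kbar)

/-! ## Step 1: removing the reduction -/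

theorem exists_Dg (hRedN : RedStmt A N) (hUnit : UnitDiv A N) (hChar0 : Char0Stmt N)
    (r : Place Kbar (FN N) → Place (kk A) (Fk A N))
    (hr : IsPlaceReductionAlong A (IsLocalRing.residue A) N r)
    (D : Divisor Kbar (FN N))
    (hrD : Finsupp.mapDomain r D ∈ Divisor.principal (K := kk A) (F := Fk A N)) :
    ∃ Dg : Divisor Kbar (FN N), Dg ∈ Divisor.principal (K := Kbar) (F := FN N) ∧
      Divisor.degree Dg = 0 ∧ Finsupp.mapDomain r (D - Dg) = 0 := by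
  obtain ⟨gb, hgb0, hgb⟩ := hrD
  obtain ⟨y, hyF, hyred⟩ := hRedN.2.2.1 (gb : Omk A) gb.2
  have hyne : red A y ≠ 0 := by
    rw [hyred]
    intro h
    exact hgb0 (Subtype.ext h)
  have hg0 : (⟨(y : Om), hyF⟩ : FN N) ≠ 0 := by
    intro h
    apply hyne
    have h1 : (y : Om) = 0 := congrArg (fun z : FN N => (z : Om)) h
    have h2 : y = 0 := Subtype.ext h1
    rw [h2, map_zero]
  obtain ⟨Dg, hDg, hdeg⟩ := hChar0.2.1 ⟨(y : Om), hyF⟩ hg0
  refine ⟨Dg, ⟨_, hg0, hDg⟩, hdeg, ?_⟩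
  have hk : red A ⟨(y : Om), y.2⟩ ∈ Fk A N := by
    have e : (⟨(y : Om), y.2⟩ : Ocal A) = y := rfl
    rw [e, hyred]
    exact gb.2
  have hU := hUnit r hr ⟨(y : Om), hyF⟩ y.2 hk hyne Dg hDg
  have h1 : Finsupp.mapDomain r Dg = Finsupp.mapDomain r D := by
    ext Q
    rw [hU Q, hgb Q]
    congr 1
    exact Subtype.ext hyred
  have hsub : Finsupp.mapDomain r (D - Dg) = Finsupp.mapDomain r D - Finsupp.mapDomain r Dg :=
    map_sub (Finsupp.mapDomain.addMonoidHom r) D Dg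
  rw [hsub, h1, sub_self]

/-! ## Step 2: the function `f` with `div f = m D₁`, `red f = 1` -/

omit [NeZero N] in
theorem exists_f (hRedN : RedStmt A N) (hUnit : UnitDiv A N) (hConstF : ConstF A N)
    (r : Place Kbar (FN N) → Place (kk A) (Fk A N))
    (hr : IsPlaceReductionAlong A (IsLocalRing.residue A) N r)
    (m : ℕ) (D₁ : Divisor Kbar (FN N)) (hD₁r : Finsupp.mapDomain r D₁ = 0)
    (hmD₁ : m • D₁ ∈ Divisor.principal (K := Kbar) (F := FN N)) :
    ∃ (f : FN N) (hf : (f : Om) ∈ Ocal A), f ≠ 0 ∧ red A ⟨_, hf⟩ = 1 ∧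
      ∀ P : Place Kbar (FN N), (m • D₁) P = P.ord f := by
  obtain ⟨f₀, hf₀, hdiv⟩ := hmD₁
  obtain ⟨c, hc, hcO, hcred⟩ := hRedN.1 (f₀ : Om) f₀.2 (fun h => hf₀ (Subtype.ext h))
  -- `f₁ = c f₀`
  have hf₁0 : cmul c f₀ ≠ 0 := cmul_ne_zero hc hf₀
  have hf₁k : red A ⟨HahnSeries.C c * (f₀ : Om), hcO⟩ ∈ Fk A N :=
    hRedN.2.1 ⟨_, hcO⟩ (cmul c f₀).2
  have hord₁ : ∀ P : Place Kbar (FN N), (m • D₁) P = P.ord (cmul c f₀) :=
    fun P => by rw [hdiv P, ord_cmul P hc hf₀]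
  have hU := hUnit r hr (cmul c f₀) hcO hf₁k hcred (m • D₁) hord₁
  have hzero : ∀ Q : Place (kk A) (Fk A N),
      Q.ord (⟨red A ⟨HahnSeries.C c * (f₀ : Om), hcO⟩, hf₁k⟩ : Fk A N) = 0 := by
    intro Q
    have h1 := hU Q
    rw [Finsupp.mapDomain_smul, hD₁r, smul_zero, Finsupp.zero_apply] at h1
    exact h1.symm
  obtain ⟨κ, hκ⟩ := hConstF ⟨_, hf₁k⟩ (fun h => hcred (congrArg Subtype.val h)) hzero
  have hκ' : red A ⟨HahnSeries.C c * (f₀ : Om), hcO⟩ = HahnSeries.C κ := hκ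
  have hκ0 : κ ≠ 0 := by
    rintro rfl
    apply hcred
    rw [hκ', map_zero]
  obtain ⟨a, ha⟩ := IsLocalRing.residue_surjective (R := A) κ⁻¹
  have ha0 : (a : Kbar) ≠ 0 := by
    intro h0
    have h1 : a = 0 := Subtype.ext h0
    rw [h1, map_zero] at ha
    exact inv_ne_zero hκ0 ha.symm
  have hmem : HahnSeries.C (a : Kbar) * (HahnSeries.C c * (f₀ : Om)) ∈ Ocal A :=
    (Ocal A).mul_mem (C_mem_Ocal A a.2) hcO
  refine ⟨cmul (a : Kbar) (cmul c f₀), hmem, cmul_ne_zero ha0 hf₁0, ?_, ?_⟩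
  · have e : (⟨HahnSeries.C (a : Kbar) * (HahnSeries.C c * (f₀ : Om)), hmem⟩ : Ocal A) =
        constO A a * ⟨_, hcO⟩ := by
      apply Subtype.ext
      rw [Subring.coe_mul, coe_constO]
    show red A ⟨HahnSeries.C (a : Kbar) * (HahnSeries.C c * (f₀ : Om)), hmem⟩ = 1
    rw [e, map_mul, red_constO, ha, hκ', ← map_mul, inv_mul_cancel₀ hκ0, map_one]
  · intro P
    rw [ord_cmul P ha0 hf₁0]
    exact hord₁ P

end Assembly

end Fermat.Agent.S18.Main

end
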