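import Mathlib
import Fermat.Agent.S18.MainSteps
import Fermat.Agent.S18.MainLift
import Fermat.Agent.S18.MainDesc

/-!
# S18 — Main: `DivCore` from the contracts of `Plan` (owner: helper18)

`divCore : Plan.DivCore A N ℓ` from `RedStmt` (levels `N` and `N'`), `UnitDiv`, `Char0Stmt`,
`CharStmt`, `RR0`, `RRl`, `InclF`, `ConstF`, `ConstW`, for any `N ∣ N'`.
-/

set_option autoImplicit false
set_option maxHeartbeats 400000

noncomputable section

namespace Fermat.Agent.S18.Main

open ModularCurve AlgebraicCurve Fermat.Agent.S24 Fermat.Agent.S18.Content Fermat.Agent.S18.Plan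
open Fermat.Agent.Lib

set_option synthInstance.maxHeartbeats 400000

theorem fieldBar_le {N N' : ℕ} [NeZero N] [NeZero N'] (h : N ∣ N') :
    modularFunctionFieldBar N ≤ modularFunctionFieldBar N' := by
  show laurentBaseChange Kbar (modularFunctionFieldFull N) ≤
    laurentBaseChange Kbar (modularFunctionFieldFull N')
  rw [laurentBaseChange, IntermediateField.adjoin_le_iff]
  rintro _ ⟨y, hy, rfl⟩
  exact coeffEmb_mem_laurentBaseChange Kbar (full_degeneracy_le h hy)

/-- **The divisor-level core of S18**, from the contracts. -/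
theorem divCore (N N' : ℕ) [NeZero N] [NeZero N'] (A : ValuationSubring Kbar)
    (ℓ : ℕ) [Fact ℓ.Prime] [CharP (kk A) ℓ] (hdiv : N ∣ N')
    (hψ : 0 < dedekindPsi N) (hψ' : 0 < dedekindPsi N')
    (hRedN : RedStmt A N) (hRedN' : RedStmt A N') (hUnit : UnitDiv A N) (hChar0 : Char0Stmt N)
    (hChar : CharStmt A N N') (hRR0 : RR0 N N') (hRRl : RRl A N') (hIncl : InclF A N)
    (hConstF : ConstF A N) (hConstW : ConstW A N') : DivCore A N ℓ := by
  intro r hr _ m hm D hdeg hmD hrD
  have hle : modularFunctionFieldBar N ≤ modularFunctionFieldBar N' := fieldBar_le hdiv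
  obtain ⟨Dg, hDgp, hDgdeg, hD₁r⟩ := exists_Dg N A hRedN hUnit hChar0 r hr D hrD
  have hdeg₁ : Divisor.degree (D - Dg) = 0 := by rw [map_sub, hdeg, hDgdeg, sub_zero]
  have hmD₁ : m • (D - Dg) ∈ Divisor.principal (K := Kbar) (F := FN N) := by
    rw [smul_sub]
    exact sub_mem hmD (nsmul_mem hDgp m)
  obtain ⟨f, hfO, hf0, hfred, hfdiv⟩ :=
    exists_f N A hRedN hUnit hConstF r hr m (D - Dg) hD₁r hmD₁
  have hmk : (m : kk A) ≠ 0 := by
    rw [Ne, CharP.cast_eq_zero_iff (kk A) ℓ]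
    exact hm
  obtain ⟨g, hg, hg0⟩ := exists_section N N' A hle hψ hRedN' hChar0 hChar hRR0 hRRl hIncl hConstW
    r hr m hmk (D - Dg) hdeg₁ hD₁r f hfO hf0 hfred hfdiv
  obtain ⟨b, hb⟩ := exists_pow_principal N N' A ℓ hψ' hRedN' hChar0 hChar hIncl hConstW r hr
    (D - Dg) hdeg₁ hD₁r g hg hg0
  have h1 := OrthoDesc.mem_of_pow_nsmul_mem (Divisor.principal (K := Kbar) (F := FN N)) (D - Dg)
    ℓ b m hm hb hmD₁
  have h2 : D = (D - Dg) + Dg := by abel
  rw [h2]
  exact add_mem h1 hDgp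

end Fermat.Agent.S18.Main

end
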