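import Mathlib
import Fermat.Agent.S18.TopBridge
import Fermat.Agent.S18.Main
import Fermat.Agent.S18.Red
import Fermat.Agent.S18.FibreCount

/-!
# S18 — Assemble: the frozen statement from the remaining contracts (owner: helper18)

`result_of_contracts`: the frozen conclusion of S18 from the seven contracts which are not yet
on main (`Char0Stmt N`, `CharStmt A N N'`, `RR0 N N'`, `RRl A N'`, `InclF A N`, `ConstF A N`,
`ConstW A N'`), for any auxiliary level `N'` with `N ∣ N'` and `ℓ ∤ N'`.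
(`RedStmt`, `UnitDiv` are `Red.redStmt`, `Red.unitDiv`.)
-/

set_option autoImplicit false
set_option maxHeartbeats 400000

namespace Fermat.Agent.S18.Assemble

open ModularCurve AlgebraicCurve Fermat.Agent.S24 Fermat.Agent.S18.Content Fermat.Agent.S18.Plan

set_option synthInstance.maxHeartbeats 400000

/-- The divisor-level core from the seven remaining contracts. -/
theorem divCore_of_contracts (N : ℕ) [NeZero N] {ℓ : ℕ} [Fact ℓ.Prime] (hℓN : ¬ ℓ ∣ N)
    (A : ValuationSubring Kbar) (hA : A.LiesOverPrime ℓ)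
    (N' : ℕ) [NeZero N'] (hdiv : N ∣ N') (hℓN' : ¬ ℓ ∣ N')
    (hChar0 : Char0Stmt N) (hChar : CharStmt A N N') (hRR0 : RR0 N N') (hRRl : RRl A N')
    (hIncl : InclF A N) (hConstF : ConstF A N) (hConstW : ConstW A N') : DivCore A N ℓ := by
  have : CharP (kk A) ℓ := charP_residueField_of_liesOverPrime A ℓ hA
  exact Main.divCore N N' A ℓ hdiv (FibreCount.dedekindPsi_pos N) (FibreCount.dedekindPsi_pos N')
    (Red.redStmt N ℓ hℓN A hA) (Red.redStmt N' ℓ hℓN' A hA) (Red.unitDiv N ℓ hℓN A hA hChar0)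
    hChar0 hChar hRR0 hRRl hIncl hConstF hConstW

/-- The frozen conclusion of S18 from the seven remaining contracts. -/
theorem result_of_contracts (N : ℕ) [NeZero N] {ℓ : ℕ} [Fact ℓ.Prime] (hℓN : ¬ ℓ ∣ N)
    (A : ValuationSubring (AlgebraicClosure ℚ)) (hA : A.LiesOverPrime ℓ)
    (N' : ℕ) [NeZero N'] (hdiv : N ∣ N') (hℓN' : ¬ ℓ ∣ N')
    (hChar0 : Char0Stmt N) (hChar : CharStmt A N N') (hRR0 : RR0 N N') (hRRl : RRl A N')
    (hIncl : InclF A N) (hConstF : ConstF A N) (hConstW : ConstW A N')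
    (h : ModularCurve.ReductionInputsModL A N) (m : ℕ) (hm : ¬ ℓ ∣ m) (z : ModularCurve.JZero N)
    (hmz : m • z = 0) (hz : ModularCurve.reductionModL A N z = 0) : z = 0 :=
  TopBridge.result_of_divCore N hℓN A hA h m hm
    (fun r hr hgen D hD hmD hrD =>
      divCore_of_contracts N hℓN A hA N' hdiv hℓN' hChar0 hChar hRR0 hRRl hIncl hConstF hConstW
        r hr hgen m hm D hD hmD hrD)
    z hmz hz

end Fermat.Agent.S18.Assemble
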