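import Mathlib
import Fermat.Agent.S18.InclFree
import Fermat.Agent.S18.CharStmt
import Fermat.Agent.S18.RR0
import Fermat.Agent.S18.RRl.Main
import Fermat.Agent.S18.Red

/-!
# S18 — `r`-free `(Surj)` at `E = 0` (helper78)

No place reduction is used.  For a level `n` with `ℓ ∤ n` and `4 ∣ n ∨ 9 ∣ n`, `A` over `ℓ`, and
`c` large:

* `redSp_pullRR_eq0` : hypothesis form (the proof of `Surj.redSp_pullRR_eq` at `E = 0`, with
  `InclFree.InclF0` in place of `Plan.InclF`);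
* `redSp_pullRR_one_eq` : `redSp (pullRR 1 n (c • (j)_∞)) = WJ k F_{n,k} c`;
* `pullRR_eq_one` : `pullRR N n (c • (j)_∞) = pullRR 1 n (c • (j)_∞)` for `N ∣ n`;
* `wj_le_redSp` : `WJ k F_{n,k} c ≤ redSp (pullRR N n (c • (j)_∞))` for every `N ∣ n`;
* `exists_lift_of_mem_WJ` : every `w ∈ WJ k F_{n,k} c` is the reduction of an element of
  `L_{F_n}(c (j)_∞) ∩ Ocal`.
-/

set_option autoImplicit false

noncomputable section

namespace Fermat.Agent.S18.SurjFree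

open ModularCurve AlgebraicCurve Fermat.Agent.S24 Fermat.Agent.S18.Content Fermat.Agent.S18.Plan
open Fermat.Agent.S18

variable (A : ValuationSubring Kbar)

set_option synthInstance.maxHeartbeats 400000 in
set_option maxHeartbeats 1000000 in
/-- `(Surj)` at `E = 0`, without a place reduction: Riemann's inequality in characteristic zero
against the genus bound in characteristic `ℓ`. -/
theorem redSp_pullRR_eq0 (N N' : ℕ) [NeZero N] (hψ : 0 < dedekindPsi N)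
    (hChar : Plan.CharStmt A N N') (hIncl : InclFree.InclF0 A N) (hRed' : Plan.RedStmt A N')
    (hle : Plan.Fk A N ≤ Plan.Fk A N') (hRR0 : Plan.RR0 N N')
    (Cp : Divisor Kbar (FN N)) (c : ℕ) (hCp : ∀ P, Cp P = max 0 (-(P.ord (jBar N))))
    (hdegCp : Divisor.degree Cp = (dedekindPsi N : ℤ))
    (hfin : Module.Finite (kk A) (Plan.WJ (kk A) (Plan.Fk A N') c))
    (hbound : 12 * (Module.finrank (kk A) (Plan.WJ (kk A) (Plan.Fk A N') c) : ℤ)
      ≤ 12 * (c : ℤ) * (dedekindPsi N' : ℤ) - (dedekindPsi N' : ℤ) + 6 * (cuspCount N' : ℤ)) :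
    Plan.redSp A (Plan.pullRR N N' (c • Cp)) = Plan.WJ (kk A) (Plan.Fk A N') c ∧
      Module.finrank Kbar (Plan.pullRR N N' (c • Cp))
        = Module.finrank (kk A) (Plan.WJ (kk A) (Plan.Fk A N') c) := by
  obtain ⟨hfinV, hrr⟩ := hRR0 (c • Cp)
  have hle1 : Plan.redSp A (Plan.pullRR N N' (c • Cp)) ≤ Plan.WJ (kk A) (Plan.Fk A N') c :=
    InclFree.redSp_pullRR_le0 A N N' hChar hIncl hRed' hle Cp c hCp
  obtain ⟨n, b, hspan, hli⟩ := hRed'.2.2.2.1 (Plan.pullRR N N' (c • Cp))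
    (fun w hw => hw.1) hfinV
  -- `dim V ≤ n`
  have h1 : Module.finrank Kbar (Plan.pullRR N N' (c • Cp)) ≤ n := by
    have h := finrank_range_le_card (R := Kbar) (fun i => ((b i : Ocal A) : Om))
    rw [Set.finrank, hspan, Fintype.card_fin] at h
    exact h
  -- `n ≤ dim redSp V`
  have hfinR : Module.Finite (kk A) (Plan.redSp A (Plan.pullRR N N' (c • Cp))) :=
    Submodule.finiteDimensional_of_le hle1
  have hmem : ∀ i, red A (b i) ∈ Plan.redSp A (Plan.pullRR N N' (c • Cp)) := fun i =>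
    ⟨b i, by rw [← hspan]; exact Submodule.subset_span ⟨i, rfl⟩, rfl⟩
  have hli' : LinearIndependent (kk A)
      (fun i => (⟨red A (b i), hmem i⟩ : Plan.redSp A (Plan.pullRR N N' (c • Cp)))) :=
    LinearIndependent.of_comp (Plan.redSp A (Plan.pullRR N N' (c • Cp))).subtype hli
  have h2 : n ≤ Module.finrank (kk A) (Plan.redSp A (Plan.pullRR N N' (c • Cp))) := by
    have := hli'.fintype_card_le_finrank
    rwa [Fintype.card_fin] at this
  have h3 : Module.finrank (kk A) (Plan.redSp A (Plan.pullRR N N' (c • Cp)))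
      ≤ Module.finrank (kk A) (Plan.WJ (kk A) (Plan.Fk A N') c) :=
    Submodule.finrank_mono hle1
  -- numerics
  have hdeg : Divisor.degree (c • Cp) = (c : ℤ) * (dedekindPsi N : ℤ) := by
    rw [map_nsmul, hdegCp, nsmul_eq_mul]
  rw [hdeg] at hrr
  have hψ' : (0 : ℤ) < (dedekindPsi N : ℤ) := by exact_mod_cast hψ
  have h13 : (Module.finrank Kbar (Plan.pullRR N N' (c • Cp)) : ℤ)
      ≤ (Module.finrank (kk A) (Plan.WJ (kk A) (Plan.Fk A N') c) : ℤ) := by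
    exact_mod_cast h1.trans (h2.trans h3)
  have hkey : (Module.finrank (kk A) (Plan.WJ (kk A) (Plan.Fk A N') c) : ℤ)
      ≤ (Module.finrank Kbar (Plan.pullRR N N' (c • Cp)) : ℤ) := by
    by_contra hlt
    rw [not_le] at hlt
    nlinarith [mul_le_mul_of_nonneg_left hbound hψ'.le]
  have heq : Module.finrank Kbar (Plan.pullRR N N' (c • Cp))
      = Module.finrank (kk A) (Plan.WJ (kk A) (Plan.Fk A N') c) := by
    exact_mod_cast le_antisymm h13 hkey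
  refine ⟨?_, heq⟩
  refine Submodule.eq_of_le_of_finrank_le hle1 ?_
  rw [← heq]
  exact h1.trans h2

/-- The pole divisor of `j` is unique, so its degree is `ψ(N)`. -/
theorem degree_poleDivisor (N : ℕ) [NeZero N] (Cp : Divisor Kbar (FN N))
    (hCp : ∀ P, Cp P = max 0 (-(P.ord (jBar N)))) :
    Divisor.degree Cp = (dedekindPsi N : ℤ) := by
  obtain ⟨Cp', hCp', hdeg⟩ := Char0.exists_poleDivisor_jBar N
  have : Cp = Cp' := Finsupp.ext fun P => by rw [hCp, hCp']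
  rw [this, hdeg]

/-- `Plan.RRl A n` for `4 ∣ n ∨ 9 ∣ n`, `ℓ ∤ n`. -/
theorem rrl_of_dvd (n : ℕ) [NeZero n] (ℓ : ℕ) [Fact ℓ.Prime] (hℓ : ¬ ℓ ∣ n)
    (hTF : 4 ∣ n ∨ 9 ∣ n) (hA : A.LiesOverPrime ℓ) : Plan.RRl A n := by
  rcases hTF with ⟨N₀, rfl⟩ | ⟨N₀, rfl⟩
  · have : NeZero N₀ := ⟨fun h => NeZero.ne (4 * N₀) (by rw [h, mul_zero])⟩
    exact RRl.Main.rrl_four ℓ N₀ A hℓ hA
  · have : NeZero N₀ := ⟨fun h => NeZero.ne (9 * N₀) (by rw [h, mul_zero])⟩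
    exact RRl.Main.rrl_nine ℓ N₀ A hℓ hA

/-- For `N ∣ n`, the pull-back space of `c (j)_∞` from level `N` is the one from level `1`. -/
theorem pullRR_eq_one (n N : ℕ) [NeZero n] [NeZero N] (hdiv : N ∣ n) (c : ℕ)
    (Cp : Divisor Kbar (FN N)) (hCp : ∀ P, Cp P = max 0 (-(P.ord (jBar N))))
    (Cp₁ : Divisor Kbar (FN 1)) (hCp₁ : ∀ P, Cp₁ P = max 0 (-(P.ord (jBar 1)))) :
    pullRR N n (c • Cp) = pullRR 1 n (c • Cp₁) := by
  obtain ⟨Cpn, hCpn, -⟩ := Char0.exists_poleDivisor_jBar n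
  have hD' : ∀ v : Place Kbar (FN n), (c • Cpn) v = c * max 0 (-(v.ord (jBar n))) := fun v => by
    rw [Finsupp.smul_apply, hCpn, nsmul_eq_mul]
  rw [RR0.pullRR_base hdiv c (c • Cp) (fun P => by
      rw [Finsupp.smul_apply, hCp, nsmul_eq_mul, RR0.poleMult]) (c • Cpn) hD',
    RR0.pullRR_base (one_dvd n) c (c • Cp₁) (fun P => by
      rw [Finsupp.smul_apply, hCp₁, nsmul_eq_mul, RR0.poleMult]) (c • Cpn) hD']

set_option synthInstance.maxHeartbeats 400000 in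
set_option maxHeartbeats 1000000 in
/-- **`r`-free `(Surj)`, level `(1, n)`**: for `c` large,
`redSp (pullRR 1 n (c • (j)_∞)) = WJ k F_{n,k} c`. -/
theorem redSp_pullRR_one_eq (n : ℕ) [NeZero n] (ℓ : ℕ) [Fact ℓ.Prime] (hℓ : ¬ ℓ ∣ n)
    (hTF : 4 ∣ n ∨ 9 ∣ n) (hA : A.LiesOverPrime ℓ) :
    ∃ c₀ : ℕ, ∀ c, c₀ ≤ c → ∀ Cp₁ : Divisor Kbar (FN 1),
      (∀ P, Cp₁ P = max 0 (-(P.ord (jBar 1)))) →
        redSp A (pullRR 1 n (c • Cp₁)) = WJ (kk A) (Fk A n) c := by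
  obtain ⟨c₀, hc₀⟩ := rrl_of_dvd A n ℓ hℓ hTF hA
  refine ⟨c₀, fun c hc Cp₁ hCp₁ => ?_⟩
  obtain ⟨hfin, hbound⟩ := hc₀ c hc
  exact (redSp_pullRR_eq0 A 1 n (FibreCount.dedekindPsi_pos 1)
    (CharStmt.charStmt 1 n (one_dvd n) ℓ hℓ A hA) (InclFree.inclF0_one A)
    (Red.redStmt n ℓ hℓ A hA) (CharStmt.fk_le A (one_dvd n)) (RR0.rr0 1 n (one_dvd n) hTF)
    Cp₁ c hCp₁ (degree_poleDivisor 1 Cp₁ hCp₁) hfin hbound).1

set_option synthInstance.maxHeartbeats 400000 in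
set_option maxHeartbeats 1000000 in
/-- **`r`-free `(Surj)`**: for `ℓ ∤ n`, `4 ∣ n ∨ 9 ∣ n`, `A` over `ℓ` and `c` large, every element
of `WJ k F_{n,k} c` is the reduction of an element of `pullRR N n (c • (j)_∞) ∩ Ocal`, for every
`N ∣ n`. -/
theorem wj_le_redSp (n : ℕ) [NeZero n] (ℓ : ℕ) [Fact ℓ.Prime] (hℓ : ¬ ℓ ∣ n)
    (hTF : 4 ∣ n ∨ 9 ∣ n) (A : ValuationSubring Kbar) (hA : A.LiesOverPrime ℓ) :
    ∃ c₀ : ℕ, ∀ c, c₀ ≤ c → ∀ (N : ℕ) [NeZero N], N ∣ n →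
      ∀ Cp : Divisor Kbar (FN N), (∀ P, Cp P = max 0 (-(P.ord (jBar N)))) →
        WJ (kk A) (Fk A n) c ≤ redSp A (pullRR N n (c • Cp)) := by
  obtain ⟨c₀, hc₀⟩ := redSp_pullRR_one_eq A n ℓ hℓ hTF hA
  refine ⟨c₀, fun c hc N _ hdiv Cp hCp => ?_⟩
  obtain ⟨Cp₁, hCp₁, -⟩ := Char0.exists_poleDivisor_jBar 1
  rw [pullRR_eq_one n N hdiv c Cp hCp Cp₁ hCp₁, hc₀ c hc Cp₁ hCp₁]

set_option synthInstance.maxHeartbeats 400000 in
set_option maxHeartbeats 1000000 in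
/-- **`r`-free good reduction at level `n`**: for `c` large every `w ∈ WJ k F_{n,k} c` is the
reduction of an element of `L_{F_n}(c (j)_∞) ∩ Ocal`. -/
theorem exists_lift_of_mem_WJ (n : ℕ) [NeZero n] (ℓ : ℕ) [Fact ℓ.Prime] (hℓ : ¬ ℓ ∣ n)
    (hTF : 4 ∣ n ∨ 9 ∣ n) (A : ValuationSubring Kbar) (hA : A.LiesOverPrime ℓ) :
    ∃ c₀ : ℕ, ∀ c, c₀ ≤ c → ∀ Cp : Divisor Kbar (FN n),
      (∀ P, Cp P = max 0 (-(P.ord (jBar n)))) → ∀ w ∈ WJ (kk A) (Fk A n) c,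
        ∃ (g : FN n) (hg : (g : Om) ∈ Ocal A), g ∈ riemannRochSpace (c • Cp) ∧
          red A ⟨(g : Om), hg⟩ = w := by
  obtain ⟨c₀, hc₀⟩ := wj_le_redSp n ℓ hℓ hTF A hA
  refine ⟨c₀, fun c hc Cp hCp w hw => ?_⟩
  obtain ⟨y, hy, rfl⟩ := hc₀ c hc n (dvd_refl n) Cp hCp hw
  have hD' : ∀ v : Place Kbar (FN n), (c • Cp) v = c * max 0 (-(v.ord (jBar n))) := fun v => by
    rw [Finsupp.smul_apply, hCp, nsmul_eq_mul]
  rw [RR0.pullRR_base (dvd_refl n) c (c • Cp) (fun P => by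
      rw [Finsupp.smul_apply, hCp, nsmul_eq_mul, RR0.poleMult]) (c • Cp) hD'] at hy
  obtain ⟨g, hg, hgy⟩ := hy
  have hgO : (g : Om) ∈ Ocal A := by
    have : (g : Om) = (y : Om) := hgy
    rw [this]; exact y.2
  refine ⟨g, hgO, hg, ?_⟩
  exact congrArg (red A) (Subtype.ext hgy)

end Fermat.Agent.S18.SurjFree

end
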