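import Mathlib
import Fermat.Agent.S18.MainLift
import Fermat.Agent.S18.MainDesc
import Fermat.Agent.S18.InclFree
import Fermat.Agent.S18.SurjFree
import Fermat.Agent.S18.CharStmt
import Fermat.Agent.S18.RR0
import Fermat.Agent.S18.RRl.Main
import Fermat.Agent.S18.ConstWPlan
import Fermat.Agent.S18.Char0
import Fermat.Agent.S18.Red
import Fermat.Agent.S18.FibreCount
import Fermat.Agent.S18.PullStep

/-!
# S18 — FreeCore: the divisor core without a place map (helper69)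

`divFree`: for `ℓ ∤ N`, `A` over `ℓ`, `ℓ ∤ m`, a degree-zero divisor `D` of `F_N` with
`m • D = div f`, `f ∈ F_N ∩ Ocal A` and `red f = 1` (coefficientwise reduction) is principal.

No place reduction `r` occurs.  The proof is the lifting step and the Lucas descent of
`S18/MainLift.lean`, `S18/MainDesc.lean` (helper18), where the inclusion
`redSp (pullRR (E + c • Cp)) ≤ WJ c` is obtained

* for `E = 0` from the level-one inclusion (`InclFree.redSp_pullRR_le0`, `inclF0_one`,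
  `SurjFree.pullRR_eq_one`; helper78): `incl0`;
* for `E = D` by the power trick `y ↦ y ^ m * f` (helper77's remark): `red_mem_WJ_of_pow`.
-/

set_option autoImplicit false
set_option maxHeartbeats 400000

noncomputable section

namespace Fermat.Agent.S18.FreeCore

open ModularCurve AlgebraicCurve Fermat.Agent.S24 Fermat.Agent.S18.Content Fermat.Agent.S18.Plan
open Fermat.Agent.Lib Fermat.Agent.S18.Main

set_option synthInstance.maxHeartbeats 400000

section Assembly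

variable (N N' : ℕ) [NeZero N] [NeZero N'] (A : ValuationSubring Kbar)

/-! ## The two inclusions without a place map -/

/-- **(Incl) at `E = 0`**, for any levels `N ∣ N'`: the reduction of
`pullRR N N' (c • (j)_∞) ∩ Ocal` lies in `WJ k F_{N',k} c`. -/
theorem incl0 (hdiv : N ∣ N') (hChar1 : CharStmt A 1 N') (hRedN' : RedStmt A N')
    (hle1 : Fk A 1 ≤ Fk A N')
    (Cp : Divisor Kbar (FN N)) (hCp : ∀ P, Cp P = max 0 (-(P.ord (jBar N)))) (c : ℕ) :
    redSp A (pullRR N N' (c • Cp)) ≤ WJ (kk A) (Fk A N') c := by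
  obtain ⟨Cp₁, hCp₁, -⟩ := Char0.exists_poleDivisor_jBar 1
  rw [SurjFree.pullRR_eq_one N' N hdiv c Cp hCp Cp₁ hCp₁]
  exact InclFree.redSp_pullRR_le0 A 1 N' hChar1 (InclFree.inclF0_one A) hRedN' hle1 Cp₁ c hCp₁

omit [NeZero N] [NeZero N'] in
/-- **(Incl) at `E = D₁`, power trick**: if `m • D₁ = div f` with `red f = 1` and `0 < m`, the
reduction of `pullRR N N' (D₁ + c • (j)_∞) ∩ Ocal` lies in `WJ k F_{N',k} c`. -/
theorem red_mem_WJ_of_pow (hle : modularFunctionFieldBar N ≤ modularFunctionFieldBar N')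
    (hRedN' : RedStmt A N') (Cp : Divisor Kbar (FN N))
    (hincl0 : ∀ c : ℕ, redSp A (pullRR N N' (c • Cp)) ≤ WJ (kk A) (Fk A N') c)
    (m : ℕ) (hm : 0 < m) (D₁ : Divisor Kbar (FN N))
    (f : FN N) (hfO : (f : Om) ∈ Ocal A) (hf0 : f ≠ 0) (hfred : red A ⟨_, hfO⟩ = 1)
    (hfdiv : ∀ P : Place Kbar (FN N), (m • D₁) P = P.ord f)
    (c : ℕ) (y : Ocal A) (hy : (y : Om) ∈ pullRR N N' (D₁ + c • Cp)) :
    red A y ∈ WJ (kk A) (Fk A N') c := by
  have hfdiv' : ∀ P : Place Kbar (FN N), P.ord f = m * D₁ P := fun P => by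
    rw [← hfdiv P, Finsupp.smul_apply, nsmul_eq_mul]
  have h1 := pow_mem_pullRR (N' := N') m (B' := m • (D₁ + c • Cp))
    (fun P => by rw [Finsupp.smul_apply, nsmul_eq_mul]) hy
  have h2 := mul_mem_pullRR hle hf0 (B' := (m * c) • Cp)
    (fun P => by
      rw [hfdiv' P]
      simp only [Finsupp.add_apply, Finsupp.smul_apply, nsmul_eq_mul, Nat.cast_mul]
      ring) h1
  have e : ((⟨(f : Om), hfO⟩ * y ^ m : Ocal A) : Om) = (f : Om) * (y : Om) ^ m := by
    have h := map_mul (Ocal A).subtype ⟨(f : Om), hfO⟩ (y ^ m)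
    rw [map_pow] at h
    exact h
  have hgen : ∀ z : Ocal A, (z : Om) ∈ pullRR N N' ((m * c) • Cp) →
      red A z ∈ WJ (kk A) (Fk A N') (m * c) :=
    fun z hz => hincl0 (m * c) ((mem_redSp A).2 ⟨z, hz, rfl⟩)
  have h4 := hgen (⟨(f : Om), hfO⟩ * y ^ m) (by rw [e]; exact h2)
  have h5 : red A y ^ m ∈ WJ (kk A) (Fk A N') (m * c) := by
    rw [map_mul, hfred, one_mul, map_pow] at h4
    exact h4
  obtain ⟨-, hint1, hint2⟩ := h5
  refine ⟨hRedN'.2.1 y (pullRR_le _ hy), IsIntegral.of_pow hm hint1, ?_⟩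
  apply IsIntegral.of_pow hm
  rw [mul_pow, ← pow_mul, mul_comm c m]
  exact hint2

/-! ## The lifting step -/

set_option maxHeartbeats 1600000 in
omit [NeZero N'] in
/-- Step 3 (lifting) without a place map: `pullRR N N' D₁ ≠ 0`. -/
theorem exists_section_free (hle : modularFunctionFieldBar N ≤ modularFunctionFieldBar N')
    (hψ : 0 < dedekindPsi N)
    (hRedN' : RedStmt A N') (hChar0 : Char0Stmt N) (hRR0 : RR0 N N')
    (hRRl : RRl A N') (hConstW : ConstW A N')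
    (m : ℕ) (hm : (m : kk A) ≠ 0) (D₁ : Divisor Kbar (FN N)) (hdeg : Divisor.degree D₁ = 0)
    (hincl0 : ∀ Cp : Divisor Kbar (FN N), (∀ P, Cp P = max 0 (-(P.ord (jBar N)))) →
      ∀ c : ℕ, redSp A (pullRR N N' (c • Cp)) ≤ WJ (kk A) (Fk A N') c)
    (hinclD : ∀ Cp : Divisor Kbar (FN N), (∀ P, Cp P = max 0 (-(P.ord (jBar N)))) →
      ∀ (c : ℕ) (y : Ocal A), (y : Om) ∈ pullRR N N' (D₁ + c • Cp) →
        red A y ∈ WJ (kk A) (Fk A N') c)
    (f : FN N) (hfO : (f : Om) ∈ Ocal A) (hf0 : f ≠ 0) (hfred : red A ⟨_, hfO⟩ = 1)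
    (hfdiv : ∀ P : Place Kbar (FN N), (m • D₁) P = P.ord f) :
    ∃ g : Om, g ∈ pullRR N N' D₁ ∧ g ≠ 0 := by
  obtain ⟨-, hdiv0, Cp, hCp, hCpdeg⟩ := hChar0
  obtain ⟨Dj, hDj, -⟩ := hdiv0 (jBar N) (jBar_ne_zero N)
  obtain ⟨c, hc⟩ := hRRl
  obtain ⟨hWfin, hWdim⟩ := hc c le_rfl
  -- pointwise facts
  have hCp0 : ∀ P, 0 ≤ Cp P := fun P => by rw [hCp]; exact le_max_left _ _
  have hCz0 : ∀ P, 0 ≤ Cp P + Dj P := fun P => by rw [hCp, hDj]; omega
  have hmin : ∀ P, Cp P = 0 ∨ Cp P + Dj P = 0 := fun P => by rw [hCp, hDj]; omega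
  have hfdiv' : ∀ P : Place Kbar (FN N), P.ord f = m * D₁ P := fun P => by
    rw [← hfdiv P, Finsupp.smul_apply, nsmul_eq_mul]
  -- multiplication by powers of `j`
  have hV₂V₁ : ∀ y ∈ pullRR N N' (D₁ + c • Cp + c • Dj), jK ^ c * y ∈ pullRR N N' (D₁ + c • Cp) :=
    fun y hy => jpow_mul_mem N N' hle c Dj hDj (fun P => by
      simp only [Finsupp.add_apply, Finsupp.smul_apply, nsmul_eq_mul]
      ring) hy
  have hV₁V₂ : ∀ y ∈ pullRR N N' (D₁ + c • Cp), jK⁻¹ ^ c * y ∈ pullRR N N' (D₁ + c • Cp + c • Dj) :=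
    fun y hy => jinvpow_mul_mem N N' hle c Dj hDj (fun P => by
      simp only [Finsupp.add_apply, Finsupp.smul_apply, nsmul_eq_mul]) hy
  have hV₁₂V₃ : ∀ y ∈ pullRR N N' (D₁ + (2 * c) • Cp + c • Dj),
      jK ^ c * y ∈ pullRR N N' (D₁ + (2 * c) • Cp) :=
    fun y hy => jpow_mul_mem N N' hle c Dj hDj (fun P => by
      simp only [Finsupp.add_apply, Finsupp.smul_apply, nsmul_eq_mul]
      ring) hy
  have hU₂U₁ : ∀ y ∈ pullRR N N' ((0 : Divisor Kbar (FN N)) + (m * c) • Cp + (m * c) • Dj),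
      jK ^ (m * c) * y ∈ pullRR N N' ((0 : Divisor Kbar (FN N)) + (m * c) • Cp) :=
    fun y hy => jpow_mul_mem N N' hle (m * c) Dj hDj (fun P => by
      simp only [Finsupp.add_apply, Finsupp.smul_apply, nsmul_eq_mul]
      ring) hy
  -- inclusions
  have hincl₁ : redSp A (pullRR N N' (D₁ + c • Cp)) ≤ WJ (kk A) (Fk A N') c := by
    rintro x ⟨y, hy, rfl⟩
    exact hinclD Cp hCp c y hy
  have hincl₃ : redSp A (pullRR N N' (D₁ + (2 * c) • Cp)) ≤ WJ (kk A) (Fk A N') (2 * c) := by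
    rintro x ⟨y, hy, rfl⟩
    exact hinclD Cp hCp (2 * c) y hy
  have hinclU : redSp A (pullRR N N' ((0 : Divisor Kbar (FN N)) + (m * c) • Cp)) ≤
      WJ (kk A) (Fk A N') (m * c) := by
    rw [zero_add]
    exact hincl0 Cp hCp (m * c)
  -- the dimension count
  have hfin₁ : Module.Finite Kbar (pullRR N N' (D₁ + c • Cp)) := (hRR0 _).1
  have hineq := (hRR0 (D₁ + c • Cp)).2
  have hdegB : Divisor.degree (D₁ + c • Cp) = c * dedekindPsi N := by
    rw [map_add, map_nsmul, hdeg, hCpdeg, zero_add, nsmul_eq_mul]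
  rw [hdegB] at hineq
  obtain ⟨hfinr, hdimr⟩ := finrank_redSp A N' hRedN' (W := pullRR N N' (D₁ + c • Cp))
    (fun w hw => hw.1)
  have := hWfin
  have heq₁ : redSp A (pullRR N N' (D₁ + c • Cp)) = WJ (kk A) (Fk A N') c := by
    apply Submodule.eq_of_le_of_finrank_le hincl₁
    rw [hdimr]
    have hψ' : (0 : ℤ) < dedekindPsi N := by exact_mod_cast hψ
    have h1 := mul_le_mul_of_nonneg_left hWdim hψ'.le
    have h2 : (dedekindPsi N : ℤ) * (Module.finrank (kk A) (WJ (kk A) (Fk A N') c) : ℤ) ≤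
        (dedekindPsi N : ℤ) * (Module.finrank Kbar (pullRR N N' (D₁ + c • Cp)) : ℤ) := by
      nlinarith
    exact_mod_cast le_of_mul_le_mul_left h2 hψ'
  -- hypotheses of LiftCore
  have : Module.Finite Kbar (pullRR N N' (D₁ + c • Cp + c • Dj)) := (hRR0 _).1
  have : Module.Finite Kbar (pullRR N N' ((0 : Divisor Kbar (FN N)) + (m * c) • Cp)) :=
    (hRR0 _).1
  have : Module.Finite Kbar
      (pullRR N N' ((0 : Divisor Kbar (FN N)) + (m * c) • Cp + (m * c) • Dj)) := (hRR0 _).1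
  have hle₁ : pullRR N N' (D₁ + c • Cp) ≤ pullRR N N' (D₁ + (2 * c) • Cp + c • Dj) :=
    pullRR_mono (fun P => by
      simp only [Finsupp.add_apply, Finsupp.smul_apply, nsmul_eq_mul, Nat.cast_mul, Nat.cast_ofNat]
      have := mul_nonneg (Nat.cast_nonneg (α := ℤ) c) (hCz0 P)
      nlinarith)
  have hle₂ : pullRR N N' (D₁ + c • Cp + c • Dj) ≤ pullRR N N' (D₁ + (2 * c) • Cp + c • Dj) :=
    pullRR_mono (fun P => by
      simp only [Finsupp.add_apply, Finsupp.smul_apply, nsmul_eq_mul, Nat.cast_mul, Nat.cast_ofNat]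
      have := mul_nonneg (Nat.cast_nonneg (α := ℤ) c) (hCp0 P)
      nlinarith)
  have H7a : ∀ s ∈ pullRR N N' (D₁ + c • Cp),
      s ^ m * (f : Om) ∈ pullRR N N' ((0 : Divisor Kbar (FN N)) + (m * c) • Cp) := by
    intro s hs
    have h1 := pow_mem_pullRR (N' := N') m (B' := m • (D₁ + c • Cp))
      (fun P => by rw [Finsupp.smul_apply, nsmul_eq_mul]) hs
    have h2 := mul_mem_pullRR hle hf0 (B' := (0 : Divisor Kbar (FN N)) + (m * c) • Cp)
      (fun P => by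
        rw [hfdiv' P]
        simp only [Finsupp.add_apply, Finsupp.smul_apply, nsmul_eq_mul, Finsupp.zero_apply,
          Nat.cast_mul]
        ring) h1
    rw [mul_comm (s ^ m) (f : Om)]
    exact h2
  have H7b : ∀ s ∈ pullRR N N' (D₁ + c • Cp + c • Dj),
      s ^ m * (f : Om) ∈
        pullRR N N' ((0 : Divisor Kbar (FN N)) + (m * c) • Cp + (m * c) • Dj) := by
    intro s hs
    have h1 := pow_mem_pullRR (N' := N') m (B' := m • (D₁ + c • Cp + c • Dj))
      (fun P => by rw [Finsupp.smul_apply, nsmul_eq_mul]) hs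
    have h2 := mul_mem_pullRR hle hf0
      (B' := (0 : Divisor Kbar (FN N)) + (m * c) • Cp + (m * c) • Dj)
      (fun P => by
        rw [hfdiv' P]
        simp only [Finsupp.add_apply, Finsupp.smul_apply, nsmul_eq_mul, Finsupp.zero_apply,
          Nat.cast_mul]
        ring) h1
    rw [mul_comm (s ^ m) (f : Om)]
    exact h2
  have hU₁1 : (1 : Om) ∈ pullRR N N' ((0 : Divisor Kbar (FN N)) + (m * c) • Cp) :=
    one_mem_pullRR (fun P => by
      simp only [Finsupp.add_apply, Finsupp.smul_apply, nsmul_eq_mul, Finsupp.zero_apply, zero_add]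
      exact mul_nonneg (Nat.cast_nonneg _) (hCp0 P))
  have hU₂1 : (1 : Om) ∈
      pullRR N N' ((0 : Divisor Kbar (FN N)) + (m * c) • Cp + (m * c) • Dj) :=
    one_mem_pullRR (fun P => by
      simp only [Finsupp.add_apply, Finsupp.smul_apply, nsmul_eq_mul, Finsupp.zero_apply, zero_add]
      rw [← mul_add]
      exact mul_nonneg (Nat.cast_nonneg _) (hCz0 P))
  have hj0 := jqModC_ne_zero' (kk A)
  have hjL : jqModC (kk A) ∈ Fk A N' := jqModC_mem_full (kk A) N'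
  have H1a : (1 : Omk A) ∈ redSp A (pullRR N N' (D₁ + c • Cp)) := by
    rw [heq₁]
    exact one_mem_WJ c
  have H1b : (1 : Omk A) ∈ redSp A (pullRR N N' (D₁ + c • Cp + c • Dj)) := by
    have h3 : jk A ^ c ∈ redSp A (pullRR N N' (D₁ + c • Cp)) := by
      rw [heq₁]
      exact jpow_mem_WJ hjL c
    have h4 := red_jinvpow_mul A c hV₁V₂ h3
    rwa [← mul_pow, inv_mul_cancel₀ hj0, one_pow] at h4
  have H1 : ∀ x, x ∈ redSp A (pullRR N N' (D₁ + c • Cp)) →
      x ∈ redSp A (pullRR N N' (D₁ + c • Cp + c • Dj)) → ∃ κ : kk A, x = HahnSeries.C κ := by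
    intro x hx1 hx2
    have h1 := hincl₁ hx1
    have h2 := hincl₁ (red_jpow_mul A c hV₂V₁ hx2)
    exact hConstW x (mem_WJ_zero h1 h2)
  have H3 : ∀ x, x ∈ redSp A (pullRR N N' ((0 : Divisor Kbar (FN N)) + (m * c) • Cp)) →
      x ∈ redSp A (pullRR N N' ((0 : Divisor Kbar (FN N)) + (m * c) • Cp + (m * c) • Dj)) →
      ∃ κ : kk A, x = HahnSeries.C κ := by
    intro x hx1 hx2
    have h1 := hinclU hx1
    have h2 := hinclU (red_jpow_mul A (m * c) hU₂U₁ hx2)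
    exact hConstW x (mem_WJ_zero h1 h2)
  have H4 : ∀ x, x ∈ redSp A (pullRR N N' ((0 : Divisor Kbar (FN N)) + (m * c) • Cp)) ⊔
        redSp A (pullRR N N' ((0 : Divisor Kbar (FN N)) + (m * c) • Cp + (m * c) • Dj)) →
      x ∈ redSp A (pullRR N N' (D₁ + (2 * c) • Cp + c • Dj)) →
      x ∈ redSp A (pullRR N N' (D₁ + c • Cp)) ⊔
        redSp A (pullRR N N' (D₁ + c • Cp + c • Dj)) := by
    intro x hx hx12
    obtain ⟨x₁, hx₁, x₂, hx₂, rfl⟩ := Submodule.mem_sup.1 hx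
    have h1 := hinclU hx₁
    have h2 := hinclU (red_jpow_mul A (m * c) hU₂U₁ hx₂)
    have h12 := hincl₃ (red_jpow_mul A c hV₁₂V₃ hx12)
    obtain ⟨hw1, hw2⟩ := WJ_split hjL h1 h2 h12
    rw [← heq₁] at hw1 hw2
    have h4 := red_jinvpow_mul A c hV₁V₂ hw2
    rw [← mul_assoc, ← mul_pow, inv_mul_cancel₀ hj0, one_pow, one_mul] at h4
    exact Submodule.add_mem_sup hw1 h4
  obtain ⟨g, hg1, hg2, hg0⟩ := liftCore' A N' hRedN'
    (pullRR N N' (D₁ + c • Cp)) (pullRR N N' (D₁ + c • Cp + c • Dj))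
    (pullRR N N' (D₁ + (2 * c) • Cp + c • Dj))
    (pullRR N N' ((0 : Divisor Kbar (FN N)) + (m * c) • Cp))
    (pullRR N N' ((0 : Divisor Kbar (FN N)) + (m * c) • Cp + (m * c) • Dj))
    (fun w hw => hw.1) (fun w hw => hw.1) (fun w hw => hw.1) (fun w hw => hw.1)
    hle₁ hle₂ ⟨(f : Om), hfO⟩ hfred m hm H7a H7b hU₁1 hU₂1 H1a H1b H1 H3 H4
  refine ⟨g, mem_pullRR_of_or hg1 hg2 (fun P => ?_), hg0⟩
  simp only [Finsupp.add_apply, Finsupp.smul_apply, nsmul_eq_mul]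
  rcases hmin P with h | h
  · left
    rw [h, mul_zero, add_zero]
  · right
    rw [add_assoc, ← mul_add, h, mul_zero, add_zero]

/-! ## The descent step -/

omit [NeZero N'] in
/-- Step 4 (Lucas descent) without a place map: `ℓ ^ b • D₁` is principal for some `b`. -/
theorem exists_pow_principal_free (ℓ : ℕ) [Fact ℓ.Prime] [CharP (kk A) ℓ]
    (hψ' : 0 < dedekindPsi N')
    (hRedN' : RedStmt A N') (hChar0 : Char0Stmt N) (hChar : CharStmt A N N')
    (hConstW : ConstW A N')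
    (D₁ : Divisor Kbar (FN N)) (hdeg : Divisor.degree D₁ = 0)
    (hinclD : ∀ Cp : Divisor Kbar (FN N), (∀ P, Cp P = max 0 (-(P.ord (jBar N)))) →
      ∀ (c : ℕ) (y : Ocal A), (y : Om) ∈ pullRR N N' (D₁ + c • Cp) →
        red A y ∈ WJ (kk A) (Fk A N') c)
    (g : Om) (hg : g ∈ pullRR N N' D₁) (hg0 : g ≠ 0) :
    ∃ b : ℕ, (ℓ ^ b) • D₁ ∈ Divisor.principal (K := Kbar) (F := FN N) := by
  obtain ⟨hdeg1, hdiv0, Cp, hCp, -⟩ := hChar0
  -- scale `g`
  obtain ⟨c, hc, hcO, hcred⟩ := hRedN'.1 g hg.1 hg0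
  have hg₀ : HahnSeries.C c * g ∈ pullRR N N' D₁ := C_mul_mem_pullRR c hg
  have hg₀' : HahnSeries.C c * g ∈ pullRR N N' (D₁ + 0 • Cp) := by
    rw [zero_smul, add_zero]
    exact hg₀
  have hW0 := hinclD Cp hCp 0 ⟨_, hcO⟩ hg₀'
  obtain ⟨κ, hκ⟩ := hConstW _ hW0
  have hκ0 : κ ≠ 0 := by
    rintro rfl
    apply hcred
    rw [hκ, map_zero]
  obtain ⟨a, ha⟩ := IsLocalRing.residue_surjective (R := A) κ⁻¹
  -- `g₁ = a g₀`, `red g₁ = 1`
  obtain ⟨g₁, hg₁def⟩ : ∃ g₁ : Ocal A, g₁ = constO A a * ⟨HahnSeries.C c * g, hcO⟩ := ⟨_, rfl⟩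
  have hg₁ : (g₁ : Om) ∈ pullRR N N' D₁ := by
    rw [hg₁def, Subring.coe_mul, coe_constO]
    exact C_mul_mem_pullRR _ hg₀
  have hg₁red : red A g₁ = 1 := by
    rw [hg₁def, map_mul, red_constO, ha, hκ, ← map_mul, inv_mul_cancel₀ hκ0, map_one]
  clear hg₁def
  obtain ⟨χ, hmonic, hdegχ, -, hcoef, hO, hred⟩ := hChar D₁ g₁ hg₁
  have hred' := hred hg₁red
  have hd : 0 < χ.natDegree := by
    rcases Nat.eq_zero_or_pos χ.natDegree with h | h
    · rw [h, zero_mul] at hdegχ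
      omega
    · exact h
  obtain ⟨b, hbd, hbpos, hbch⟩ := OrthoDesc.exists_pow_dvd_not_dvd_choose ℓ χ.natDegree hd
  have hble : ℓ ^ b ≤ χ.natDegree := Nat.le_of_dvd hd hbd
  refine ⟨b, ?_⟩
  -- the coefficient of `X ^ (d - ℓ ^ b)` of `(X - 1) ^ d` is non-zero in `k`
  have hcoefk : ((Polynomial.X - Polynomial.C (1 : kk A)) ^ χ.natDegree).coeff
      (χ.natDegree - ℓ ^ b) ≠ 0 := by
    rw [sub_eq_add_neg, ← Polynomial.C_neg, Polynomial.coeff_X_add_C_pow, Nat.sub_sub_self hble,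
      Nat.choose_symm hble]
    apply mul_ne_zero
    · exact pow_ne_zero _ (neg_ne_zero.mpr one_ne_zero)
    · rw [Ne, CharP.cast_eq_zero_iff (kk A) ℓ]
      exact hbch
  have ha0 : χ.coeff (χ.natDegree - ℓ ^ b) ≠ 0 := by
    intro h0
    apply hcoefk
    have h1 := hred' (χ.natDegree - ℓ ^ b)
    have h2 : (⟨((χ.coeff (χ.natDegree - ℓ ^ b) : FN N) : Om), hO _⟩ : Ocal A) = 0 :=
      Subtype.ext (by
        show ((χ.coeff (χ.natDegree - ℓ ^ b) : FN N) : Om) = 0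
        rw [h0]
        rfl)
    rw [h2, map_zero] at h1
    exact HahnSeries.C_injective (by rw [← h1, map_zero])
  have hmem := hcoef (ℓ ^ b) hble
  obtain ⟨Da, hDa, hDadeg⟩ := hdiv0 _ ha0
  have hE : Da + (ℓ ^ b) • D₁ = 0 := by
    apply FFPoles.eq_zero_of_nonneg_of_degree_eq_zero
    · intro P
      rw [Finsupp.add_apply, hDa]
      have h1 := (mem_riemannRochSpace_iff.mp hmem P).resolve_left ha0
      linarith
    · intro P
      rw [hdeg1]
      exact one_pos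
    · rw [map_add, map_nsmul, hDadeg, hdeg, smul_zero, add_zero]
  have h3 : (ℓ ^ b) • D₁ = -Da := eq_neg_of_add_eq_zero_right hE
  rw [h3]
  exact neg_mem ⟨_, ha0, hDa⟩

/-! ## The core in contract form -/

/-- The place-map-free divisor core from the contracts, for any `N ∣ N'`. -/
theorem divFree_of_contracts (ℓ : ℕ) [Fact ℓ.Prime] [CharP (kk A) ℓ] (hdiv : N ∣ N')
    (hψ : 0 < dedekindPsi N) (hψ' : 0 < dedekindPsi N')
    (hRedN' : RedStmt A N') (hChar0 : Char0Stmt N) (hChar : CharStmt A N N')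
    (hChar1 : CharStmt A 1 N') (hle1 : Fk A 1 ≤ Fk A N')
    (hRR0 : RR0 N N') (hRRl : RRl A N') (hConstW : ConstW A N')
    (m : ℕ) (hm : ¬ ℓ ∣ m) (D : Divisor Kbar (FN N)) (hD : Divisor.degree D = 0)
    (f : FN N) (hf : (f : Om) ∈ Ocal A) (hred : red A ⟨(f : Om), hf⟩ = 1)
    (hfdiv : ∀ P : Place Kbar (FN N), (m • D) P = P.ord f) :
    D ∈ Divisor.principal (K := Kbar) (F := FN N) := by
  have hle : modularFunctionFieldBar N ≤ modularFunctionFieldBar N' := PullStep.bar_le hdiv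
  have hf0 : f ≠ 0 := by
    rintro rfl
    have h0 : (⟨((0 : FN N) : Om), hf⟩ : Ocal A) = 0 := Subtype.ext rfl
    rw [h0, map_zero] at hred
    exact zero_ne_one hred
  have hm0 : 0 < m := Nat.pos_of_ne_zero (by rintro rfl; exact hm (dvd_zero ℓ))
  have hmk : (m : kk A) ≠ 0 := by
    rw [Ne, CharP.cast_eq_zero_iff (kk A) ℓ]
    exact hm
  have hincl0 : ∀ Cp : Divisor Kbar (FN N), (∀ P, Cp P = max 0 (-(P.ord (jBar N)))) →
      ∀ c : ℕ, redSp A (pullRR N N' (c • Cp)) ≤ WJ (kk A) (Fk A N') c :=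
    fun Cp hCp c => incl0 N N' A hdiv hChar1 hRedN' hle1 Cp hCp c
  have hinclD : ∀ Cp : Divisor Kbar (FN N), (∀ P, Cp P = max 0 (-(P.ord (jBar N)))) →
      ∀ (c : ℕ) (y : Ocal A), (y : Om) ∈ pullRR N N' (D + c • Cp) →
        red A y ∈ WJ (kk A) (Fk A N') c :=
    fun Cp hCp c y hy => red_mem_WJ_of_pow N N' A hle hRedN' Cp (hincl0 Cp hCp) m hm0 D f hf hf0
      hred hfdiv c y hy
  obtain ⟨g, hg, hg0⟩ := exists_section_free N N' A hle hψ hRedN' hChar0 hRR0 hRRl hConstW m hmk D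
    hD hincl0 hinclD f hf hf0 hred hfdiv
  obtain ⟨b, hb⟩ := exists_pow_principal_free N N' A ℓ hψ' hRedN' hChar0 hChar hConstW D hD hinclD
    g hg hg0
  have hmD : m • D ∈ Divisor.principal (K := Kbar) (F := FN N) := ⟨f, hf0, fun P => hfdiv P⟩
  exact OrthoDesc.mem_of_pow_nsmul_mem (Divisor.principal (K := Kbar) (F := FN N)) D ℓ b m hm hb hmD

end Assembly

/-! ## The unconditional statement -/

set_option maxHeartbeats 1000000 in
/-- **The place-map-free divisor core** (`DivCoreFree A N ℓ`, unfolded): for `ℓ ∤ N`, `A` over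
`ℓ`, `ℓ ∤ m`, a degree-zero divisor `D` of `F_N` with `m • D = div f`, `f ∈ Ocal A`,
`red f = 1`, is principal. -/
theorem divFree (N : ℕ) [NeZero N] (ℓ : ℕ) [Fact ℓ.Prime] (hℓN : ¬ ℓ ∣ N)
    (A : ValuationSubring Kbar) (hA : A.LiesOverPrime ℓ) (m : ℕ) (hm : ¬ ℓ ∣ m)
    (D : Divisor Kbar (FN N)) (hD : Divisor.degree D = 0)
    (f : FN N) (hf : (f : Om) ∈ Ocal A) (hred : red A ⟨(f : Om), hf⟩ = 1)
    (hdiv : ∀ P : Place Kbar (FN N), (m • D) P = P.ord f) :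
    D ∈ Divisor.principal (K := Kbar) (F := FN N) := by
  have hℓp : ℓ.Prime := Fact.out
  have hM0 : (if ℓ = 2 then 9 else 4) ≠ 0 := by split_ifs <;> norm_num
  have hℓM : ¬ ℓ ∣ (if ℓ = 2 then 9 else 4) := by
    split_ifs with h2
    · subst h2
      norm_num
    · intro hdvd
      have h4 : ℓ ∣ 2 ^ 2 := by norm_num; exact hdvd
      exact h2 ((Nat.prime_dvd_prime_iff_eq hℓp Nat.prime_two).mp (hℓp.dvd_of_dvd_pow h4))
  have : NeZero ((if ℓ = 2 then 9 else 4) * N) := ⟨mul_ne_zero hM0 (NeZero.ne N)⟩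
  have hℓ' : ¬ ℓ ∣ (if ℓ = 2 then 9 else 4) * N := fun h =>
    (hℓp.dvd_mul.mp h).elim hℓM hℓN
  have hdivN : N ∣ (if ℓ = 2 then 9 else 4) * N := dvd_mul_left N _
  have hTF : 4 ∣ (if ℓ = 2 then 9 else 4) * N ∨ 9 ∣ (if ℓ = 2 then 9 else 4) * N := by
    split_ifs
    · exact Or.inr (dvd_mul_right 9 N)
    · exact Or.inl (dvd_mul_right 4 N)
  have hchar : CharP (kk A) ℓ := charP_residueField_of_liesOverPrime A ℓ hA
  exact divFree_of_contracts N ((if ℓ = 2 then 9 else 4) * N) A ℓ hdivN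
    (FibreCount.dedekindPsi_pos N) (FibreCount.dedekindPsi_pos _)
    (Red.redStmt _ ℓ hℓ' A hA) (Char0.char0Stmt N)
    (CharStmt.charStmt N _ hdivN ℓ hℓ' A hA)
    (CharStmt.charStmt 1 _ (one_dvd _) ℓ hℓ' A hA) (CharStmt.fk_le A (one_dvd _))
    (RR0.rr0 N _ hdivN hTF) (RRl.Main.rrl ℓ N A hℓN hA) (ConstWPlan.constW A _)
    m hm D hD f hf hred hdiv

end Fermat.Agent.S18.FreeCore

end
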