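/-
S18, package [PULL] (helper27): pull-back Riemann–Roch spaces along a finite separable extension
`F'/F` of function fields, defined by integrality over the local rings of the places of `F`
(no place of `F'` is ever used).

* `pullRR F' B` : the `K`-subspace `{g ∈ F' | ∀ P t, t ≠ 0 → B P ≤ ord_P t → t • g integral over O_P}`;
* one-liners: monotonicity, `⊓`, shift by a principal divisor, powers, `1 ∈ pullRR B` for `0 ≤ B`,
  `L_F(B) ⊆ pullRR B`;
* (P0) the integral closure of `O_P` in `F'` is `O_P`-free of rank `[F':F]`;
* (a) `g ∈ pullRR B` ⇒ the coefficient of `X^(d'-i)` of the characteristic polynomial of `g`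
  over `F` lies in `L_F(i • B)`;
* (b) `dim pullRR B ≤ dim pullRR (B - P) + [F':F] * deg P`.
-/
import Mathlib
import Fermat.Prelude.Def_AlgebraicCurve_Repartitions
import Fermat.Agent.Lib.FFPlaces

set_option autoImplicit false

noncomputable section

namespace Fermat.Agent.S18.PullLocal

open AlgebraicCurve Polynomial Module

/-! ### Generic linear algebra -/

section Scale

/-- The characteristic polynomial of a scalar multiple of a matrix. -/
theorem matrix_charpoly_smul {k : Type*} [Field k] {n : Type*} [Fintype n] [DecidableEq n]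
    (A : Matrix n n k) {c : k} (hc : c ≠ 0) :
    (c • A).charpoly = C (c ^ Fintype.card n) * A.charpoly.comp (C c⁻¹ * X) := by
  have h : Matrix.charmatrix (c • A) =
      (C c : k[X]) • (Polynomial.compRingHom (C c⁻¹ * X)).mapMatrix (Matrix.charmatrix A) := by
    refine Matrix.ext fun i j => ?_
    by_cases hij : i = j
    · subst hij
      simp only [Matrix.charmatrix_apply_eq, Matrix.smul_apply, RingHom.mapMatrix_apply,
        Matrix.map_apply, coe_compRingHom, sub_comp, X_comp, C_comp, smul_eq_mul, map_mul]
      rw [mul_sub, ← mul_assoc, ← C_mul, ← C_mul, mul_inv_cancel₀ hc, C_1, one_mul]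
    · simp only [Matrix.charmatrix_apply_ne _ _ _ hij, Matrix.smul_apply, RingHom.mapMatrix_apply,
        Matrix.map_apply, coe_compRingHom, neg_comp, C_comp, smul_eq_mul, map_mul, mul_neg]
  rw [Matrix.charpoly, h, Matrix.det_smul, ← RingHom.map_det, ← C_pow]
  rfl

theorem matrix_charpoly_smul_coeff {k : Type*} [Field k] {n : Type*} [Fintype n] [DecidableEq n]
    (A : Matrix n n k) {c : k} (hc : c ≠ 0) (i : ℕ) (hi : i ≤ Fintype.card n) :
    (c • A).charpoly.coeff (Fintype.card n - i) =
      c ^ i * A.charpoly.coeff (Fintype.card n - i) := by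
  rw [matrix_charpoly_smul A hc, coeff_C_mul, comp_C_mul_X_coeff]
  have : c ^ Fintype.card n = c ^ i * c ^ (Fintype.card n - i) := by
    rw [← pow_add, Nat.add_sub_cancel' hi]
  rw [this, inv_pow]
  field_simp

/-- The coefficient of `X^(n-i)` of the characteristic polynomial is homogeneous of degree `i`. -/
theorem linearMap_charpoly_smul_coeff {k M : Type*} [Field k] [AddCommGroup M] [Module k M]
    [FiniteDimensional k M] (f : M →ₗ[k] M) {c : k} (hc : c ≠ 0) (i : ℕ)
    (hi : i ≤ finrank k M) :
    (c • f).charpoly.coeff (finrank k M - i) = c ^ i * f.charpoly.coeff (finrank k M - i) := by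
  classical
  have b := Module.finBasis k M
  rw [← LinearMap.charpoly_toMatrix (c • f) b, ← LinearMap.charpoly_toMatrix f b, map_smul]
  have hcard : Fintype.card (Fin (finrank k M)) = finrank k M := Fintype.card_fin _
  have := matrix_charpoly_smul_coeff (LinearMap.toMatrix b b f) hc i (by rw [hcard]; exact hi)
  rwa [hcard] at this

/-- Dimension count: a linear map into a finite-dimensional space whose kernel lies in a
finite-dimensional subspace. -/
theorem finrank_le_of_ker_le {k V T : Type*} [Field k] [AddCommGroup V] [Module k V]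
    [AddCommGroup T] [Module k T] [FiniteDimensional k T] (φ : V →ₗ[k] T) (W : Submodule k V)
    [FiniteDimensional k W] (h : LinearMap.ker φ ≤ W) :
    FiniteDimensional k V ∧ finrank k V ≤ finrank k W + finrank k T := by
  have : FiniteDimensional k (LinearMap.ker φ) := Submodule.finiteDimensional_of_le h
  have : Module.Finite k (V ⧸ LinearMap.ker φ) :=
    Module.Finite.equiv φ.quotKerEquivRange.symm
  have : FiniteDimensional k V := Module.Finite.of_submodule_quotient (LinearMap.ker φ)
  refine ⟨inferInstance, ?_⟩
  have h1 := LinearMap.finrank_range_add_finrank_ker φ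
  have h2 : finrank k (LinearMap.range φ) ≤ finrank k T := Submodule.finrank_le _
  have h3 : finrank k (LinearMap.ker φ) ≤ finrank k W := Submodule.finrank_mono h
  omega

end Scale

/-! ### Places: small facts -/

section PlaceFacts

variable {K F : Type*} [Field K] [Field F] [Algebra K F]

/-- An element of `F` with prescribed order at a place. -/
theorem exists_ord_eq (P : Place K F) (n : ℤ) : ∃ u : F, u ≠ 0 ∧ P.ord u = n := by
  obtain ⟨ϖ, hϖ⟩ := IsDiscreteValuationRing.exists_irreducible ↥P.toValuationSubring
  have hϖ0 : (ϖ : F) ≠ 0 := by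
    simpa [ne_eq, ZeroMemClass.coe_eq_zero] using hϖ.ne_zero
  refine ⟨(ϖ : F) ^ n, zpow_ne_zero n hϖ0, ?_⟩
  rw [P.ord_zpow, P.ord_coe_irreducible hϖ, mul_one]

theorem mem_of_ord_nonneg (P : Place K F) {s : F} (hs : s = 0 ∨ 0 ≤ P.ord s) :
    s ∈ P.toValuationSubring := by
  rcases eq_or_ne s 0 with rfl | hs0
  · exact zero_mem _
  · exact (Fermat.Agent.Lib.FFPlaces.mem_iff_ord_nonneg P hs0).mpr (hs.resolve_left hs0)

theorem ord_div (P : Place K F) {a b : F} (ha : a ≠ 0) (hb : b ≠ 0) :
    P.ord (a / b) = P.ord a - P.ord b := by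
  rw [div_eq_mul_inv, P.ord_mul ha (inv_ne_zero hb), P.ord_inv, sub_eq_add_neg]

theorem ord_pow (P : Place K F) (a : F) (m : ℕ) : P.ord (a ^ m) = m * P.ord a := by
  rw [← zpow_natCast, P.ord_zpow]

end PlaceFacts

/-! ### The pull-back spaces -/

section Pull

variable {K F : Type*} (F' : Type*) [Field K] [Field F] [Field F'] [Algebra K F] [Algebra F F']
  [Algebra K F'] [IsScalarTower K F F']

/-- The pull-back Riemann–Roch space of a divisor `B` of `F` in the extension `F'`, defined by
integrality over the local rings of the places of `F`. -/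
def pullRR (B : Divisor K F) : Submodule K F' where
  carrier := {g | ∀ (P : Place K F) (t : F), t ≠ 0 → B P ≤ P.ord t →
    IsIntegral ↥P.toValuationSubring (t • g)}
  zero_mem' := by
    intro P t _ _
    rw [smul_zero]
    exact isIntegral_zero
  add_mem' := by
    intro g h hg hh P t ht hB
    rw [smul_add]
    exact (hg P t ht hB).add (hh P t ht hB)
  smul_mem' := by
    intro a g hg P t ht hB
    have h1 : t • a • g = (algebraMap K ↥P.toValuationSubring a) • (t • g) := by
      show t • a • g = (algebraMap K F a) • (t • g)
      rw [algebraMap_smul, smul_comm]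
    show IsIntegral ↥P.toValuationSubring (t • a • g)
    rw [h1]
    exact (hg P t ht hB).smul _

variable {F'}

theorem mem_pullRR {B : Divisor K F} {g : F'} :
    g ∈ pullRR F' B ↔ ∀ (P : Place K F) (t : F), t ≠ 0 → B P ≤ P.ord t →
      IsIntegral ↥P.toValuationSubring (t • g) := Iff.rfl

/-- Integrality of `s • g` for every `s` (possibly zero) of order at least `B P`. -/
theorem isIntegral_smul_of_mem {B : Divisor K F} {g : F'} (hg : g ∈ pullRR F' B) (P : Place K F)
    {s : F} (hs : s = 0 ∨ B P ≤ P.ord s) : IsIntegral ↥P.toValuationSubring (s • g) := by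
  rcases eq_or_ne s 0 with rfl | hs0
  · rw [zero_smul]
    exact isIntegral_zero
  · exact hg P s hs0 (hs.resolve_left hs0)

theorem pullRR_mono {B B' : Divisor K F} (h : B ≤ B') : pullRR F' B ≤ pullRR F' B' :=
  fun _ hg P t ht hB => hg P t ht ((Finsupp.le_def.mp h P).trans hB)

theorem pullRR_inf (B₁ B₂ : Divisor K F) :
    pullRR F' B₁ ⊓ pullRR F' B₂ = pullRR F' (B₁ ⊓ B₂) := by
  apply le_antisymm
  · rintro g ⟨h1, h2⟩ P t ht hB
    rw [Finsupp.inf_apply, inf_le_iff] at hB
    rcases hB with hB | hB
    · exact h1 P t ht hB
    · exact h2 P t ht hB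
  · exact le_inf (pullRR_mono inf_le_left) (pullRR_mono inf_le_right)

/-- Shift by a principal divisor. -/
theorem smul_mem_pullRR_sub {B D : Divisor K F} {h : F} (hh : h ≠ 0)
    (hD : ∀ P : Place K F, D P = P.ord h) {g : F'} (hg : g ∈ pullRR F' B) :
    h • g ∈ pullRR F' (B - D) := by
  intro P t ht hB
  rw [Finsupp.coe_sub, Pi.sub_apply, hD P, sub_le_iff_le_add, ← P.ord_mul ht hh] at hB
  rw [smul_smul]
  exact hg P (t * h) (mul_ne_zero ht hh) hB

/-- Powers: `s ∈ pullRR B`, `f ∈ Fˣ` ⇒ `f • s ^ m ∈ pullRR (m • B - div f)`. -/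
theorem smul_pow_mem_pullRR {B D : Divisor K F} {f : F} (hf : f ≠ 0)
    (hD : ∀ P : Place K F, D P = P.ord f) {s : F'} (hs : s ∈ pullRR F' B) (m : ℕ) :
    f • s ^ m ∈ pullRR F' (m • B - D) := by
  intro P t ht hB
  rw [Finsupp.coe_sub, Pi.sub_apply, hD P, Finsupp.smul_apply, nsmul_eq_mul, sub_le_iff_le_add,
    ← P.ord_mul ht hf] at hB
  obtain ⟨u, hu0, hu⟩ := exists_ord_eq P (B P)
  have h1 : IsIntegral ↥P.toValuationSubring ((u • s) ^ m) := (hs P u hu0 hu.ge).pow m
  have hmem : t * f / u ^ m ∈ P.toValuationSubring := by
    refine mem_of_ord_nonneg P (Or.inr ?_)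
    rw [ord_div P (mul_ne_zero ht hf) (pow_ne_zero m hu0), ord_pow, hu]
    linarith
  have h2 : t • f • s ^ m = (⟨t * f / u ^ m, hmem⟩ : ↥P.toValuationSubring) • (u • s) ^ m := by
    show t • f • s ^ m = (t * f / u ^ m) • (u • s) ^ m
    rw [_root_.smul_pow, smul_smul, smul_smul, div_mul_cancel₀ _ (pow_ne_zero m hu0)]
  rw [h2]
  exact h1.smul _

theorem one_mem_pullRR {B : Divisor K F} (hB : 0 ≤ B) : (1 : F') ∈ pullRR F' B := by
  intro P t _ hBt
  have hmem : t ∈ P.toValuationSubring :=
    mem_of_ord_nonneg P (Or.inr ((Finsupp.le_def.mp hB P).trans hBt))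
  have : t • (1 : F') = algebraMap ↥P.toValuationSubring F' ⟨t, hmem⟩ := by
    rw [Algebra.smul_def, mul_one]
    rfl
  rw [this]
  exact isIntegral_algebraMap

/-- Elements of `L_F(B)` lie in the pull-back space. -/
theorem algebraMap_mem_pullRR {B : Divisor K F} {f : F} (hf : f ∈ riemannRochSpace B) :
    algebraMap F F' f ∈ pullRR F' B := by
  intro P t ht hBt
  have hmem : t * f ∈ P.toValuationSubring := by
    refine mem_of_ord_nonneg P ?_
    rcases (mem_riemannRochSpace_iff.mp hf) P with h0 | h0
    · left
      rw [h0, mul_zero]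
    · rcases eq_or_ne f 0 with rfl | hf0
      · left
        rw [mul_zero]
      · right
        rw [P.ord_mul ht hf0]
        linarith
  have : t • algebraMap F F' f = algebraMap ↥P.toValuationSubring F' ⟨t * f, hmem⟩ := by
    rw [Algebra.smul_def, ← map_mul]
    rfl
  rw [this]
  exact isIntegral_algebraMap

/-! ### Local freeness and the characteristic polynomial -/

section Local

variable [FiniteDimensional F F'] [Algebra.IsSeparable F F']

omit [Algebra K F'] [IsScalarTower K F F'] in
/-- (P0) The integral closure of the local ring of a place in `F'` is free of rank `[F':F]`. -/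
theorem integralClosure_free (P : Place K F) :
    Module.Free ↥P.toValuationSubring (integralClosure ↥P.toValuationSubring F') ∧
      Module.Finite ↥P.toValuationSubring (integralClosure ↥P.toValuationSubring F') ∧
      finrank ↥P.toValuationSubring (integralClosure ↥P.toValuationSubring F') = finrank F F' :=
  ⟨IsIntegralClosure.module_free ↥P.toValuationSubring F F' _,
    IsIntegralClosure.finite ↥P.toValuationSubring F F' _,
    IsIntegralClosure.rank ↥P.toValuationSubring F F' _⟩

omit [Algebra K F'] [IsScalarTower K F F'] in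
/-- The characteristic polynomial over `F` of an element integral over `O_P` has coefficients
in `O_P`. -/
theorem coeff_charpoly_mem_of_isIntegral (P : Place K F) {y : F'}
    (hy : IsIntegral ↥P.toValuationSubring y) (j : ℕ) :
    (LinearMap.mulLeft F y).charpoly.coeff j ∈ P.toValuationSubring := by
  classical
  have hfree : Module.Free ↥P.toValuationSubring (integralClosure ↥P.toValuationSubring F') :=
    IsIntegralClosure.module_free ↥P.toValuationSubring F F' _
  have hfin : Module.Finite ↥P.toValuationSubring (integralClosure ↥P.toValuationSubring F') :=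
    IsIntegralClosure.finite ↥P.toValuationSubring F F' _
  have hloc := IsIntegralClosure.isLocalization ↥P.toValuationSubring F F'
    (integralClosure ↥P.toValuationSubring F')
  let b := Module.Free.chooseBasis ↥P.toValuationSubring
    (integralClosure ↥P.toValuationSubring F')
  let bF := b.localizationLocalization F (nonZeroDivisors ↥P.toValuationSubring) F'
  let x : integralClosure ↥P.toValuationSubring F' := ⟨y, hy⟩
  have h1 : (LinearMap.mulLeft F y).charpoly =
      ((Algebra.leftMulMatrix b x).charpoly).map (algebraMap ↥P.toValuationSubring F) := by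
    rw [← LinearMap.charpoly_toMatrix _ bF, Algebra.toMatrix_lmul_eq, ← Matrix.charpoly_map]
    congr 1
    exact (Algebra.map_leftMulMatrix_localization ↥P.toValuationSubring
      (nonZeroDivisors ↥P.toValuationSubring) b x).symm
  rw [h1, Polynomial.coeff_map]
  exact Subtype.property _

/-- (a) For `g ∈ pullRR B`, the coefficient of `X^(d'-i)` of the characteristic polynomial of
`g` over `F` lies in `L_F(i • B)`. -/
theorem coeff_charpoly_mem_riemannRochSpace {B : Divisor K F} {g : F'} (hg : g ∈ pullRR F' B)
    (i : ℕ) (hi : i ≤ finrank F F') :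
    (LinearMap.mulLeft F g).charpoly.coeff (finrank F F' - i) ∈ riemannRochSpace (i • B) := by
  rw [mem_riemannRochSpace_iff]
  intro P
  by_cases ha : (LinearMap.mulLeft F g).charpoly.coeff (finrank F F' - i) = 0
  · exact Or.inl ha
  right
  obtain ⟨u, hu0, hu⟩ := exists_ord_eq P (B P)
  have h2 := coeff_charpoly_mem_of_isIntegral P (hg P u hu0 hu.ge) (finrank F F' - i)
  have h3 : LinearMap.mulLeft F (u • g) = u • LinearMap.mulLeft F g := by
    ext z
    simp
  rw [h3, linearMap_charpoly_smul_coeff _ hu0 i hi] at h2
  have h4 := (Fermat.Agent.Lib.FFPlaces.mem_iff_ord_nonneg P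
    (mul_ne_zero (pow_ne_zero i hu0) ha)).mp h2
  rw [P.ord_mul (pow_ne_zero _ hu0) ha, ord_pow, hu] at h4
  rw [Finsupp.smul_apply, nsmul_eq_mul]
  linarith

/-- (b) Each point of `F` costs at most `[F':F] * deg P` dimensions. -/
theorem finrank_pullRR_le (B : Divisor K F) (P : Place K F) [Module.Finite K P.ResidueField]
    [Module.Finite K (pullRR F' (B - Finsupp.single P 1))] :
    Module.Finite K (pullRR F' B) ∧
      finrank K (pullRR F' B) ≤
        finrank K (pullRR F' (B - Finsupp.single P 1)) + finrank F F' * P.deg := by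
  classical
  obtain ⟨ϖ, hϖ⟩ := IsDiscreteValuationRing.exists_irreducible ↥P.toValuationSubring
  have hϖ0 : (ϖ : F) ≠ 0 := by
    simpa [ne_eq, ZeroMemClass.coe_eq_zero] using hϖ.ne_zero
  have hϖord : P.ord (ϖ : F) = 1 := P.ord_coe_irreducible hϖ
  obtain ⟨u, hu0, hu⟩ := exists_ord_eq P (B P)
  have hfree : Module.Free ↥P.toValuationSubring (integralClosure ↥P.toValuationSubring F') :=
    IsIntegralClosure.module_free ↥P.toValuationSubring F F' _
  have hfin : Module.Finite ↥P.toValuationSubring (integralClosure ↥P.toValuationSubring F') :=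
    IsIntegralClosure.finite ↥P.toValuationSubring F F' _
  let b := Module.Free.chooseBasis ↥P.toValuationSubring
    (integralClosure ↥P.toValuationSubring F')
  have hint : ∀ g : pullRR F' B, IsIntegral ↥P.toValuationSubring (u • (g : F')) :=
    fun g => g.2 P u hu0 hu.ge
  -- the coordinates of `u • g` modulo the maximal ideal
  let φ : pullRR F' B →ₗ[K]
      (Module.Free.ChooseBasisIndex ↥P.toValuationSubring
        (integralClosure ↥P.toValuationSubring F') → P.ResidueField) :=
    { toFun := fun g j => IsLocalRing.residue ↥P.toValuationSubring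
        (b.repr (⟨u • (g : F'), hint g⟩ : integralClosure ↥P.toValuationSubring F') j)
      map_add' := by
        intro g h
        funext j
        have : (⟨u • ((g + h : pullRR F' B) : F'), hint (g + h)⟩ :
            integralClosure ↥P.toValuationSubring F') =
            ⟨u • (g : F'), hint g⟩ + ⟨u • (h : F'), hint h⟩ := by
          apply Subtype.ext
          show u • ((g : F') + (h : F')) = u • (g : F') + u • (h : F')
          rw [smul_add]
        rw [this, map_add, Finsupp.add_apply, map_add]
        rfl
      map_smul' := by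
        intro a g
        funext j
        have : (⟨u • ((a • g : pullRR F' B) : F'), hint (a • g)⟩ :
            integralClosure ↥P.toValuationSubring F') =
            (algebraMap K ↥P.toValuationSubring a) •
              (⟨u • (g : F'), hint g⟩ : integralClosure ↥P.toValuationSubring F') := by
          apply Subtype.ext
          show u • (a • (g : F')) = (algebraMap K F a) • (u • (g : F'))
          rw [algebraMap_smul, smul_comm]
        rw [this, map_smul, Finsupp.smul_apply, smul_eq_mul, map_mul, RingHom.id_apply,
          Pi.smul_apply]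
        exact (Algebra.smul_def a _).symm }
  -- the kernel lies in the smaller space
  have hker : LinearMap.ker φ ≤
      (pullRR F' (B - Finsupp.single P 1)).comap (pullRR F' B).subtype := by
    intro g hg
    rw [LinearMap.mem_ker] at hg
    rw [Submodule.mem_comap, Submodule.subtype_apply]
    -- all coordinates are divisible by the uniformizer
    have hdiv : ∀ j, ∃ c : ↥P.toValuationSubring,
        b.repr (⟨u • (g : F'), hint g⟩ : integralClosure ↥P.toValuationSubring F') j = ϖ * c := by
      intro j
      have hj : IsLocalRing.residue ↥P.toValuationSubring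
          (b.repr (⟨u • (g : F'), hint g⟩ : integralClosure ↥P.toValuationSubring F') j) = 0 :=
        congrFun hg j
      rw [IsLocalRing.residue_eq_zero_iff, hϖ.maximalIdeal_eq, Ideal.mem_span_singleton'] at hj
      obtain ⟨c, hc⟩ := hj
      exact ⟨c, by rw [← hc, mul_comm]⟩
    choose c hc using hdiv
    let x' : integralClosure ↥P.toValuationSubring F' := ∑ j, c j • b j
    have hx : (⟨u • (g : F'), hint g⟩ : integralClosure ↥P.toValuationSubring F') = ϖ • x' := by
      rw [← b.sum_repr (⟨u • (g : F'), hint g⟩ : integralClosure ↥P.toValuationSubring F'),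
        Finset.smul_sum]
      refine Finset.sum_congr rfl fun j _ => ?_
      rw [hc j, mul_smul]
    have hx2 : ((ϖ : F)⁻¹ * u) • (g : F') = (x' : F') := by
      have h5 : u • (g : F') = (ϖ : F) • (x' : F') := congrArg Subtype.val hx
      rw [mul_smul, h5, smul_smul, inv_mul_cancel₀ hϖ0, one_smul]
    have hw0 : (ϖ : F)⁻¹ * u ≠ 0 := mul_ne_zero (inv_ne_zero hϖ0) hu0
    have hword : P.ord ((ϖ : F)⁻¹ * u) = B P - 1 := by
      rw [P.ord_mul (inv_ne_zero hϖ0) hu0, P.ord_inv, hϖord, hu]
      ring
    have hwint : IsIntegral ↥P.toValuationSubring (((ϖ : F)⁻¹ * u) • (g : F')) := by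
      rw [hx2]
      exact x'.2
    intro Q t ht hB
    by_cases hQ : Q = P
    · subst hQ
      rw [Finsupp.coe_sub, Pi.sub_apply, Finsupp.single_eq_same] at hB
      have hmem : t / ((ϖ : F)⁻¹ * u) ∈ Q.toValuationSubring := by
        refine mem_of_ord_nonneg Q (Or.inr ?_)
        rw [ord_div Q ht hw0, hword]
        linarith
      have h6 : t • (g : F') = (⟨t / ((ϖ : F)⁻¹ * u), hmem⟩ : ↥Q.toValuationSubring) •
          (((ϖ : F)⁻¹ * u) • (g : F')) := by
        show t • (g : F') = (t / ((ϖ : F)⁻¹ * u)) • (((ϖ : F)⁻¹ * u) • (g : F'))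
        rw [smul_smul, div_mul_cancel₀ _ hw0]
      rw [h6]
      exact hwint.smul _
    · rw [Finsupp.coe_sub, Pi.sub_apply, Finsupp.single_eq_of_ne hQ, sub_zero] at hB
      exact g.2 Q t ht hB
  have hle : pullRR F' (B - Finsupp.single P 1) ≤ pullRR F' B :=
    pullRR_mono (sub_le_self B (Finsupp.single_nonneg.mpr zero_le_one))
  have hW : FiniteDimensional K
      ((pullRR F' (B - Finsupp.single P 1)).comap (pullRR F' B).subtype) :=
    Module.Finite.equiv (Submodule.comapSubtypeEquivOfLe hle).symm
  obtain ⟨hfd, hrank⟩ := finrank_le_of_ker_le φ _ hker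
  refine ⟨hfd, ?_⟩
  have h7 : finrank K ((pullRR F' (B - Finsupp.single P 1)).comap (pullRR F' B).subtype) =
      finrank K (pullRR F' (B - Finsupp.single P 1)) :=
    LinearEquiv.finrank_eq (Submodule.comapSubtypeEquivOfLe hle)
  have h8 : finrank K (Module.Free.ChooseBasisIndex ↥P.toValuationSubring
      (integralClosure ↥P.toValuationSubring F') → P.ResidueField) = finrank F F' * P.deg := by
    rw [finrank_pi_fintype, Finset.sum_const, Finset.card_univ, smul_eq_mul,
      ← Module.finrank_eq_card_chooseBasisIndex,
      IsIntegralClosure.rank ↥P.toValuationSubring F F' _]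
    rfl
  rw [h7, h8] at hrank
  exact hrank

/-- (b), with the finiteness of the residue field given as `0 < deg P`. -/
theorem finrank_pullRR_le' (B : Divisor K F) (P : Place K F) (hP : 0 < P.deg)
    (hfin : Module.Finite K (pullRR F' (B - Finsupp.single P 1))) :
    Module.Finite K (pullRR F' B) ∧
      finrank K (pullRR F' B) ≤
        finrank K (pullRR F' (B - Finsupp.single P 1)) + finrank F F' * P.deg := by
  have : Module.Finite K P.ResidueField := Module.finite_of_finrank_pos hP
  exact finrank_pullRR_le B P

private theorem finrank_pullRR_chain_aux (hres : ∀ P : Place K F, 0 < P.deg)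
    (s : Finset (Place K F)) :
    ∀ n : ℕ, ∀ B B' : Divisor K F, B ≤ B' → (∀ P, P ∉ s → B P = B' P) →
      ∑ P ∈ s, (B' P - B P).toNat ≤ n → Module.Finite K (pullRR F' B') →
      (finrank K (pullRR F' B') : ℤ) ≤
        finrank K (pullRR F' B) + finrank F F' * (Divisor.degree B' - Divisor.degree B) := by
  intro n
  induction n with
  | zero =>
    intro B B' hle hs hsum _
    have hBB : B = B' := by
      ext P
      by_cases hP : P ∈ s
      · have h0 : (B' P - B P).toNat = 0 := by
          have := Finset.sum_eq_zero_iff.mp (Nat.le_zero.mp hsum) P hP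
          exact this
        have h1 := Finsupp.le_def.mp hle P
        have h2 : B' P - B P ≤ 0 := Int.toNat_eq_zero.mp h0
        linarith
      · exact hs P hP
    subst hBB
    simp
  | succ n ih =>
    intro B B' hle hs hsum hfin
    by_cases hex : ∃ P ∈ s, B P < B' P
    · obtain ⟨P, hPs, hPlt⟩ := hex
      have hle'' : B ≤ B' - Finsupp.single P 1 := by
        rw [Finsupp.le_def]
        intro Q
        rw [Finsupp.coe_sub, Pi.sub_apply]
        by_cases hQ : Q = P
        · subst hQ
          rw [Finsupp.single_eq_same]
          omega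
        · rw [Finsupp.single_eq_of_ne hQ, sub_zero]
          exact Finsupp.le_def.mp hle Q
      have hs'' : ∀ Q, Q ∉ s → B Q = (B' - Finsupp.single P 1 : Divisor K F) Q := by
        intro Q hQ
        have hQP : Q ≠ P := fun h => hQ (h ▸ hPs)
        rw [Finsupp.coe_sub, Pi.sub_apply, Finsupp.single_eq_of_ne hQP, sub_zero]
        exact hs Q hQ
      have hsum'' : ∑ Q ∈ s, ((B' - Finsupp.single P 1 : Divisor K F) Q - B Q).toNat ≤ n := by
        have hlt : ∑ Q ∈ s, ((B' - Finsupp.single P 1 : Divisor K F) Q - B Q).toNat <
            ∑ Q ∈ s, (B' Q - B Q).toNat := by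
          apply Finset.sum_lt_sum
          · intro Q _
            rw [Finsupp.coe_sub, Pi.sub_apply]
            apply Int.toNat_le_toNat
            have : (0 : ℤ) ≤ (Finsupp.single P (1 : ℤ)) Q := by
              by_cases hQ : Q = P
              · subst hQ
                rw [Finsupp.single_eq_same]
                exact zero_le_one
              · rw [Finsupp.single_eq_of_ne hQ]
            linarith
          · refine ⟨P, hPs, ?_⟩
            rw [Finsupp.coe_sub, Pi.sub_apply, Finsupp.single_eq_same]
            omega
        omega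
      have hmono : pullRR F' (B' - Finsupp.single P 1) ≤ pullRR F' B' :=
        pullRR_mono (sub_le_self B' (Finsupp.single_nonneg.mpr zero_le_one))
      have hfin'' : Module.Finite K (pullRR F' (B' - Finsupp.single P 1)) :=
        Submodule.finiteDimensional_of_le hmono
      have h1 := ih B (B' - Finsupp.single P 1) hle'' hs'' hsum'' hfin''
      have h2 := (finrank_pullRR_le' (F' := F') B' P (hres P) hfin'').2
      have h3 : Divisor.degree (B' - Finsupp.single P 1) = Divisor.degree B' - P.deg := by
        rw [map_sub, Divisor.degree_single, one_mul]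
      rw [h3] at h1
      have h2' : (finrank K (pullRR F' B') : ℤ) ≤
          finrank K (pullRR F' (B' - Finsupp.single P 1)) + finrank F F' * P.deg := by
        exact_mod_cast h2
      linarith
    · have hBB : B = B' := by
        ext P
        by_cases hP : P ∈ s
        · have h1 := Finsupp.le_def.mp hle P
          have h2 : ¬ B P < B' P := fun h => hex ⟨P, hP, h⟩
          omega
        · exact hs P hP
      subst hBB
      simp

/-- The Riemann step for pull-back spaces: for `B ≤ B'`,
`dim pullRR B' ≤ dim pullRR B + [F':F] * (deg B' - deg B)`. -/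
theorem finrank_pullRR_le_of_le (hres : ∀ P : Place K F, 0 < P.deg) {B B' : Divisor K F}
    (hle : B ≤ B') (hfin : Module.Finite K (pullRR F' B')) :
    (finrank K (pullRR F' B') : ℤ) ≤
      finrank K (pullRR F' B) + finrank F F' * (Divisor.degree B' - Divisor.degree B) := by
  classical
  refine finrank_pullRR_chain_aux hres (B.support ∪ B'.support) _ B B' hle ?_ le_rfl hfin
  intro P hP
  rw [Finset.mem_union, not_or, Finsupp.notMem_support_iff, Finsupp.notMem_support_iff] at hP
  rw [hP.1, hP.2]

end Local

end Pull

end Fermat.Agent.S18.PullLocal
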