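import Mathlib
import Fermat.Agent.S18.Red
import Fermat.Agent.Lib.FFDegreeLe

/-!
# S18 — [RED]: degrees over `k(j̄)` (helper49)

For the residue field `k` of a valuation subring `A` of a characteristic-zero field `L`,
`char k = ℓ ∤ n`:  the reductions of the `ψ(n)` lifts form a `k(j̄)`-basis of
`F_{n,k} = modularFunctionFieldFullC k n`; in `finrank` form
`Module.finrank k⟮j̄⟯ F_{n,k} = ψ(n)`.
-/

set_option autoImplicit false
set_option linter.unusedSectionVars false

namespace Fermat.Agent.S18.Content

open ModularCurve Polynomial IntermediateField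

section Generic

variable {K E : Type*} [Field K] [Field E] [Algebra K E]

/-- A family of elements of `F ⊆ E` which is a basis of `F` over the subfield `K(x)` of `E`
(independent and spanning, in the ambient field) gives `[F : K(x)] = m` in `finrank` form. -/
theorem finrank_eq_of_span (F : IntermediateField K E) (x : F) {m : ℕ} (w : Fin m → E)
    (hw : ∀ i, w i ∈ F)
    (hli : LinearIndependent ↥(IntermediateField.adjoin K {(x : E)}) w)
    (hspan : ∀ y ∈ F, y ∈ Submodule.span ↥(IntermediateField.adjoin K {(x : E)}) (Set.range w)) :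
    FiniteDimensional K⟮x⟯ F ∧ Module.finrank K⟮x⟯ F = m := by
  have hli' := Fermat.Agent.Lib.FFDegreeLe.linearIndependent_subtype F x w hw hli
  have hmap : (K⟮x⟯ : IntermediateField K F).map F.val = IntermediateField.adjoin K {(x : E)} := by
    rw [IntermediateField.adjoin_map, Set.image_singleton]
    rfl
  have hsp : ⊤ ≤ Submodule.span K⟮x⟯ (Set.range fun i => (⟨w i, hw i⟩ : F)) := by
    intro y _
    obtain ⟨c, hc⟩ := (Submodule.mem_span_range_iff_exists_fun _).mp (hspan y y.2)
    have hc' : ∀ i, ∃ c' : K⟮x⟯, ((c' : F) : E) = (c i : E) := by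
      intro i
      have : (c i : E) ∈ (K⟮x⟯ : IntermediateField K F).map F.val := by
        rw [hmap]; exact (c i).2
      obtain ⟨z, hz, hzc⟩ := (IntermediateField.mem_map _).mp this
      exact ⟨⟨z, hz⟩, hzc⟩
    choose c' hc'' using hc'
    rw [Submodule.mem_span_range_iff_exists_fun]
    refine ⟨c', Subtype.ext ?_⟩
    rw [← hc]
    simp only [AddSubmonoidClass.coe_finsetSum]
    refine Finset.sum_congr rfl fun i _ => ?_
    show (((c' i : F) * ⟨w i, hw i⟩ : F) : E) = (c i : E) * w i
    rw [MulMemClass.coe_mul, hc'' i]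
  let b := Module.Basis.mk hli' hsp
  exact ⟨Module.Finite.of_basis b, by rw [Module.finrank_eq_card_basis b, Fintype.card_fin]⟩

end Generic

section Gauss

variable {L : Type*} [Field L] (A : ValuationSubring L)
  (s : LaurentSeries A) {n : ℕ} (X : Fin n → LaurentSeries A)
  (hs : Transcendental (IsLocalRing.ResidueField A) (rho A s))
  (hX : LinearIndependent
    (IntermediateField.adjoin (IsLocalRing.ResidueField A) {rho A s}) (fun i => rho A (X i)))

include hs hX in
/-- Reductions of integral elements of the span of a Gauss lattice lie in the `k(ρ s)`-span of the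
reduced lattice. -/
theorem red_mem_span_rho (y : LaurentSeries L)
    (hy : y ∈ Submodule.span (IntermediateField.adjoin L {iota A s})
      (Set.range fun i => iota A (X i))) (hyO : y ∈ Ocal A) :
    red A ⟨y, hyO⟩ ∈ Submodule.span
      (IntermediateField.adjoin (IsLocalRing.ResidueField A) {rho A s})
      (Set.range fun i => rho A (X i)) := by
  by_cases hy0 : y = 0
  · have : (⟨y, hyO⟩ : Ocal A) = 0 := Subtype.ext hy0
    rw [this, map_zero]; exact zero_mem _
  obtain ⟨c, Q, D, hc, hQ, hD, hform⟩ := exists_gauss_form A s X hs hX y hy hy0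
  have hρD := rho_evalA_ne_zero A s hs D hD
  have hρQ := rho_num_ne_zero A s X hs hX Q hQ
  have hcA : c ∈ A := (mem_Ocal_iff_of_form hρQ hρD hform).mp hyO
  rw [red_of_form hρD hform hcA hyO, rho_num, Finset.sum_div, Finset.mul_sum]
  refine Submodule.sum_mem _ fun i _ => ?_
  have hmem : HahnSeries.C (IsLocalRing.residue A ⟨c, hcA⟩) *
      (aeval (rho A s) ((Q i).map (IsLocalRing.residue A)) / rho A (evalA A s D)) ∈
      IntermediateField.adjoin (IsLocalRing.ResidueField A) {rho A s} := by
    refine mul_mem ?_ (div_mem ?_ ?_)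
    · rw [← algebraMap_LS_eq_C]
      exact IntermediateField.algebraMap_mem _ _
    · exact IntermediateField.algebra_adjoin_le_adjoin _ _ (aeval_mem_adjoin_singleton _ _)
    · rw [rho_evalA]
      exact IntermediateField.algebra_adjoin_le_adjoin _ _ (aeval_mem_adjoin_singleton _ _)
  have h1 : HahnSeries.C (IsLocalRing.residue A ⟨c, hcA⟩) *
      (aeval (rho A s) ((Q i).map (IsLocalRing.residue A)) * rho A (X i) / rho A (evalA A s D)) =
      (⟨_, hmem⟩ : IntermediateField.adjoin (IsLocalRing.ResidueField A) {rho A s}) •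
        rho A (X i) := by
    show _ = HahnSeries.C (IsLocalRing.residue A ⟨c, hcA⟩) *
      (aeval (rho A s) ((Q i).map (IsLocalRing.residue A)) / rho A (evalA A s D)) * rho A (X i)
    ring
  rw [h1]
  exact Submodule.smul_mem _ _ (Submodule.subset_span ⟨i, rfl⟩)

end Gauss

section Field

variable {L : Type*} [Field L] [Algebra ℚ L] (A : ValuationSubring L) (N : ℕ) [NeZero N]

section Basis

variable (X : Fin (dedekindPsi N) → LaurentSeries ℤ)
  (hmem : ∀ i, X i ∈ Fermat.Agent.S28.Reduction.jRing N)
  (hind : LinearIndependent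
    (IntermediateField.adjoin (IsLocalRing.ResidueField A) {jqModC (IsLocalRing.ResidueField A)})
    (fun i => coeffMap (Int.castRingHom (IsLocalRing.ResidueField A)) (X i)))

include hmem hind in
/-- The reduced lifts span `F_{N,k}` over `k(j̄)`. -/
theorem mem_span_red_lifts {z : LaurentSeries (IsLocalRing.ResidueField A)}
    (hz : z ∈ modularFunctionFieldFullC (IsLocalRing.ResidueField A) N) :
    z ∈ Submodule.span
      (IntermediateField.adjoin (IsLocalRing.ResidueField A) {jqModC (IsLocalRing.ResidueField A)})
      (Set.range fun i => coeffMap (Int.castRingHom (IsLocalRing.ResidueField A)) (X i)) := by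
  obtain ⟨y, hy, hyO, rfl⟩ := exists_red_eq A N hz
  have h := red_mem_span_rho A (jqModC A) (XA A X) (transcendental_rho_jA A)
    (linearIndependent_rho_XA A N X hind) y (mem_spanV_of_mem A N X hmem hind hy) hyO
  have h1 : (fun i => rho A (XA A X i)) =
      fun i => coeffMap (Int.castRingHom (IsLocalRing.ResidueField A)) (X i) :=
    funext fun i => rho_XA A X i
  rw [h1, rho_jA] at h
  exact h

end Basis

variable (ℓ : ℕ) [Fact ℓ.Prime] [CharP (IsLocalRing.ResidueField A) ℓ] (hℓN : ¬ ℓ ∣ N)

/-- `j̄` as an element of `F_{N,k}`. -/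
noncomputable def jFk : modularFunctionFieldFullC (IsLocalRing.ResidueField A) N :=
  ⟨jqModC (IsLocalRing.ResidueField A), jqModC_mem_full _ N⟩

set_option synthInstance.maxHeartbeats 400000 in
set_option maxHeartbeats 1000000 in
include hℓN in
/-- **`[F_{N,k} : k(j̄)] = ψ(N)`** for the residue field `k` of `A`, `char k = ℓ ∤ N`. -/
theorem finrank_fullC_eq :
    FiniteDimensional (IsLocalRing.ResidueField A)⟮jFk A N⟯
        (modularFunctionFieldFullC (IsLocalRing.ResidueField A) N) ∧
      Module.finrank (IsLocalRing.ResidueField A)⟮jFk A N⟯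
        (modularFunctionFieldFullC (IsLocalRing.ResidueField A) N) = dedekindPsi N := by
  obtain ⟨X, hmem, hind⟩ := Fermat.Agent.S28.IndepOverField.hasIndepLifts_over N ℓ hℓN
    (IsLocalRing.ResidueField A)
  exact finrank_eq_of_span (modularFunctionFieldFullC (IsLocalRing.ResidueField A) N) (jFk A N)
    (fun i => coeffMap (Int.castRingHom (IsLocalRing.ResidueField A)) (X i))
    (fun i => Fermat.Agent.S28.IndepOverField.coeffMap_mem_fullC N _ (hmem i)) hind
    (fun z hz => mem_span_red_lifts A N X hmem hind hz)

end Field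

end Fermat.Agent.S18.Content
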